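/-
W2-C (S55) block E (helper14): the Gamma-modules of the master plan (NOTES/W2C-master.md).

* `sUnits S`     : S-units of `Q_S` (subgroup of `Qbˣ`, stable under `GQ`)          -- "E"
* `idele S q`    : smooth coinduction from the decomposition group at `q` of the units of
                   the local field (functions `f : GQ → (PadicAlgCl q)ˣ`)              -- "I_q"
* `ideles S`     : `∀ q : S, idele S q`                                                -- "I"
* `diag S`       : `sUnits S →* ideles S`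
* `xbar q`       : smooth units of `PadicAlgCl q` (local module)                       -- "Xbar_q"
* `repE S`, `repI S`, `repB S : Rep ℤ GQ`,  `repX q : Rep ℤ (local group)`.
Everything is defined so that stability under the group is trivial.
-/
import Mathlib
import Fermat.Prelude.Def_GroupCohomology_ContinuousUnramified

set_option autoImplicit false

noncomputable section

namespace H14PT

local notation "Qb" => AlgebraicClosure ℚ
local notation "GQ" => (AlgebraicClosure ℚ ≃ₐ[ℚ] AlgebraicClosure ℚ)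

variable (S : Finset Nat.Primes)

/-! ### S-units of `Q_S` -/

/-- all conjugates of `x` are fixed by `Gal(Qb/F)` for some `F` unramified outside `S`. -/
def IsSmoothS (x : Qb) : Prop :=
  ∃ F : IntermediateField ℚ Qb, F.IsUnramifiedOutside S ∧
    ∀ s ∈ F.fixingSubgroup, ∀ σ : GQ, s (σ x) = σ x

/-- all conjugates of `x` are units at all valuation subrings over primes outside `S`. -/
def IsUnitOutside (x : Qb) : Prop :=
  ∀ σ : GQ, ∀ q : Nat.Primes, q ∉ S → ∀ A : ValuationSubring Qb, A.LiesOverPrime (q : ℕ) →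
    σ x ∈ A ∧ (σ x)⁻¹ ∈ A

theorem isSmoothS_one : IsSmoothS S (1 : Qb) :=
  ⟨⊥, IntermediateField.isUnramifiedOutside_bot S, fun s _ σ => by simp⟩

theorem IsSmoothS.mul {x y : Qb} (hx : IsSmoothS S x) (hy : IsSmoothS S y) :
    IsSmoothS S (x * y) := by
  obtain ⟨F, hF, h⟩ := hx
  obtain ⟨F', hF', h'⟩ := hy
  refine ⟨F ⊔ F', hF.sup hF', fun s hs σ => ?_⟩
  rw [map_mul, map_mul, h s (IntermediateField.fixingSubgroup_antitone le_sup_left hs),
    h' s (IntermediateField.fixingSubgroup_antitone le_sup_right hs)]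

theorem IsSmoothS.inv {x : Qb} (hx : IsSmoothS S x) : IsSmoothS S x⁻¹ := by
  obtain ⟨F, hF, h⟩ := hx
  exact ⟨F, hF, fun s hs σ => by rw [map_inv₀, map_inv₀, h s hs]⟩

theorem IsSmoothS.map {x : Qb} (hx : IsSmoothS S x) (τ : GQ) : IsSmoothS S (τ x) := by
  obtain ⟨F, hF, h⟩ := hx
  exact ⟨F, hF, fun s hs σ => h s hs (σ * τ)⟩

theorem isUnitOutside_one : IsUnitOutside S (1 : Qb) := fun σ q _ A _ => by
  simp [A.one_mem]

theorem IsUnitOutside.mul {x y : Qb} (hx : IsUnitOutside S x) (hy : IsUnitOutside S y) :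
    IsUnitOutside S (x * y) := fun σ q hq A hA => by
  rw [map_mul, mul_inv]
  exact ⟨A.mul_mem _ _ (hx σ q hq A hA).1 (hy σ q hq A hA).1,
    A.mul_mem _ _ (hx σ q hq A hA).2 (hy σ q hq A hA).2⟩

theorem IsUnitOutside.inv {x : Qb} (hx : IsUnitOutside S x) : IsUnitOutside S x⁻¹ :=
  fun σ q hq A hA => by
    rw [map_inv₀, inv_inv]
    exact ⟨(hx σ q hq A hA).2, (hx σ q hq A hA).1⟩

theorem IsUnitOutside.map {x : Qb} (hx : IsUnitOutside S x) (τ : GQ) : IsUnitOutside S (τ x) :=
  fun σ q hq A hA => hx (σ * τ) q hq A hA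

/-- `E`: the S-units of `Q_S`, as a subgroup of `Qbˣ`. -/
def sUnits : Subgroup Qbˣ where
  carrier := {x | IsSmoothS S (x : Qb) ∧ IsUnitOutside S (x : Qb)}
  one_mem' := ⟨isSmoothS_one S, isUnitOutside_one S⟩
  mul_mem' := fun hx hy => ⟨by simpa using hx.1.mul S hy.1, by simpa using hx.2.mul S hy.2⟩
  inv_mem' := fun hx => ⟨by simpa using hx.1.inv S, by simpa using hx.2.inv S⟩

theorem mem_sUnits_iff (x : Qbˣ) :
    x ∈ sUnits S ↔ IsSmoothS S (x : Qb) ∧ IsUnitOutside S (x : Qb) := Iff.rfl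

/-- the Galois action on `Qbˣ`. -/
def unitsAct (σ : GQ) : Qbˣ →* Qbˣ := Units.map (σ : Qb →* Qb)

@[simp] theorem unitsAct_coe (σ : GQ) (x : Qbˣ) : ((unitsAct σ x : Qbˣ) : Qb) = σ x := rfl

theorem unitsAct_mem (σ : GQ) {x : Qbˣ} (hx : x ∈ sUnits S) : unitsAct σ x ∈ sUnits S :=
  ⟨hx.1.map S σ, hx.2.map S σ⟩

instance instActSUnits : MulDistribMulAction GQ (sUnits S) where
  smul σ x := ⟨unitsAct σ x.1, unitsAct_mem S σ x.2⟩
  one_smul x := by apply Subtype.ext; apply Units.ext; rfl
  mul_smul σ τ x := by apply Subtype.ext; apply Units.ext; rfl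
  smul_mul σ x y := by apply Subtype.ext; apply Units.ext; exact map_mul σ _ _
  smul_one σ := by apply Subtype.ext; apply Units.ext; exact map_one σ

@[simp] theorem smul_sUnits_coe (σ : GQ) (x : sUnits S) :
    (((σ • x : sUnits S) : Qbˣ) : Qb) = σ ((x : Qbˣ) : Qb) := rfl

/-- `E` as a representation. -/
def repE : Rep ℤ GQ := Rep.ofMulDistribMulAction GQ (sUnits S)

/-! ### The local module `Xbar_q` (smooth units of `PadicAlgCl q`) -/

section Local

variable (q : ℕ) [Fact q.Prime]

local notation "Gq" => (PadicAlgCl q ≃ₐ[ℚ_[q]] PadicAlgCl q)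

/-- all conjugates of `x` are fixed by the local level attached to some number field `F`. -/
def IsSmoothLoc (x : PadicAlgCl q) : Prop :=
  ∃ F : IntermediateField ℚ Qb, FiniteDimensional ℚ F ∧
    ∀ τ : Gq, localGaloisToGlobal q τ ∈ F.fixingSubgroup → ∀ τ' : Gq, τ (τ' x) = τ' x

theorem isSmoothLoc_one : IsSmoothLoc q (1 : PadicAlgCl q) :=
  ⟨⊥, inferInstance, fun τ _ τ' => by simp⟩

theorem IsSmoothLoc.mul {x y : PadicAlgCl q} (hx : IsSmoothLoc q x) (hy : IsSmoothLoc q y) :
    IsSmoothLoc q (x * y) := by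
  obtain ⟨F, hF, h⟩ := hx
  obtain ⟨F', hF', h'⟩ := hy
  have := hF; have := hF'
  refine ⟨F ⊔ F', IntermediateField.finiteDimensional_sup F F', fun τ hτ τ' => ?_⟩
  rw [map_mul, map_mul, h τ (IntermediateField.fixingSubgroup_antitone le_sup_left hτ),
    h' τ (IntermediateField.fixingSubgroup_antitone le_sup_right hτ)]

theorem IsSmoothLoc.inv {x : PadicAlgCl q} (hx : IsSmoothLoc q x) : IsSmoothLoc q x⁻¹ := by
  obtain ⟨F, hF, h⟩ := hx
  exact ⟨F, hF, fun τ hτ τ' => by rw [map_inv₀, map_inv₀, h τ hτ]⟩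

theorem IsSmoothLoc.map {x : PadicAlgCl q} (hx : IsSmoothLoc q x) (ρ : Gq) :
    IsSmoothLoc q (ρ x) := by
  obtain ⟨F, hF, h⟩ := hx
  exact ⟨F, hF, fun τ hτ τ' => h τ hτ (τ' * ρ)⟩

/-- `Xbar_q`: the smooth units of `PadicAlgCl q`. -/
def xbar : Subgroup (PadicAlgCl q)ˣ where
  carrier := {x | IsSmoothLoc q (x : PadicAlgCl q)}
  one_mem' := isSmoothLoc_one q
  mul_mem' := fun hx hy => by simpa using IsSmoothLoc.mul q hx hy
  inv_mem' := fun hx => by simpa using IsSmoothLoc.inv q hx

/-- the local Galois action on `(PadicAlgCl q)ˣ`. -/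
def unitsActLoc (τ : Gq) : (PadicAlgCl q)ˣ →* (PadicAlgCl q)ˣ :=
  Units.map (τ : PadicAlgCl q →* PadicAlgCl q)

@[simp] theorem unitsActLoc_coe (τ : Gq) (x : (PadicAlgCl q)ˣ) :
    ((unitsActLoc q τ x : (PadicAlgCl q)ˣ) : PadicAlgCl q) = τ x := rfl

instance instActXbar : MulDistribMulAction Gq (xbar q) where
  smul τ x := ⟨unitsActLoc q τ x.1, IsSmoothLoc.map q x.2 τ⟩
  one_smul x := by apply Subtype.ext; apply Units.ext; rfl
  mul_smul σ τ x := by apply Subtype.ext; apply Units.ext; rfl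
  smul_mul σ x y := by apply Subtype.ext; apply Units.ext; exact map_mul σ _ _
  smul_one σ := by apply Subtype.ext; apply Units.ext; exact map_one σ

/-- `Xbar_q` as a representation of the local Galois group. -/
def repX : Rep ℤ Gq := Rep.ofMulDistribMulAction Gq (xbar q)

/-! ### The semilocal module `I_q` (smooth coinduction from the decomposition group) -/

/-- `f (loc τ * g) = τ (f g)`: equivariance under the decomposition group. -/
def IsLocEquivariant (f : GQ → (PadicAlgCl q)ˣ) : Prop :=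
  ∀ (τ : Gq) (g : GQ), f (localGaloisToGlobal q τ * g) = unitsActLoc q τ (f g)

/-- `f` is constant modulo `Gal(Qb/F)` (inserted anywhere), `F` unramified outside `S`. -/
def IsLevelS (f : GQ → (PadicAlgCl q)ˣ) : Prop :=
  ∃ F : IntermediateField ℚ Qb, F.IsUnramifiedOutside S ∧
    ∀ (g g' s : GQ), s ∈ F.fixingSubgroup → f (g * s * g') = f (g * g')

/-- `I_q`: smooth coinduction. -/
def idele : Subgroup (GQ → (PadicAlgCl q)ˣ) where
  carrier := {f | IsLocEquivariant q f ∧ IsLevelS S q f}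
  one_mem' := ⟨fun τ g => by simp,
    ⟨⊥, IntermediateField.isUnramifiedOutside_bot S, fun _ _ _ _ => rfl⟩⟩
  mul_mem' := by
    rintro f f' ⟨h1, F, hF, h2⟩ ⟨h1', F', hF', h2'⟩
    refine ⟨fun τ g => by simp [Pi.mul_apply, h1 τ g, h1' τ g], F ⊔ F', hF.sup hF',
      fun g g' s hs => ?_⟩
    simp only [Pi.mul_apply]
    rw [h2 g g' s (IntermediateField.fixingSubgroup_antitone le_sup_left hs),
      h2' g g' s (IntermediateField.fixingSubgroup_antitone le_sup_right hs)]
  inv_mem' := by
    rintro f ⟨h1, F, hF, h2⟩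
    refine ⟨fun τ g => by simp [Pi.inv_apply, h1 τ g], F, hF, fun g g' s hs => ?_⟩
    simp only [Pi.inv_apply]
    rw [h2 g g' s hs]

/-- right translation. -/
def rtrans (γ : GQ) (f : GQ → (PadicAlgCl q)ˣ) : GQ → (PadicAlgCl q)ˣ := fun g => f (g * γ)

theorem rtrans_mem (γ : GQ) {f : GQ → (PadicAlgCl q)ˣ} (hf : f ∈ idele S q) :
    rtrans q γ f ∈ idele S q := by
  obtain ⟨h1, F, hF, h2⟩ := hf
  refine ⟨fun τ g => ?_, F, hF, fun g g' s hs => ?_⟩
  · simp only [rtrans]
    rw [mul_assoc, h1 τ (g * γ)]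
  · simp only [rtrans]
    rw [mul_assoc, h2 g (g' * γ) s hs, mul_assoc]

instance instActIdele : MulDistribMulAction GQ (idele S q) where
  smul γ f := ⟨rtrans q γ f.1, rtrans_mem S q γ f.2⟩
  one_smul f := by apply Subtype.ext; funext g; simp [HSMul.hSMul, SMul.smul, rtrans]
  mul_smul σ τ f := by
    apply Subtype.ext; funext g
    simp [HSMul.hSMul, SMul.smul, rtrans, mul_assoc]
  smul_mul σ f f' := by apply Subtype.ext; funext g; rfl
  smul_one σ := by apply Subtype.ext; funext g; rfl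

@[simp] theorem smul_idele_apply (γ : GQ) (f : idele S q) (g : GQ) :
    ((γ • f : idele S q) : GQ → (PadicAlgCl q)ˣ) g = (f : GQ → (PadicAlgCl q)ˣ) (g * γ) := rfl

/-- the diagonal embedding of a unit of `Qb` at `q`: `g ↦ ι (g u)`. -/
def diagFun (u : Qbˣ) : GQ → (PadicAlgCl q)ˣ :=
  fun g => Units.map ((padicEmbedding q : Qb →* PadicAlgCl q)) (unitsAct g u)

@[simp] theorem diagFun_coe (u : Qbˣ) (g : GQ) :
    ((diagFun q u g : (PadicAlgCl q)ˣ) : PadicAlgCl q) = padicEmbedding q (g (u : Qb)) := rfl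

theorem diagFun_mem {u : Qbˣ} (hu : u ∈ sUnits S) : diagFun q u ∈ idele S q := by
  refine ⟨fun τ g => ?_, ?_⟩
  · apply Units.ext
    simp only [diagFun_coe, unitsActLoc_coe, AlgEquiv.mul_apply]
    exact padicEmbedding_localGaloisToGlobal q τ (g (u : Qb))
  · obtain ⟨F, hF, h⟩ := hu.1
    refine ⟨F, hF, fun g g' s hs => ?_⟩
    apply Units.ext
    simp only [diagFun_coe, AlgEquiv.mul_apply]
    rw [h s hs g']

/-- evaluation at `1`: `I_q → (PadicAlgCl q)ˣ`. -/
def evOne (f : GQ → (PadicAlgCl q)ˣ) : (PadicAlgCl q)ˣ := f 1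

theorem evOne_mem {f : GQ → (PadicAlgCl q)ˣ} (hf : f ∈ idele S q) : evOne q f ∈ xbar q := by
  obtain ⟨h1, F, hF, h2⟩ := hf
  refine ⟨F, hF.1, fun τ hτ τ' => ?_⟩
  have e1 : (τ' : PadicAlgCl q → PadicAlgCl q) ((evOne q f : (PadicAlgCl q)ˣ) : PadicAlgCl q) =
      ((f (localGaloisToGlobal q τ') : (PadicAlgCl q)ˣ) : PadicAlgCl q) := by
    have := h1 τ' 1
    rw [mul_one] at this
    rw [this]; rfl
  have e2 : f (localGaloisToGlobal q τ * localGaloisToGlobal q τ') =
      f (localGaloisToGlobal q τ') := by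
    have := h2 1 (localGaloisToGlobal q τ') (localGaloisToGlobal q τ) hτ
    simpa using this
  rw [e1]
  have h3 := h1 τ (localGaloisToGlobal q τ')
  rw [e2] at h3
  have h4 := congrArg (fun u : (PadicAlgCl q)ˣ => (u : PadicAlgCl q)) h3
  simp only [unitsActLoc_coe] at h4
  exact h4.symm

end Local

/-! ### Global modules `I`, `B` and the maps -/

section Global

/-- primes are prime. -/
local instance factPrimeOfPrimes (q : Nat.Primes) : Fact (q : ℕ).Prime := ⟨q.2⟩

/-- `I_q` for `q : Nat.Primes`. -/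
def ideleAt (q : Nat.Primes) : Type := ↥(idele S (q : ℕ))

instance instCommGroupIdeleAt (q : Nat.Primes) : CommGroup (ideleAt S q) :=
  inferInstanceAs (CommGroup ↥(idele S (q : ℕ)))

instance instActIdeleAt (q : Nat.Primes) : MulDistribMulAction GQ (ideleAt S q) :=
  instActIdele S (q : ℕ)

/-- the underlying function of an element of `I_q`. -/
def ideleAt.fn {q : Nat.Primes} (f : ideleAt S q) : GQ → (PadicAlgCl (q : ℕ))ˣ :=
  ((show ↥(idele S (q : ℕ)) from f) : GQ → (PadicAlgCl (q : ℕ))ˣ)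

theorem ideleAt.ext {q : Nat.Primes} {f f' : ideleAt S q}
    (h : ∀ g, ideleAt.fn S f g = ideleAt.fn S f' g) : f = f' :=
  Subtype.ext (funext h)

@[simp] theorem ideleAt.fn_one {q : Nat.Primes} (g : GQ) :
    ideleAt.fn S (1 : ideleAt S q) g = 1 := rfl

@[simp] theorem ideleAt.fn_mul {q : Nat.Primes} (f f' : ideleAt S q) (g : GQ) :
    ideleAt.fn S (f * f') g = ideleAt.fn S f g * ideleAt.fn S f' g := rfl

@[simp] theorem ideleAt.fn_smul {q : Nat.Primes} (γ : GQ) (f : ideleAt S q) (g : GQ) :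
    ideleAt.fn S (γ • f) g = ideleAt.fn S f (g * γ) := rfl

/-- `I = ∏_{q ∈ S} I_q`. -/
def ideles : Type := ∀ q : S, ideleAt S q.1

instance instCommGroupIdeles : CommGroup (ideles S) :=
  inferInstanceAs (CommGroup (∀ q : S, ideleAt S q.1))

instance instActIdeles : MulDistribMulAction GQ (ideles S) where
  smul γ f := fun q => γ • f q
  one_smul f := by funext q; exact one_smul GQ (f q)
  mul_smul σ τ f := by funext q; exact mul_smul σ τ (f q)
  smul_mul σ f f' := by funext q; exact smul_mul' σ (f q) (f' q)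
  smul_one σ := by funext q; exact smul_one σ

theorem smul_ideles_apply (γ : GQ) (f : ideles S) (q : S) : (γ • f) q = γ • f q := rfl

/-- the diagonal embedding `E → I_q`. -/
def diagAt (q : Nat.Primes) : sUnits S →* ideleAt S q where
  toFun u := (⟨diagFun (q : ℕ) (u : Qbˣ), diagFun_mem S (q : ℕ) u.2⟩ : ↥(idele S (q : ℕ)))
  map_one' := by
    apply ideleAt.ext
    intro g
    apply Units.ext
    change padicEmbedding (q : ℕ) (g ((1 : Qbˣ) : Qb)) = 1
    simp
  map_mul' u v := by
    apply ideleAt.ext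
    intro g
    apply Units.ext
    change padicEmbedding (q : ℕ) (g (((u : Qbˣ) * (v : Qbˣ) : Qbˣ) : Qb)) =
      padicEmbedding (q : ℕ) (g ((u : Qbˣ) : Qb)) * padicEmbedding (q : ℕ) (g ((v : Qbˣ) : Qb))
    simp

@[simp] theorem diagAt_fn (q : Nat.Primes) (u : sUnits S) (g : GQ) :
    ((ideleAt.fn S (diagAt S q u) g : (PadicAlgCl (q : ℕ))ˣ) : PadicAlgCl (q : ℕ)) =
      padicEmbedding (q : ℕ) (g ((u : Qbˣ) : Qb)) := rfl

theorem diagAt_smul (q : Nat.Primes) (γ : GQ) (u : sUnits S) :
    diagAt S q (γ • u) = γ • diagAt S q u := by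
  apply ideleAt.ext
  intro g
  apply Units.ext
  rfl

/-- the diagonal embedding `E → I`. -/
def diag : sUnits S →* ideles S where
  toFun u := fun q => diagAt S q.1 u
  map_one' := by funext q; exact map_one (diagAt S q.1)
  map_mul' u v := by funext q; exact map_mul (diagAt S q.1) u v

theorem diag_smul (γ : GQ) (u : sUnits S) : diag S (γ • u) = γ • diag S u := by
  funext q
  exact diagAt_smul S q.1 γ u

/-- `I` as a representation. -/
def repI : Rep ℤ GQ := Rep.ofMulDistribMulAction GQ (ideles S)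

/-- the diagonal map as a `ℤ`-linear map on the additive groups. -/
def diagL : Additive (sUnits S) →ₗ[ℤ] Additive (ideles S) :=
  (MonoidHom.toAdditive (diag S)).toIntLinearMap

/-- the image of `E` in `I`, a `GQ`-stable submodule. -/
def imE : Submodule ℤ (Additive (ideles S)) := LinearMap.range (diagL S)

theorem imE_stable (g : GQ) :
    imE S ≤ (imE S).comap (Representation.ofMulDistribMulAction GQ (ideles S) g) := by
  rintro _ ⟨u, rfl⟩
  refine ⟨Additive.ofMul (g • Additive.toMul u), ?_⟩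
  change Additive.ofMul (diag S (g • Additive.toMul u)) = _
  rw [diag_smul]
  rfl

/-- `B = I / E` as a representation. -/
def repB : Rep ℤ GQ :=
  Rep.of ((Representation.ofMulDistribMulAction GQ (ideles S)).quotient (imE S) (imE_stable S))

/-! ### The equivariant maps -/

/-- `E → I` (linear). -/
theorem diagL_apply (u : Additive (sUnits S)) :
    diagL S u = Additive.ofMul (diag S (Additive.toMul u)) := rfl

theorem diagL_equivariant (g : GQ) (u : Additive (sUnits S)) :
    diagL S (Representation.ofMulDistribMulAction GQ (sUnits S) g u) =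
      Representation.ofMulDistribMulAction GQ (ideles S) g (diagL S u) := by
  change Additive.ofMul (diag S (g • Additive.toMul u)) = _
  rw [diag_smul]
  rfl

/-- `I → B` (linear), the quotient map. -/
def projBL : Additive (ideles S) →ₗ[ℤ] (Additive (ideles S) ⧸ imE S) := (imE S).mkQ

theorem projBL_surjective : Function.Surjective (projBL S) := Submodule.mkQ_surjective _

theorem projBL_ker : LinearMap.ker (projBL S) = LinearMap.range (diagL S) :=
  Submodule.ker_mkQ _

/-- the morphism `E ⟶ I` in `Rep ℤ GQ`. -/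
def homEI : repE S ⟶ repI S :=
  Rep.ofHom ⟨diagL S, fun g => by ext u; exact diagL_equivariant S g u⟩

/-- the morphism `I ⟶ B` in `Rep ℤ GQ`. -/
def homIB : repI S ⟶ repB S :=
  Rep.ofHom ⟨projBL S, fun g => by ext u; rfl⟩

/-- the internal Hom `Hom_ℤ(R, X)` with the conjugation action. -/
def homRep {G : Type} [Group G] (R X : Rep ℤ G) : Rep ℤ G :=
  (CategoryTheory.ihom R).obj X

end Global

end H14PT
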