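/-
W2-C (S55) block E (helper14): the Hom-modules `Hom_ℤ(R, X)` in the language of block D
(level-constant cohomology, `H15D`).  All modules are given as `(V, ρ)` with `V : Type`,
`[AddCommGroup V]`, `ρ : Representation ℤ G V` (the format of block A, `H20A`).

* `hm ρR ρX`        : `Hom_ℤ(R, X)` with the conjugation action, as `Rep ℤ G`
* `hmPost`, `hmPre` : post- and pre-composition
* `IsLevelTriv`     : the group acts on `R` through a level
* `hm_isSmooth`     : `Hom(R, X)` is smooth if `R` is finitely generated, level-trivial, `X` smooth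
* `hmSES`           : `0 → Hom(R,A') → Hom(R,A) → Hom(R,A'') → 0` for `R` free
* `ofInv`           : an invariant of `Hom(R, X)` as a pull-push datum `R → X`
-/
import Mathlib
import Fermat.Agent.CFT2.D.Natural_helper15
import Fermat.Agent.CFT2.D.Exact_helper15

set_option autoImplicit false

noncomputable section

namespace H14PT

open H15D

variable {G : Type} [Group G]

section

variable {R R' X Y : Type} [AddCommGroup R] [AddCommGroup R'] [AddCommGroup X] [AddCommGroup Y]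
  (ρR : Representation ℤ G R) (ρR' : Representation ℤ G R')
  (ρX : Representation ℤ G X) (ρY : Representation ℤ G Y)

/-- `Hom_ℤ(R, X)` with `g • f = g ∘ f ∘ g⁻¹`. -/
abbrev hm : Rep.{0} ℤ G := Rep.of (Representation.linHom ρR ρX)

theorem hm_ρ_apply (g : G) (f : R →ₗ[ℤ] X) (x : R) :
    ((hm ρR ρX).ρ g f : R →ₗ[ℤ] X) x = ρX g (f (ρR g⁻¹ x)) := rfl

/-- post-composition `Hom(R, X) → Hom(R, Y)`. -/
def hmPost (φ : X →ₗ[ℤ] Y) : hm ρR ρX →ₗ[ℤ] hm ρR ρY where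
  toFun f := φ ∘ₗ f
  map_add' f f' := by apply LinearMap.ext; intro x; simp
  map_smul' a f := by apply LinearMap.ext; intro x; simp

@[simp] theorem hmPost_apply (φ : X →ₗ[ℤ] Y) (f : R →ₗ[ℤ] X) (x : R) :
    (hmPost ρR ρX ρY φ f : R →ₗ[ℤ] Y) x = φ (f x) := rfl

/-- pre-composition `Hom(R, X) → Hom(R', X)`. -/
def hmPre (ψ : R' →ₗ[ℤ] R) : hm ρR ρX →ₗ[ℤ] hm ρR' ρX where
  toFun f := f ∘ₗ ψ
  map_add' f f' := by apply LinearMap.ext; intro x; simp
  map_smul' a f := by apply LinearMap.ext; intro x; simp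

@[simp] theorem hmPre_apply (ψ : R' →ₗ[ℤ] R) (f : R →ₗ[ℤ] X) (x : R') :
    (hmPre ρR ρR' ρX ψ f : R' →ₗ[ℤ] X) x = f (ψ x) := rfl

theorem hmPost_comm (φ : X →ₗ[ℤ] Y) (hφ : ∀ g a, φ (ρX g a) = ρY g (φ a)) (g : G)
    (f : hm ρR ρX) :
    hmPost ρR ρX ρY φ ((hm ρR ρX).ρ g f) = (hm ρR ρY).ρ g (hmPost ρR ρX ρY φ f) := by
  apply LinearMap.ext
  intro x
  rw [hmPost_apply, hm_ρ_apply, hm_ρ_apply, hmPost_apply, hφ]

theorem hmPre_comm (ψ : R' →ₗ[ℤ] R) (hψ : ∀ g a, ψ (ρR' g a) = ρR g (ψ a)) (g : G)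
    (f : hm ρR ρX) :
    hmPre ρR ρR' ρX ψ ((hm ρR ρX).ρ g f) = (hm ρR' ρX).ρ g (hmPre ρR ρR' ρX ψ f) := by
  apply LinearMap.ext
  intro x
  rw [hmPre_apply, hm_ρ_apply, hm_ρ_apply, hmPre_apply, hψ]

theorem rho_inv_rho (g : G) (x : R) : ρR g⁻¹ (ρR g x) = x := by
  have : ρR g⁻¹ (ρR g x) = (ρR (g⁻¹ * g)) x := by rw [map_mul]; rfl
  rw [this, inv_mul_cancel, map_one]; rfl

theorem rho_rho_inv (g : G) (x : R) : ρR g (ρR g⁻¹ x) = x := by
  have : ρR g (ρR g⁻¹ x) = (ρR (g * g⁻¹)) x := by rw [map_mul]; rfl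
  rw [this, mul_inv_cancel, map_one]; rfl

/-- an element of `Hom(R, X)` is invariant iff it is equivariant. -/
theorem mem_hm_invariants_iff (f : R →ₗ[ℤ] X) :
    f ∈ (hm ρR ρX).ρ.invariants ↔ ∀ g x, f (ρR g x) = ρX g (f x) := by
  constructor
  · intro h g x
    have h1 : ((hm ρR ρX).ρ g f : R →ₗ[ℤ] X) (ρR g x) = f (ρR g x) :=
      congrArg (fun φ : R →ₗ[ℤ] X => φ (ρR g x)) (h g)
    rw [hm_ρ_apply, rho_inv_rho] at h1
    exact h1.symm
  · intro h g
    apply LinearMap.ext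
    intro x
    rw [hm_ρ_apply, ← h, rho_rho_inv]

/-- an invariant of `Hom(R, X)` as a pull-push datum. -/
def ofInv (𝓤 : Levels G) (b : (hm ρR ρX).ρ.invariants) : PP 𝓤 𝓤 (Rep.of ρR) (Rep.of ρX) :=
  PP.ofLinear 𝓤 (b : R →ₗ[ℤ] X) ((mem_hm_invariants_iff ρR ρX _).1 b.2)

/-- the group acts on `R` through a level. -/
def IsLevelTriv (𝓤 : Levels G) : Prop :=
  ∃ U ∈ 𝓤.sets, ∀ s ∈ U, ∀ x : R, ρR s x = x

variable {ρR ρX} in
theorem hm_isSmooth {𝓤 : Levels G} (hR : IsLevelTriv ρR 𝓤)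
    [Module.Finite ℤ R] (hX : IsSmooth 𝓤 (Rep.of ρX)) : IsSmooth 𝓤 (hm ρR ρX) := by
  intro f
  obtain ⟨U, hU, hUR⟩ := hR
  obtain ⟨T, hT⟩ := (Module.finite_def.1 (inferInstance : Module.Finite ℤ R))
  have hfin : ((fun x => (f : R →ₗ[ℤ] X) x) '' (T : Set R)).Finite :=
    (Finset.finite_toSet T).image _
  obtain ⟨V, hV, hVU, hVT⟩ := exists_level_fixing hX hfin hU
  refine ⟨V, hV, fun s hs => ?_⟩
  have key : ∀ x ∈ Submodule.span ℤ (T : Set R),
      ((hm ρR ρX).ρ s f : R →ₗ[ℤ] X) x = (f : R →ₗ[ℤ] X) x := by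
    intro x hx
    induction hx using Submodule.span_induction with
    | mem x hx =>
      rw [hm_ρ_apply]
      have h1 : ρR s⁻¹ x = x := hUR s⁻¹ (U.inv_mem (hVU hs)) x
      rw [h1]
      exact hVT _ ⟨x, hx, rfl⟩ s hs
    | zero => simp
    | add x y _ _ hx hy => rw [map_add, map_add, hx, hy]
    | smul a x _ hx => rw [map_smul, map_smul, hx]
  apply LinearMap.ext
  intro x
  exact key x (by rw [hT]; trivial)

end

section SES

variable {A' A A'' R : Type} [AddCommGroup A'] [AddCommGroup A] [AddCommGroup A'']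
  [AddCommGroup R]
  {ρA' : Representation ℤ G A'} {ρA : Representation ℤ G A} {ρA'' : Representation ℤ G A''}

/-- the short exact sequence of Hom-modules. -/
def hmSES {𝓤 : Levels G} (E : SES 𝓤 (Rep.of ρA') (Rep.of ρA) (Rep.of ρA''))
    (ρR : Representation ℤ G R)
    [Module.Free ℤ R] [Module.Finite ℤ R] (hR : IsLevelTriv ρR 𝓤) :
    SES 𝓤 (hm ρR ρA') (hm ρR ρA) (hm ρR ρA'') where
  ι := hmPost ρR ρA' ρA E.ι
  π := hmPost ρR ρA ρA'' E.π
  ι_comm := hmPost_comm ρR ρA' ρA E.ι E.ι_comm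
  π_comm := hmPost_comm ρR ρA ρA'' E.π E.π_comm
  inj := by
    intro f f' h
    apply LinearMap.ext
    intro x
    apply E.inj
    exact congrArg (fun φ : R →ₗ[ℤ] A => φ x) h
  surj := by
    intro f
    obtain ⟨f', hf'⟩ := Module.projective_lifting_property E.π (f : R →ₗ[ℤ] A'') E.surj
    exact ⟨f', hf'⟩
  exact := by
    intro f
    constructor
    · intro h
      have h0 : ∀ x, E.π ((f : R →ₗ[ℤ] A) x) = 0 :=
        fun x => congrArg (fun φ : R →ₗ[ℤ] A'' => φ x) h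
      have hr : ∀ x, (f : R →ₗ[ℤ] A) x ∈ LinearMap.range E.ι := fun x => by
        obtain ⟨a', ha'⟩ := (E.exact _).1 (h0 x)
        exact ⟨a', ha'⟩
      let e := LinearEquiv.ofInjective E.ι E.inj
      refine ⟨e.symm.toLinearMap ∘ₗ ((f : R →ₗ[ℤ] A).codRestrict (LinearMap.range E.ι) hr), ?_⟩
      apply LinearMap.ext
      intro x
      change E.ι (e.symm ⟨(f : R →ₗ[ℤ] A) x, _⟩) = (f : R →ₗ[ℤ] A) x
      have := e.apply_symm_apply ⟨(f : R →ₗ[ℤ] A) x, hr x⟩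
      exact congrArg Subtype.val this
    · rintro ⟨f', rfl⟩
      apply LinearMap.ext
      intro x
      exact E.π_ι _
  smooth := hm_isSmooth hR E.smooth

end SES

end H14PT

end
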