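/-
W2-C (S55) block E (helper14): the ABSTRACT Poitou-Tate setup and its arithmetic inputs.

`PTData`  : the groups (global `G` with levels `𝓤`, local `H q` with levels `𝓥 q`), the modules
            `E ⊂ I → B` (S-units, semilocal ideles, their quotient), the local modules `X q`,
            the lattice resolution `0 → R1 → R0 → N → 0`, the module `M` with the sequence
            (a) `0 → M → Hom(R0,E) → Hom(R1,E) → 0` and its local versions.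
`PTHyp`   : the arithmetic inputs (FIN, H90, Shapiro injectivity, HP, DIM1, TNG, TNLG, ALPHA1)
            as ONE structure of `Prop`s; provers = blocks A, B, C, D (bridge slices).
The main theorem (`Main.lean`): `PTHyp → Nat.card sha2 = Nat.card sha1` (both finite).
All modules are `(V, ρ)` with `ρ : Representation ℤ G V`.
-/
import Mathlib
import Fermat.Agent.CFT2.E.Hom

set_option autoImplicit false

noncomputable section

namespace H14PT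

open H15D

/-- the abstract Poitou-Tate data. -/
structure PTData where
  /-- the global group -/
  G : Type
  [gG : Group G]
  /-- the global levels -/
  𝓤 : Levels G
  /-- the index set of the places -/
  Q : Type
  [fQ : Fintype Q]
  /-- the local groups -/
  H : Q → Type
  [gH : ∀ q, Group (H q)]
  /-- the local levels -/
  𝓥 : ∀ q, Levels (H q)
  /-- the localisation maps -/
  r : ∀ q, H q →* G
  hr : ∀ q, ∀ U ∈ 𝓤.sets, ∃ V ∈ (𝓥 q).sets, V ≤ U.comap (r q)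
  /-- S-units -/
  E : Type
  [aE : AddCommGroup E]
  /-- the action on `E` -/
  ρE : Representation ℤ G E
  /-- semilocal ideles -/
  I : Type
  [aI : AddCommGroup I]
  /-- the action on `I` -/
  ρI : Representation ℤ G I
  /-- `I / E` -/
  B : Type
  [aB : AddCommGroup B]
  /-- the action on `B` -/
  ρB : Representation ℤ G B
  /-- `0 → E → I → B → 0` -/
  sEIB : SES 𝓤 (Rep.of ρE) (Rep.of ρI) (Rep.of ρB)
  /-- the local modules -/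
  X : Q → Type
  [aX : ∀ q, AddCommGroup (X q)]
  /-- the action on `X q` -/
  ρX : ∀ q, Representation ℤ (H q) (X q)
  smX : ∀ q, IsSmooth (𝓥 q) (Rep.of (ρX q))
  /-- `E → X q` -/
  incl : ∀ q, E →ₗ[ℤ] X q
  incl_comm : ∀ q h e, incl q (ρE (r q h) e) = ρX q h (incl q e)
  /-- `I → X q` -/
  pr : ∀ q, I →ₗ[ℤ] X q
  pr_comm : ∀ q h x, pr q (ρI (r q h) x) = ρX q h (pr q x)
  pr_ι : ∀ q e, pr q (sEIB.ι e) = incl q e
  /-- the lattice `R0` -/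
  R0 : Type
  [aR0 : AddCommGroup R0]
  /-- the action on `R0` -/
  ρR0 : Representation ℤ G R0
  /-- the lattice `R1` -/
  R1 : Type
  [aR1 : AddCommGroup R1]
  /-- the action on `R1` -/
  ρR1 : Representation ℤ G R1
  /-- the finite module `N` -/
  N : Type
  [aN : AddCommGroup N]
  /-- the action on `N` -/
  ρN : Representation ℤ G N
  /-- `0 → R1 → R0 → N → 0` -/
  sR : SES 𝓤 (Rep.of ρR1) (Rep.of ρR0) (Rep.of ρN)
  [freeR0 : Module.Free ℤ R0]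
  [finR0 : Module.Finite ℤ R0]
  [freeR1 : Module.Free ℤ R1]
  [finR1 : Module.Finite ℤ R1]
  ltR0 : IsLevelTriv ρR0 𝓤
  ltR1 : IsLevelTriv ρR1 𝓤
  /-- the finite module `M` -/
  M : Type
  [aM : AddCommGroup M]
  /-- the action on `M` -/
  ρM : Representation ℤ G M
  /-- (a): `0 → M → Hom(R0,E) → Hom(R1,E) → 0` -/
  sA : SES 𝓤 (Rep.of ρM) (hm ρR0 ρE) (hm ρR1 ρE)
  sA_π : ∀ f : R0 →ₗ[ℤ] E, sA.π f = f ∘ₗ sR.ι
  /-- (a) locally: `0 → M → Hom(R0,X q) → Hom(R1,X q) → 0` -/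
  sAq : ∀ q, SES (𝓥 q) (Rep.of (ρM.comp (r q))) (hm (ρR0.comp (r q)) (ρX q))
    (hm (ρR1.comp (r q)) (ρX q))
  sAq_π : ∀ q, ∀ f : R0 →ₗ[ℤ] X q, (sAq q).π f = f ∘ₗ sR.ι
  sAq_ι : ∀ q, ∀ m : M, (sAq q).ι m = (incl q) ∘ₗ (sA.ι m : R0 →ₗ[ℤ] E)

attribute [instance] PTData.gG PTData.fQ PTData.gH PTData.aE PTData.aI PTData.aB PTData.aX
  PTData.aR0 PTData.aR1 PTData.aN PTData.aM PTData.freeR0 PTData.finR0 PTData.freeR1
  PTData.finR1

namespace PTData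

variable (D : PTData)

/-- `0 → Hom(R0,E) → Hom(R0,I) → Hom(R0,B) → 0` -/
def sB0 : SES D.𝓤 (hm D.ρR0 D.ρE) (hm D.ρR0 D.ρI) (hm D.ρR0 D.ρB) :=
  hmSES D.sEIB D.ρR0 D.ltR0

/-- `0 → Hom(R1,E) → Hom(R1,I) → Hom(R1,B) → 0` -/
def sB1 : SES D.𝓤 (hm D.ρR1 D.ρE) (hm D.ρR1 D.ρI) (hm D.ρR1 D.ρB) :=
  hmSES D.sEIB D.ρR1 D.ltR1

/-- restriction to the place `q` on `N` -/
def resN (q : D.Q) : PP D.𝓤 (D.𝓥 q) (Rep.of D.ρN) (Rep.of (D.ρN.comp (D.r q))) :=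
  PP.res (D.r q) (D.hr q) (Rep.of D.ρN)

/-- restriction to the place `q` on `M` -/
def resM (q : D.Q) : PP D.𝓤 (D.𝓥 q) (Rep.of D.ρM) (Rep.of (D.ρM.comp (D.r q))) :=
  PP.res (D.r q) (D.hr q) (Rep.of D.ρM)

/-- restriction to the place `q` on `R1` -/
def resR1 (q : D.Q) : PP D.𝓤 (D.𝓥 q) (Rep.of D.ρR1) (Rep.of (D.ρR1.comp (D.r q))) :=
  PP.res (D.r q) (D.hr q) (Rep.of D.ρR1)

/-- `I → X q` as a pull-push datum -/
def prI (q : D.Q) : PP D.𝓤 (D.𝓥 q) (Rep.of D.ρI) (Rep.of (D.ρX q)) where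
  r := D.r q
  φ := D.pr q
  compat := D.pr_comm q
  levels := D.hr q

/-- `Hom(R, E) → Hom(R|, X q)`, `f ↦ incl ∘ f`, as a linear map -/
def lamL {R : Type} [AddCommGroup R] (ρR : Representation ℤ D.G R) (q : D.Q) :
    hm ρR D.ρE →ₗ[ℤ] hm (ρR.comp (D.r q)) (D.ρX q) where
  toFun f := (D.incl q) ∘ₗ f
  map_add' f f' := by apply LinearMap.ext; intro x; simp
  map_smul' a f := by apply LinearMap.ext; intro x; simp

/-- `Hom(R, I) → Hom(R|, X q)`, `f ↦ pr ∘ f`, as a linear map -/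
def prL {R : Type} [AddCommGroup R] (ρR : Representation ℤ D.G R) (q : D.Q) :
    hm ρR D.ρI →ₗ[ℤ] hm (ρR.comp (D.r q)) (D.ρX q) where
  toFun f := (D.pr q) ∘ₗ f
  map_add' f f' := by apply LinearMap.ext; intro x; simp
  map_smul' a f := by apply LinearMap.ext; intro x; simp

@[simp] theorem lamL_apply {R : Type} [AddCommGroup R] (ρR : Representation ℤ D.G R) (q : D.Q)
    (f : R →ₗ[ℤ] D.E) (x : R) :
    (D.lamL ρR q f : R →ₗ[ℤ] D.X q) x = D.incl q (f x) := rfl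

@[simp] theorem prL_apply {R : Type} [AddCommGroup R] (ρR : Representation ℤ D.G R) (q : D.Q)
    (f : R →ₗ[ℤ] D.I) (x : R) :
    (D.prL ρR q f : R →ₗ[ℤ] D.X q) x = D.pr q (f x) := rfl

/-- `Hom(R, E) → Hom(R|, X q)` as a pull-push datum -/
def lam {R : Type} [AddCommGroup R] (ρR : Representation ℤ D.G R) (q : D.Q) :
    PP D.𝓤 (D.𝓥 q) (hm ρR D.ρE) (hm (ρR.comp (D.r q)) (D.ρX q)) where
  r := D.r q
  φ := D.lamL ρR q
  compat h f := by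
    apply LinearMap.ext
    intro x
    rw [lamL_apply, hm_ρ_apply, hm_ρ_apply, lamL_apply, D.incl_comm]
    simp only [MonoidHom.comp_apply, map_inv]
  levels := D.hr q

/-- `Hom(R, I) → Hom(R|, X q)` as a pull-push datum -/
def prH {R : Type} [AddCommGroup R] (ρR : Representation ℤ D.G R) (q : D.Q) :
    PP D.𝓤 (D.𝓥 q) (hm ρR D.ρI) (hm (ρR.comp (D.r q)) (D.ρX q)) where
  r := D.r q
  φ := D.prL ρR q
  compat h f := by
    apply LinearMap.ext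
    intro x
    rw [prL_apply, hm_ρ_apply, hm_ρ_apply, prL_apply, D.pr_comm]
    simp only [MonoidHom.comp_apply, map_inv]
  levels := D.hr q

/-- the connecting map `β : H¹(N) → H²(R1)` of the resolution -/
def β : lcH1 D.𝓤 (Rep.of D.ρN) →ₗ[ℤ] lcH2 D.𝓤 (Rep.of D.ρR1) := D.sR.δ₁

/-- `Ш¹(N)` -/
def sha1 : Submodule ℤ (lcH1 D.𝓤 (Rep.of D.ρN)) := ⨅ q : D.Q, LinearMap.ker (D.resN q).H1

/-- `Ш²(M)` -/
def sha2 : Submodule ℤ (lcH2 D.𝓤 (Rep.of D.ρM)) := ⨅ q : D.Q, LinearMap.ker (D.resM q).H2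

theorem mem_sha1_iff (y : lcH1 D.𝓤 (Rep.of D.ρN)) :
    y ∈ D.sha1 ↔ ∀ q, (D.resN q).H1 y = 0 := by
  simp only [sha1, Submodule.mem_iInf, LinearMap.mem_ker]

theorem mem_sha2_iff (x : lcH2 D.𝓤 (Rep.of D.ρM)) :
    x ∈ D.sha2 ↔ ∀ q, (D.resM q).H2 x = 0 := by
  simp only [sha2, Submodule.mem_iInf, LinearMap.mem_ker]

end PTData

/-- the arithmetic inputs of the Poitou-Tate chase. -/
structure PTHyp (D : PTData) (p : ℕ) : Prop where
  /-- `M` and `N` are killed by `p` -/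
  pM : ∀ m : D.M, p • m = 0
  pN : ∀ n : D.N, p • n = 0
  /-- (FIN) `H¹_S(N)` is finite -/
  fin : Finite (lcH1 D.𝓤 (Rep.of D.ρN))
  /-- (R0H1) `H¹_S(R0) = 0` (permutation lattice) -/
  r0h1 : ∀ s : lcH1 D.𝓤 (Rep.of D.ρR0), s = 0
  /-- (H90-I) `H¹_S(Hom(R0, I)) = 0` -/
  h90I : ∀ s : lcH1 D.𝓤 (hm D.ρR0 D.ρI), s = 0
  /-- (H90-loc) `H¹(G_q, Hom(R0, X_q)) = 0` -/
  h90loc : ∀ q, ∀ s : lcH1 (D.𝓥 q) (hm (D.ρR0.comp (D.r q)) (D.ρX q)), s = 0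
  /-- (SH1) `H¹_S(Hom(R1, I)) → ∏ H¹(G_q, Hom(R1, X_q))` is injective -/
  sh1 : ∀ t : lcH1 D.𝓤 (hm D.ρR1 D.ρI), (∀ q, (D.prH D.ρR1 q).H1 t = 0) → t = 0
  /-- (SH2) `H²_S(I) → ∏ H²(G_q, X_q)` is injective -/
  sh2 : ∀ z : lcH2 D.𝓤 (Rep.of D.ρI), (∀ q, (D.prI q).H2 z = 0) → z = 0
  /-- (HP) Hasse principle for `Hom(R0, E)` on `p`-torsion -/
  hp : ∀ u : lcH2 D.𝓤 (hm D.ρR0 D.ρE), p • u = 0 →
    (∀ q, (D.lam D.ρR0 q).H2 u = 0) → u = 0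
  /-- (DIM1) the `p`-torsion of `H²_S(B)` is cyclic -/
  dim1 : ∀ x y : lcH2 D.𝓤 (Rep.of D.ρB), p • x = 0 → p • y = 0 → x ≠ 0 → ∃ k : ℤ, y = k • x
  /-- (TNG) global Nakayama-Tate, right nondegeneracy -/
  tng : ∀ u : lcH2 D.𝓤 (Rep.of D.ρR1), p • u = 0 → u ≠ 0 →
    ∃ b : (hm D.ρR1 D.ρB).ρ.invariants, (ofInv D.ρR1 D.ρB D.𝓤 b).H2 u ≠ 0
  /-- (TNLG) local Nakayama-Tate + local-global compatibility: every functional on `H¹_S(N)`
  with values in `H²_S(B)` that factors through the localisation at `q` is `y ↦ π_* c_* β y` -/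
  tnlg : ∀ q, ∀ ψ : lcH1 D.𝓤 (Rep.of D.ρN) →+ lcH2 D.𝓤 (Rep.of D.ρB),
    (∀ y, (D.resN q).H1 y = 0 → ψ y = 0) →
    ∃ c : (hm D.ρR1 D.ρI).ρ.invariants,
      ∀ y, D.sEIB.Pπ.H2 ((ofInv D.ρR1 D.ρI D.𝓤 c).H2 (D.β y)) = ψ y
  /-- (ALPHA1) -/
  alpha1 : ∀ b : (hm D.ρR1 D.ρB).ρ.invariants,
    (∀ y, (ofInv D.ρR1 D.ρB D.𝓤 b).H2 (D.β y) = 0) →
    ∃ m : ℕ, m.Coprime p ∧ ∃ a : (hm D.ρR0 D.ρB).ρ.invariants,
      m • (b : D.R1 →ₗ[ℤ] D.B) = (a : D.R0 →ₗ[ℤ] D.B) ∘ₗ D.sR.ι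

end H14PT

end
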