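/-
W2-C (S55) block E (helper14): the CONCRETE modules as data for `PTData` (slices G2, G3):
`0 → E → I → B → 0` for `E = sUnits S`, `I = ideles S`, `B = I/E` over `(GQ, levelsS S)`, and the
local modules `X q = xbar q` with `incl` (the `q`-adic embedding) and `pr` (evaluation at `1`).
-/
import Mathlib
import Fermat.Agent.CFT2.E.Defs
import Fermat.Agent.CFT2.E.Setup
import Fermat.Agent.CFT2.D.Sha_helper15

set_option autoImplicit false
set_option linter.style.haveILetI false

noncomputable section

namespace H14PT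

open H15D H15F ExtCitation

local notation "Qb" => AlgebraicClosure ℚ
local notation "GQ" => (AlgebraicClosure ℚ ≃ₐ[ℚ] AlgebraicClosure ℚ)

variable (S : Finset Nat.Primes)

/-- primes are prime. -/
local instance factPrimeOfPrimes' (q : Nat.Primes) : Fact (q : ℕ).Prime := ⟨q.2⟩

/-- the representation on `E`. -/
abbrev ρE : Representation ℤ GQ (Additive (sUnits S)) :=
  Representation.ofMulDistribMulAction GQ (sUnits S)

/-- the representation on `I`. -/
abbrev ρI : Representation ℤ GQ (Additive (ideles S)) :=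
  Representation.ofMulDistribMulAction GQ (ideles S)

/-- the representation on `B`. -/
abbrev ρB : Representation ℤ GQ (Additive (ideles S) ⧸ imE S) :=
  (Representation.ofMulDistribMulAction GQ (ideles S)).quotient (imE S) (imE_stable S)

theorem ρE_apply (g : GQ) (u : Additive (sUnits S)) :
    ρE S g u = Additive.ofMul (g • Additive.toMul u) := rfl

theorem ρI_apply (g : GQ) (x : Additive (ideles S)) :
    ρI S g x = Additive.ofMul (g • Additive.toMul x) := rfl

/-- every idele is fixed by a level. -/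
theorem isSmooth_I : IsSmooth (levelsS S) (Rep.of (ρI S)) := by
  classical
  intro x
  -- for each `q` a field `F q`
  have h : ∀ q : S, ∃ F : IntermediateField ℚ Qb, F.IsUnramifiedOutside S ∧
      F.fixingSubgroup.Normal ∧ ∀ s ∈ F.fixingSubgroup, ∀ g : GQ,
        ideleAt.fn S ((Additive.toMul x : ideles S) q) (g * s)
          = ideleAt.fn S ((Additive.toMul x : ideles S) q) g := by
    intro q
    obtain ⟨-, F, hF, h2⟩ := ((Additive.toMul x : ideles S) q).2
    obtain ⟨F', hle, hF', hn⟩ := exists_normal_ge_of_isUnramifiedOutside hF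
    refine ⟨F', hF', hn, fun s hs g => ?_⟩
    have := h2 g 1 s (IntermediateField.fixingSubgroup_antitone hle hs)
    rw [mul_one, mul_one] at this
    exact this
  choose F hF hn hfix using h
  -- the compositum
  have key : ∀ T : Finset S, ∃ U ∈ (levelsS S).sets, ∀ q ∈ T, U ≤ (F q).fixingSubgroup := by
    intro T
    induction T using Finset.induction_on with
    | empty =>
      obtain ⟨U, hU⟩ := (levelsS S).nonempty
      exact ⟨U, hU, fun q hq => absurd hq (Finset.notMem_empty q)⟩
    | insert a T _ ih =>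
      obtain ⟨U, hU, hUT⟩ := ih
      obtain ⟨W, hW, hWle⟩ := (levelsS S).directed U hU (F a).fixingSubgroup
        ⟨F a, hF a, hn a, rfl⟩
      refine ⟨W, hW, fun q hq => ?_⟩
      rcases Finset.mem_insert.1 hq with rfl | hq
      · exact fun s hs => (hWle hs).2
      · exact fun s hs => hUT q hq (hWle hs).1
  obtain ⟨U, hU, hUF⟩ := key Finset.univ
  refine ⟨U, hU, fun s hs => ?_⟩
  show Additive.ofMul (s • (Additive.toMul x : ideles S)) = x
  apply congrArg Additive.ofMul (a₂ := (Additive.toMul x : ideles S))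
  funext q
  apply ideleAt.ext
  intro g
  rw [smul_ideles_apply, ideleAt.fn_smul]
  exact hfix q s (hUF q (Finset.mem_univ q) hs) g

/-- the diagonal map is injective if `S` is nonempty. -/
theorem diagL_injective (hS : S.Nonempty) : Function.Injective (diagL S) := by
  obtain ⟨q, hq⟩ := hS
  rw [injective_iff_map_eq_zero]
  intro u hu
  have h1 : diag S (Additive.toMul u) = 1 := congrArg Additive.toMul hu
  have h2 : diagAt S q (Additive.toMul u) = 1 := congrFun h1 ⟨q, hq⟩
  have h3 := congrArg (fun f : ideleAt S q => ((ideleAt.fn S f 1 : (PadicAlgCl (q : ℕ))ˣ) :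
    PadicAlgCl (q : ℕ))) h2
  simp only [diagAt_fn, ideleAt.fn_one, Units.val_one, AlgEquiv.one_apply] at h3
  have h4 : (((Additive.toMul u : sUnits S) : Qbˣ) : Qb) = 1 := by
    apply (padicEmbedding (q : ℕ)).toRingHom.injective
    simpa using h3
  apply congrArg Additive.ofMul (a₂ := (1 : sUnits S))
  apply Subtype.ext
  apply Units.ext
  exact h4

/-- `0 → E → I → B → 0`. -/
def sEIB (hS : S.Nonempty) :
    SES (levelsS S) (Rep.of (ρE S)) (Rep.of (ρI S)) (Rep.of (ρB S)) where
  ι := diagL S
  π := projBL S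
  ι_comm g u := diagL_equivariant S g u
  π_comm _ _ := rfl
  inj := diagL_injective S hS
  surj := projBL_surjective S
  exact x := by
    constructor
    · intro h
      have : x ∈ LinearMap.ker (projBL S) := h
      rw [projBL_ker] at this
      exact this
    · rintro ⟨u, rfl⟩
      have : diagL S u ∈ LinearMap.ker (projBL S) := by
        rw [projBL_ker]
        exact ⟨u, rfl⟩
      exact this
  smooth := isSmooth_I S

/-! ### the local modules -/

/-- the local Galois group at `q`. -/
abbrev Hq (q : Nat.Primes) : Type := primeLocalGaloisGroup q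

/-- the representation on `X q`. -/
def ρX (q : Nat.Primes) : Representation ℤ (Hq q) (Additive (xbar (q : ℕ))) :=
  Representation.ofMulDistribMulAction
    (PadicAlgCl (q : ℕ) ≃ₐ[ℚ_[(q : ℕ)]] PadicAlgCl (q : ℕ)) (xbar (q : ℕ))

theorem ρX_coe (q : Nat.Primes) (h : Hq q) (x : Additive (xbar (q : ℕ))) :
    ((((Additive.toMul (ρX q h x) : xbar (q : ℕ)) : (PadicAlgCl (q : ℕ))ˣ)) : PadicAlgCl (q : ℕ))
      = (show PadicAlgCl (q : ℕ) ≃ₐ[ℚ_[(q : ℕ)]] PadicAlgCl (q : ℕ) from h)
          (((Additive.toMul x : xbar (q : ℕ)) : (PadicAlgCl (q : ℕ))ˣ) : PadicAlgCl (q : ℕ)) :=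
  rfl

/-- the local levels at `q`. -/
abbrev 𝓥q (q : Nat.Primes) : Levels (Hq q) := levelsLoc (primeLocalToGlobal q)

theorem isSmooth_X (q : Nat.Primes) : IsSmooth (𝓥q q) (Rep.of (ρX q)) := by
  intro x
  obtain ⟨F, hF, h⟩ := (Additive.toMul x : xbar (q : ℕ)).2
  haveI := hF
  obtain ⟨F', hle, hF', hn⟩ := exists_normal_ge_of_finiteDimensional F
  refine ⟨F'.fixingSubgroup.comap (primeLocalToGlobal q), ⟨F', hF', hn, rfl⟩, fun s hs => ?_⟩
  have hs' : localGaloisToGlobal (q : ℕ) s ∈ F.fixingSubgroup :=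
    IntermediateField.fixingSubgroup_antitone hle hs
  have h1 := h s hs' 1
  rw [AlgEquiv.one_apply] at h1
  apply congrArg Additive.ofMul (a₂ := (Additive.toMul x : xbar (q : ℕ)))
  apply Subtype.ext
  apply Units.ext
  exact h1

/-- `E → X q`: the `q`-adic embedding. -/
def inclM (q : Nat.Primes) : sUnits S →* xbar (q : ℕ) where
  toFun u := ⟨evOne (q : ℕ) (diagFun (q : ℕ) (u : Qbˣ)),
    evOne_mem S (q : ℕ) (diagFun_mem S (q : ℕ) u.2)⟩
  map_one' := by
    apply Subtype.ext
    apply Units.ext
    change padicEmbedding (q : ℕ) ((1 : GQ) ((1 : Qbˣ) : Qb)) = 1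
    simp
  map_mul' u v := by
    apply Subtype.ext
    apply Units.ext
    change padicEmbedding (q : ℕ) ((1 : GQ) (((u : Qbˣ) * (v : Qbˣ) : Qbˣ) : Qb)) =
      padicEmbedding (q : ℕ) ((1 : GQ) ((u : Qbˣ) : Qb)) *
        padicEmbedding (q : ℕ) ((1 : GQ) ((v : Qbˣ) : Qb))
    simp

theorem inclM_coe (q : Nat.Primes) (u : sUnits S) :
    (((inclM S q u : xbar (q : ℕ)) : (PadicAlgCl (q : ℕ))ˣ) : PadicAlgCl (q : ℕ))
      = padicEmbedding (q : ℕ) ((u : Qbˣ) : Qb) := rfl

/-- `E → X q` (linear). -/
def inclL (q : Nat.Primes) : Additive (sUnits S) →ₗ[ℤ] Additive (xbar (q : ℕ)) :=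
  (MonoidHom.toAdditive (inclM S q)).toIntLinearMap

/-- `I → X q`: evaluation at `1` of the `q`-component. -/
def prM (q : S) : ideles S →* xbar ((q : Nat.Primes) : ℕ) where
  toFun f := ⟨evOne ((q : Nat.Primes) : ℕ) (ideleAt.fn S (f q)), evOne_mem S _ (f q).2⟩
  map_one' := rfl
  map_mul' _ _ := rfl

theorem prM_coe (q : S) (f : ideles S) :
    ((prM S q f : xbar ((q : Nat.Primes) : ℕ)) : (PadicAlgCl ((q : Nat.Primes) : ℕ))ˣ)
      = ideleAt.fn S (f q) 1 := rfl

/-- `I → X q` (linear). -/
def prL' (q : S) : Additive (ideles S) →ₗ[ℤ] Additive (xbar ((q : Nat.Primes) : ℕ)) :=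
  (MonoidHom.toAdditive (prM S q)).toIntLinearMap

theorem inclL_comm (q : Nat.Primes) (h : Hq q) (e : Additive (sUnits S)) :
    inclL S q (ρE S (primeLocalToGlobal q h) e) = ρX q h (inclL S q e) := by
  apply congrArg Additive.ofMul
  apply Subtype.ext
  apply Units.ext
  change padicEmbedding (q : ℕ) ((localGaloisToGlobal (q : ℕ) h)
      (((Additive.toMul e : sUnits S) : Qbˣ) : Qb)) = _
  exact padicEmbedding_localGaloisToGlobal (q : ℕ) h _

theorem prL'_comm (q : S) (h : Hq q) (x : Additive (ideles S)) :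
    prL' S q (ρI S (primeLocalToGlobal q h) x) = ρX q h (prL' S q x) := by
  apply congrArg Additive.ofMul
  apply Subtype.ext
  change ideleAt.fn S ((primeLocalToGlobal (q : Nat.Primes) h • (Additive.toMul x : ideles S)) q) 1
    = _
  rw [smul_ideles_apply, ideleAt.fn_smul, one_mul]
  have h1 := ((Additive.toMul x : ideles S) q).2.1 h 1
  rw [mul_one] at h1
  exact h1

theorem prL'_ι (q : S) (hS : S.Nonempty) (e : Additive (sUnits S)) :
    prL' S q ((sEIB S hS).ι e) = inclL S q e := rfl

end H14PT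

end
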