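/-
W2-C (S55) block E, slice G6 (a) ZETA + (b) DIV (helper6): the `S`-units `sUnits S` of `Q_S` are
`p`-divisible for `p ∈ S`, and contain the `p`-th roots of unity.

Main statement: `h6g6_root_mem`: if `p ∈ S` and `v ^ p ∈ sUnits S` then `v ∈ sUnits S`
(inertia at `q ∉ S` fixes the `p`-th roots of a unit at `q`, since `q ≠ p`).
-/
import Mathlib
import Fermat.Agent.CFT2.E.Defs
import Fermat.Agent.S05.Inertia
import Fermat.Agent.S05.FreyArith

set_option autoImplicit false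
set_option linter.style.haveILetI false
set_option linter.unusedSectionVars false
set_option linter.unusedVariables false

namespace H6G6

open H14PT Fermat.Agent.H9 Fermat.Agent.H4Frey

local notation "Qb" => AlgebraicClosure ℚ
local notation "GQ" => (AlgebraicClosure ℚ ≃ₐ[ℚ] AlgebraicClosure ℚ)

section valuation

variable {L : Type*} [Field L] (A : ValuationSubring L)

/-- valuation subrings are root closed -/
theorem h6g6_mem_of_pow_mem {n : ℕ} (hn : n ≠ 0) {x : L} (hx : x ^ n ∈ A) : x ∈ A := by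
  rw [← A.valuation_le_one_iff] at hx ⊢
  rw [map_pow] at hx
  exact (pow_le_one_iff_of_nonneg zero_le hn).1 hx

/-- a `p`-th root of unity congruent to `1` modulo `𝔪_A` is `1` if `p` is a unit of `A` -/
theorem h6g6_zeta_eq_one {p : ℕ} (hp : A.valuation (p : L) = 1) {ζ : L} (hζ : ζ ^ p = 1)
    (h1 : ζ - 1 ∈ A.nonunits) : ζ = 1 := by
  by_contra hne
  have hp0 : p ≠ 0 := by
    rintro rfl
    simp at hp
  have hsum : ∑ i ∈ Finset.range p, ζ ^ i = 0 := by
    have h := geom_sum_mul ζ p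
    rw [hζ, sub_self] at h
    rcases mul_eq_zero.mp h with h2 | h2
    · exact h2
    · exact absurd (sub_eq_zero.mp h2) hne
  have hv1 : A.valuation (ζ - 1) < 1 := (ValuationSubring.mem_nonunits_iff A).1 h1
  have hvζ : A.valuation ζ = 1 := by
    have h := congrArg A.valuation hζ
    rw [map_pow, map_one] at h
    exact (pow_eq_one_iff_of_nonneg zero_le hp0).1 h
  have hterm : ∀ i ∈ Finset.range p, A.valuation (ζ ^ i - 1) < 1 := by
    intro i _
    have h := geom_sum_mul ζ i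
    rw [← h, map_mul]
    have h3 : A.valuation (∑ j ∈ Finset.range i, ζ ^ j) ≤ 1 := by
      refine A.valuation.map_sum_le fun j _ => ?_
      rw [map_pow, hvζ, one_pow]
    calc A.valuation (∑ j ∈ Finset.range i, ζ ^ j) * A.valuation (ζ - 1)
        ≤ 1 * A.valuation (ζ - 1) := mul_le_mul' h3 le_rfl
      _ = A.valuation (ζ - 1) := one_mul _
      _ < 1 := hv1
  have hlt : A.valuation (∑ i ∈ Finset.range p, (ζ ^ i - 1)) < 1 :=
    A.valuation.map_sum_lt one_ne_zero hterm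
  rw [Finset.sum_sub_distrib, hsum, Finset.sum_const, Finset.card_range, nsmul_eq_mul, mul_one,
    zero_sub, Valuation.map_neg, hp] at hlt
  exact lt_irrefl _ hlt

end valuation

section main

variable (S : Finset Nat.Primes)

/-- inertia at `q ∉ S` fixes every `p`-th root `w` of a unit at `q` which it fixes (`p ∈ S`) -/
theorem h6g6_inertia_fix (p : Nat.Primes) (hpS : p ∈ S) (q : Nat.Primes) (hq : q ∉ S)
    (A : ValuationSubring Qb) (hA : A.LiesOverPrime (q : ℕ)) (τ : GQ)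
    (hτ : τ ∈ A.inertiaSubgroupIn ℚ) (w : Qb) (hw : w ^ (p : ℕ) ∈ A) (hw' : (w ^ (p : ℕ))⁻¹ ∈ A)
    (hfix : τ (w ^ (p : ℕ)) = w ^ (p : ℕ)) : τ w = w := by
  have hp0 : (p : ℕ) ≠ 0 := p.2.ne_zero
  have hwA : w ∈ A := h6g6_mem_of_pow_mem A hp0 hw
  have hwA' : w⁻¹ ∈ A := h6g6_mem_of_pow_mem A hp0 (by rwa [inv_pow])
  by_cases hw0 : w = 0
  · rw [hw0, map_zero]
  have hqp : (q : ℕ) ≠ (p : ℕ) := by
    intro h
    apply hq
    have : q = p := Subtype.ext h
    rw [this]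
    exact hpS
  have hpu : A.valuation ((p : ℕ) : Qb) = 1 := by
    have h : ¬ ((q : ℕ) : ℤ) ∣ ((p : ℕ) : ℤ) := by
      intro h
      have h' : (q : ℕ) ∣ (p : ℕ) := by exact_mod_cast h
      exact hqp ((Nat.prime_dvd_prime_iff_eq q.2 p.2).mp h')
    have := valuation_intCast_eq_one (L := Qb) q.2 hA h
    simpa using this
  have hζ : (τ w / w) ^ (p : ℕ) = 1 := by
    rw [div_pow, ← map_pow, hfix, div_self (pow_ne_zero _ hw0)]
  have h1 : τ w / w - 1 ∈ A.nonunits := by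
    have h2 : τ w - w ∈ A.nonunits := h9_inertia_apply_sub_mem_nonunits A hτ hwA
    have e : τ w / w - 1 = w⁻¹ * (τ w - w) := by
      field_simp
    rw [e, ValuationSubring.mem_nonunits_iff, map_mul]
    have h4 : A.valuation (τ w - w) < 1 := (ValuationSubring.mem_nonunits_iff A).1 h2
    have h5 : A.valuation w⁻¹ ≤ 1 := (A.valuation_le_one_iff _).2 hwA'
    calc A.valuation w⁻¹ * A.valuation (τ w - w) ≤ 1 * A.valuation (τ w - w) :=
          mul_le_mul' h5 le_rfl
      _ = A.valuation (τ w - w) := one_mul _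
      _ < 1 := h4
  have h3 := h6g6_zeta_eq_one A hpu hζ h1
  exact (div_eq_one_iff_eq hw0).1 h3

/-- the conjugates of an element of `Qb` -/
def h6g6_conj (x : Qb) : Set Qb := Set.range (fun σ : GQ => σ x)

theorem h6g6_conj_finite (x : Qb) : (h6g6_conj x).Finite := by
  have hx : IsIntegral ℚ x := ((AlgebraicClosure.isAlgebraic ℚ).isAlgebraic x).isIntegral
  refine Set.Finite.subset ((minpoly ℚ x).rootSet_finite Qb) ?_
  rintro _ ⟨σ, rfl⟩
  rw [Polynomial.mem_rootSet]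
  refine ⟨minpoly.ne_zero hx, ?_⟩
  rw [Polynomial.aeval_algEquiv, AlgHom.comp_apply]
  simp [minpoly.aeval]

/-- the field generated by the conjugates of `x` -/
noncomputable def h6g6_field (x : Qb) : IntermediateField ℚ Qb :=
  IntermediateField.adjoin ℚ (h6g6_conj x)

theorem h6g6_field_finite (x : Qb) : FiniteDimensional ℚ (h6g6_field x) := by
  haveI : Finite (h6g6_conj x) := (h6g6_conj_finite x).to_subtype
  exact IntermediateField.finiteDimensional_adjoin
    (fun y _ => ((AlgebraicClosure.isAlgebraic ℚ).isAlgebraic y).isIntegral)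

theorem h6g6_conj_mem (x : Qb) (σ : GQ) : σ x ∈ h6g6_field x :=
  IntermediateField.subset_adjoin ℚ _ ⟨σ, rfl⟩

/-- an automorphism fixing all conjugates of `x` fixes the field they generate -/
theorem h6g6_mem_fixingSubgroup (x : Qb) (τ : GQ) (h : ∀ σ : GQ, τ (σ x) = σ x) :
    τ ∈ (h6g6_field x).fixingSubgroup := by
  have h1 : h6g6_field x ≤ IntermediateField.fixedField (Subgroup.zpowers τ) := by
    unfold h6g6_field
    rw [IntermediateField.adjoin_le_iff]
    rintro _ ⟨σ, rfl⟩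
    rw [SetLike.mem_coe, IntermediateField.mem_fixedField_iff]
    intro g hg
    obtain ⟨k, rfl⟩ := Subgroup.mem_zpowers_iff.1 hg
    have hfix : τ ∈ MulAction.stabilizer GQ (σ x) := h σ
    have := (MulAction.stabilizer GQ (σ x)).zpow_mem hfix k
    exact this
  have h2 := (IntermediateField.le_iff_le (Subgroup.zpowers τ) (h6g6_field x)).1 h1
  exact h2 (Subgroup.mem_zpowers τ)

/-- **(G6)** `p`-th roots of `S`-units are `S`-units (`p ∈ S`) -/
theorem h6g6_root_mem (p : Nat.Primes) (hpS : p ∈ S) (v : Qbˣ)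
    (hv : v ^ (p : ℕ) ∈ sUnits S) : v ∈ sUnits S := by
  have hp0 : (p : ℕ) ≠ 0 := p.2.ne_zero
  obtain ⟨⟨F₀, hF₀, h₀⟩, hunit⟩ := hv
  have hunit' : ∀ σ : GQ, ∀ q : Nat.Primes, q ∉ S → ∀ A : ValuationSubring Qb,
      A.LiesOverPrime (q : ℕ) → (σ (v : Qb)) ^ (p : ℕ) ∈ A ∧ ((σ (v : Qb)) ^ (p : ℕ))⁻¹ ∈ A := by
    intro σ q hq A hA
    have := hunit σ q hq A hA
    simpa using this
  refine ⟨⟨h6g6_field (v : Qb) ⊔ F₀, ?_, ?_⟩, ?_⟩
  · -- unramified outside `S`
    have hFv : (h6g6_field (v : Qb)).IsUnramifiedOutside S := by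
      refine ⟨h6g6_field_finite _, fun q hq A hA τ hτ => ?_⟩
      refine h6g6_mem_fixingSubgroup _ τ (fun σ => ?_)
      have hτF₀ : τ ∈ F₀.fixingSubgroup := hF₀.2 q hq A hA hτ
      refine h6g6_inertia_fix S p hpS q hq A hA τ hτ (σ (v : Qb)) (hunit' σ q hq A hA).1
        (hunit' σ q hq A hA).2 ?_
      have := h₀ τ hτF₀ σ
      simpa using this
    exact hFv.sup hF₀
  · intro s hs σ
    have hs1 : s ∈ (h6g6_field (v : Qb)).fixingSubgroup :=
      IntermediateField.fixingSubgroup_antitone le_sup_left hs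
    exact (IntermediateField.mem_fixingSubgroup_iff _ s).1 hs1 _ (h6g6_conj_mem _ σ)
  · intro σ q hq A hA
    obtain ⟨h1, h2⟩ := hunit' σ q hq A hA
    refine ⟨h6g6_mem_of_pow_mem A hp0 h1, h6g6_mem_of_pow_mem A hp0 ?_⟩
    rwa [inv_pow]

/-- **(G6b) DIV**: `sUnits S` is `p`-divisible for `p ∈ S` -/
theorem h6g6_div (p : Nat.Primes) (hpS : p ∈ S) (u : Qbˣ) (hu : u ∈ sUnits S) :
    ∃ v ∈ sUnits S, v ^ (p : ℕ) = u := by
  obtain ⟨y, hy⟩ := IsAlgClosed.exists_pow_nat_eq (u : Qb) p.2.pos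
  have hy0 : y ≠ 0 := by
    rintro rfl
    rw [zero_pow p.2.ne_zero] at hy
    exact u.ne_zero hy.symm
  have hvu : (Units.mk0 y hy0) ^ (p : ℕ) = u := by
    apply Units.ext
    rw [Units.val_pow_eq_pow_val, Units.val_mk0, hy]
  refine ⟨Units.mk0 y hy0, h6g6_root_mem S p hpS _ ?_, hvu⟩
  rw [hvu]
  exact hu

/-- **(G6b) DIV**, additive form -/
theorem h6g6_div_additive (p : Nat.Primes) (hpS : p ∈ S) (x : Additive (sUnits S)) :
    ∃ y : Additive (sUnits S), (p : ℕ) • y = x := by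
  obtain ⟨v, hv, hvu⟩ := h6g6_div S p hpS ((Additive.toMul x : sUnits S) : Qbˣ)
    (Additive.toMul x).2
  refine ⟨Additive.ofMul ⟨v, hv⟩, ?_⟩
  rw [← ofMul_pow]
  have : (⟨v, hv⟩ : sUnits S) ^ (p : ℕ) = Additive.toMul x := Subtype.ext hvu
  rw [this]
  rfl

/-- **(G6a) ZETA**: the `p`-th roots of unity are `S`-units (`p ∈ S`) -/
theorem h6g6_zeta (p : Nat.Primes) (hpS : p ∈ S) (ζ : Qbˣ) (hζ : ζ ^ (p : ℕ) = 1) :
    ζ ∈ sUnits S := by
  refine h6g6_root_mem S p hpS ζ ?_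
  rw [hζ]
  exact (sUnits S).one_mem

/-- the `p`-torsion of `sUnits S` is `μ_p` -/
theorem h6g6_torsion (p : Nat.Primes) (hpS : p ∈ S) (ζ : Qbˣ) :
    (ζ ∈ sUnits S ∧ ζ ^ (p : ℕ) = 1) ↔ ζ ∈ rootsOfUnity (p : ℕ) Qb := by
  rw [mem_rootsOfUnity]
  exact ⟨fun h => h.2, fun h => ⟨h6g6_zeta S p hpS ζ h, h⟩⟩

end main

end H6G6
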