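/-
W2-C (S55) block E, slice G5' (helper6): the `μ_p`-pairing
`e : M → Hom_ℤ(N, E)`, `N = M.dualTwist (cycloChar p)`, `E = Additive (sUnits S)`,
`e m f = ζ ^ (f m)`:  `ℤ`-linear, equivariant, injective, surjective (`h6g5_e*`), and the same
for the local modules `X q = Additive (xbar q)`, `e_q m = inclL S q ∘ e m` (`h6g5_eloc*`).
These are the inputs `e he hinj hsurj` of `H24G.sA` and `H24G.sAloc`.
-/
import Mathlib
import Fermat.Agent.CFT2.E.G6_helper6
import Fermat.Agent.CFT2.D.Add_helper15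
import Fermat.Agent.CFT2.E.Concrete

set_option autoImplicit false
set_option linter.style.haveILetI false
set_option linter.unusedSectionVars false
set_option linter.unusedVariables false

noncomputable section

namespace H6G5

open H14PT H15D ExtCitation

local notation "Qb" => AlgebraicClosure ℚ
local notation "GQ" => (AlgebraicClosure ℚ ≃ₐ[ℚ] AlgebraicClosure ℚ)

section generic

variable (p : ℕ) [Fact p.Prime] {A : Type*} [AddCommGroup A] (z₀ : A) (hz : p • z₀ = 0)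

/-- `ZMod p → A`, `c ↦ c • z₀` for a `p`-torsion element `z₀` -/
def h6g5_theta : ZMod p →+ A :=
  ZMod.lift p ⟨zmultiplesHom A z₀, by
    rw [zmultiplesHom_apply, natCast_zsmul]
    exact hz⟩

theorem h6g5_theta_intCast (k : ℤ) : h6g5_theta p z₀ hz (k : ZMod p) = k • z₀ := by
  unfold h6g5_theta
  rw [ZMod.lift_coe]
  rfl

theorem h6g5_theta_natCast (k : ℕ) : h6g5_theta p z₀ hz (k : ZMod p) = k • z₀ := by
  have := h6g5_theta_intCast p z₀ hz (k : ℤ)
  rw [Int.cast_natCast, natCast_zsmul] at this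
  exact this

theorem h6g5_theta_apply (c : ZMod p) : h6g5_theta p z₀ hz c = c.val • z₀ := by
  conv_lhs => rw [← ZMod.natCast_zmod_val c]
  exact h6g5_theta_natCast p z₀ hz c.val

theorem h6g5_theta_injective (h0 : z₀ ≠ 0) : Function.Injective (h6g5_theta p z₀ hz) := by
  rw [injective_iff_map_eq_zero]
  intro c hc
  rw [h6g5_theta_apply] at hc
  have h1 : addOrderOf z₀ = p := addOrderOf_eq_prime hz h0
  have h2' : addOrderOf z₀ ∣ c.val := addOrderOf_dvd_of_nsmul_eq_zero hc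
  have h2 : p ∣ c.val := by
    obtain ⟨t, ht⟩ := h2'
    exact ⟨t, by rw [ht, h1]⟩
  have h3 : c.val = 0 := Nat.eq_zero_of_dvd_of_lt h2 (ZMod.val_lt c)
  exact (ZMod.val_eq_zero c).1 h3

end generic

section pairing

variable {p : ℕ} [Fact p.Prime] (M : Rep.{0} (ZMod p) GQ) {A : Type} [AddCommGroup A]
  (θ : ZMod p →+ A)

/-- evaluation at `m` on `N = M.dualTwist (cycloChar p)` -/
def h6g5_ev (m : M.V) : (M.dualTwist (cycloChar p)).V →+ ZMod p where
  toFun f := (show Module.Dual (ZMod p) M.V from f) m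
  map_zero' := rfl
  map_add' _ _ := rfl

/-- the pairing `M → Hom_ℤ(N, A)`, `m ↦ (f ↦ θ (f m))` -/
def h6g5_pair : M.V →ₗ[ℤ] ((M.dualTwist (cycloChar p)).V →ₗ[ℤ] A) :=
  AddMonoidHom.toIntLinearMap
    { toFun := fun m => AddMonoidHom.toIntLinearMap (θ.comp (h6g5_ev M m))
      map_zero' := by
        apply LinearMap.ext
        intro f
        change θ ((show Module.Dual (ZMod p) M.V from f) 0) = 0
        rw [map_zero, map_zero]
      map_add' := by
        intro m m'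
        apply LinearMap.ext
        intro f
        change θ ((show Module.Dual (ZMod p) M.V from f) (m + m')) =
          θ ((show Module.Dual (ZMod p) M.V from f) m) +
            θ ((show Module.Dual (ZMod p) M.V from f) m')
        rw [map_add, map_add] }

theorem h6g5_pair_apply (m : M.V) (f : Module.Dual (ZMod p) M.V) :
    h6g5_pair M θ m f = θ (f m) := rfl

/-- equivariance of the pairing -/
theorem h6g5_pair_equivariant {H : Type} [Group H] (r : H →* GQ) (ρA : Representation ℤ H A)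
    (hρ : ∀ (h : H) (c : ZMod p),
      ρA h (θ c) = θ (((cycloChar p (r h) : (ZMod p)ˣ) : ZMod p) * c))
    (h : H) (m : M.V) :
    h6g5_pair M θ (zRho M (r h) m) =
      (ρA h) ∘ₗ (h6g5_pair M θ m) ∘ₗ (zRho (M.dualTwist (cycloChar p)) (r h)⁻¹) := by
  apply LinearMap.ext
  intro f
  change θ ((show Module.Dual (ZMod p) M.V from f) (M.ρ (r h) m)) =
    ρA h (θ ((show Module.Dual (ZMod p) M.V from
      ((M.dualTwist (cycloChar p)).ρ (r h)⁻¹ f)) m))
  rw [hρ]
  congr 1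
  have h1 : (show Module.Dual (ZMod p) M.V from ((M.dualTwist (cycloChar p)).ρ (r h)⁻¹ f)) m
      = ((cycloChar p (r h)⁻¹ : (ZMod p)ˣ) : ZMod p) *
        (show Module.Dual (ZMod p) M.V from f) (M.ρ (r h) m) := by
    have := Rep.dualTwist_ρ_apply M (cycloChar p) (r h)⁻¹ (show Module.Dual (ZMod p) M.V from f)
    rw [inv_inv] at this
    have h2 := congrArg (fun φ : Module.Dual (ZMod p) M.V => φ m) this
    exact h2
  rw [h1, ← mul_assoc, ← Units.val_mul, ← map_mul, mul_inv_cancel, map_one, Units.val_one,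
    one_mul]

/-- injectivity of the pairing -/
theorem h6g5_pair_injective [FiniteDimensional (ZMod p) M.V] (hθ : Function.Injective θ) :
    Function.Injective (h6g5_pair M θ) := by
  rw [injective_iff_map_eq_zero]
  intro m hm
  rw [← Module.forall_dual_apply_eq_zero_iff (ZMod p) m]
  intro f
  have h1 : h6g5_pair M θ m f = 0 := by
    rw [hm]
    rfl
  rw [h6g5_pair_apply] at h1
  exact hθ (h1.trans (map_zero _).symm)

/-- surjectivity of the pairing -/
theorem h6g5_pair_surjective [FiniteDimensional (ZMod p) M.V] (hθ : Function.Injective θ)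
    (htor : ∀ x : A, p • x = 0 → ∃ c : ZMod p, θ c = x)
    (φ : (M.dualTwist (cycloChar p)).V →ₗ[ℤ] A) :
    ∃ m : M.V, h6g5_pair M θ m = φ := by
  classical
  have hex : ∀ f : Module.Dual (ZMod p) M.V, ∃ c : ZMod p, θ c = φ f := by
    intro f
    refine htor _ ?_
    rw [← map_nsmul]
    have : p • f = 0 := by
      rw [← Nat.cast_smul_eq_nsmul (ZMod p) p f, ZMod.natCast_self, zero_smul]
    have h2 : p • (show (M.dualTwist (cycloChar p)).V from f) = 0 := this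
    rw [h2, map_zero]
  choose ψ hψ using hex
  have hadd : ∀ f f' : Module.Dual (ZMod p) M.V, ψ (f + f') = ψ f + ψ f' := by
    intro f f'
    apply hθ
    rw [map_add, hψ, hψ, hψ]
    exact map_add φ _ _
  let ψ' : Module.Dual (ZMod p) M.V →+ ZMod p := AddMonoidHom.mk' ψ hadd
  let Ψ : Module.Dual (ZMod p) (Module.Dual (ZMod p) M.V) := AddMonoidHom.toZModLinearMap p ψ'
  obtain ⟨m, hm⟩ := (Module.evalEquiv (ZMod p) M.V).surjective Ψ
  refine ⟨m, ?_⟩
  apply LinearMap.ext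
  intro f
  have h1 : (show Module.Dual (ZMod p) M.V from f) m = ψ f := by
    have := congrArg (fun F : Module.Dual (ZMod p) (Module.Dual (ZMod p) M.V) => F f) hm
    have h0 : (show Module.Dual (ZMod p) M.V from f) m = Ψ f := by simpa using this
    exact h0
  change θ ((show Module.Dual (ZMod p) M.V from f) m) = φ f
  rw [h1, hψ]

/-- `N = M.dualTwist (cycloChar p)` is killed by `p` -/
theorem h6g5_pN (n : (M.dualTwist (cycloChar p)).V) : p • n = 0 := by
  have : p • (show Module.Dual (ZMod p) M.V from n) = 0 := by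
    rw [← Nat.cast_smul_eq_nsmul (ZMod p) p, ZMod.natCast_self, zero_smul]
  exact this

end pairing

section concrete

variable {p : ℕ} [Fact p.Prime] (S : Finset Nat.Primes) (M : Rep.{0} (ZMod p) GQ)
  (ζ : Qbˣ) (hζS : ζ ∈ sUnits S)

/-- a nontrivial `p`-th root of unity exists in `Qb` -/
theorem h6g5_exists_zeta (p : ℕ) [Fact p.Prime] : ∃ ζ : Qbˣ, ζ ^ p = 1 ∧ ζ ≠ 1 := by
  have hcard := card_rootsOfUnity_eq_self p
  have hp1 : 1 < p := (Fact.out : p.Prime).one_lt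
  haveI : Finite (rootsOfUnity p Qb) := Nat.finite_of_card_ne_zero (by rw [hcard]; omega)
  have hnt : Nontrivial (rootsOfUnity p Qb) := by
    rw [← Finite.one_lt_card_iff_nontrivial, hcard]
    exact hp1
  obtain ⟨x, hx⟩ := exists_ne (1 : rootsOfUnity p Qb)
  refine ⟨x, (mem_rootsOfUnity p _).1 x.2, fun h => hx (Subtype.ext h)⟩

/-- a nontrivial `p`-th root of unity exists in `sUnits S` when `p ∈ S` -/
theorem h6g5_exists_zetaS (S : Finset Nat.Primes) (p : Nat.Primes) (hpS : p ∈ S) :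
    ∃ ζ : Qbˣ, ζ ∈ sUnits S ∧ ζ ^ (p : ℕ) = 1 ∧ ζ ≠ 1 := by
  haveI : Fact (p : ℕ).Prime := ⟨p.2⟩
  obtain ⟨ζ, h1, h2⟩ := h6g5_exists_zeta (p : ℕ)
  exact ⟨ζ, H6G6.h6g6_zeta S p hpS ζ h1, h1, h2⟩

/-- `ζ` as an element of `E = Additive (sUnits S)` -/
def h6g5_z : Additive (sUnits S) := Additive.ofMul ⟨ζ, hζS⟩

theorem h6g5_z_torsion (hζp : ζ ^ p = 1) : p • h6g5_z S ζ hζS = 0 := by
  unfold h6g5_z
  rw [← ofMul_pow]
  have : (⟨ζ, hζS⟩ : sUnits S) ^ p = 1 := Subtype.ext hζp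
  rw [this]
  rfl

theorem h6g5_z_ne_zero (hζ1 : ζ ≠ 1) : h6g5_z S ζ hζS ≠ 0 := by
  intro h
  apply hζ1
  have h1 : (⟨ζ, hζS⟩ : sUnits S) = 1 := h
  exact congrArg Subtype.val h1

/-- `θ : ZMod p → E`, `c ↦ ζ ^ c` -/
def h6g5_th (hζp : ζ ^ p = 1) : ZMod p →+ Additive (sUnits S) :=
  h6g5_theta p (h6g5_z S ζ hζS) (h6g5_z_torsion S ζ hζS hζp)

theorem h6g5_th_natCast (hζp : ζ ^ p = 1) (i : ℕ) :
    h6g5_th S ζ hζS hζp (i : ZMod p) = Additive.ofMul (⟨ζ, hζS⟩ ^ i : sUnits S) := by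
  unfold h6g5_th
  rw [h6g5_theta_natCast]
  unfold h6g5_z
  rw [← ofMul_pow]

theorem h6g5_th_injective (hζp : ζ ^ p = 1) (hζ1 : ζ ≠ 1) :
    Function.Injective (h6g5_th S ζ hζS hζp) :=
  h6g5_theta_injective p _ _ (h6g5_z_ne_zero S ζ hζS hζ1)

/-- the Galois action on `ζ` -/
theorem h6g5_rho_z (hζp : ζ ^ p = 1) (g : GQ) :
    ρE S g (h6g5_z S ζ hζS) =
      h6g5_th S ζ hζS hζp ((cycloChar p g : (ZMod p)ˣ) : ZMod p) := by
  haveI : NeZero p := ⟨(Fact.out : p.Prime).ne_zero⟩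
  unfold h6g5_th
  rw [h6g5_theta_apply]
  have hmem : ζ ∈ rootsOfUnity p Qb := (mem_rootsOfUnity p ζ).2 hζp
  have hspec := modularCyclotomicCharacter.spec Qb (card_rootsOfUnity_eq_self p)
    (g : Qb ≃+* Qb) hmem
  change Additive.ofMul (g • (⟨ζ, hζS⟩ : sUnits S)) = _
  unfold h6g5_z
  rw [← ofMul_pow]
  congr 1
  apply Subtype.ext
  apply Units.ext
  change g (ζ : Qb) = ((ζ ^ _ : Qbˣ) : Qb)
  rw [Units.val_pow_eq_pow_val]
  exact hspec

theorem h6g5_rho_th (hζp : ζ ^ p = 1) (g : GQ) (c : ZMod p) :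
    ρE S g (h6g5_th S ζ hζS hζp c) =
      h6g5_th S ζ hζS hζp (((cycloChar p g : (ZMod p)ˣ) : ZMod p) * c) := by
  have h1 : h6g5_th S ζ hζS hζp c = c.val • h6g5_z S ζ hζS := h6g5_theta_apply p _ _ c
  rw [h1, map_nsmul, h6g5_rho_z S ζ hζS hζp, ← map_nsmul, nsmul_eq_mul, ZMod.natCast_zmod_val,
    mul_comm]

/-- `ζ` is a primitive `p`-th root of unity -/
theorem h6g5_isPrimitiveRoot (hζp : ζ ^ p = 1) (hζ1 : ζ ≠ 1) : IsPrimitiveRoot (ζ : Qb) p := by
  have hord : orderOf (ζ : Qb) = p := by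
    refine orderOf_eq_prime ?_ ?_
    · rw [← Units.val_pow_eq_pow_val, hζp, Units.val_one]
    · intro h
      exact hζ1 (Units.ext h)
  exact hord ▸ IsPrimitiveRoot.orderOf (ζ : Qb)

/-- the `p`-torsion of `E` is the image of `θ` -/
theorem h6g5_torsion_eq (hζp : ζ ^ p = 1) (hζ1 : ζ ≠ 1) (x : Additive (sUnits S))
    (hx : p • x = 0) : ∃ c : ZMod p, h6g5_th S ζ hζS hζp c = x := by
  haveI : NeZero p := ⟨(Fact.out : p.Prime).ne_zero⟩
  have hprim := h6g5_isPrimitiveRoot ζ hζp hζ1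
  have hxp : (((Additive.toMul x : sUnits S) : Qbˣ) : Qb) ^ p = 1 := by
    have h1 : (Additive.toMul x : sUnits S) ^ p = 1 := by
      have := congrArg Additive.toMul hx
      exact this
    have h2 := congrArg (fun u : sUnits S => ((u : Qbˣ) : Qb)) h1
    simpa using h2
  obtain ⟨i, -, hi⟩ := hprim.eq_pow_of_pow_eq_one hxp
  refine ⟨(i : ZMod p), ?_⟩
  rw [h6g5_th_natCast]
  have : (⟨ζ, hζS⟩ : sUnits S) ^ i = Additive.toMul x := by
    apply Subtype.ext
    apply Units.ext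
    simpa using hi
  rw [this]
  rfl

/-- **(G5')** the pairing `e : M → Hom_ℤ(N, E)`, `e m f = ζ ^ (f m)` -/
def h6g5_e (hζp : ζ ^ p = 1) :
    M.V →ₗ[ℤ] ((M.dualTwist (cycloChar p)).V →ₗ[ℤ] Additive (sUnits S)) :=
  h6g5_pair M (h6g5_th S ζ hζS hζp)

theorem h6g5_e_apply (hζp : ζ ^ p = 1) (m : M.V) (f : Module.Dual (ZMod p) M.V) :
    h6g5_e S M ζ hζS hζp m f = h6g5_th S ζ hζS hζp (f m) := rfl

/-- **(G5')** equivariance -/
theorem h6g5_e_equivariant (hζp : ζ ^ p = 1) (g : GQ) (m : M.V) :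
    h6g5_e S M ζ hζS hζp (zRho M g m) =
      (ρE S g) ∘ₗ (h6g5_e S M ζ hζS hζp m) ∘ₗ (zRho (M.dualTwist (cycloChar p)) g⁻¹) :=
  h6g5_pair_equivariant M _ (MonoidHom.id GQ) (ρE S) (h6g5_rho_th S ζ hζS hζp) g m

/-- **(G5')** injectivity -/
theorem h6g5_e_injective [FiniteDimensional (ZMod p) M.V] (hζp : ζ ^ p = 1) (hζ1 : ζ ≠ 1) :
    Function.Injective (h6g5_e S M ζ hζS hζp) :=
  h6g5_pair_injective M _ (h6g5_th_injective S ζ hζS hζp hζ1)

/-- **(G5')** surjectivity -/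
theorem h6g5_e_surjective [FiniteDimensional (ZMod p) M.V] (hζp : ζ ^ p = 1) (hζ1 : ζ ≠ 1)
    (φ : (M.dualTwist (cycloChar p)).V →ₗ[ℤ] Additive (sUnits S)) :
    ∃ m : M.V, h6g5_e S M ζ hζS hζp m = φ :=
  h6g5_pair_surjective M _ (h6g5_th_injective S ζ hζS hζp hζ1)
    (h6g5_torsion_eq S ζ hζS hζp hζ1) φ

/-! ### the local pairing -/

local instance h6g5_factPrime (q : Nat.Primes) : Fact (q : ℕ).Prime := ⟨q.2⟩

theorem h6g5_inclL_injective (q : Nat.Primes) : Function.Injective (inclL S q) := by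
  rw [injective_iff_map_eq_zero]
  intro u hu
  have h1 : inclM S q (Additive.toMul u) = 1 := congrArg Additive.toMul hu
  have h2 := congrArg (fun y : xbar (q : ℕ) => ((y : (PadicAlgCl (q : ℕ))ˣ) : PadicAlgCl (q : ℕ))) h1
  simp only [inclM_coe] at h2
  have h3 : (((Additive.toMul u : sUnits S) : Qbˣ) : Qb) = 1 := by
    apply (padicEmbedding (q : ℕ)).toRingHom.injective
    simpa using h2
  apply congrArg Additive.ofMul (a₂ := (1 : sUnits S))
  apply Subtype.ext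
  apply Units.ext
  exact h3

/-- `θ_q : ZMod p → X q`, `c ↦ ι ζ ^ c` -/
def h6g5_thloc (hζp : ζ ^ p = 1) (q : Nat.Primes) : ZMod p →+ Additive (xbar (q : ℕ)) :=
  (inclL S q).toAddMonoidHom.comp (h6g5_th S ζ hζS hζp)

theorem h6g5_thloc_injective (hζp : ζ ^ p = 1) (hζ1 : ζ ≠ 1) (q : Nat.Primes) :
    Function.Injective (h6g5_thloc S ζ hζS hζp q) :=
  (h6g5_inclL_injective S q).comp (h6g5_th_injective S ζ hζS hζp hζ1)

/-- the `p`-torsion of `X q` is the image of `θ_q` -/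
theorem h6g5_torsion_loc (hζp : ζ ^ p = 1) (hζ1 : ζ ≠ 1) (q : Nat.Primes)
    (x : Additive (xbar (q : ℕ))) (hx : p • x = 0) :
    ∃ c : ZMod p, h6g5_thloc S ζ hζS hζp q c = x := by
  haveI : NeZero p := ⟨(Fact.out : p.Prime).ne_zero⟩
  have hprim : IsPrimitiveRoot (padicEmbedding (q : ℕ) (ζ : Qb)) p :=
    (h6g5_isPrimitiveRoot ζ hζp hζ1).map_of_injective (padicEmbedding (q : ℕ)).injective
  have hxp : (((Additive.toMul x : xbar (q : ℕ)) : (PadicAlgCl (q : ℕ))ˣ) :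
      PadicAlgCl (q : ℕ)) ^ p = 1 := by
    have h1 : (Additive.toMul x : xbar (q : ℕ)) ^ p = 1 := by
      have := congrArg Additive.toMul hx
      exact this
    have h2 := congrArg (fun u : xbar (q : ℕ) =>
      ((u : (PadicAlgCl (q : ℕ))ˣ) : PadicAlgCl (q : ℕ))) h1
    simpa using h2
  obtain ⟨i, -, hi⟩ := hprim.eq_pow_of_pow_eq_one hxp
  refine ⟨(i : ZMod p), ?_⟩
  change inclL S q (h6g5_th S ζ hζS hζp (i : ZMod p)) = x
  rw [h6g5_th_natCast]
  apply congrArg Additive.ofMul (a₂ := (Additive.toMul x : xbar (q : ℕ)))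
  apply Subtype.ext
  apply Units.ext
  change padicEmbedding (q : ℕ) (((⟨ζ, hζS⟩ ^ i : sUnits S) : Qbˣ) : Qb) = _
  rw [← hi]
  simp

/-- **(G5')** the local pairing `e_q : M → Hom_ℤ(N, X q)`, `e_q m = inclL S q ∘ e m` -/
def h6g5_eloc (hζp : ζ ^ p = 1) (q : Nat.Primes) :
    M.V →ₗ[ℤ] ((M.dualTwist (cycloChar p)).V →ₗ[ℤ] Additive (xbar (q : ℕ))) :=
  h6g5_pair M (h6g5_thloc S ζ hζS hζp q)

theorem h6g5_eloc_eq (hζp : ζ ^ p = 1) (q : Nat.Primes) (m : M.V) :
    h6g5_eloc S M ζ hζS hζp q m = (inclL S q) ∘ₗ (h6g5_e S M ζ hζS hζp m) := rfl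

/-- **(G5')** local equivariance -/
theorem h6g5_eloc_equivariant (hζp : ζ ^ p = 1) (q : Nat.Primes) (h : Hq q) (m : M.V) :
    h6g5_eloc S M ζ hζS hζp q (zRho M (primeLocalToGlobal q h) m) =
      (ρX q h) ∘ₗ (h6g5_eloc S M ζ hζS hζp q m) ∘ₗ
        (zRho (M.dualTwist (cycloChar p)) (primeLocalToGlobal q h)⁻¹) := by
  refine h6g5_pair_equivariant M _ (primeLocalToGlobal q) (ρX q) (fun h c => ?_) h m
  change ρX q h (inclL S q (h6g5_th S ζ hζS hζp c)) = inclL S q (h6g5_th S ζ hζS hζp _)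
  rw [← inclL_comm, h6g5_rho_th]

/-- **(G5')** local injectivity -/
theorem h6g5_eloc_injective [FiniteDimensional (ZMod p) M.V] (hζp : ζ ^ p = 1) (hζ1 : ζ ≠ 1)
    (q : Nat.Primes) : Function.Injective (h6g5_eloc S M ζ hζS hζp q) :=
  h6g5_pair_injective M _ (h6g5_thloc_injective S ζ hζS hζp hζ1 q)

/-- **(G5')** local surjectivity -/
theorem h6g5_eloc_surjective [FiniteDimensional (ZMod p) M.V] (hζp : ζ ^ p = 1) (hζ1 : ζ ≠ 1)
    (q : Nat.Primes) (φ : (M.dualTwist (cycloChar p)).V →ₗ[ℤ] Additive (xbar (q : ℕ))) :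
    ∃ m : M.V, h6g5_eloc S M ζ hζS hζp q m = φ :=
  h6g5_pair_surjective M _ (h6g5_thloc_injective S ζ hζS hζp hζ1 q)
    (h6g5_torsion_loc S ζ hζS hζp hζ1 q) φ

end concrete

end H6G5

end
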