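/-
W2-C (S55) block E, slice G4 (helper24): the permutation-lattice RESOLUTION
`0 → R1 → R0 → N → 0` of a finite level-trivial `G`-module `N`:
`R0 = N →₀ ℤ` with `g • single n a = single (g n) a`, `π (single n a) = a • n`, `R1 = ker π`.
-/
import Mathlib
import Fermat.Agent.CFT2.E.Hom

set_option autoImplicit false
set_option linter.style.haveILetI false
set_option linter.unusedSectionVars false
set_option linter.unusedVariables false

noncomputable section

namespace H24G

open H15D H14PT

variable {G : Type} [Group G] {N : Type} [AddCommGroup N] (ρN : Representation ℤ G N)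

/-- the permutation lattice `R0 = ℤ[N]` -/
abbrev R0 (N : Type) : Type := N →₀ ℤ

/-- the action of `G` on `R0` -/
def ρR0 : Representation ℤ G (R0 N) where
  toFun g := Finsupp.lmapDomain ℤ ℤ (ρN g)
  map_one' := by
    rw [map_one]
    exact Finsupp.lmapDomain_id ℤ ℤ
  map_mul' g h := by
    rw [map_mul]
    exact Finsupp.lmapDomain_comp ℤ ℤ (ρN h) (ρN g)

@[simp] theorem ρR0_single (g : G) (n : N) (a : ℤ) :
    ρR0 ρN g (Finsupp.single n a) = Finsupp.single (ρN g n) a := by
  change Finsupp.mapDomain (ρN g) (Finsupp.single n a) = _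
  rw [Finsupp.mapDomain_single]

/-- the augmentation `π : R0 → N`, `single n a ↦ a • n` -/
def π (N : Type) [AddCommGroup N] : R0 N →ₗ[ℤ] N := Finsupp.linearCombination ℤ (id : N → N)

@[simp] theorem π_single (n : N) (a : ℤ) : π N (Finsupp.single n a) = a • n := by
  unfold π
  rw [Finsupp.linearCombination_single]
  rfl

theorem π_surjective : Function.Surjective (π N) := fun n =>
  ⟨Finsupp.single n 1, by rw [π_single, one_smul]⟩

theorem π_comm (g : G) (x : R0 N) : π N (ρR0 ρN g x) = ρN g (π N x) := by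
  induction x using Finsupp.induction_linear with
  | zero => simp
  | add x y hx hy => rw [map_add, map_add, map_add, hx, hy, map_add]
  | single n a => rw [ρR0_single, π_single, π_single, map_smul]

/-- the kernel lattice `R1 = ker π` -/
abbrev R1 (N : Type) [AddCommGroup N] : Type := ↥(LinearMap.ker (π N))

/-- the action of `G` on `R1` -/
def ρR1 : Representation ℤ G (R1 N) where
  toFun g := (ρR0 ρN g).restrict (p := LinearMap.ker (π N)) (q := LinearMap.ker (π N))
    (fun x hx => by
      rw [LinearMap.mem_ker] at hx ⊢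
      rw [π_comm, hx, map_zero])
  map_one' := by
    apply LinearMap.ext
    intro x
    apply Subtype.ext
    change ρR0 ρN 1 x.1 = x.1
    rw [map_one]
    rfl
  map_mul' g h := by
    apply LinearMap.ext
    intro x
    apply Subtype.ext
    change ρR0 ρN (g * h) x.1 = ρR0 ρN g (ρR0 ρN h x.1)
    rw [map_mul]
    rfl

@[simp] theorem ρR1_coe (g : G) (x : R1 N) : ((ρR1 ρN g x : R1 N) : R0 N) = ρR0 ρN g x.1 := rfl

theorem free_R0 : Module.Free ℤ (R0 N) := inferInstance

theorem finite_R0 [Finite N] : Module.Finite ℤ (R0 N) := inferInstance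

theorem free_R1 [Finite N] : Module.Free ℤ (R1 N) := inferInstance

theorem finite_R1 [Finite N] : Module.Finite ℤ (R1 N) := inferInstance

variable {ρN}

theorem isLevelTriv_R0 {𝓤 : Levels G} (hlt : IsLevelTriv ρN 𝓤) : IsLevelTriv (ρR0 ρN) 𝓤 := by
  obtain ⟨U, hU, h⟩ := hlt
  refine ⟨U, hU, fun s hs x => ?_⟩
  induction x using Finsupp.induction_linear with
  | zero => simp
  | add x y hx hy => rw [map_add, hx, hy]
  | single n a => rw [ρR0_single, h s hs]

theorem isLevelTriv_R1 {𝓤 : Levels G} (hlt : IsLevelTriv ρN 𝓤) : IsLevelTriv (ρR1 ρN) 𝓤 := by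
  obtain ⟨U, hU, h⟩ := isLevelTriv_R0 hlt
  exact ⟨U, hU, fun s hs x => Subtype.ext (h s hs x.1)⟩

theorem isSmooth_of_isLevelTriv {V : Type} [AddCommGroup V] {ρ : Representation ℤ G V}
    {𝓤 : Levels G} (hlt : IsLevelTriv ρ 𝓤) : IsSmooth 𝓤 (Rep.of ρ) := by
  obtain ⟨U, hU, h⟩ := hlt
  exact fun m => ⟨U, hU, fun s hs => h s hs m⟩

/-- **(G4)** the resolution `0 → R1 → R0 → N → 0` -/
def sR {𝓤 : Levels G} (hlt : IsLevelTriv ρN 𝓤) :
    SES 𝓤 (Rep.of (ρR1 ρN)) (Rep.of (ρR0 ρN)) (Rep.of ρN) where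
  ι := (LinearMap.ker (π N)).subtype
  π := π N
  ι_comm := fun g a => rfl
  π_comm := fun g a => π_comm ρN g a
  inj := Subtype.val_injective
  surj := π_surjective
  exact := fun a => ⟨fun h => ⟨⟨a, h⟩, rfl⟩, fun ⟨a', ha'⟩ => by rw [← ha']; exact a'.2⟩
  smooth := isSmooth_of_isLevelTriv (isLevelTriv_R0 hlt)

@[simp] theorem sR_ι {𝓤 : Levels G} (hlt : IsLevelTriv ρN 𝓤) (x : R1 N) :
    (sR hlt).ι x = (x : R0 N) := rfl

@[simp] theorem sR_π {𝓤 : Levels G} (hlt : IsLevelTriv ρN 𝓤) (x : R0 N) :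
    (sR hlt).π x = π N x := rfl

/-- if `N` is killed by `p` then `p R0 ⊆ R1` -/
theorem smul_mem_ker (p : ℕ) (hp : ∀ n : N, p • n = 0) (x : R0 N) :
    p • x ∈ LinearMap.ker (π N) := by
  rw [LinearMap.mem_ker, map_nsmul]
  exact hp _

end H24G

end
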