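/-
W2-C (S55) block E, slice G5 (helper24): the SEQUENCE (a)
`0 → M → Hom(R0, E) → Hom(R1, E) → 0` for a `p`-divisible smooth module `E`, a module `N` killed
by `p` with its permutation resolution `0 → R1 → R0 → N → 0` (G4), and `M ≅ Hom(N, E)`.
Key lemma `extLift`: `R1 ⊆ R0` free of finite rank, `p R0 ⊆ R1`, `E` `p`-divisible ⇒ every
`f : R1 → E` extends to `R0` (Smith normal form).
-/
import Mathlib
import Fermat.Agent.CFT2.E.G4_helper24

set_option autoImplicit false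
set_option linter.style.haveILetI false
set_option linter.unusedSectionVars false
set_option linter.unusedVariables false

noncomputable section

namespace H24G

open H15D H14PT

/-- **ExtLift** -/
theorem extLift {A : Type} [AddCommGroup A] [Module.Free ℤ A] [Module.Finite ℤ A]
    (B : Submodule ℤ A) (p : ℕ) (hp : ∀ x : A, p • x ∈ B) {E : Type} [AddCommGroup E]
    (hdiv : ∀ x : E, ∃ y : E, p • y = x) (f : B →ₗ[ℤ] E) :
    ∃ F : A →ₗ[ℤ] E, F ∘ₗ B.subtype = f := by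
  classical
  obtain ⟨n, snf⟩ := Submodule.smithNormalForm (Module.Free.chooseBasis ℤ A) B
  -- `a i ∣ p`
  have hdvd : ∀ i : Fin n, ∃ c : ℤ, (p : ℤ) = snf.a i * c := by
    intro i
    have h1 := snf.repr_apply_embedding_eq_repr_smul ⟨p • snf.bM (snf.f i), hp _⟩ (i := i)
    refine ⟨snf.bN.repr ⟨p • snf.bM (snf.f i), hp _⟩ i, ?_⟩
    have h2 : snf.bM.repr (p • snf.bM (snf.f i)) (snf.f i) = (p : ℤ) := by
      rw [map_nsmul, Module.Basis.repr_self, Finsupp.smul_apply, Finsupp.single_eq_same]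
      simp
    have h3 : snf.bN.repr (snf.a i • (⟨p • snf.bM (snf.f i), hp _⟩ : B)) i
        = snf.a i * snf.bN.repr ⟨p • snf.bM (snf.f i), hp _⟩ i := by
      rw [map_smul, Finsupp.smul_apply, smul_eq_mul]
    rw [← h3, ← h1]
    exact h2.symm
  -- the values on the basis
  have hy : ∀ i : Fin n, ∃ y : E, snf.a i • y = f (snf.bN i) := by
    intro i
    obtain ⟨c, hc⟩ := hdvd i
    obtain ⟨y', hy'⟩ := hdiv (f (snf.bN i))
    refine ⟨c • y', ?_⟩
    rw [smul_smul, ← hc]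
    rw [← hy']
    exact (natCast_zsmul y' p)
  choose y hy using hy
  refine ⟨snf.bM.constr ℤ (fun j => if h : ∃ i, snf.f i = j then y h.choose else 0), ?_⟩
  apply snf.bN.ext
  intro i
  rw [LinearMap.comp_apply, Submodule.subtype_apply, snf.snf, map_smul,
    Module.Basis.constr_basis]
  have hex : ∃ i', snf.f i' = snf.f i := ⟨i, rfl⟩
  rw [dif_pos hex]
  have hi : hex.choose = i := snf.f.injective hex.choose_spec
  rw [hi]
  exact hy i

section seqA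

variable {N : Type} [AddCommGroup N] [Finite N]
  {H : Type} [Group H] {𝓥 : Levels H}
  {ρ0 : Representation ℤ H (R0 N)} {ρ1 : Representation ℤ H (R1 N)}
  {ρN' : Representation ℤ H N}
  (hπ : ∀ (h : H) (x : R0 N), π N (ρ0 h x) = ρN' h (π N x))
  (h1 : ∀ (h : H) (x : R1 N), ((ρ1 h x : R1 N) : R0 N) = ρ0 h x.1)
  (hlt0 : IsLevelTriv ρ0 𝓥)
  {E : Type} [AddCommGroup E] {ρE : Representation ℤ H E} (hE : IsSmooth 𝓥 (Rep.of ρE))
  (p : ℕ) (hdiv : ∀ x : E, ∃ y : E, p • y = x) (pN : ∀ n : N, p • n = 0)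
  {M : Type} [AddCommGroup M] {ρM : Representation ℤ H M} (e : M →ₗ[ℤ] (N →ₗ[ℤ] E))
  (he : ∀ (g : H) (m : M), e (ρM g m) = (ρE g) ∘ₗ (e m) ∘ₗ (ρN' g⁻¹))
  (hinj : Function.Injective e) (hsurj : ∀ f : N →ₗ[ℤ] E, ∃ m, e m = f)

/-- `M → Hom(R0, E)`, `m ↦ e m ∘ π` -/
def ιA (ρ0 : Representation ℤ H (R0 N)) (ρE : Representation ℤ H E)
    (e : M →ₗ[ℤ] (N →ₗ[ℤ] E)) : M →ₗ[ℤ] hm ρ0 ρE where
  toFun m := e m ∘ₗ π N
  map_add' m m' := by apply LinearMap.ext; intro x; simp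
  map_smul' a m := by apply LinearMap.ext; intro x; simp

@[simp] theorem ιA_apply (m : M) (x : R0 N) :
    (ιA ρ0 ρE e m : R0 N →ₗ[ℤ] E) x = e m (π N x) := rfl

/-- a linear map on `R0` vanishing on `R1` factors through `N` -/
theorem exists_factor (a : R0 N →ₗ[ℤ] E) (ha : ∀ x : R1 N, a x.1 = 0) :
    ∃ b : N →ₗ[ℤ] E, b ∘ₗ π N = a := by
  have hle : LinearMap.ker (π N) ≤ LinearMap.ker a := fun x hx => by
    rw [LinearMap.mem_ker]
    exact ha ⟨x, hx⟩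
  refine ⟨((LinearMap.ker (π N)).liftQ a hle) ∘ₗ
    ((π N).quotKerEquivOfSurjective π_surjective).symm.toLinearMap, ?_⟩
  apply LinearMap.ext
  intro x
  rw [LinearMap.comp_apply, LinearMap.comp_apply, LinearEquiv.coe_coe]
  have h1 : ((π N).quotKerEquivOfSurjective π_surjective).symm (π N x)
      = Submodule.Quotient.mk x := by
    rw [LinearEquiv.symm_apply_eq]
    rfl
  rw [h1, Submodule.liftQ_apply]

/-- **(G5)**, general form (any group `H` acting on `R0`, `R1`, `N` compatibly): the sequence (a)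
`0 → M → Hom(R0, E) → Hom(R1, E) → 0` -/
def sAgen : SES 𝓥 (Rep.of ρM) (hm ρ0 ρE) (hm ρ1 ρE) where
  ι := ιA ρ0 ρE e
  π := hmPre ρ0 ρ1 ρE (LinearMap.ker (π N)).subtype
  ι_comm := fun g m => by
    apply LinearMap.ext
    intro x
    change e (ρM g m) (π N x) = ρE g (e m (π N (ρ0 g⁻¹ x)))
    rw [he, hπ]
    rfl
  π_comm := hmPre_comm ρ0 ρ1 ρE (LinearMap.ker (π N)).subtype (fun g a => h1 g a)
  inj := fun m m' h => by
    apply hinj
    apply LinearMap.ext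
    intro n
    obtain ⟨x, rfl⟩ := π_surjective n
    exact congrArg (fun φ : R0 N →ₗ[ℤ] E => φ x) h
  surj := fun f => by
    haveI : Module.Finite ℤ (R0 N) := finite_R0
    obtain ⟨F, hF⟩ := extLift (LinearMap.ker (π N)) p (smul_mem_ker p pN) hdiv f
    exact ⟨F, hF⟩
  exact := fun a => by
    constructor
    · intro h
      have ha : ∀ x : R1 N, (a : R0 N →ₗ[ℤ] E) x.1 = 0 := fun x =>
        congrArg (fun φ : R1 N →ₗ[ℤ] E => φ x) h
      obtain ⟨b, hb⟩ := exists_factor a ha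
      obtain ⟨m, hm⟩ := hsurj b
      refine ⟨m, ?_⟩
      apply LinearMap.ext
      intro x
      change e m (π N x) = (a : R0 N →ₗ[ℤ] E) x
      rw [hm, ← hb]
      rfl
    · rintro ⟨m, rfl⟩
      apply LinearMap.ext
      intro x
      change e m (π N x.1) = 0
      rw [LinearMap.mem_ker.mp x.2, map_zero]
  smooth := by
    haveI : Module.Finite ℤ (R0 N) := finite_R0
    exact hm_isSmooth hlt0 hE

theorem sAgen_ι (m : M) :
    (sAgen hπ h1 hlt0 hE p hdiv pN e he hinj hsurj).ι m = e m ∘ₗ π N := rfl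

theorem sAgen_π (f : R0 N →ₗ[ℤ] E) :
    (sAgen hπ h1 hlt0 hE p hdiv pN e he hinj hsurj).π f
      = f ∘ₗ (LinearMap.ker (π N)).subtype := rfl

end seqA

section seqGlobal

variable {G : Type} [Group G] {N : Type} [AddCommGroup N] [Finite N]
  {ρN : Representation ℤ G N} {𝓤 : Levels G} (hlt : IsLevelTriv ρN 𝓤)
  {E : Type} [AddCommGroup E] {ρE : Representation ℤ G E} (hE : IsSmooth 𝓤 (Rep.of ρE))
  (p : ℕ) (hdiv : ∀ x : E, ∃ y : E, p • y = x) (pN : ∀ n : N, p • n = 0)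
  {M : Type} [AddCommGroup M] {ρM : Representation ℤ G M} (e : M →ₗ[ℤ] (N →ₗ[ℤ] E))
  (he : ∀ (g : G) (m : M), e (ρM g m) = (ρE g) ∘ₗ (e m) ∘ₗ (ρN g⁻¹))
  (hinj : Function.Injective e) (hsurj : ∀ f : N →ₗ[ℤ] E, ∃ m, e m = f)

/-- **(G5)** the sequence (a) for the resolution of G4 -/
def sA : SES 𝓤 (Rep.of ρM) (hm (ρR0 ρN) ρE) (hm (ρR1 ρN) ρE) :=
  sAgen (π_comm ρN) (fun _ _ => rfl) (isLevelTriv_R0 hlt) hE p hdiv pN e he hinj hsurj

theorem sA_ι (m : M) :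
    (sA hlt hE p hdiv pN e he hinj hsurj).ι m = e m ∘ₗ π N := rfl

theorem sA_π (f : R0 N →ₗ[ℤ] E) :
    (sA hlt hE p hdiv pN e he hinj hsurj).π f = f ∘ₗ (sR hlt).ι := rfl

end seqGlobal

section seqLocal

variable {G : Type} [Group G] {N : Type} [AddCommGroup N] [Finite N]
  {ρN : Representation ℤ G N} {𝓤 : Levels G} (hlt : IsLevelTriv ρN 𝓤)
  {H : Type} [Group H] {𝓥 : Levels H} (r : H →* G)
  (hr : ∀ U ∈ 𝓤.sets, ∃ V ∈ 𝓥.sets, V ≤ U.comap r)
  {X : Type} [AddCommGroup X] {ρX : Representation ℤ H X} (hX : IsSmooth 𝓥 (Rep.of ρX))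
  (p : ℕ) (hdiv : ∀ x : X, ∃ y : X, p • y = x) (pN : ∀ n : N, p • n = 0)
  {M : Type} [AddCommGroup M] {ρM : Representation ℤ G M} (e : M →ₗ[ℤ] (N →ₗ[ℤ] X))
  (he : ∀ (h : H) (m : M), e (ρM (r h) m) = (ρX h) ∘ₗ (e m) ∘ₗ (ρN (r h)⁻¹))
  (hinj : Function.Injective e) (hsurj : ∀ f : N →ₗ[ℤ] X, ∃ m, e m = f)

theorem isLevelTriv_comp {G : Type} [Group G] {𝓤 : Levels G} {H : Type} [Group H]
    {𝓥 : Levels H} (r : H →* G) (hr : ∀ U ∈ 𝓤.sets, ∃ V ∈ 𝓥.sets, V ≤ U.comap r)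
    {V : Type} [AddCommGroup V] {ρ : Representation ℤ G V}
    (h : IsLevelTriv ρ 𝓤) : IsLevelTriv (ρ.comp r) 𝓥 := by
  obtain ⟨U, hU, hfix⟩ := h
  obtain ⟨V', hV', hle⟩ := hr U hU
  exact ⟨V', hV', fun s hs x => hfix (r s) (hle hs) x⟩

/-- **(G5), local form**: the sequence (a) over a local group `H → G` -/
def sAloc : SES 𝓥 (Rep.of (ρM.comp r)) (hm ((ρR0 ρN).comp r) ρX) (hm ((ρR1 ρN).comp r) ρX) :=
  sAgen (ρ0 := (ρR0 ρN).comp r) (ρ1 := (ρR1 ρN).comp r) (ρN' := ρN.comp r) (ρM := ρM.comp r)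
    (fun h x => π_comm ρN (r h) x) (fun _ _ => rfl)
    (isLevelTriv_comp r hr (isLevelTriv_R0 hlt)) hX p hdiv pN e
    (fun h m => by
      have := he h m
      rw [← map_inv] at this
      exact this) hinj hsurj

theorem sAloc_ι (m : M) :
    (sAloc hlt r hr hX p hdiv pN e he hinj hsurj).ι m = e m ∘ₗ π N := rfl

theorem sAloc_π (f : R0 N →ₗ[ℤ] X) :
    (sAloc hlt r hr hX p hdiv pN e he hinj hsurj).π f = f ∘ₗ (sR hlt).ι := rfl

end seqLocal

end H24G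

end
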