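/-
W2-C (S55) block E (helper14): the CONCRETE Poitou-Tate data.

`ptData S hS ρM ρN hlt p pN hdivE hdivX e he hinj hsurj hsurjq` : `PTData` with
  `G = GQ`, `𝓤 = levelsS S`, `Q = ↥S`, `H q = Gal(ℚ̄_q/ℚ_q)`, `E = S`-units of `ℚ_S`,
  `I = ` semilocal ideles, `B = I/E`, `X q = ℚ̄_qˣ` (smooth part), `R0 = ℤ[N]`, `R1 = ker`,
  and the sequences (a) from the pairing `e : M → Hom(N, E)`.
-/
import Mathlib
import Fermat.Agent.CFT2.E.Setup
import Fermat.Agent.CFT2.E.Concrete
import Fermat.Agent.CFT2.E.G4_helper24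
import Fermat.Agent.CFT2.E.G5_helper24

set_option autoImplicit false
set_option linter.style.haveILetI false

noncomputable section

namespace H14PT

open H15D H15F ExtCitation H24G

local notation "Qb" => AlgebraicClosure ℚ
local notation "GQ" => (AlgebraicClosure ℚ ≃ₐ[ℚ] AlgebraicClosure ℚ)

variable (S : Finset Nat.Primes)

/-- primes are prime. -/
local instance factPrimeOfPrimesD (q : Nat.Primes) : Fact (q : ℕ).Prime := ⟨q.2⟩

/-- `E` is smooth -/
theorem isSmooth_E : IsSmooth (levelsS S) (Rep.of (ρE S)) := by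
  intro u
  obtain ⟨F, hF, hfix⟩ := (Additive.toMul u : sUnits S).2.1
  obtain ⟨F', hle, hF', hn⟩ := exists_normal_ge_of_isUnramifiedOutside hF
  refine ⟨F'.fixingSubgroup, ⟨F', hF', hn, rfl⟩, fun s hs => ?_⟩
  show Additive.ofMul (s • (Additive.toMul u : sUnits S)) = u
  apply congrArg Additive.ofMul (a₂ := (Additive.toMul u : sUnits S))
  apply Subtype.ext
  apply Units.ext
  have := hfix s (IntermediateField.fixingSubgroup_antitone hle hs) 1
  simpa using this

/-- the injectivity of `E → X q` -/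
theorem inclL_injective (q : Nat.Primes) : Function.Injective (inclL S q) := by
  intro u v h
  have h1 : inclM S q (Additive.toMul u) = inclM S q (Additive.toMul v) :=
    congrArg Additive.toMul h
  have h2 := congrArg (fun x : xbar (q : ℕ) => ((x : (PadicAlgCl (q : ℕ))ˣ) : PadicAlgCl (q : ℕ))) h1
  simp only [inclM_coe] at h2
  have h3 := (padicEmbedding (q : ℕ)).injective h2
  apply congrArg Additive.ofMul (a₁ := Additive.toMul u) (a₂ := Additive.toMul v)
  apply Subtype.ext
  apply Units.ext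
  exact h3

section data

variable (hS : S.Nonempty)
  {M N : Type} [AddCommGroup M] [AddCommGroup N] [Finite N]
  (ρM : Representation ℤ GQ M) (ρN : Representation ℤ GQ N)
  (hlt : IsLevelTriv ρN (levelsS S))
  (p : ℕ) (pN : ∀ n : N, p • n = 0)
  (hdivE : ∀ x : Additive (sUnits S), ∃ y : Additive (sUnits S), p • y = x)
  (hdivX : ∀ q : S, ∀ x : Additive (xbar ((q : Nat.Primes) : ℕ)),
    ∃ y : Additive (xbar ((q : Nat.Primes) : ℕ)), p • y = x)
  (e : M →ₗ[ℤ] (N →ₗ[ℤ] Additive (sUnits S)))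
  (he : ∀ (g : GQ) (m : M), e (ρM g m) = (ρE S g) ∘ₗ (e m) ∘ₗ (ρN g⁻¹))
  (hinj : Function.Injective e) (hsurj : ∀ f : N →ₗ[ℤ] Additive (sUnits S), ∃ m, e m = f)
  (hsurjq : ∀ q : S, ∀ f : N →ₗ[ℤ] Additive (xbar ((q : Nat.Primes) : ℕ)),
    ∃ m, (inclL S q) ∘ₗ (e m) = f)

/-- the local pairing `M → Hom(N, X q)` -/
def eLoc (q : Nat.Primes) : M →ₗ[ℤ] (N →ₗ[ℤ] Additive (xbar (q : ℕ))) where
  toFun m := (inclL S q) ∘ₗ (e m)
  map_add' m m' := by apply LinearMap.ext; intro x; simp
  map_smul' a m := by apply LinearMap.ext; intro x; simp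

omit [Finite N] in
@[simp] theorem eLoc_apply (q : Nat.Primes) (m : M) : eLoc S e q m = (inclL S q) ∘ₗ (e m) := rfl

include he in
omit [Finite N] in
theorem eLoc_comm (q : Nat.Primes) (h : Hq q) (m : M) :
    eLoc S e q (ρM (primeLocalToGlobal q h) m)
      = (ρX q h) ∘ₗ (eLoc S e q m) ∘ₗ (ρN (primeLocalToGlobal q h)⁻¹) := by
  apply LinearMap.ext
  intro x
  rw [eLoc_apply, he]
  simp only [LinearMap.comp_apply, eLoc_apply]
  exact inclL_comm S q h _

include hinj in
omit [Finite N] in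
theorem eLoc_injective (q : Nat.Primes) : Function.Injective (eLoc S e q) := by
  intro m m' h
  apply hinj
  apply LinearMap.ext
  intro x
  apply inclL_injective S q
  exact LinearMap.congr_fun h x

/-- **the concrete Poitou-Tate data** -/
def ptData : PTData where
  G := GQ
  𝓤 := levelsS S
  Q := ↥S
  H := fun q => Hq q.1
  𝓥 := fun q => 𝓥q q.1
  r := fun q => primeLocalToGlobal q.1
  hr := fun q => levelsS_le_levelsLoc S (primeLocalToGlobal q.1)
  E := Additive (sUnits S)
  ρE := ρE S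
  I := Additive (ideles S)
  ρI := ρI S
  B := Additive (ideles S) ⧸ imE S
  ρB := ρB S
  sEIB := sEIB S hS
  X := fun q => Additive (xbar ((q : Nat.Primes) : ℕ))
  ρX := fun q => ρX q.1
  smX := fun q => isSmooth_X q.1
  incl := fun q => inclL S q.1
  incl_comm := fun q h u => inclL_comm S q.1 h u
  pr := fun q => prL' S q
  pr_comm := fun q h x => prL'_comm S q h x
  pr_ι := fun q u => prL'_ι S q hS u
  R0 := R0 N
  ρR0 := ρR0 ρN
  R1 := R1 N
  ρR1 := ρR1 ρN
  N := N
  ρN := ρN
  sR := sR hlt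
  ltR0 := isLevelTriv_R0 hlt
  ltR1 := isLevelTriv_R1 hlt
  M := M
  ρM := ρM
  sA := sA hlt (isSmooth_E S) p hdivE pN e he hinj hsurj
  sA_π := fun f => rfl
  sAq := fun q => sAloc hlt (primeLocalToGlobal q.1)
    (levelsS_le_levelsLoc S (primeLocalToGlobal q.1)) (isSmooth_X q.1) p (hdivX q) pN
    (eLoc S e q.1) (eLoc_comm S ρM ρN e he q.1) (eLoc_injective S e hinj q.1) (hsurjq q)
  sAq_π := fun q f => rfl
  sAq_ι := fun q m => rfl

end data

end H14PT

end
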