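/-
W2-C (S55) block E (helper14): the ABSTRACT diagram chase of the master plan
(NOTES/W2C-master.md, section 2).  Pure algebra: no Galois groups, no cohomology.

`H14PT.h14pt_chase`: from the exactness statements of the long exact sequences and the
arithmetic inputs (Claims 1-5 of the plan) conclude that `sha2` is finite-dimensional with
the same dimension as `sha1`.
-/
import Mathlib

set_option autoImplicit false

namespace H14PT

open Module

section Chase

variable {p : ℕ} [Fact p.Prime]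
variable {H2M H1N : Type*} [AddCommGroup H2M] [Module (ZMod p) H2M]
  [AddCommGroup H1N] [Module (ZMod p) H1N]
variable {B1 B0 I1 E1 E0 : Type*} [AddCommGroup B1] [AddCommGroup B0] [AddCommGroup I1]
  [AddCommGroup E1] [AddCommGroup E0]

/-- an additive map between `ZMod p`-vector spaces is linear. -/
def addHomToLin {V W : Type*} [AddCommGroup V] [Module (ZMod p) V] [AddCommGroup W]
    [Module (ZMod p) W] (f : V →+ W) : V →ₗ[ZMod p] W where
  toFun := f
  map_add' := f.map_add
  map_smul' c x := by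
    obtain ⟨n, rfl⟩ := ZMod.natCast_zmod_surjective c
    simp only [RingHom.id_apply]
    rw [Nat.cast_smul_eq_nsmul, Nat.cast_smul_eq_nsmul, map_nsmul]

theorem smul_eq_zero_of_coprime {V : Type*} [AddCommGroup V] [Module (ZMod p) V] {m : ℕ}
    (hm : m.Coprime p) {x : V} (h : m • x = 0) : x = 0 := by
  have hu : IsUnit (m : ZMod p) := (ZMod.isUnit_iff_coprime m p).2 hm
  rw [← Nat.cast_smul_eq_nsmul (ZMod p)] at h
  exact (hu.smul_eq_zero).1 h

/-- a subspace of the dual of a finite-dimensional space with trivial annihilator is `⊤`. -/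
theorem dual_sub_eq_top {V : Type*} [AddCommGroup V] [Module (ZMod p) V]
    [FiniteDimensional (ZMod p) V] (W : Submodule (ZMod p) (Dual (ZMod p) V))
    (h : ∀ y : V, (∀ φ ∈ W, φ y = 0) → y = 0) : W = ⊤ := by
  have h1 : W.dualCoannihilator = ⊥ := by
    rw [eq_bot_iff]
    intro y hy
    rw [Submodule.mem_dualCoannihilator] at hy
    exact (Submodule.mem_bot _).2 (h y hy)
  have h2 := Subspace.dualCoannihilator_dualAnnihilator_eq (W := W)
  rw [h1, Submodule.dualAnnihilator_bot] at h2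
  exact h2.symm

theorem h14pt_chase
    (sha2 : Submodule (ZMod p) H2M) (sha1 : Submodule (ZMod p) H1N)
    [FiniteDimensional (ZMod p) sha1]
    (δ₁ : B1 →+ E1) (δ₀ : B0 →+ E0) (ρB : B0 →+ B1) (ρE : E0 →+ E1) (πB : I1 →+ B1)
    (d : E1 →+ H2M) (P : B1 →+ (H1N →ₗ[ZMod p] ZMod p))
    (nat : ∀ a, ρE (δ₀ a) = δ₁ (ρB a))
    (x1 : ∀ t, d t = 0 → ∃ ε, ρE ε = t)
    (z2 : ∀ ε, d (ρE ε) = 0)
    (x3 : ∀ b, δ₁ b = 0 → ∃ c, πB c = b)
    (z1 : ∀ c, δ₁ (πB c) = 0)
    (x5 : ∀ ε, ∃ a, δ₀ a = ε)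
    (c1 : ∀ b, d (δ₁ b) ∈ sha2)
    (c2 : ∀ x ∈ sha2, ∃ b, d (δ₁ b) = x)
    (p1 : ∀ a y, P (ρB a) y = 0)
    (p2 : ∀ c, ∀ y ∈ sha1, P (πB c) y = 0)
    (h4 : ∀ b, (∀ y ∈ sha1, P b y = 0) → ∃ c, ∀ y, P (b - πB c) y = 0)
    (h4' : ∀ b, (∀ y, P b y = 0) → ∃ m : ℕ, m.Coprime p ∧ ∃ a, m • b = ρB a)
    (h5 : ∀ y ∈ sha1, y ≠ 0 → ∃ b, P b y ≠ 0) :
    FiniteDimensional (ZMod p) sha2 ∧ finrank (ZMod p) sha2 = finrank (ZMod p) sha1 := by
  classical
  -- Φ and L
  let Φ : B1 →+ H2M := d.comp δ₁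
  let L : B1 →+ Dual (ZMod p) sha1 :=
    { toFun := fun b => (P b).comp sha1.subtype
      map_zero' := by ext y; simp
      map_add' := fun b b' => by ext y; simp }
  have hL : ∀ b (y : sha1), L b y = P b (y : H1N) := fun b y => rfl
  -- ker Φ = ker L
  have hker : ∀ b, Φ b = 0 ↔ L b = 0 := by
    intro b
    constructor
    · intro hb
      obtain ⟨ε, hε⟩ := x1 (δ₁ b) hb
      obtain ⟨a, ha⟩ := x5 ε
      have h0 : δ₁ (b - ρB a) = 0 := by
        rw [map_sub, ← nat a, ha, hε, sub_self]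
      obtain ⟨c, hc⟩ := x3 _ h0
      have hb' : b = ρB a + πB c := by rw [hc]; abel
      ext y
      rw [hL, hb', map_add, LinearMap.add_apply, p1 a y, p2 c y y.2]
      simp
    · intro hb
      have hb0 : ∀ y ∈ sha1, P b y = 0 := fun y hy => by
        have := congrArg (fun φ : Dual (ZMod p) sha1 => φ ⟨y, hy⟩) hb
        simpa [hL] using this
      obtain ⟨c, hc⟩ := h4 b hb0
      obtain ⟨m, hm, a, ha⟩ := h4' (b - πB c) hc
      have h1 : Φ (m • (b - πB c)) = 0 := by
        rw [ha]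
        change d (δ₁ (ρB a)) = 0
        rw [← nat a, z2]
      rw [map_nsmul] at h1
      have h2 : Φ (b - πB c) = 0 := smul_eq_zero_of_coprime hm h1
      have h3 : Φ (πB c) = 0 := by
        change d (δ₁ (πB c)) = 0
        rw [z1, map_zero]
      have : Φ b = Φ (b - πB c) + Φ (πB c) := by rw [← map_add]; congr 1; abel
      rw [this, h2, h3, add_zero]
  -- range L is everything
  let W : Submodule (ZMod p) (Dual (ZMod p) sha1) :=
    { carrier := Set.range L
      zero_mem' := ⟨0, map_zero L⟩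
      add_mem' := by
        rintro _ _ ⟨b, rfl⟩ ⟨b', rfl⟩
        exact ⟨b + b', map_add L b b'⟩
      smul_mem' := by
        rintro c _ ⟨b, rfl⟩
        obtain ⟨n, rfl⟩ := ZMod.natCast_zmod_surjective c
        refine ⟨n • b, ?_⟩
        rw [map_nsmul, Nat.cast_smul_eq_nsmul] }
  have hW : W = ⊤ := by
    apply dual_sub_eq_top
    intro y hy
    by_contra hne
    have hne' : (y : H1N) ≠ 0 := fun h => hne (Subtype.ext h)
    obtain ⟨b, hb⟩ := h5 (y : H1N) y.2 hne'
    exact hb (hy (L b) ⟨b, rfl⟩)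
  have hLsurj : Function.Surjective L := by
    intro φ
    have : φ ∈ W := by rw [hW]; trivial
    exact this
  -- the map sha2 → Dual sha1
  have hΦsurj : ∀ x : sha2, ∃ b, Φ b = (x : H2M) := fun x => c2 x x.2
  -- define ψ : Dual sha1 → sha2 by choosing preimages under L
  let ψ : Dual (ZMod p) sha1 → sha2 := fun φ => ⟨Φ (Classical.choose (hLsurj φ)), c1 _⟩
  have hψ : ∀ b, ψ (L b) = ⟨Φ b, c1 b⟩ := by
    intro b
    apply Subtype.ext
    change Φ (Classical.choose (hLsurj (L b))) = Φ b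
    have hc := Classical.choose_spec (hLsurj (L b))
    have : Φ (Classical.choose (hLsurj (L b)) - b) = 0 := by
      rw [hker, map_sub, hc, sub_self]
    rw [map_sub, sub_eq_zero] at this
    exact this
  let ψadd : Dual (ZMod p) sha1 →+ sha2 :=
    { toFun := ψ
      map_zero' := by
        have := hψ 0
        rw [map_zero] at this
        rw [this]
        apply Subtype.ext
        simp
      map_add' := by
        intro φ φ'
        obtain ⟨b, rfl⟩ := hLsurj φ
        obtain ⟨b', rfl⟩ := hLsurj φ'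
        rw [← map_add, hψ, hψ, hψ]
        apply Subtype.ext
        simp }
  have hψinj : Function.Injective ψadd := by
    rw [injective_iff_map_eq_zero]
    intro φ hφ
    obtain ⟨b, rfl⟩ := hLsurj φ
    have h1 : ψ (L b) = 0 := hφ
    rw [hψ] at h1
    have h2 : Φ b = 0 := congrArg Subtype.val h1
    exact (hker b).1 h2
  have hψsurj : Function.Surjective ψadd := by
    intro x
    obtain ⟨b, hb⟩ := hΦsurj x
    refine ⟨L b, ?_⟩
    change ψ (L b) = x
    rw [hψ]
    exact Subtype.ext hb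
  let e : Dual (ZMod p) sha1 ≃ₗ[ZMod p] sha2 :=
    LinearEquiv.ofBijective (addHomToLin ψadd) ⟨hψinj, hψsurj⟩
  refine ⟨Module.Finite.equiv e, ?_⟩
  rw [← e.finrank_eq, Subspace.dual_finrank_eq]

end Chase

end H14PT
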