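/-
W2-C (S55) block E (helper14): the abstract chase for additive groups killed by `p`
(no module structures in the statement), the decomposition of functionals vanishing on an
intersection, and the "invariant" `inv` of a group whose `p`-torsion is cyclic.
-/
import Mathlib
import Fermat.Agent.CFT2.E.Chase

set_option autoImplicit false
set_option linter.style.haveILetI false
set_option linter.unusedSectionVars false

noncomputable section

namespace H14PT

open Module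

section

variable {p : ℕ} [Fact p.Prime]

/-- the chase, with conclusion on cardinalities. -/
theorem h14pt_chase_mod {H2M H1N B1 B0 I1 E1 E0 : Type} [AddCommGroup H2M] [AddCommGroup H1N]
    [Module (ZMod p) H2M] [Module (ZMod p) H1N]
    [AddCommGroup B1] [AddCommGroup B0] [AddCommGroup I1] [AddCommGroup E1] [AddCommGroup E0]
    (sha2 : AddSubgroup H2M) (sha1 : AddSubgroup H1N) [Finite sha1]
    (δ₁ : B1 →+ E1) (δ₀ : B0 →+ E0) (ρB : B0 →+ B1) (ρE : E0 →+ E1) (πB : I1 →+ B1)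
    (d : E1 →+ H2M) (P : B1 →+ (H1N →+ ZMod p))
    (nat : ∀ a, ρE (δ₀ a) = δ₁ (ρB a))
    (x1 : ∀ t, d t = 0 → ∃ ε, ρE ε = t)
    (z2 : ∀ ε, d (ρE ε) = 0)
    (x3 : ∀ b, δ₁ b = 0 → ∃ c, πB c = b)
    (z1 : ∀ c, δ₁ (πB c) = 0)
    (x5 : ∀ ε, ∃ a, δ₀ a = ε)
    (c1 : ∀ b, d (δ₁ b) ∈ sha2)
    (c2 : ∀ x ∈ sha2, ∃ b, d (δ₁ b) = x)
    (p1 : ∀ a y, P (ρB a) y = 0)
    (p2 : ∀ c, ∀ y ∈ sha1, P (πB c) y = 0)
    (h4 : ∀ b, (∀ y ∈ sha1, P b y = 0) → ∃ c, ∀ y, P (b - πB c) y = 0)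
    (h4' : ∀ b, (∀ y, P b y = 0) → ∃ m : ℕ, m.Coprime p ∧ ∃ a, m • b = ρB a)
    (h5 : ∀ y ∈ sha1, y ≠ 0 → ∃ b, P b y ≠ 0) :
    Finite sha2 ∧ Nat.card sha2 = Nat.card sha1 := by
  let s2 : Submodule (ZMod p) H2M := AddSubgroup.toZModSubmodule p sha2
  let s1 : Submodule (ZMod p) H1N := AddSubgroup.toZModSubmodule p sha1
  haveI : Finite (↥s1) := show Finite (↥sha1) from inferInstance
  haveI : FiniteDimensional (ZMod p) s1 := Module.Finite.of_finite
  let P' : B1 →+ (H1N →ₗ[ZMod p] ZMod p) :=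
    { toFun := fun b => (P b).toZModLinearMap p
      map_zero' := by ext y; simp
      map_add' := fun b b' => by ext y; simp }
  obtain ⟨hfin, hrank⟩ := h14pt_chase (p := p) s2 s1 δ₁ δ₀ ρB ρE πB d P' nat x1 z2 x3 z1 x5
    c1 c2 p1 p2 h4 h4' h5
  haveI := hfin
  haveI : Finite (↥s2) := Module.finite_of_finite (ZMod p)
  refine ⟨show Finite (↥s2) from inferInstance, ?_⟩
  have e2 : Nat.card s2 = p ^ finrank (ZMod p) s2 := by
    rw [Module.natCard_eq_pow_finrank (K := ZMod p) (V := s2), Nat.card_zmod]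
  have e1 : Nat.card s1 = p ^ finrank (ZMod p) s1 := by
    rw [Module.natCard_eq_pow_finrank (K := ZMod p) (V := s1), Nat.card_zmod]
  show Nat.card s2 = Nat.card s1
  rw [e1, e2, hrank]

/-- the chase, for additive groups killed by `p`. -/
theorem h14pt_chase' {H2M H1N B1 B0 I1 E1 E0 : Type} [AddCommGroup H2M] [AddCommGroup H1N]
    [AddCommGroup B1] [AddCommGroup B0] [AddCommGroup I1] [AddCommGroup E1] [AddCommGroup E0]
    (hH2M : ∀ x : H2M, p • x = 0) (hH1N : ∀ x : H1N, p • x = 0)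
    (sha2 : AddSubgroup H2M) (sha1 : AddSubgroup H1N) [Finite sha1]
    (δ₁ : B1 →+ E1) (δ₀ : B0 →+ E0) (ρB : B0 →+ B1) (ρE : E0 →+ E1) (πB : I1 →+ B1)
    (d : E1 →+ H2M) (P : B1 →+ (H1N →+ ZMod p))
    (nat : ∀ a, ρE (δ₀ a) = δ₁ (ρB a))
    (x1 : ∀ t, d t = 0 → ∃ ε, ρE ε = t)
    (z2 : ∀ ε, d (ρE ε) = 0)
    (x3 : ∀ b, δ₁ b = 0 → ∃ c, πB c = b)
    (z1 : ∀ c, δ₁ (πB c) = 0)
    (x5 : ∀ ε, ∃ a, δ₀ a = ε)
    (c1 : ∀ b, d (δ₁ b) ∈ sha2)
    (c2 : ∀ x ∈ sha2, ∃ b, d (δ₁ b) = x)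
    (p1 : ∀ a y, P (ρB a) y = 0)
    (p2 : ∀ c, ∀ y ∈ sha1, P (πB c) y = 0)
    (h4 : ∀ b, (∀ y ∈ sha1, P b y = 0) → ∃ c, ∀ y, P (b - πB c) y = 0)
    (h4' : ∀ b, (∀ y, P b y = 0) → ∃ m : ℕ, m.Coprime p ∧ ∃ a, m • b = ρB a)
    (h5 : ∀ y ∈ sha1, y ≠ 0 → ∃ b, P b y ≠ 0) :
    Finite sha2 ∧ Nat.card sha2 = Nat.card sha1 :=
  @h14pt_chase_mod p _ H2M H1N B1 B0 I1 E1 E0 _ _ (AddCommGroup.zmodModule hH2M)
    (AddCommGroup.zmodModule hH1N) _ _ _ _ _ sha2 sha1 _ δ₁ δ₀ ρB ρE πB d P nat x1 z2 x3 z1 x5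
    c1 c2 p1 p2 h4 h4' h5

/-- decomposition of functionals, module version. -/
theorem h14pt_decomp_mod {V : Type} [AddCommGroup V] [Module (ZMod p) V] [Finite V]
    {Q : Type} [Fintype Q] (K : Q → AddSubgroup V) (ψ : V →+ ZMod p)
    (hψ : ∀ y, (∀ q, y ∈ K q) → ψ y = 0) :
    ∃ μ : Q → (V →+ ZMod p), (∀ q, ∀ y ∈ K q, μ q y = 0) ∧ ∀ y, ψ y = ∑ q, μ q y := by
  classical
  haveI : FiniteDimensional (ZMod p) V := Module.Finite.of_finite
  let W : Q → Submodule (ZMod p) V := fun q => AddSubgroup.toZModSubmodule p (K q)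
  let ψ' : V →ₗ[ZMod p] ZMod p := ψ.toZModLinearMap p
  have h1 : ψ' ∈ (⨅ q, W q : Submodule (ZMod p) V).dualAnnihilator := by
    rw [Submodule.mem_dualAnnihilator]
    intro y hy
    rw [Submodule.mem_iInf] at hy
    exact hψ y hy
  rw [Subspace.dualAnnihilator_iInf_eq] at h1
  have h2 : ψ' ∈ ⨆ q ∈ (Finset.univ : Finset Q), (W q).dualAnnihilator := by
    simpa using h1
  rw [Submodule.mem_iSup_finset_iff_exists_sum] at h2
  obtain ⟨μ, hμ⟩ := h2
  refine ⟨fun q => ((μ q : Dual (ZMod p) V)).toAddMonoidHom, fun q y hy => ?_, fun y => ?_⟩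
  · have := (Submodule.mem_dualAnnihilator _).1 (μ q).2 y hy
    exact this
  · have := congrArg (fun φ : Dual (ZMod p) V => φ y) hμ
    simp only [LinearMap.sum_apply] at this
    exact this.symm

/-- a functional vanishing on an intersection of finitely many subgroups is a sum of
functionals each vanishing on one of them. -/
theorem h14pt_decomp {V : Type} [AddCommGroup V] [Finite V] (hV : ∀ x : V, p • x = 0)
    {Q : Type} [Fintype Q] (K : Q → AddSubgroup V) (ψ : V →+ ZMod p)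
    (hψ : ∀ y, (∀ q, y ∈ K q) → ψ y = 0) :
    ∃ μ : Q → (V →+ ZMod p), (∀ q, ∀ y ∈ K q, μ q y = 0) ∧ ∀ y, ψ y = ∑ q, μ q y :=
  @h14pt_decomp_mod p _ V _ (AddCommGroup.zmodModule hV) _ Q _ K ψ hψ

/-- the `p`-torsion subgroup. -/
def ptors (p : ℕ) (T : Type) [AddCommGroup T] : AddSubgroup T where
  carrier := {x | p • x = 0}
  zero_mem' := smul_zero p
  add_mem' := fun {x y} hx hy => by
    show p • (x + y) = 0
    rw [smul_add, hx, hy, add_zero]
  neg_mem' := fun {x} hx => by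
    show p • (-x) = 0
    rw [smul_neg, hx, neg_zero]

theorem mem_ptors {T : Type} [AddCommGroup T] (x : T) : x ∈ ptors p T ↔ p • x = 0 := Iff.rfl

/-- if the `p`-torsion of `T` is cyclic, it embeds into `ZMod p`, bijectively if nonzero. -/
theorem h14pt_exists_inv {T : Type} [AddCommGroup T]
    (hdim : ∀ x y : T, p • x = 0 → p • y = 0 → x ≠ 0 → ∃ k : ℤ, y = k • x) :
    ∃ inv : ptors p T →+ ZMod p, Function.Injective inv ∧
      ((∃ x : T, p • x = 0 ∧ x ≠ 0) → Function.Surjective inv) := by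
  classical
  by_cases h : ∃ x : T, p • x = 0 ∧ x ≠ 0
  · obtain ⟨x₀, hx₀, hne⟩ := h
    have hp : p.Prime := Fact.out
    -- the map ZMod p → ptors
    let f0 : ℤ →+ ptors p T := zmultiplesHom (ptors p T) ⟨x₀, hx₀⟩
    have hf0 : ∀ k : ℤ, ((f0 k : ptors p T) : T) = k • x₀ := fun k => by
      simp [f0, zmultiplesHom_apply]
    have hker : ∀ k : ℤ, f0 k = 0 ↔ (p : ℤ) ∣ k := by
      intro k
      constructor
      · intro hk
        by_contra hnd
        have hcop : IsCoprime k (p : ℤ) := by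
          have := (Int.prime_iff_natAbs_prime.2 (by simpa using hp)).coprime_iff_not_dvd.2 hnd
          exact this.symm
        obtain ⟨a, b, hab⟩ := hcop
        have h1 : k • x₀ = 0 := by rw [← hf0, hk]; rfl
        have h2 : (a * k + b * p) • x₀ = 0 := by
          rw [add_smul, mul_smul, mul_smul, h1, smul_zero, natCast_zsmul, hx₀, smul_zero,
            add_zero]
        rw [hab, one_smul] at h2
        exact hne h2
      · rintro ⟨c, rfl⟩
        apply Subtype.ext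
        rw [hf0, mul_smul, natCast_zsmul]
        have : p • (c • x₀) = c • (p • x₀) := by
          rw [← natCast_zsmul, smul_comm, natCast_zsmul]
        rw [this, hx₀, smul_zero]
        rfl
    let f : ZMod p →+ ptors p T := ZMod.lift p ⟨f0, (hker p).2 dvd_rfl⟩
    have hf : ∀ k : ℤ, f (k : ZMod p) = f0 k := fun k => ZMod.lift_coe p _ k
    have hinj : Function.Injective f := by
      rw [injective_iff_map_eq_zero]
      intro a ha
      obtain ⟨k, rfl⟩ := ZMod.intCast_surjective a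
      rw [hf, hker] at ha
      exact (ZMod.intCast_zmod_eq_zero_iff_dvd k p).2 ha
    have hsurj : Function.Surjective f := by
      intro y
      obtain ⟨k, hk⟩ := hdim x₀ y hx₀ y.2 hne
      refine ⟨(k : ZMod p), ?_⟩
      rw [hf]
      apply Subtype.ext
      rw [hf0, hk]
    let e : ZMod p ≃+ ptors p T := AddEquiv.ofBijective f ⟨hinj, hsurj⟩
    exact ⟨e.symm.toAddMonoidHom, e.symm.injective, fun _ => e.symm.surjective⟩
  · refine ⟨0, ?_, fun h' => absurd h' h⟩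
    intro x y _
    have hx : (x : T) = 0 := by
      by_contra hx
      exact h ⟨x, x.2, hx⟩
    have hy : (y : T) = 0 := by
      by_contra hy
      exact h ⟨y, y.2, hy⟩
    exact Subtype.ext (hx.trans hy.symm)

end

end H14PT

end
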