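/-
W2-C (S55) block E (helper14): instantiation of the abstract chase, part 1:
Claim 1 (`c1`: the image of `Φ = δ_(a) ∘ δ_(b)` lies in `Ш²(M)`) and Claim 2 (`c2`: `Ш²(M)` is
contained in the image of `Φ`), together with the formal exactness statements.
-/
import Mathlib
import Fermat.Agent.CFT2.E.Setup

set_option autoImplicit false

noncomputable section

namespace H14PT

open H15D

namespace PTData

variable (D : PTData)

/-- the morphism from (a) to its local version at `q`. -/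
def mapA (q : D.Q) : SESMap D.sA (D.sAq q) where
  r := D.r q
  levels := D.hr q
  φ' := LinearMap.id
  φ := D.lamL D.ρR0 q
  φ'' := D.lamL D.ρR1 q
  compat' _ _ := rfl
  compat := (D.lam D.ρR0 q).compat
  compat'' := (D.lam D.ρR1 q).compat
  sq_ι m := (D.sAq_ι q m).symm
  sq_π f := by
    rw [D.sA_π, D.sAq_π]
    rfl

/-- `Φ = δ_(a) ∘ δ_(b)`. -/
def Φ : (hm D.ρR1 D.ρB).ρ.invariants →ₗ[ℤ] lcH2 D.𝓤 (Rep.of D.ρM) :=
  D.sA.δ₁ ∘ₗ D.sB1.δ₀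

theorem lam_δ₀_eq_zero (q : D.Q) (b : (hm D.ρR1 D.ρB).ρ.invariants) :
    (D.lam D.ρR1 q).H1 (D.sB1.δ₀ b) = 0 := by
  obtain ⟨m, f', -, hf', hδ⟩ := D.sB1.exists_δ₀_rep b
  rw [hδ, PP.H1_π, lcH1π_eq_zero_iff]
  refine ⟨D.prL D.ρR1 q m, ?_⟩
  have h1 := (D.prH D.ρR1 q).d₀₁_φ m
  have h2 : (D.prH D.ρR1 q).φ m = D.prL D.ρR1 q m := rfl
  rw [h2] at h1
  rw [h1, ← hf']
  funext h
  apply LinearMap.ext
  intro x
  exact D.pr_ι q _

theorem resM_δ₁ (q : D.Q) (t : lcH1 D.𝓤 (hm D.ρR1 D.ρE)) :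
    (D.resM q).H2 (D.sA.δ₁ t) = (D.sAq q).δ₁ ((D.lam D.ρR1 q).H1 t) := by
  have h := (D.mapA q).δ₁_comm t
  have h1 : (D.mapA q).P'.H2 (D.sA.δ₁ t) = (D.resM q).H2 (D.sA.δ₁ t) :=
    PP.H2_congr rfl rfl _
  have h2 : (D.mapA q).P''.H1 t = (D.lam D.ρR1 q).H1 t := PP.H1_congr rfl rfl _
  rw [← h1, ← h, h2]

/-- **Claim 1**. -/
theorem c1 (b : (hm D.ρR1 D.ρB).ρ.invariants) : D.Φ b ∈ D.sha2 := by
  rw [mem_sha2_iff]
  intro q
  show (D.resM q).H2 (D.sA.δ₁ (D.sB1.δ₀ b)) = 0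
  rw [resM_δ₁, lam_δ₀_eq_zero, map_zero]

theorem lam_Pι (q : D.Q) (x : lcH2 D.𝓤 (Rep.of D.ρM)) :
    (D.lam D.ρR0 q).H2 (D.sA.Pι.H2 x) = (D.sAq q).Pι.H2 ((D.resM q).H2 x) := by
  rw [← PP.comp_H2, ← PP.comp_H2]
  apply PP.H2_congr
  · rfl
  · apply LinearMap.ext
    intro m
    exact (D.sAq_ι q m).symm

theorem prH_Pι (q : D.Q) (t : lcH1 D.𝓤 (hm D.ρR1 D.ρE)) :
    (D.prH D.ρR1 q).H1 (D.sB1.Pι.H1 t) = (D.lam D.ρR1 q).H1 t := by
  rw [← PP.comp_H1]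
  apply PP.H1_congr
  · rfl
  · apply LinearMap.ext
    intro f
    apply LinearMap.ext
    intro x
    exact D.pr_ι q _

/-- a class in the cohomology of a module killed by `p` is killed by `p`. -/
theorem smul_lcH2_eq_zero {G : Type} [Group G] (𝓤 : Levels G) (A : Rep.{0} ℤ G) (p : ℕ)
    (hA : ∀ a : A, p • a = 0) (x : lcH2 𝓤 A) : p • x = 0 := by
  obtain ⟨c, rfl⟩ := lcH2π_surjective x
  rw [← map_nsmul]
  have : p • c = 0 := by
    apply Subtype.ext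
    funext g
    exact hA _
  rw [this, map_zero]

theorem smul_lcH1_eq_zero {G : Type} [Group G] (𝓤 : Levels G) (A : Rep.{0} ℤ G) (p : ℕ)
    (hA : ∀ a : A, p • a = 0) (x : lcH1 𝓤 A) : p • x = 0 := by
  obtain ⟨c, rfl⟩ := lcH1π_surjective x
  rw [← map_nsmul]
  have : p • c = 0 := by
    apply Subtype.ext
    funext g
    exact hA _
  rw [this, map_zero]

/-- **Claim 2**. -/
theorem c2 {p : ℕ} (h : PTHyp D p) (x : lcH2 D.𝓤 (Rep.of D.ρM)) (hx : x ∈ D.sha2) :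
    ∃ b, D.Φ b = x := by
  rw [mem_sha2_iff] at hx
  -- step 1
  have hu : D.sA.Pι.H2 x = 0 := by
    apply h.hp
    · rw [← map_nsmul, smul_lcH2_eq_zero D.𝓤 (Rep.of D.ρM) p h.pM, map_zero]
    · intro q
      rw [lam_Pι, hx q, map_zero]
  obtain ⟨t, ht⟩ := (D.sA.exact_H2' x).1 hu
  -- step 2
  have ht' : D.sB1.Pι.H1 t = 0 := by
    apply h.sh1
    intro q
    rw [prH_Pι]
    have h1 : (D.sAq q).δ₁ ((D.lam D.ρR1 q).H1 t) = 0 := by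
      rw [← resM_δ₁, ht, hx q]
    obtain ⟨s, hs⟩ := ((D.sAq q).exact_H1'' _).1 h1
    rw [← hs, h.h90loc q s, map_zero]
  -- step 3
  obtain ⟨b, hb⟩ := (D.sB1.exact_H1' t).1 ht'
  exact ⟨b, by show D.sA.δ₁ (D.sB1.δ₀ b) = x; rw [hb, ht]⟩

end PTData

end H14PT

end
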