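/-
W2-C (S55) block E (helper14): instantiation of the abstract chase, part 2:
the formal exactness statements (`nat`, `x1`, `z2`, `x3`, `z1`, `x5`) and the pairing
`b ↦ (y ↦ b_* β y)` with its formal properties (`p1`, `p2`, `h5`, `h4'`).
-/
import Mathlib
import Fermat.Agent.CFT2.E.Main1

set_option autoImplicit false

noncomputable section

namespace H14PT

open H15D

section general

variable {k : Type} [CommRing k] {G H : Type} [Group G] [Group H]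

/-- restriction of a short exact sequence along a group homomorphism. -/
def sesRes {𝓤 : Levels G} {𝓥 : Levels H} {A' A A'' : Rep.{0} k G} (E : SES 𝓤 A' A A'')
    (r : H →* G) (hr : ∀ U ∈ 𝓤.sets, ∃ V ∈ 𝓥.sets, V ≤ U.comap r) :
    SES 𝓥 (Rep.res r A') (Rep.res r A) (Rep.res r A'') where
  ι := E.ι
  π := E.π
  ι_comm h a := E.ι_comm (r h) a
  π_comm h a := E.π_comm (r h) a
  inj := E.inj
  surj := E.surj
  exact := E.exact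
  smooth m := by
    obtain ⟨U, hU, h⟩ := E.smooth m
    obtain ⟨V, hV, hVU⟩ := hr U hU
    exact ⟨V, hV, fun s hs => h (r s) (hVU hs)⟩

/-- the restriction morphism of short exact sequences. -/
def sesResMap {𝓤 : Levels G} {𝓥 : Levels H} {A' A A'' : Rep.{0} k G} (E : SES 𝓤 A' A A'')
    (r : H →* G) (hr : ∀ U ∈ 𝓤.sets, ∃ V ∈ 𝓥.sets, V ≤ U.comap r) :
    SESMap E (sesRes E r hr) where
  r := r
  levels := hr
  φ' := LinearMap.id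
  φ := LinearMap.id
  φ'' := LinearMap.id
  compat' _ _ := rfl
  compat _ _ := rfl
  compat'' _ _ := rfl
  sq_ι _ := rfl
  sq_π _ := rfl

/-- the map on `H²` induced by a change of coefficients is additive in the coefficient map. -/
theorem ofLinear_add_H2 (𝓤 : Levels G) {A B : Rep.{0} k G} (φ φ' : A →ₗ[k] B)
    (hφ : ∀ g a, φ (A.ρ g a) = B.ρ g (φ a)) (hφ' : ∀ g a, φ' (A.ρ g a) = B.ρ g (φ' a))
    (hφφ' : ∀ g a, (φ + φ') (A.ρ g a) = B.ρ g ((φ + φ') a)) (x : lcH2 𝓤 A) :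
    (PP.ofLinear 𝓤 (φ + φ') hφφ').H2 x
      = (PP.ofLinear 𝓤 φ hφ).H2 x + (PP.ofLinear 𝓤 φ' hφ').H2 x := by
  obtain ⟨c, rfl⟩ := lcH2π_surjective x
  rw [PP.H2_π, PP.H2_π, PP.H2_π, ← map_add]
  rfl

theorem ofLinear_zero_H2 (𝓤 : Levels G) {A B : Rep.{0} k G}
    (h0 : ∀ g a, (0 : A →ₗ[k] B) (A.ρ g a) = B.ρ g ((0 : A →ₗ[k] B) a)) (x : lcH2 𝓤 A) :
    (PP.ofLinear 𝓤 (0 : A →ₗ[k] B) h0).H2 x = 0 := by
  obtain ⟨c, rfl⟩ := lcH2π_surjective x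
  rw [PP.H2_π, ← map_zero (lcH2π 𝓤 B)]
  rfl

end general

namespace PTData

variable (D : PTData)

/-- restriction `Hom(R0, X) → Hom(R1, X)` as a pull-push datum. -/
def preP {X : Type} [AddCommGroup X] (ρX : Representation ℤ D.G X) :
    PP D.𝓤 D.𝓤 (hm D.ρR0 ρX) (hm D.ρR1 ρX) :=
  PP.ofLinear D.𝓤 (hmPre D.ρR0 D.ρR1 ρX D.sR.ι) (hmPre_comm D.ρR0 D.ρR1 ρX D.sR.ι D.sR.ι_comm)

/-- the morphism `(b)_0 → (b)_1`. -/
def mapB : SESMap D.sB0 D.sB1 where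
  r := MonoidHom.id D.G
  levels U hU := ⟨U, hU, le_rfl⟩
  φ' := hmPre D.ρR0 D.ρR1 D.ρE D.sR.ι
  φ := hmPre D.ρR0 D.ρR1 D.ρI D.sR.ι
  φ'' := hmPre D.ρR0 D.ρR1 D.ρB D.sR.ι
  compat' := hmPre_comm D.ρR0 D.ρR1 D.ρE D.sR.ι D.sR.ι_comm
  compat := hmPre_comm D.ρR0 D.ρR1 D.ρI D.sR.ι D.sR.ι_comm
  compat'' := hmPre_comm D.ρR0 D.ρR1 D.ρB D.sR.ι D.sR.ι_comm
  sq_ι _ := rfl
  sq_π _ := rfl

/-- `nat` of the chase. -/
theorem nat (a : (hm D.ρR0 D.ρB).ρ.invariants) :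
    D.sA.Pπ.H1 (D.sB0.δ₀ a) = D.sB1.δ₀ ((D.preP D.ρB).H0 a) := by
  have h := D.mapB.δ₀_comm a
  have h1 : D.mapB.P''.H0 a = (D.preP D.ρB).H0 a := rfl
  have h2 : D.mapB.P'.H1 (D.sB0.δ₀ a) = D.sA.Pπ.H1 (D.sB0.δ₀ a) := by
    apply PP.H1_congr
    · rfl
    · apply LinearMap.ext
      intro f
      exact (D.sA_π f).symm
  rw [← h2, ← h, h1]

/-- `x5` of the chase. -/
theorem x5 {p : ℕ} (h : PTHyp D p) (ε : lcH1 D.𝓤 (hm D.ρR0 D.ρE)) :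
    ∃ a, D.sB0.δ₀ a = ε :=
  (D.sB0.exact_H1' ε).1 (h.h90I _)

/-- the local version of the resolution. -/
def sRq (q : D.Q) : SES (D.𝓥 q) (Rep.of (D.ρR1.comp (D.r q))) (Rep.of (D.ρR0.comp (D.r q)))
    (Rep.of (D.ρN.comp (D.r q))) :=
  sesRes D.sR (D.r q) (D.hr q)

theorem resR1_β (q : D.Q) (y : lcH1 D.𝓤 (Rep.of D.ρN)) :
    (D.resR1 q).H2 (D.β y) = (D.sRq q).δ₁ ((D.resN q).H1 y) := by
  have h := (sesResMap D.sR (D.r q) (D.hr q)).δ₁_comm y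
  have h1 : (sesResMap D.sR (D.r q) (D.hr q)).P'.H2 (D.sR.δ₁ y) = (D.resR1 q).H2 (D.β y) :=
    PP.H2_congr rfl rfl _
  have h2 : (sesResMap D.sR (D.r q) (D.hr q)).P''.H1 y = (D.resN q).H1 y :=
    PP.H1_congr rfl rfl _
  rw [← h1, ← h, h2]
  rfl

/-- `β` is injective. -/
theorem β_injective {p : ℕ} (h : PTHyp D p) (y : lcH1 D.𝓤 (Rep.of D.ρN)) (hy : D.β y = 0) :
    y = 0 := by
  obtain ⟨x, hx⟩ := (D.sR.exact_H1'' y).1 hy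
  rw [← hx, h.r0h1 x, map_zero]

/-- the pairing `b ↦ b_*` on `H²(R1)`, as an additive map. -/
def pairB : (hm D.ρR1 D.ρB).ρ.invariants →+
    (lcH2 D.𝓤 (Rep.of D.ρR1) →+ lcH2 D.𝓤 (Rep.of D.ρB)) where
  toFun b := (ofInv D.ρR1 D.ρB D.𝓤 b).H2.toAddMonoidHom
  map_zero' := by
    ext x
    exact ofLinear_zero_H2 D.𝓤 _ x
  map_add' b b' := by
    ext x
    exact ofLinear_add_H2 D.𝓤 _ _ _ _ _ x

theorem pairB_apply (b : (hm D.ρR1 D.ρB).ρ.invariants) (x : lcH2 D.𝓤 (Rep.of D.ρR1)) :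
    D.pairB b x = (ofInv D.ρR1 D.ρB D.𝓤 b).H2 x := rfl

/-- `p1` of the chase. -/
theorem p1 (a : (hm D.ρR0 D.ρB).ρ.invariants) (y : lcH1 D.𝓤 (Rep.of D.ρN)) :
    D.pairB ((D.preP D.ρB).H0 a) (D.β y) = 0 := by
  rw [pairB_apply]
  have h1 : (ofInv D.ρR1 D.ρB D.𝓤 ((D.preP D.ρB).H0 a)).H2 (D.β y)
      = ((ofInv D.ρR0 D.ρB D.𝓤 a).comp D.sR.Pι).H2 (D.β y) :=
    PP.H2_congr rfl rfl _
  rw [h1, PP.comp_H2]
  have h2 : D.sR.Pι.H2 (D.β y) = 0 := (D.sR.exact_H2' _).2 ⟨y, rfl⟩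
  rw [h2, map_zero]

/-- the local pull-push datum of `pr q ∘ c`. -/
def locC (q : D.Q) (c : (hm D.ρR1 D.ρI).ρ.invariants) :
    PP (D.𝓥 q) (D.𝓥 q) (Rep.of (D.ρR1.comp (D.r q))) (Rep.of (D.ρX q)) :=
  PP.ofLinear (D.𝓥 q) ((D.pr q) ∘ₗ (c : D.R1 →ₗ[ℤ] D.I)) (fun h x => by
    show D.pr q ((c : D.R1 →ₗ[ℤ] D.I) (D.ρR1 (D.r q h) x)) = _
    rw [(mem_hm_invariants_iff D.ρR1 D.ρI _).1 c.2, D.pr_comm]
    rfl)

theorem pairB_π (c : (hm D.ρR1 D.ρI).ρ.invariants) (x : lcH2 D.𝓤 (Rep.of D.ρR1)) :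
    D.pairB (D.sB1.Pπ.H0 c) x = D.sEIB.Pπ.H2 ((ofInv D.ρR1 D.ρI D.𝓤 c).H2 x) := by
  rw [pairB_apply]
  have h1 : (ofInv D.ρR1 D.ρB D.𝓤 (D.sB1.Pπ.H0 c)).H2 x
      = (D.sEIB.Pπ.comp (ofInv D.ρR1 D.ρI D.𝓤 c)).H2 x :=
    PP.H2_congr rfl rfl _
  rw [h1, PP.comp_H2]

/-- `p2` of the chase. -/
theorem p2 {p : ℕ} (h : PTHyp D p) (c : (hm D.ρR1 D.ρI).ρ.invariants)
    (y : lcH1 D.𝓤 (Rep.of D.ρN)) (hy : y ∈ D.sha1) :
    D.pairB (D.sB1.Pπ.H0 c) (D.β y) = 0 := by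
  rw [pairB_π]
  have h2 : (ofInv D.ρR1 D.ρI D.𝓤 c).H2 (D.β y) = 0 := by
    apply h.sh2
    intro q
    rw [← PP.comp_H2]
    have h3 : ((D.prI q).comp (ofInv D.ρR1 D.ρI D.𝓤 c)).H2 (D.β y)
        = ((D.locC q c).comp (D.resR1 q)).H2 (D.β y) := PP.H2_congr rfl rfl _
    rw [h3, PP.comp_H2, resR1_β, (D.mem_sha1_iff y).1 hy q, map_zero, map_zero]
  rw [h2, map_zero]

end PTData

end H14PT

end
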