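/-
W2-C (S55) block E (helper14): THE MAIN THEOREM of the abstract Poitou-Tate chase.

`H14PT.h14pt_main (D : PTData) (h : PTHyp D p) :
    Finite D.sha2 ∧ Nat.card D.sha2 = Nat.card D.sha1`
-/
import Mathlib
import Fermat.Agent.CFT2.E.Main2
import Fermat.Agent.CFT2.E.Chase2

set_option autoImplicit false
set_option linter.style.haveILetI false
set_option linter.unusedSectionVars false

noncomputable section

namespace H14PT

open H15D

namespace PTData

variable (D : PTData) {p : ℕ} [Fact p.Prime]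

theorem smul_β (h : PTHyp D p) (y : lcH1 D.𝓤 (Rep.of D.ρN)) : p • D.β y = 0 := by
  rw [← map_nsmul, smul_lcH1_eq_zero D.𝓤 (Rep.of D.ρN) p h.pN, map_zero]

theorem pairB_mem (h : PTHyp D p) (b : (hm D.ρR1 D.ρB).ρ.invariants)
    (y : lcH1 D.𝓤 (Rep.of D.ρN)) :
    D.pairB b (D.β y) ∈ ptors p (lcH2 D.𝓤 (Rep.of D.ρB)) := by
  show p • D.pairB b (D.β y) = 0
  rw [← map_nsmul, smul_β D h, map_zero]

/-- the pairing with values in the `p`-torsion of `H²_S(B)`. -/
def pairT (h : PTHyp D p) : (hm D.ρR1 D.ρB).ρ.invariants →+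
    (lcH1 D.𝓤 (Rep.of D.ρN) →+ ptors p (lcH2 D.𝓤 (Rep.of D.ρB))) where
  toFun b :=
    { toFun := fun y => ⟨D.pairB b (D.β y), D.pairB_mem h b y⟩
      map_zero' := by
        apply Subtype.ext
        show D.pairB b (D.β 0) = 0
        rw [map_zero, map_zero]
      map_add' := fun y y' => by
        apply Subtype.ext
        show D.pairB b (D.β (y + y')) = D.pairB b (D.β y) + D.pairB b (D.β y')
        rw [map_add, map_add] }
  map_zero' := by
    ext y
    show D.pairB 0 (D.β y) = 0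
    rw [map_zero]
    rfl
  map_add' b b' := by
    ext y
    show D.pairB (b + b') (D.β y) = D.pairB b (D.β y) + D.pairB b' (D.β y)
    rw [map_add]
    rfl

theorem pairT_coe (h : PTHyp D p) (b : (hm D.ρR1 D.ρB).ρ.invariants)
    (y : lcH1 D.𝓤 (Rep.of D.ρN)) :
    ((D.pairT h b y : ptors p (lcH2 D.𝓤 (Rep.of D.ρB))) : lcH2 D.𝓤 (Rep.of D.ρB))
      = D.pairB b (D.β y) := rfl

end PTData

/-- **The abstract Poitou-Tate theorem**: under the arithmetic inputs `PTHyp`, `Ш²(M)` is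
finite of the same cardinality as `Ш¹(N)`. -/
theorem h14pt_main (D : PTData) {p : ℕ} [Fact p.Prime] (h : PTHyp D p) :
    Finite D.sha2 ∧ Nat.card D.sha2 = Nat.card D.sha1 := by
  classical
  obtain ⟨inv, hinj, hsurj⟩ := h14pt_exists_inv (p := p) h.dim1
  have hH1N := PTData.smul_lcH1_eq_zero D.𝓤 (Rep.of D.ρN) p h.pN
  have hH2M := PTData.smul_lcH2_eq_zero D.𝓤 (Rep.of D.ρM) p h.pM
  haveI : Finite (lcH1 D.𝓤 (Rep.of D.ρN)) := h.fin
  haveI : Finite (D.sha1.toAddSubgroup) :=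
    Finite.of_injective (fun y : D.sha1.toAddSubgroup => (y : lcH1 D.𝓤 (Rep.of D.ρN)))
      Subtype.val_injective
  let P : (hm D.ρR1 D.ρB).ρ.invariants →+ (lcH1 D.𝓤 (Rep.of D.ρN) →+ ZMod p) :=
    { toFun := fun b => inv.comp (D.pairT h b)
      map_zero' := by ext y; simp
      map_add' := fun b b' => by ext y; simp }
  have hP : ∀ b y, P b y = inv (D.pairT h b y) := fun b y => rfl
  have hP0 : ∀ b y, P b y = 0 ↔ D.pairB b (D.β y) = 0 := by
    intro b y
    rw [hP]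
    constructor
    · intro h0
      have h1 : D.pairT h b y = 0 := hinj (by rw [h0, map_zero])
      have := congrArg Subtype.val h1
      exact this
    · intro h0
      have h1 : D.pairT h b y = 0 := Subtype.ext h0
      rw [h1, map_zero]
  have key := h14pt_chase' (p := p) hH2M hH1N D.sha2.toAddSubgroup D.sha1.toAddSubgroup
    D.sB1.δ₀.toAddMonoidHom D.sB0.δ₀.toAddMonoidHom (D.preP D.ρB).H0.toAddMonoidHom
    D.sA.Pπ.H1.toAddMonoidHom D.sB1.Pπ.H0.toAddMonoidHom D.sA.δ₁.toAddMonoidHom P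
    (fun a => D.nat a)
    (fun t ht => (D.sA.exact_H1'' t).1 ht)
    (fun ε => (D.sA.exact_H1'' _).2 ⟨ε, rfl⟩)
    (fun b hb => (D.sB1.exact_H0'' b).1 hb)
    (fun c => (D.sB1.exact_H0'' _).2 ⟨c, rfl⟩)
    (fun ε => D.x5 h ε)
    (fun b => D.c1 b)
    (fun x hx => D.c2 h x hx)
    (fun a y => (hP0 _ _).2 (D.p1 a y))
    (fun c y hy => (hP0 _ _).2 (D.p2 h c y hy))
    ?h4 ?h4' ?h5
  · exact key
  case h4 =>
    intro b hb
    by_cases hT : ∃ x : lcH2 D.𝓤 (Rep.of D.ρB), p • x = 0 ∧ x ≠ 0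
    · have hs := hsurj hT
      let e : ptors p (lcH2 D.𝓤 (Rep.of D.ρB)) ≃+ ZMod p := AddEquiv.ofBijective inv ⟨hinj, hs⟩
      let K : D.Q → AddSubgroup (lcH1 D.𝓤 (Rep.of D.ρN)) :=
        fun q => (LinearMap.ker (D.resN q).H1).toAddSubgroup
      have hψ : ∀ y, (∀ q, y ∈ K q) → P b y = 0 := fun y hy =>
        hb y ((D.mem_sha1_iff y).2 hy)
      obtain ⟨μ, hμK, hμ⟩ := h14pt_decomp (p := p) hH1N K (P b) hψ
      have hc : ∀ q, ∃ c : (hm D.ρR1 D.ρI).ρ.invariants,
          ∀ y, D.sEIB.Pπ.H2 ((ofInv D.ρR1 D.ρI D.𝓤 c).H2 (D.β y))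
            = ((e.symm (μ q y) : ptors p (lcH2 D.𝓤 (Rep.of D.ρB))) :
                lcH2 D.𝓤 (Rep.of D.ρB)) := by
        intro q
        let ψq : lcH1 D.𝓤 (Rep.of D.ρN) →+ lcH2 D.𝓤 (Rep.of D.ρB) :=
          (ptors p (lcH2 D.𝓤 (Rep.of D.ρB))).subtype.comp (e.symm.toAddMonoidHom.comp (μ q))
        have hψq : ∀ y, (D.resN q).H1 y = 0 → ψq y = 0 := by
          intro y hy
          have h1 : μ q y = 0 := hμK q y hy
          show ((e.symm (μ q y) : ptors p (lcH2 D.𝓤 (Rep.of D.ρB))) :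
                lcH2 D.𝓤 (Rep.of D.ρB)) = 0
          rw [h1, map_zero]
          rfl
        obtain ⟨c, hc⟩ := h.tnlg q ψq hψq
        exact ⟨c, hc⟩
      choose c hc using hc
      refine ⟨∑ q, c q, fun y => ?_⟩
      have h1 : ∀ q, P (D.sB1.Pπ.H0 (c q)) y = μ q y := by
        intro q
        rw [hP]
        have h2 : D.pairT h (D.sB1.Pπ.H0 (c q)) y = e.symm (μ q y) := by
          apply Subtype.ext
          rw [PTData.pairT_coe, PTData.pairB_π, hc q y]
        rw [h2]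
        exact e.apply_symm_apply _
      have h3 : P (D.sB1.Pπ.H0.toAddMonoidHom (∑ q, c q)) y = ∑ q, μ q y := by
        rw [map_sum, map_sum, AddMonoidHom.finsetSum_apply]
        exact Finset.sum_congr rfl (fun q _ => h1 q)
      rw [map_sub, AddMonoidHom.sub_apply, h3, ← hμ y, sub_self]
    · refine ⟨0, fun y => ?_⟩
      rw [map_zero, sub_zero, hP0]
      by_contra hne
      exact hT ⟨_, D.pairB_mem h b y, hne⟩
  case h4' =>
    intro b hb
    obtain ⟨m, hm, a, ha⟩ := h.alpha1 b (fun y => (hP0 b y).1 (hb y))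
    exact ⟨m, hm, a, Subtype.ext ha⟩
  case h5 =>
    intro y _ hy
    have h1 : D.β y ≠ 0 := fun h0 => hy (D.β_injective h y h0)
    obtain ⟨b, hb⟩ := h.tng (D.β y) (D.smul_β h y) h1
    exact ⟨b, fun h0 => hb ((hP0 b y).1 h0)⟩

end H14PT

end
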