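/-
W2-C (S55) block E (helper14): S55 from the arithmetic inputs `PTHyp` for the concrete data.

* `PairE S p M` : the `μ_p`-pairing `e : M → Hom(N, E)`, `N = M.dualTwist (cycloChar p)` (slice G5');
* `ptData0`     : the concrete `PTData` of S55;
* `S55_of_PTHyp`: `PTHyp (ptData0 …) p → ` the conclusion of S55.
-/
import Mathlib
import Fermat.Agent.CFT2.E.Data
import Fermat.Agent.CFT2.E.Main
import Fermat.Agent.CFT2.E.G6_helper6
import Fermat.Agent.CFT2.E.G6c_helper6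
import Fermat.Agent.CFT2.D.Card_helper15
import Fermat.Agent.CFT2.F.Dual_helper15

set_option autoImplicit false
set_option linter.style.haveILetI false
set_option linter.unusedVariables false

noncomputable section

namespace H14PT

open H15D H15F ExtCitation H24G groupCohomology

local notation "Qb" => AlgebraicClosure ℚ
local notation "GQ" => (AlgebraicClosure ℚ ≃ₐ[ℚ] AlgebraicClosure ℚ)

/-- primes are prime. -/
local instance factPrimeOfPrimesC (q : Nat.Primes) : Fact (q : ℕ).Prime := ⟨q.2⟩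

variable (S : Finset Nat.Primes) (p : ℕ) [Fact p.Prime]

/-- **(G5')** the `μ_p`-pairing `M → Hom(N, E)`, `N` the Tate dual of `M` -/
structure PairE (M : Rep.{0} (ZMod p) GQ) where
  /-- the pairing -/
  e : M →ₗ[ℤ] ((M.dualTwist (cycloChar p)) →ₗ[ℤ] Additive (sUnits S))
  he : ∀ (g : GQ) (m : M), e (zRho M g m)
    = (ρE S g) ∘ₗ (e m) ∘ₗ (zRho (M.dualTwist (cycloChar p)) g⁻¹)
  hinj : Function.Injective e
  hsurj : ∀ f : (M.dualTwist (cycloChar p)) →ₗ[ℤ] Additive (sUnits S), ∃ m, e m = f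
  hsurjq : ∀ q : S, ∀ f : (M.dualTwist (cycloChar p)) →ₗ[ℤ] Additive (xbar ((q : Nat.Primes) : ℕ)),
    ∃ m, (inclL S q) ∘ₗ (e m) = f

variable {S p}

theorem dual_finite (M : Rep.{0} (ZMod p) GQ) [FiniteDimensional (ZMod p) M] :
    Finite (M.dualTwist (cycloChar p)) := by
  haveI : Module.Finite (ZMod p) (M.dualTwist (cycloChar p)) :=
    inferInstanceAs (Module.Finite (ZMod p) (Module.Dual (ZMod p) M))
  exact Module.finite_of_finite (ZMod p)

theorem dual_isLevelTriv (hpS : pPrime p ∈ S) (M : Rep.{0} (ZMod p) GQ)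
    [FiniteDimensional (ZMod p) M]
    (hsm : ∀ m : M, ∃ F : IntermediateField ℚ Qb, FiniteDimensional ℚ F ∧
      ∀ s ∈ F.fixingSubgroup, M.ρ s m = m)
    (hMur : ∀ q : Nat.Primes, q ∉ S → ∀ A : ValuationSubring Qb,
      A.LiesOverPrime (q : ℕ) → ∀ g ∈ A.inertiaSubgroupIn ℚ, M.ρ g = 1) :
    IsLevelTriv (zRho (M.dualTwist (cycloChar p))) (levelsS S) := by
  obtain ⟨F, -, hF⟩ := exists_isLevel_both S hpS M hsm hMur
  refine ⟨F.fixingSubgroup, ⟨F, hF.unram, hF.normal, rfl⟩, fun s hs x => ?_⟩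
  show (M.dualTwist (cycloChar p)).ρ s x = x
  rw [hF.triv s hs]
  rfl

theorem zmod_nsmul_eq_zero {V : Type} [AddCommGroup V] [Module (ZMod p) V] (v : V) :
    p • v = 0 := by
  rw [← Nat.cast_smul_eq_nsmul (ZMod p), ZMod.natCast_self, zero_smul]

/-- **the concrete data of S55** -/
def ptData0 (hpS : pPrime p ∈ S) (M : Rep.{0} (ZMod p) GQ) [FiniteDimensional (ZMod p) M]
    (hsm : ∀ m : M, ∃ F : IntermediateField ℚ Qb, FiniteDimensional ℚ F ∧
      ∀ s ∈ F.fixingSubgroup, M.ρ s m = m)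
    (hMur : ∀ q : Nat.Primes, q ∉ S → ∀ A : ValuationSubring Qb,
      A.LiesOverPrime (q : ℕ) → ∀ g ∈ A.inertiaSubgroupIn ℚ, M.ρ g = 1)
    (P : PairE S p M) : PTData :=
  haveI := dual_finite M
  ptData S ⟨pPrime p, hpS⟩ (zRho M) (zRho (M.dualTwist (cycloChar p)))
    (dual_isLevelTriv hpS M hsm hMur) p (fun n => zmod_nsmul_eq_zero n)
    (fun x => H6G6.h6g6_div_additive S (pPrime p) hpS x)
    (fun q x => H6G6.h6g6_krlite_additive ((q : Nat.Primes) : ℕ) p Fact.out x)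
    P.e P.he P.hinj P.hsurj P.hsurjq

set_option maxHeartbeats 1600000 in
/-- **S55 from the arithmetic inputs** -/
theorem S55_of_PTHyp (hp2 : p ≠ 2) (S : Finset Nat.Primes) (hpS : pPrime p ∈ S)
    (M : Rep (ZMod p) (AlgebraicClosure ℚ ≃ₐ[ℚ] AlgebraicClosure ℚ))
    [FiniteDimensional (ZMod p) M]
    (hsm : ∀ m : M, ∃ F : IntermediateField ℚ (AlgebraicClosure ℚ), FiniteDimensional ℚ F ∧
      ∀ s ∈ F.fixingSubgroup, M.ρ s m = m)
    (hMur : ∀ q : Nat.Primes, q ∉ S → ∀ A : ValuationSubring (AlgebraicClosure ℚ),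
      A.LiesOverPrime (q : ℕ) → ∀ g ∈ A.inertiaSubgroupIn ℚ, M.ρ g = 1)
    (P : PairE S p M) (h : PTHyp (ptData0 hpS M hsm hMur P) p) :
    ∃ B : sha₁ S (M.dualTwist (cycloChar p)) →ₗ[ZMod p] sha₂ S M →ₗ[ZMod p] ZMod p,
      (∀ y, (∀ x, B y x = 0) → y = 0) ∧ (∀ x, (∀ y, B y x = 0) → x = 0) := by
  obtain ⟨hfin2, hcard⟩ := h14pt_main (ptData0 hpS M hsm hMur P) h
  haveI hfinN : Finite (lcH1 (levelsS S) (zRep (M.dualTwist (cycloChar p)))) := h.fin
  have e1 : (ptData0 hpS M hsm hMur P).sha1 = sha1Z S (M.dualTwist (cycloChar p)) := rfl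
  have e2 : (ptData0 hpS M hsm hMur P).sha2 = sha2Z S M := rfl
  refine S55_of_card hp2 S M hsm hMur inferInstance ?_ ?_
  · exact hfin2
  · exact hcard

end H14PT

end
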