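/-
W2-C (S55) block E (helper14): the pairing datum `PairE` from helper6's G5', and the concrete
data `ptD` of S55 (no free parameter left): S55 ⇐ `PTHyp (ptD hpS M hsm hMur) p`.
-/
import Mathlib
import Fermat.Agent.CFT2.E.S55Cond
import Fermat.Agent.CFT2.E.G5p_helper6

set_option autoImplicit false
set_option linter.style.haveILetI false
set_option linter.unusedVariables false

noncomputable section

namespace H14PT

open H15D H15F ExtCitation H24G groupCohomology H6G5

local notation "Qb" => AlgebraicClosure ℚ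
local notation "GQ" => (AlgebraicClosure ℚ ≃ₐ[ℚ] AlgebraicClosure ℚ)

/-- primes are prime. -/
local instance factPrimeOfPrimesP (q : Nat.Primes) : Fact (q : ℕ).Prime := ⟨q.2⟩

variable {S : Finset Nat.Primes} {p : ℕ} [Fact p.Prime]

/-- the pairing of G5' as a `PairE` -/
def pairE (hpS : pPrime p ∈ S) (M : Rep.{0} (ZMod p) GQ) [FiniteDimensional (ZMod p) M] :
    PairE S p M :=
  let h := h6g5_exists_zetaS S (pPrime p) hpS
  { e := h6g5_e S M h.choose h.choose_spec.1 h.choose_spec.2.1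
    he := fun g m => h6g5_e_equivariant S M h.choose h.choose_spec.1 h.choose_spec.2.1 g m
    hinj := h6g5_e_injective S M h.choose h.choose_spec.1 h.choose_spec.2.1 h.choose_spec.2.2
    hsurj := fun f =>
      h6g5_e_surjective S M h.choose h.choose_spec.1 h.choose_spec.2.1 h.choose_spec.2.2 f
    hsurjq := fun q f =>
      h6g5_eloc_surjective S M h.choose h.choose_spec.1 h.choose_spec.2.1 h.choose_spec.2.2 q f }

/-- **the concrete Poitou-Tate data of S55** -/
def ptD (hpS : pPrime p ∈ S) (M : Rep.{0} (ZMod p) GQ) [FiniteDimensional (ZMod p) M]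
    (hsm : ∀ m : M, ∃ F : IntermediateField ℚ Qb, FiniteDimensional ℚ F ∧
      ∀ s ∈ F.fixingSubgroup, M.ρ s m = m)
    (hMur : ∀ q : Nat.Primes, q ∉ S → ∀ A : ValuationSubring Qb,
      A.LiesOverPrime (q : ℕ) → ∀ g ∈ A.inertiaSubgroupIn ℚ, M.ρ g = 1) : PTData :=
  ptData0 hpS M hsm hMur (pairE hpS M)

/-- **S55 from the arithmetic inputs for `ptD`** -/
theorem S55_of_ptD (hp2 : p ≠ 2) (S : Finset Nat.Primes) (hpS : pPrime p ∈ S)
    (M : Rep (ZMod p) (AlgebraicClosure ℚ ≃ₐ[ℚ] AlgebraicClosure ℚ))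
    [FiniteDimensional (ZMod p) M]
    (hsm : ∀ m : M, ∃ F : IntermediateField ℚ (AlgebraicClosure ℚ), FiniteDimensional ℚ F ∧
      ∀ s ∈ F.fixingSubgroup, M.ρ s m = m)
    (hMur : ∀ q : Nat.Primes, q ∉ S → ∀ A : ValuationSubring (AlgebraicClosure ℚ),
      A.LiesOverPrime (q : ℕ) → ∀ g ∈ A.inertiaSubgroupIn ℚ, M.ρ g = 1)
    (h : PTHyp (ptD hpS M hsm hMur) p) :
    ∃ B : sha₁ S (M.dualTwist (cycloChar p)) →ₗ[ZMod p] sha₂ S M →ₗ[ZMod p] ZMod p,
      (∀ y, (∀ x, B y x = 0) → y = 0) ∧ (∀ x, (∀ y, B y x = 0) → x = 0) :=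
  S55_of_PTHyp hp2 S hpS M hsm hMur (pairE hpS M) h

end H14PT

end
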