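/-
W2-C (S55) block E, bridge slice R0H1 (helper24): the first level-constant cohomology of the
permutation lattice `R0 = ℤ[N]` of a finite `G`-module `N` vanishes (`= PTHyp.r0h1`).
Explicit proof: `c_x(g)` := coefficient of `x` in `c(g)`; `c_{x0}` restricted to `Stab(x0)` is a
level-constant homomorphism to `ℤ`, hence `0`; `m_x := - c_x(g_x)` with `g_x x0 = x`; `c = d m`.
-/
import Mathlib
import Fermat.Agent.CFT2.E.G4_helper24

set_option autoImplicit false
set_option linter.style.haveILetI false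
set_option linter.unusedSectionVars false
set_option linter.unusedVariables false

noncomputable section

namespace H24G

open H15D H14PT H15F groupCohomology

variable {G : Type} [Group G] {N : Type} [AddCommGroup N] (ρN : Representation ℤ G N)

theorem ρN_inv_apply (g : G) (x : N) : ρN g⁻¹ (ρN g x) = x := rho_inv_rho ρN g x

theorem ρN_apply_inv (g : G) (x : N) : ρN g (ρN g⁻¹ x) = x := rho_rho_inv ρN g x

theorem ρN_injective (g : G) : Function.Injective (ρN g) := fun x y h => by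
  rw [← ρN_inv_apply ρN g x, h, ρN_inv_apply]

/-- the coefficients of `g • m` -/
theorem ρR0_apply (g : G) (m : R0 N) (x : N) : (ρR0 ρN g m) x = m (ρN g⁻¹ x) := by
  change (Finsupp.mapDomain (ρN g) m) x = _
  conv_lhs => rw [← ρN_apply_inv ρN g x]
  exact Finsupp.mapDomain_apply (ρN_injective ρN g) m _

variable {ρN}

/-- the cocycle relation on coefficients -/
theorem coeff_mul {c : G → R0 N} (hc : c ∈ cocycles₁ (Rep.of (ρR0 ρN))) (g h : G) (x : N) :
    c (g * h) x = c h (ρN g⁻¹ x) + c g x := by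
  have h1 := (mem_cocycles₁_iff (A := Rep.of (ρR0 ρN)) c).1 hc g h
  have h2 := congrArg (fun m : R0 N => m x) h1
  simp only at h2
  rw [h2]
  change ((ρR0 ρN g (c h)) + c g) x = _
  rw [Finsupp.add_apply, ρR0_apply]

theorem coeff_one {c : G → R0 N} (hc : c ∈ cocycles₁ (Rep.of (ρR0 ρN))) (x : N) :
    c 1 x = 0 := by
  have h1 := coeff_mul hc 1 1 x
  rw [mul_one, inv_one, map_one] at h1
  have h2 : c 1 ((1 : Module.End ℤ N) x) = c 1 x := rfl
  rw [h2] at h1
  linarith

/-- on the stabiliser of `x0`, the coefficient at `x0` is additive -/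
theorem coeff_pow {c : G → R0 N} (hc : c ∈ cocycles₁ (Rep.of (ρR0 ρN))) (h : G) (x0 : N)
    (hfix : ρN h x0 = x0) (n : ℕ) : c (h ^ n) x0 = n * c h x0 := by
  have hfix' : ρN h⁻¹ x0 = x0 := by
    conv_lhs => rw [← hfix]
    exact ρN_inv_apply ρN h x0
  induction n with
  | zero => simp [coeff_one hc]
  | succ n ih =>
    rw [pow_succ', coeff_mul hc, hfix', ih]
    push_cast
    ring

/-- a level-constant cocycle vanishes at `x0` on the stabiliser of `x0` -/
theorem coeff_stab {𝓤 : Levels G} {c : G → R0 N} (hc : c ∈ cocycles₁ (Rep.of (ρR0 ρN)))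
    (hlc : IsLC₁ 𝓤 c) (h : G) (x0 : N) (hfix : ρN h x0 = x0) : c h x0 = 0 := by
  obtain ⟨U, hU, hconst⟩ := hlc
  haveI := 𝓤.normal U hU
  haveI := 𝓤.finite U hU
  have h1 : c (h ^ U.index) x0 = 0 := by
    have h2 := hconst 1 (h ^ U.index) (Subgroup.pow_index_mem U h)
    rw [one_mul] at h2
    rw [h2, coeff_one hc]
  rw [coeff_pow hc h x0 hfix] at h1
  rcases mul_eq_zero.mp h1 with h3 | h3
  · exact absurd (by exact_mod_cast h3) (Subgroup.FiniteIndex.index_ne_zero (H := U))
  · exact h3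

variable (ρN)

/-- orbit representatives: `rep x` is in the orbit of `x` and depends only on the orbit -/
theorem exists_rep : ∃ (rep : N → N) (γ : N → G), (∀ x, ρN (γ x) (rep x) = x) ∧
    ∀ (g : G) (x : N), rep (ρN g x) = rep x := by
  classical
  letI : MulAction G N :=
    { smul := fun g x => ρN g x
      one_smul := fun x => by change ρN 1 x = x; rw [map_one]; rfl
      mul_smul := fun g h x => by change ρN (g * h) x = ρN g (ρN h x); rw [map_mul]; rfl }
  have hsmul : ∀ (g : G) (x : N), g • x = ρN g x := fun _ _ => rfl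
  let rep : N → N := fun x => Quotient.out (Quotient.mk (MulAction.orbitRel G N) x)
  have hrep : ∀ x, ∃ g : G, ρN g (rep x) = x := by
    intro x
    have h1 : (MulAction.orbitRel G N).r (rep x) x :=
      Quotient.exact (Quotient.out_eq (Quotient.mk (MulAction.orbitRel G N) x))
    rw [MulAction.orbitRel_apply] at h1
    obtain ⟨g, hg⟩ := h1
    refine ⟨g⁻¹, ?_⟩
    have h2 : g • x = rep x := hg
    rw [hsmul] at h2
    rw [← h2, ρN_inv_apply]
  choose γ hγ using hrep
  refine ⟨rep, γ, hγ, fun g x => ?_⟩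
  have h3 : Quotient.mk (MulAction.orbitRel G N) (ρN g x)
      = Quotient.mk (MulAction.orbitRel G N) x := by
    apply Quotient.sound
    change (MulAction.orbitRel G N).r (ρN g x) x
    rw [MulAction.orbitRel_apply]
    exact ⟨g, rfl⟩
  change Quotient.out (Quotient.mk (MulAction.orbitRel G N) (ρN g x)) = _
  rw [h3]

/-- **(R0H1)** `H¹_lc(G, ℤ[N]) = 0` for a finite `G`-module `N` -/
theorem r0h1 [Finite N] (𝓤 : Levels G) : ∀ s : lcH1 𝓤 (Rep.of (ρR0 ρN)), s = 0 := by
  intro s
  obtain ⟨⟨c, hc, hlc⟩, rfl⟩ := lcH1π_surjective s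
  rw [lcH1π_eq_zero_iff]
  obtain ⟨rep, γ, hγ, hrep⟩ := exists_rep ρN
  refine ⟨Finsupp.equivFunOnFinite.symm (fun x => - c (γ x) x), ?_⟩
  funext g
  apply Finsupp.ext
  intro x
  rw [d₀₁_apply']
  change (ρR0 ρN g (Finsupp.equivFunOnFinite.symm (fun x => - c (γ x) x))
    - Finsupp.equivFunOnFinite.symm (fun x => - c (γ x) x)) x = c g x
  rw [Finsupp.sub_apply, ρR0_apply]
  change - c (γ (ρN g⁻¹ x)) (ρN g⁻¹ x) - (- c (γ x) x) = c g x
  -- `y = g⁻¹ x`, `h = γ_x⁻¹ g γ_y` fixes `rep x`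
  set y := ρN g⁻¹ x with hy
  have hrepy : rep y = rep x := hrep g⁻¹ x
  have hgy : ρN g y = x := ρN_apply_inv ρN g x
  have hfix : ρN ((γ x)⁻¹ * g * γ y) (rep x) = rep x := by
    rw [map_mul, map_mul, Module.End.mul_apply, Module.End.mul_apply]
    have h1 : ρN (γ y) (rep x) = y := by rw [← hrepy]; exact hγ y
    rw [h1, hgy]
    have h2 := ρN_inv_apply ρN (γ x) (rep x)
    rw [hγ x] at h2
    exact h2
  have h0 := coeff_stab hc hlc _ (rep x) hfix
  -- `c_x(g γ_y) = c_y(γ_y) + c_x(g)`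
  have e1 : c (g * γ y) x = c (γ y) y + c g x := coeff_mul hc g (γ y) x
  -- `c_x(γ_x h) = c_{x0}(h) + c_x(γ_x)`
  have e2 : c (γ x * ((γ x)⁻¹ * g * γ y)) x
      = c ((γ x)⁻¹ * g * γ y) (ρN (γ x)⁻¹ x) + c (γ x) x := coeff_mul hc _ _ x
  have e3 : γ x * ((γ x)⁻¹ * g * γ y) = g * γ y := by group
  have e4 : ρN (γ x)⁻¹ x = rep x := by
    have h2 := ρN_inv_apply ρN (γ x) (rep x)
    rw [hγ x] at h2
    exact h2
  rw [e3, e4, h0, zero_add] at e2
  rw [e2] at e1
  linarith

end H24G

end
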