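/-
W2-C (S55) block E (helper14): THE TARGETS.  Each field of `PTHyp (ptD …) p` as a standalone
`Prop` about the concrete modules (`ρE S`, `ρI S`, `ρB S`, `ρX q`, `H24G.ρR0 ρN`, `H24G.ρR1 ρN`),
generic in the finite level-trivial `p`-torsion module `N`; and the assembly
`ptHyp_of_targets : (targets) → PTHyp (ptD hpS M hsm hMur) p`.
-/
import Mathlib
import Fermat.Agent.CFT2.E.Pair
import Fermat.Agent.CFT2.E.R0H1_helper24

set_option autoImplicit false
set_option linter.style.haveILetI false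
set_option linter.unusedVariables false

noncomputable section

namespace H14PT

open H15D H15F ExtCitation H24G groupCohomology

local notation "Qb" => AlgebraicClosure ℚ
local notation "GQ" => (AlgebraicClosure ℚ ≃ₐ[ℚ] AlgebraicClosure ℚ)

/-- primes are prime. -/
local instance factPrimeOfPrimesT (q : Nat.Primes) : Fact (q : ℕ).Prime := ⟨q.2⟩

variable (S : Finset Nat.Primes)

/-! ### the pull-push data -/

/-- the localisation map at `q` -/
abbrev locq (q : S) : Hq q.1 →* GQ := primeLocalToGlobal q.1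

/-- `I → X q` (evaluation at `1` of the `q`-component) -/
def prIq (q : S) : PP (levelsS S) (𝓥q q.1) (Rep.of (ρI S)) (Rep.of (ρX q.1)) where
  r := primeLocalToGlobal q.1
  φ := prL' S q
  compat := prL'_comm S q
  levels := levelsS_le_levelsLoc S (primeLocalToGlobal q.1)

/-- `Hom(R, I) → Hom(R|, X q)`, `f ↦ pr ∘ f`, linear -/
def prLq {R : Type} [AddCommGroup R] (ρR : Representation ℤ GQ R) (q : S) :
    hm ρR (ρI S) →ₗ[ℤ] hm (ρR.comp (primeLocalToGlobal q.1)) (ρX q.1) where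
  toFun f := (prL' S q) ∘ₗ f
  map_add' f f' := by apply LinearMap.ext; intro x; simp
  map_smul' a f := by apply LinearMap.ext; intro x; simp

/-- `Hom(R, E) → Hom(R|, X q)`, `f ↦ incl ∘ f`, linear -/
def lamLq {R : Type} [AddCommGroup R] (ρR : Representation ℤ GQ R) (q : S) :
    hm ρR (ρE S) →ₗ[ℤ] hm (ρR.comp (primeLocalToGlobal q.1)) (ρX q.1) where
  toFun f := (inclL S q.1) ∘ₗ f
  map_add' f f' := by apply LinearMap.ext; intro x; simp
  map_smul' a f := by apply LinearMap.ext; intro x; simp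

@[simp] theorem prLq_apply {R : Type} [AddCommGroup R] (ρR : Representation ℤ GQ R) (q : S)
    (f : R →ₗ[ℤ] Additive (ideles S)) (x : R) :
    (prLq S ρR q f : R →ₗ[ℤ] Additive (xbar ((q : Nat.Primes) : ℕ))) x = prL' S q (f x) := rfl

@[simp] theorem lamLq_apply {R : Type} [AddCommGroup R] (ρR : Representation ℤ GQ R) (q : S)
    (f : R →ₗ[ℤ] Additive (sUnits S)) (x : R) :
    (lamLq S ρR q f : R →ₗ[ℤ] Additive (xbar ((q : Nat.Primes) : ℕ))) x = inclL S q.1 (f x) := rfl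

/-- `Hom(R, I) → Hom(R|, X q)` as a pull-push datum -/
def prHq {R : Type} [AddCommGroup R] (ρR : Representation ℤ GQ R) (q : S) :
    PP (levelsS S) (𝓥q q.1) (hm ρR (ρI S)) (hm (ρR.comp (primeLocalToGlobal q.1)) (ρX q.1)) where
  r := primeLocalToGlobal q.1
  φ := prLq S ρR q
  compat h f := by
    apply LinearMap.ext
    intro x
    rw [prLq_apply, hm_ρ_apply, hm_ρ_apply, prLq_apply, prL'_comm]
    simp only [MonoidHom.comp_apply, map_inv]
  levels := levelsS_le_levelsLoc S (primeLocalToGlobal q.1)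

/-- `Hom(R, E) → Hom(R|, X q)` as a pull-push datum -/
def lamq {R : Type} [AddCommGroup R] (ρR : Representation ℤ GQ R) (q : S) :
    PP (levelsS S) (𝓥q q.1) (hm ρR (ρE S)) (hm (ρR.comp (primeLocalToGlobal q.1)) (ρX q.1)) where
  r := primeLocalToGlobal q.1
  φ := lamLq S ρR q
  compat h f := by
    apply LinearMap.ext
    intro x
    rw [lamLq_apply, hm_ρ_apply, hm_ρ_apply, lamLq_apply, inclL_comm]
    simp only [MonoidHom.comp_apply, map_inv]
  levels := levelsS_le_levelsLoc S (primeLocalToGlobal q.1)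

/-- restriction to the local group at `q` -/
def resq {V : Type} [AddCommGroup V] (ρ : Representation ℤ GQ V) (q : S) :
    PP (levelsS S) (𝓥q q.1) (Rep.of ρ) (Rep.of (ρ.comp (primeLocalToGlobal q.1))) :=
  PP.res (primeLocalToGlobal q.1) (levelsS_le_levelsLoc S (primeLocalToGlobal q.1)) (Rep.of ρ)

/-! ### the targets -/

section targets

variable (p : ℕ)

/-- (FIN) -/
def TFin : Prop := ∀ {N : Type} [AddCommGroup N] [Finite N] (ρN : Representation ℤ GQ N),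
  IsLevelTriv ρN (levelsS S) → (∀ n : N, p • n = 0) → Finite (lcH1 (levelsS S) (Rep.of ρN))

/-- (H90-I) -/
def TH90I : Prop := ∀ {N : Type} [AddCommGroup N] [Finite N] (ρN : Representation ℤ GQ N),
  IsLevelTriv ρN (levelsS S) → ∀ s : lcH1 (levelsS S) (hm (ρR0 ρN) (ρI S)), s = 0

/-- (H90-loc) -/
def TH90loc : Prop := ∀ {N : Type} [AddCommGroup N] [Finite N] (ρN : Representation ℤ GQ N),
  IsLevelTriv ρN (levelsS S) → ∀ q : S,
    ∀ s : lcH1 (𝓥q q.1) (hm ((ρR0 ρN).comp (primeLocalToGlobal q.1)) (ρX q.1)), s = 0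

/-- (SH1) -/
def TSh1 : Prop := ∀ {N : Type} [AddCommGroup N] [Finite N] (ρN : Representation ℤ GQ N),
  IsLevelTriv ρN (levelsS S) → ∀ t : lcH1 (levelsS S) (hm (ρR1 ρN) (ρI S)),
    (∀ q : S, (prHq S (ρR1 ρN) q).H1 t = 0) → t = 0

/-- (SH2) -/
def TSh2 : Prop := ∀ z : lcH2 (levelsS S) (Rep.of (ρI S)),
  (∀ q : S, (prIq S q).H2 z = 0) → z = 0

/-- (HP) -/
def THp : Prop := ∀ {N : Type} [AddCommGroup N] [Finite N] (ρN : Representation ℤ GQ N),
  IsLevelTriv ρN (levelsS S) → (∀ n : N, p • n = 0) →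
    ∀ u : lcH2 (levelsS S) (hm (ρR0 ρN) (ρE S)), p • u = 0 →
      (∀ q : S, (lamq S (ρR0 ρN) q).H2 u = 0) → u = 0

/-- (DIM1) -/
def TDim1 : Prop := ∀ x y : lcH2 (levelsS S) (Rep.of (ρB S)),
  p • x = 0 → p • y = 0 → x ≠ 0 → ∃ k : ℤ, y = k • x

/-- (TNG) -/
def TTng : Prop := ∀ {N : Type} [AddCommGroup N] [Finite N] (ρN : Representation ℤ GQ N),
  IsLevelTriv ρN (levelsS S) → (∀ n : N, p • n = 0) →
    ∀ u : lcH2 (levelsS S) (Rep.of (ρR1 ρN)), p • u = 0 → u ≠ 0 →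
      ∃ b : (hm (ρR1 ρN) (ρB S)).ρ.invariants,
        (ofInv (ρR1 ρN) (ρB S) (levelsS S) b).H2 u ≠ 0

/-- (TNLG) -/
def TTnlg (hS : S.Nonempty) : Prop :=
  ∀ {N : Type} [AddCommGroup N] [Finite N] (ρN : Representation ℤ GQ N)
    (hlt : IsLevelTriv ρN (levelsS S)), (∀ n : N, p • n = 0) → ∀ q : S,
    ∀ ψ : lcH1 (levelsS S) (Rep.of ρN) →+ lcH2 (levelsS S) (Rep.of (ρB S)),
      (∀ y, (resq S ρN q).H1 y = 0 → ψ y = 0) →
      ∃ c : (hm (ρR1 ρN) (ρI S)).ρ.invariants,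
        ∀ y, (sEIB S hS).Pπ.H2 ((ofInv (ρR1 ρN) (ρI S) (levelsS S) c).H2 ((sR hlt).δ₁ y)) = ψ y

/-- (ALPHA1) -/
def TAlpha1 : Prop :=
  ∀ {N : Type} [AddCommGroup N] [Finite N] (ρN : Representation ℤ GQ N)
    (hlt : IsLevelTriv ρN (levelsS S)), (∀ n : N, p • n = 0) →
    ∀ b : (hm (ρR1 ρN) (ρB S)).ρ.invariants,
      (∀ y, (ofInv (ρR1 ρN) (ρB S) (levelsS S) b).H2 ((sR hlt).δ₁ y) = 0) →
      ∃ m : ℕ, m.Coprime p ∧ ∃ a : (hm (ρR0 ρN) (ρB S)).ρ.invariants,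
        m • (b : R1 N →ₗ[ℤ] (Additive (ideles S) ⧸ imE S))
          = (a : R0 N →ₗ[ℤ] (Additive (ideles S) ⧸ imE S)) ∘ₗ (sR hlt).ι

end targets

/-! ### the assembly -/

variable {S} {p : ℕ} [Fact p.Prime]

theorem ptHyp_of_targets (hpS : pPrime p ∈ S) (M : Rep.{0} (ZMod p) GQ)
    [FiniteDimensional (ZMod p) M]
    (hsm : ∀ m : M, ∃ F : IntermediateField ℚ Qb, FiniteDimensional ℚ F ∧
      ∀ s ∈ F.fixingSubgroup, M.ρ s m = m)
    (hMur : ∀ q : Nat.Primes, q ∉ S → ∀ A : ValuationSubring Qb,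
      A.LiesOverPrime (q : ℕ) → ∀ g ∈ A.inertiaSubgroupIn ℚ, M.ρ g = 1)
    (hfin : TFin S p) (hh90I : TH90I S) (hh90loc : TH90loc S) (hsh1 : TSh1 S) (hsh2 : TSh2 S)
    (hhp : THp S p) (hdim1 : TDim1 S p) (htng : TTng S p)
    (htnlg : TTnlg S p ⟨pPrime p, hpS⟩) (halpha1 : TAlpha1 S p) :
    PTHyp (ptD hpS M hsm hMur) p :=
  haveI := dual_finite M
  { pM := fun m => zmod_nsmul_eq_zero (V := M.V) m
    pN := fun n => zmod_nsmul_eq_zero (V := (M.dualTwist (cycloChar p)).V) n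
    fin := @hfin (M.dualTwist (cycloChar p)).V _ (dual_finite M)
      (zRho (M.dualTwist (cycloChar p))) (dual_isLevelTriv hpS M hsm hMur)
      (fun n => zmod_nsmul_eq_zero (V := (M.dualTwist (cycloChar p)).V) n)
    r0h1 := H24G.r0h1 _ _
    h90I := hh90I _ (dual_isLevelTriv hpS M hsm hMur)
    h90loc := hh90loc _ (dual_isLevelTriv hpS M hsm hMur)
    sh1 := hsh1 _ (dual_isLevelTriv hpS M hsm hMur)
    sh2 := hsh2
    hp := hhp _ (dual_isLevelTriv hpS M hsm hMur) (fun n => zmod_nsmul_eq_zero n)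
    dim1 := hdim1
    tng := htng _ (dual_isLevelTriv hpS M hsm hMur) (fun n => zmod_nsmul_eq_zero n)
    tnlg := htnlg _ (dual_isLevelTriv hpS M hsm hMur) (fun n => zmod_nsmul_eq_zero n)
    alpha1 := halpha1 _ (dual_isLevelTriv hpS M hsm hMur) (fun n => zmod_nsmul_eq_zero n) }

/-- **S55 from the targets** -/
theorem S55_of_targets (hp2 : p ≠ 2) (S : Finset Nat.Primes) (hpS : pPrime p ∈ S)
    (M : Rep (ZMod p) (AlgebraicClosure ℚ ≃ₐ[ℚ] AlgebraicClosure ℚ))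
    [FiniteDimensional (ZMod p) M]
    (hsm : ∀ m : M, ∃ F : IntermediateField ℚ (AlgebraicClosure ℚ), FiniteDimensional ℚ F ∧
      ∀ s ∈ F.fixingSubgroup, M.ρ s m = m)
    (hMur : ∀ q : Nat.Primes, q ∉ S → ∀ A : ValuationSubring (AlgebraicClosure ℚ),
      A.LiesOverPrime (q : ℕ) → ∀ g ∈ A.inertiaSubgroupIn ℚ, M.ρ g = 1)
    (hfin : TFin S p) (hh90I : TH90I S) (hh90loc : TH90loc S) (hsh1 : TSh1 S) (hsh2 : TSh2 S)
    (hhp : THp S p) (hdim1 : TDim1 S p) (htng : TTng S p)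
    (htnlg : TTnlg S p ⟨pPrime p, hpS⟩) (halpha1 : TAlpha1 S p) :
    ∃ B : sha₁ S (M.dualTwist (cycloChar p)) →ₗ[ZMod p] sha₂ S M →ₗ[ZMod p] ZMod p,
      (∀ y, (∀ x, B y x = 0) → y = 0) ∧ (∀ x, (∀ y, B y x = 0) → x = 0) :=
  S55_of_ptD hp2 S hpS M hsm hMur
    (ptHyp_of_targets hpS M hsm hMur hfin hh90I hh90loc hsh1 hsh2 hhp hdim1 htng htnlg halpha1)

end H14PT

end
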