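/-
W2-C (S55) block E (helper14): THE INTERFACE with block C (global class field theory), stated for
the module `B = I/E` of block E (`ρB S`) and its finite levels `B_L = finLv (levelsS S) B L`
(`= (Rep.of (ρB S)).quotientToInvariants L.U`, a `GQ ⧸ L.U`-module).

* `CMB S p`  : for all small `S`-levels `L`, `B_L` is a `p`-class module (`H20A.IsPClassModule`);
* `C2B S p`  : for `q ∈ S`, the `p`-torsion of `H²_S(B)` is the isomorphic image of the `p`-torsion
               classes of `H²_S(I)` supported at `q`;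
* `C3B S p`  : existence theorem mod `p`: norms from a suitable smaller level are `p`-th multiples;
* `TFin S p` (in `Targets.lean`) : finiteness of `H¹_S(N)`.
Block C proves these (transport from the tensor model); block E wires them to the targets.
-/
import Mathlib
import Fermat.Agent.CFT2.E.Targets
import Fermat.Agent.CFT2.D.Infl_helper15
import Fermat.Agent.CFT2.A.Defs3

set_option autoImplicit false
set_option linter.style.haveILetI false
set_option linter.unusedVariables false

noncomputable section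

namespace H14PT

open H15D H15F ExtCitation H24G groupCohomology

local notation "Qb" => AlgebraicClosure ℚ
local notation "GQ" => (AlgebraicClosure ℚ ≃ₐ[ℚ] AlgebraicClosure ℚ)

/-- primes are prime. -/
local instance factPrimeOfPrimesI (q : Nat.Primes) : Fact (q : ℕ).Prime := ⟨q.2⟩

variable (S : Finset Nat.Primes) (p : ℕ)

/-- the finite level `B_L` -/
abbrev BL (L : (levelsS S).Lv) : Rep.{0} ℤ (GQ ⧸ L.U) := finLv (levelsS S) (Rep.of (ρB S)) L

/-- **(CM)** `B_L` is a `p`-class module for all small `S`-levels `L` -/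
def CMB : Prop := ∃ L₀ : (levelsS S).Lv, ∀ L : (levelsS S).Lv, L.U ≤ L₀.U →
  ∃ γ : groupCohomology (BL S L) 2, H20A.IsPClassModule p (BL S L) γ

/-- **(C2)** local-global compatibility at `q ∈ S`, on `p`-torsion -/
def C2B (hS : S.Nonempty) : Prop := ∀ q : S,
  (∀ z : lcH2 (levelsS S) (Rep.of (ρI S)), p • z = 0 →
    (∀ q' : S, q' ≠ q → (prIq S q').H2 z = 0) → (sEIB S hS).Pπ.H2 z = 0 → z = 0) ∧
  (∀ w : lcH2 (levelsS S) (Rep.of (ρB S)), p • w = 0 →
    ∃ z : lcH2 (levelsS S) (Rep.of (ρI S)), p • z = 0 ∧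
      (∀ q' : S, q' ≠ q → (prIq S q').H2 z = 0) ∧ (sEIB S hS).Pπ.H2 z = w)

/-- the norm `N_{L/L'} : B^{U'} → B`, `b ↦ ∑_{k ∈ U/U'} k b` -/
def normLv (L L' : (levelsS S).Lv) (b : BL S L') : Additive (ideles S) ⧸ imE S :=
  letI : Fintype ↥(L.U.map (QuotientGroup.mk' L'.U)) := Fintype.ofFinite _
  ((∑ k : ↥(L.U.map (QuotientGroup.mk' L'.U)), (BL S L').ρ (k : GQ ⧸ L'.U) b : BL S L') :
    Additive (ideles S) ⧸ imE S)

/-- **(C3)** existence theorem mod `p` -/
def C3B : Prop := ∀ L : (levelsS S).Lv, ∃ L' : (levelsS S).Lv, L'.U ≤ L.U ∧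
  ∀ b : BL S L', ∃ b' : Additive (ideles S) ⧸ imE S,
    (∀ s ∈ L.U, ρB S s b' = b') ∧ normLv S L L' b = p • b'

end H14PT

end
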