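/-
W2-C (S55) block E, slice G6 (c) KR-lite (helper6): the smooth units `xbar q` of `PadicAlgCl q`
are `p`-divisible (any primes `p`, `q`).

Proof: `x` smooth of level `F`, `F₁` the normal closure, `K' = ℚ_q(ι F₁)`.  Then `x ∈ K'` (Galois
theory), `ι F₁` is dense in `K'`, so `x = ι a · z` with `a ∈ F₁` and `z ∈ K'` close to `1`;
`z` has a unique `p`-th root `w` close to `1`, which lies in `K'` by uniqueness; `y = ι b · w`,
`b ^ p = a`.  No completeness and no Krasner lemma are used.
-/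
import Mathlib
import Fermat.Agent.CFT2.E.G6_helper6

set_option autoImplicit false
set_option linter.style.haveILetI false
set_option linter.unusedSectionVars false
set_option linter.unusedVariables false

namespace H6G6

open H14PT
open scoped NNReal

local notation "Qb" => AlgebraicClosure ℚ
local notation "GQ" => (AlgebraicClosure ℚ ≃ₐ[ℚ] AlgebraicClosure ℚ)

section norm

variable {L : Type*} [NormedField L] [IsUltrametricDist L]

theorem h6g6_norm_eq_one {w : L} (h : ‖w - 1‖ < 1) : ‖w‖ = 1 := by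
  have h1 : ‖(w - 1) + 1‖ = max ‖w - 1‖ ‖(1 : L)‖ :=
    IsUltrametricDist.norm_add_eq_max_of_norm_ne_norm (by rw [norm_one]; exact h.ne)
  rw [sub_add_cancel, norm_one, max_eq_right h.le] at h1
  exact h1

/-- a `p`-th root of unity close to `1` is `1` -/
theorem h6g6_zeta_norm {p : ℕ} {ζ : L} (hζ : ζ ^ p = 1) (h1 : ‖ζ - 1‖ < ‖(p : L)‖) : ζ = 1 := by
  by_contra hne
  have hp0 : p ≠ 0 := by
    rintro rfl
    simp only [Nat.cast_zero, norm_zero] at h1
    exact absurd h1 (not_lt.mpr (norm_nonneg _))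
  have hsum : ∑ i ∈ Finset.range p, ζ ^ i = 0 := by
    have h := geom_sum_mul ζ p
    rw [hζ, sub_self] at h
    rcases mul_eq_zero.mp h with h2 | h2
    · exact h2
    · exact absurd (sub_eq_zero.mp h2) hne
  have hvζ : ‖ζ‖ = 1 := by
    have h := congrArg norm hζ
    rw [norm_pow, norm_one] at h
    exact (pow_eq_one_iff_of_nonneg (norm_nonneg _) hp0).1 h
  have hterm : ∀ i ∈ Finset.range p, ‖ζ ^ i - 1‖ ≤ ‖ζ - 1‖ := by
    intro i _
    have h := geom_sum_mul ζ i
    rw [← h, norm_mul]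
    have h3 : ‖∑ j ∈ Finset.range i, ζ ^ j‖ ≤ 1 := by
      refine IsUltrametricDist.norm_sum_le_of_forall_le_of_nonneg zero_le_one fun j _ => ?_
      rw [norm_pow, hvζ, one_pow]
    calc ‖∑ j ∈ Finset.range i, ζ ^ j‖ * ‖ζ - 1‖ ≤ 1 * ‖ζ - 1‖ :=
          mul_le_mul_of_nonneg_right h3 (norm_nonneg _)
      _ = ‖ζ - 1‖ := one_mul _
  have hle : ‖∑ i ∈ Finset.range p, (ζ ^ i - 1)‖ ≤ ‖ζ - 1‖ :=
    IsUltrametricDist.norm_sum_le_of_forall_le_of_nonneg (norm_nonneg _) hterm
  rw [Finset.sum_sub_distrib, hsum, Finset.sum_const, Finset.card_range, nsmul_eq_mul, mul_one,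
    zero_sub, norm_neg] at hle
  exact absurd h1 (not_lt.mpr hle)

/-- an element close to `1` has a `p`-th root close to `1` -/
theorem h6g6_exists_root [IsAlgClosed L] {p : ℕ} (hp : 0 < p) {z : L} {δ : ℝ} (hδ : 0 < δ)
    (hz : ‖z - 1‖ < δ ^ p) : ∃ w : L, w ^ p = z ∧ ‖w - 1‖ < δ := by
  classical
  by_contra hcon
  push Not at hcon
  set f : Polynomial L := Polynomial.X ^ p - Polynomial.C z with hf
  have hmonic : f.Monic := Polynomial.monic_X_pow_sub_C z hp.ne'
  have hsplit : f.Splits := IsAlgClosed.splits f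
  have hdeg : f.natDegree = p := Polynomial.natDegree_X_pow_sub_C
  have hprod := hsplit.eq_prod_roots
  rw [hmonic.leadingCoeff, Polynomial.C_1, one_mul] at hprod
  have hcard : f.roots.card = p := by rw [← hsplit.natDegree_eq_card_roots, hdeg]
  have heval : (1 : L) - z = (f.roots.map (fun w => 1 - w)).prod := by
    have h1 := congrArg (Polynomial.eval 1) hprod
    rw [Polynomial.eval_multiset_prod, Multiset.map_map] at h1
    simp only [hf, Polynomial.eval_sub, Polynomial.eval_pow, Polynomial.eval_X, one_pow,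
      Polynomial.eval_C, Function.comp_def] at h1
    exact h1
  have hroot : ∀ w ∈ f.roots, w ^ p = z := by
    intro w hw
    have := (Polynomial.mem_roots hmonic.ne_zero).1 hw
    simp only [hf, Polynomial.IsRoot, Polynomial.eval_sub, Polynomial.eval_pow, Polynomial.eval_X,
      Polynomial.eval_C] at this
    exact sub_eq_zero.mp this
  have hnn : ‖(1 : L) - z‖₊ = (f.roots.map (fun w => ‖1 - w‖₊)).prod := by
    rw [heval]
    have := Multiset.prod_hom (f.roots.map (fun w => 1 - w)) (nnnormHom : L →*₀ ℝ≥0)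
    rw [Multiset.map_map] at this
    exact this.symm
  have hδ' : ((Real.toNNReal δ : ℝ≥0) : ℝ) = δ := Real.coe_toNNReal δ hδ.le
  have hge : (Real.toNNReal δ) ^ (f.roots.map (fun w => ‖1 - w‖₊)).card
      ≤ (f.roots.map (fun w => ‖1 - w‖₊)).prod := by
    refine Multiset.pow_card_le_prod (fun x hx => ?_)
    obtain ⟨w, hw, rfl⟩ := Multiset.mem_map.1 hx
    have h1 := hcon w (hroot w hw)
    rw [← NNReal.coe_le_coe, coe_nnnorm, hδ', norm_sub_rev]
    exact h1
  rw [Multiset.card_map, hcard, ← hnn] at hge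
  have hge' : δ ^ p ≤ ‖(1 : L) - z‖ := by
    have := NNReal.coe_le_coe.2 hge
    rw [NNReal.coe_pow, hδ', coe_nnnorm] at this
    exact this
  rw [norm_sub_rev] at hge'
  exact absurd hz (not_lt.mpr hge')

end norm

section general

variable {k E : Type*} [Field k] [Field E] [Algebra k E]

/-- an automorphism fixing the generators fixes the field they generate -/
theorem h6g6_mem_fixingSubgroup_adjoin (T : Set E) (τ : E ≃ₐ[k] E) (h : ∀ t ∈ T, τ t = t) :
    τ ∈ (IntermediateField.adjoin k T).fixingSubgroup := by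
  have h1 : IntermediateField.adjoin k T ≤ IntermediateField.fixedField (Subgroup.zpowers τ) := by
    rw [IntermediateField.adjoin_le_iff]
    intro t ht
    rw [SetLike.mem_coe, IntermediateField.mem_fixedField_iff]
    intro g hg
    obtain ⟨n, rfl⟩ := Subgroup.mem_zpowers_iff.1 hg
    have hfix : τ ∈ MulAction.stabilizer (E ≃ₐ[k] E) t := h t ht
    exact (MulAction.stabilizer (E ≃ₐ[k] E) t).zpow_mem hfix n
  have h2 := (IntermediateField.le_iff_le (Subgroup.zpowers τ) (IntermediateField.adjoin k T)).1 h1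
  exact h2 (Subgroup.mem_zpowers τ)

end general

section locfield

variable (q : ℕ) [Fact q.Prime]

local notation "Gq" => (PadicAlgCl q ≃ₐ[ℚ_[q]] PadicAlgCl q)

/-- `ℚ_q(ι F)` -/
noncomputable def h6g6_locField (F : IntermediateField ℚ Qb) :
    IntermediateField ℚ_[q] (PadicAlgCl q) :=
  IntermediateField.adjoin ℚ_[q] ((padicEmbedding q) '' (F : Set Qb))

theorem h6g6_emb_mem (F : IntermediateField ℚ Qb) {a : Qb} (ha : a ∈ F) :
    padicEmbedding q a ∈ h6g6_locField q F :=
  IntermediateField.subset_adjoin _ _ ⟨a, ha, rfl⟩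

/-- `τ` fixes `ℚ_q(ι F)` iff its restriction to `Qb` fixes `F` -/
theorem h6g6_mem_fixingSubgroup_iff (F : IntermediateField ℚ Qb) (τ : Gq) :
    τ ∈ (h6g6_locField q F).fixingSubgroup ↔ localGaloisToGlobal q τ ∈ F.fixingSubgroup := by
  constructor
  · intro h
    rw [IntermediateField.mem_fixingSubgroup_iff]
    intro a ha
    have h1 := (IntermediateField.mem_fixingSubgroup_iff _ τ).1 h _ (h6g6_emb_mem q F ha)
    rw [← padicEmbedding_localGaloisToGlobal] at h1
    exact (padicEmbedding q).injective h1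
  · intro h
    refine h6g6_mem_fixingSubgroup_adjoin _ τ ?_
    rintro _ ⟨a, ha, rfl⟩
    rw [← padicEmbedding_localGaloisToGlobal,
      (IntermediateField.mem_fixingSubgroup_iff _ _).1 h a ha]

/-- `ι F` is dense in `ℚ_q(ι F)` -/
theorem h6g6_dense (F : IntermediateField ℚ Qb) {x : PadicAlgCl q}
    (hx : x ∈ h6g6_locField q F) {ε : ℝ} (hε : 0 < ε) :
    ∃ a ∈ F, ‖x - padicEmbedding q a‖ < ε := by
  set S₀ : Subalgebra ℚ (PadicAlgCl q) := F.toSubalgebra.map (padicEmbedding q) with hS₀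
  have hS₀mem : ∀ y, y ∈ S₀ ↔ ∃ a ∈ F, padicEmbedding q a = y := by
    intro y
    rw [hS₀, Subalgebra.mem_map]
    rfl
  have key0 : ∀ y, y ∈ Algebra.adjoin ℚ_[q] ((padicEmbedding q) '' (F : Set Qb)) →
      y ∈ S₀.topologicalClosure := by
    intro y hy
    induction hy using Algebra.adjoin_induction with
    | mem y hy =>
      obtain ⟨a, ha, rfl⟩ := hy
      exact S₀.le_topologicalClosure ((hS₀mem _).2 ⟨a, ha, rfl⟩)
    | algebraMap c =>
      have hc : c ∈ closure (Set.range (Rat.cast : ℚ → ℚ_[q])) :=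
        (Padic.denseRange_ratCast q) c
      have hcont : Continuous (algebraMap ℚ_[q] (PadicAlgCl q)) :=
        continuous_algebraMap ℚ_[q] (PadicAlgCl q)
      have hmaps : Set.MapsTo (algebraMap ℚ_[q] (PadicAlgCl q))
          (Set.range (Rat.cast : ℚ → ℚ_[q])) (S₀ : Set (PadicAlgCl q)) := by
        rintro _ ⟨r, rfl⟩
        have : algebraMap ℚ_[q] (PadicAlgCl q) (r : ℚ_[q]) = algebraMap ℚ (PadicAlgCl q) r := by
          rw [map_ratCast, eq_ratCast]
        rw [this]
        exact S₀.algebraMap_mem r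
      have := map_mem_closure hcont hc hmaps
      rw [← Subalgebra.topologicalClosure_coe] at this
      exact this
    | add y z _ _ hy hz => exact Subalgebra.add_mem _ hy hz
    | mul y z _ _ hy hz => exact Subalgebra.mul_mem _ hy hz
  have key : x ∈ S₀.topologicalClosure := by
    have hx' : x ∈ (h6g6_locField q F).toSubalgebra := hx
    unfold h6g6_locField at hx'
    rw [IntermediateField.adjoin_toSubalgebra_of_isAlgebraic
      (fun y _ => Algebra.IsAlgebraic.isAlgebraic y)] at hx'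
    exact key0 x hx'
  have key' : x ∈ closure (S₀ : Set (PadicAlgCl q)) := by
    rw [← Subalgebra.topologicalClosure_coe]
    exact key
  obtain ⟨y, hy, hxy⟩ := Metric.mem_closure_iff.1 key' ε hε
  obtain ⟨a, ha, rfl⟩ := (hS₀mem y).1 hy
  refine ⟨a, ha, ?_⟩
  rwa [dist_eq_norm] at hxy

end locfield

section main2

variable (q : ℕ) [Fact q.Prime]

local notation "Gq" => (PadicAlgCl q ≃ₐ[ℚ_[q]] PadicAlgCl q)

theorem h6g6_norm_algEquiv (τ : Gq) (y : PadicAlgCl q) : ‖τ y‖ = ‖y‖ := by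
  have := nnnorm_padicAlgCl_algEquiv q τ y
  exact congrArg NNReal.toReal this

/-- `ℚ_q(ι F₁)` is stable under the local Galois group if `F₁` is stable under `GQ` -/
theorem h6g6_locField_stable (F₁ : IntermediateField ℚ Qb)
    (hnorm : ∀ (σ : GQ) (a : Qb), a ∈ F₁ → σ a ∈ F₁) (τ' : Gq) {w : PadicAlgCl q}
    (hw : w ∈ h6g6_locField q F₁) : τ' w ∈ h6g6_locField q F₁ := by
  have h1 : (h6g6_locField q F₁).map (τ' : PadicAlgCl q →ₐ[ℚ_[q]] PadicAlgCl q)
      ≤ h6g6_locField q F₁ := by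
    unfold h6g6_locField
    rw [IntermediateField.adjoin_map, IntermediateField.adjoin_le_iff]
    rintro _ ⟨_, ⟨a, ha, rfl⟩, rfl⟩
    have : (τ' : PadicAlgCl q →ₐ[ℚ_[q]] PadicAlgCl q) (padicEmbedding q a)
        = padicEmbedding q (localGaloisToGlobal q τ' a) :=
      (padicEmbedding_localGaloisToGlobal q τ' a).symm
    rw [this]
    exact IntermediateField.subset_adjoin _ _ ⟨_, hnorm _ a ha, rfl⟩
  exact h1 ⟨w, hw, rfl⟩

/-- **(G6c) KR-lite**: the smooth units of `PadicAlgCl q` are `p`-divisible -/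
theorem h6g6_krlite (p : ℕ) (hp : p.Prime) (x : (PadicAlgCl q)ˣ) (hx : x ∈ xbar q) :
    ∃ y ∈ xbar q, y ^ p = x := by
  obtain ⟨F, hF, hsm⟩ := hx
  haveI := hF
  haveI : Algebra.IsAlgebraic ℚ Qb := AlgebraicClosure.isAlgebraic ℚ
  haveI : IsAlgClosure ℚ Qb := ⟨inferInstance, inferInstance⟩
  haveI : Normal ℚ Qb := IsAlgClosure.normal ℚ Qb
  set F₁ : IntermediateField ℚ Qb := IntermediateField.normalClosure ℚ F Qb with hF₁
  haveI : Normal ℚ F₁ := normalClosure.normal ℚ F Qb
  haveI : FiniteDimensional ℚ F₁ := normalClosure.is_finiteDimensional ℚ F Qb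
  have hFF₁ : F ≤ F₁ := IntermediateField.le_normalClosure F
  have hnorm : ∀ (σ : GQ) (a : Qb), a ∈ F₁ → σ a ∈ F₁ := by
    intro σ a ha
    have h := (IntermediateField.normal_iff_forall_map_le' (F := ℚ) (L := Qb) (K := F₁)).1
      inferInstance σ
    exact h ⟨a, ha, rfl⟩
  set K' := h6g6_locField q F₁ with hK'
  have hfixK' : ∀ u : PadicAlgCl q, (∀ τ ∈ K'.fixingSubgroup, τ u = u) → u ∈ K' := by
    intro u hu
    have h1 : u ∈ IntermediateField.fixedField K'.fixingSubgroup := by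
      rw [IntermediateField.mem_fixedField_iff]
      exact hu
    rwa [InfiniteGalois.fixedField_fixingSubgroup] at h1
  -- `x ∈ K'`
  have hxK' : (x : PadicAlgCl q) ∈ K' := by
    refine hfixK' _ (fun τ hτ => ?_)
    have h1 : localGaloisToGlobal q τ ∈ F₁.fixingSubgroup :=
      (h6g6_mem_fixingSubgroup_iff q F₁ τ).1 hτ
    have h2 : localGaloisToGlobal q τ ∈ F.fixingSubgroup :=
      IntermediateField.fixingSubgroup_antitone hFF₁ h1
    have := hsm τ h2 1
    simpa using this
  -- approximation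
  have hpL : (p : PadicAlgCl q) ≠ 0 := Nat.cast_ne_zero.mpr hp.ne_zero
  have hpn : 0 < ‖(p : PadicAlgCl q)‖ := norm_pos_iff.mpr hpL
  have hpn1 : ‖(p : PadicAlgCl q)‖ ≤ 1 := IsUltrametricDist.norm_natCast_le_one _ p
  set δ := ‖(p : PadicAlgCl q)‖ with hδ
  have hx0 : (x : PadicAlgCl q) ≠ 0 := x.ne_zero
  have hxn : 0 < ‖(x : PadicAlgCl q)‖ := norm_pos_iff.mpr hx0
  obtain ⟨a, haF, hax⟩ := h6g6_dense q F₁ hxK' (ε := δ ^ p * ‖(x : PadicAlgCl q)‖)
    (mul_pos (pow_pos hpn p) hxn)
  have hδp1 : δ ^ p ≤ 1 := pow_le_one₀ hpn.le hpn1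
  have hax' : ‖(x : PadicAlgCl q) - padicEmbedding q a‖ < ‖(x : PadicAlgCl q)‖ :=
    lt_of_lt_of_le hax (mul_le_of_le_one_left hxn.le hδp1)
  have hna : ‖padicEmbedding q a‖ = ‖(x : PadicAlgCl q)‖ := by
    have h1 : ‖(x : PadicAlgCl q) + -((x : PadicAlgCl q) - padicEmbedding q a)‖
        = max ‖(x : PadicAlgCl q)‖ ‖-((x : PadicAlgCl q) - padicEmbedding q a)‖ :=
      IsUltrametricDist.norm_add_eq_max_of_norm_ne_norm (by rw [norm_neg]; exact hax'.ne')
    rw [norm_neg, max_eq_left hax'.le] at h1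
    rw [← h1]
    congr 1
    ring
  have hιa0 : padicEmbedding q a ≠ 0 := by
    rw [← norm_pos_iff, hna]
    exact hxn
  have ha0 : a ≠ 0 := by
    rintro rfl
    exact hιa0 (map_zero _)
  set z : PadicAlgCl q := (x : PadicAlgCl q) / padicEmbedding q a with hz
  have hzK' : z ∈ K' := K'.div_mem hxK' (h6g6_emb_mem q F₁ haF)
  have hz1 : ‖z - 1‖ < δ ^ p := by
    have e : z - 1 = ((x : PadicAlgCl q) - padicEmbedding q a) / padicEmbedding q a := by
      rw [hz]
      field_simp
    rw [e, norm_div, hna, div_lt_iff₀ hxn]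
    exact hax
  obtain ⟨w, hwz, hw1⟩ := h6g6_exists_root hp.pos hpn hz1
  have hw1' : ‖w - 1‖ < 1 := lt_of_lt_of_le hw1 hpn1
  have hwn : ‖w‖ = 1 := h6g6_norm_eq_one hw1'
  have hw0 : w ≠ 0 := by
    rw [← norm_pos_iff, hwn]
    exact one_pos
  -- `w ∈ K'`
  have hwK' : w ∈ K' := by
    refine hfixK' _ (fun τ hτ => ?_)
    have hτz : τ z = z := (IntermediateField.mem_fixingSubgroup_iff _ τ).1 hτ z hzK'
    have hζ : (τ w / w) ^ p = 1 := by
      rw [div_pow, ← map_pow, hwz, hτz, div_self]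
      rw [← hwz]
      exact pow_ne_zero _ hw0
    have h1 : ‖τ w / w - 1‖ < δ := by
      have e : τ w / w - 1 = (τ w - w) / w := by
        field_simp
      rw [e, norm_div, hwn, div_one]
      have e2 : τ w - w = τ (w - 1) + -(w - 1) := by
        rw [map_sub, map_one]
        ring
      rw [e2]
      refine lt_of_le_of_lt (IsUltrametricDist.norm_add_le_max _ _) (max_lt ?_ ?_)
      · rw [h6g6_norm_algEquiv]
        exact hw1
      · rw [norm_neg]
        exact hw1
    have := h6g6_zeta_norm hζ h1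
    exact (div_eq_one_iff_eq hw0).1 this
  -- the root
  obtain ⟨b, hb⟩ := IsAlgClosed.exists_pow_nat_eq a hp.pos
  have hb0 : b ≠ 0 := by
    rintro rfl
    rw [zero_pow hp.ne_zero] at hb
    exact ha0 hb.symm
  have hιb0 : padicEmbedding q b ≠ 0 := fun h =>
    hb0 ((padicEmbedding q).injective (h.trans (map_zero _).symm))
  set y : PadicAlgCl q := padicEmbedding q b * w with hy
  have hy0 : y ≠ 0 := mul_ne_zero hιb0 hw0
  have hyp : y ^ p = (x : PadicAlgCl q) := by
    rw [hy, mul_pow, ← map_pow, hb, hwz, hz]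
    field_simp
  refine ⟨Units.mk0 y hy0, ?_, ?_⟩
  · haveI := h6g6_field_finite b
    refine ⟨F₁ ⊔ h6g6_field b, IntermediateField.finiteDimensional_sup F₁ (h6g6_field b), ?_⟩
    intro τ hτ τ'
    have hτ1 : localGaloisToGlobal q τ ∈ F₁.fixingSubgroup :=
      IntermediateField.fixingSubgroup_antitone le_sup_left hτ
    have hτ2 : localGaloisToGlobal q τ ∈ (h6g6_field b).fixingSubgroup :=
      IntermediateField.fixingSubgroup_antitone le_sup_right hτ
    have hτK' : τ ∈ K'.fixingSubgroup := (h6g6_mem_fixingSubgroup_iff q F₁ τ).2 hτ1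
    show τ (τ' y) = τ' y
    rw [hy, map_mul, map_mul]
    have e1 : τ' (padicEmbedding q b) = padicEmbedding q (localGaloisToGlobal q τ' b) :=
      (padicEmbedding_localGaloisToGlobal q τ' b).symm
    rw [e1, ← padicEmbedding_localGaloisToGlobal q τ]
    have e2 : localGaloisToGlobal q τ (localGaloisToGlobal q τ' b)
        = localGaloisToGlobal q τ' b :=
      (IntermediateField.mem_fixingSubgroup_iff _ _).1 hτ2 _ (h6g6_conj_mem b _)
    rw [e2]
    have e3 : τ (τ' w) = τ' w :=
      (IntermediateField.mem_fixingSubgroup_iff _ τ).1 hτK' _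
        (h6g6_locField_stable q F₁ hnorm τ' hwK')
    rw [e3]
  · apply Units.ext
    rw [Units.val_pow_eq_pow_val, Units.val_mk0, hyp]

/-- **(G6c) KR-lite**, additive form -/
theorem h6g6_krlite_additive (p : ℕ) (hp : p.Prime) (x : Additive (xbar q)) :
    ∃ y : Additive (xbar q), p • y = x := by
  obtain ⟨v, hv, hvu⟩ := h6g6_krlite q p hp ((Additive.toMul x : xbar q) : (PadicAlgCl q)ˣ)
    (Additive.toMul x).2
  refine ⟨Additive.ofMul ⟨v, hv⟩, ?_⟩
  rw [← ofMul_pow]
  have : (⟨v, hv⟩ : xbar q) ^ p = Additive.toMul x := Subtype.ext hvu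
  rw [this]
  rfl

end main2

end H6G6
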