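/-
W2-C (S55) block E, slice LOCDEG (helper24), part 1: the local core.
For a finite (Galois) extension `L` of `ℚ_q` containing a primitive `p^k`-th root of unity:
* `q = p`, `k = 2`                 : `p ∣ [L : ℚ_p]`   (`‖1 - ζ‖ ^ (p(p-1)) = ‖p‖`, discreteness of the norm);
* `q ≠ p`, `p^k > |k_{ℚ_q}|^(p-1)` : `p ∣ [L : ℚ_q]`   (`ζ ^ |k_L| = ζ`, `|k_L|^e = |k_{ℚ_q}|^n`).
-/
import Mathlib
import Fermat.Agent.CFT2.B.UnrFinal_helper24

set_option autoImplicit false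
set_option linter.style.haveILetI false
set_option linter.unusedSectionVars false
set_option linter.unusedVariables false

noncomputable section

namespace H24LD

open scoped WithZero
open H3LB H24LB Polynomial

/-! ### elementary number theory -/

/-- if `Q ^ n ≡ 1 mod p^k`, `p ∤ n` then `Q ^ (p-1) ≡ 1 mod p^k` -/
theorem h24ld_order {p : ℕ} (hp : p.Prime) {k Q n : ℕ} (hk : 0 < k)
    (h : (Q : ZMod (p ^ k)) ^ n = 1) (hn : ¬ p ∣ n) : (Q : ZMod (p ^ k)) ^ (p - 1) = 1 := by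
  haveI : NeZero (p ^ k) := ⟨pow_ne_zero _ hp.ne_zero⟩
  have hn0 : n ≠ 0 := by
    rintro rfl
    exact hn (dvd_zero p)
  have hu : IsUnit (Q : ZMod (p ^ k)) := IsUnit.of_pow_eq_one h hn0
  obtain ⟨u, hu'⟩ := hu
  have h1 : u ^ n = 1 := by
    apply Units.ext
    rw [Units.val_pow_eq_pow_val, hu', h, Units.val_one]
  have h2 : u ^ (p ^ k).totient = 1 := ZMod.pow_totient u
  have h3 : u ^ Nat.gcd n (p ^ k).totient = 1 := pow_gcd_eq_one.2 ⟨h1, h2⟩
  have h4 : Nat.gcd n (p ^ k).totient ∣ p - 1 := by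
    rw [Nat.totient_prime_pow hp hk]
    have hcop : Nat.Coprime n (p ^ (k - 1)) :=
      Nat.Coprime.pow_right _ ((Nat.Prime.coprime_iff_not_dvd hp).mpr hn).symm
    rw [Nat.Coprime.gcd_mul_left_cancel_right]
    · exact Nat.gcd_dvd_right _ _
    · exact hcop.symm
  obtain ⟨c, hc⟩ := h4
  have h5 : u ^ (p - 1) = 1 := by rw [hc, pow_mul, h3, one_pow]
  rw [← hu', ← Units.val_pow_eq_pow_val, h5, Units.val_one]

/-- `p ∣ n` as soon as `Q ^ n ≡ 1 mod p^k` with `1 < Q`, `Q ^ (p-1) < p^k` -/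
theorem h24ld_dvd_of_pow {p : ℕ} (hp : p.Prime) {k Q n : ℕ} (hQ : 1 < Q)
    (hk : Q ^ (p - 1) < p ^ k) (h : p ^ k ∣ Q ^ n - 1) (hn0 : 0 < n) : p ∣ n := by
  by_contra hn
  have hk0 : 0 < k := by
    rcases Nat.eq_zero_or_pos k with rfl | h0
    · rw [pow_zero] at hk
      have : 1 ≤ Q ^ (p - 1) := Nat.one_le_pow _ _ (by omega)
      omega
    · exact h0
  have hQn : 1 ≤ Q ^ n := Nat.one_le_pow _ _ (by omega)
  have h1 : (Q : ZMod (p ^ k)) ^ n = 1 := by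
    have := (ZMod.natCast_eq_zero_iff (Q ^ n - 1) (p ^ k)).2 h
    rw [Nat.cast_sub hQn, Nat.cast_pow, Nat.cast_one, sub_eq_zero] at this
    exact this
  have h2 := h24ld_order hp hk0 h1 hn
  have hQp : 1 ≤ Q ^ (p - 1) := Nat.one_le_pow _ _ (by omega)
  have h3 : p ^ k ∣ Q ^ (p - 1) - 1 := by
    rw [← ZMod.natCast_eq_zero_iff, Nat.cast_sub hQp, Nat.cast_pow, Nat.cast_one, h2, sub_self]
  have hp1 : 0 < p - 1 := by have := hp.two_le; omega
  have h4 : 1 < Q ^ (p - 1) := Nat.one_lt_pow hp1.ne' hQ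
  have h5 := Nat.le_of_dvd (by omega) h3
  omega

/-! ### the case `q ≠ p` -/

section ne

variable (q : ℕ) [Fact q.Prime] (L : Type) [Field L] [Algebra ℚ_[q] L]
  [FiniteDimensional ℚ_[q] L] [IsGalois ℚ_[q] L]

/-- the cardinality of the residue field of `ℚ_q` -/
def h24ld_Q : ℕ := h24lb_q (padicVal q ℚ_[q])

theorem h24ld_one_lt_Q : 1 < h24ld_Q q := h24lb_one_lt_q _ (h3lb_isLocalVal q ℚ_[q])

/-- **LOCDEG core, `q ≠ p`** -/
theorem h24ld_core_ne {p : ℕ} (hp : p.Prime) (hpq : p ≠ q) {k : ℕ}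
    (hk : h24ld_Q q ^ (p - 1) < p ^ k) {ζ : L} (hζ : IsPrimitiveRoot ζ (p ^ k)) :
    p ∣ Module.finrank ℚ_[q] L := by
  obtain ⟨e, he⟩ := h3lb_exists_isLocalExt q (K := ℚ_[q]) (L := L)
  have hEF := H10LB.h10lb_ramResDegree ℚ_[q] L (padicVal q ℚ_[q]) (padicVal q L) e he
  have hpk0 : 0 < p ^ k := pow_pos hp.pos k
  have hqpk : ¬ q ∣ p ^ k := by
    intro h
    have h1 := (Fact.out : q.Prime).dvd_of_dvd_pow h
    exact hpq ((Nat.prime_dvd_prime_iff_eq Fact.out hp).mp h1).symm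
  have hwm : padicVal q L ((p ^ k : ℕ) : L) = 1 := h24lb_padicVal_natCast_eq_one q L hqpk
  have hwζ : padicVal q L ζ = 1 := h24lb_w_eq_one_of_pow _ hpk0 hζ.pow_eq_one
  -- `ζ ^ |k_L| = ζ`
  have h1 : padicVal q L (ζ ^ h24lb_q (padicVal q L) - ζ) < 1 :=
    h24lb_pow_card_sub _ he.hw ζ hwζ.le
  have h2 : ζ ^ h24lb_q (padicVal q L) = ζ := by
    by_contra hne
    have h3 := h24lb_root_sub_root (padicVal q L) hpk0 hwm hζ
      (x := ζ ^ h24lb_q (padicVal q L)) (y := ζ)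
      (by rw [← pow_mul, mul_comm, pow_mul, hζ.pow_eq_one, one_pow]) hζ.pow_eq_one hne
    rw [h3] at h1
    exact lt_irrefl _ h1
  have hQL : 1 < h24lb_q (padicVal q L) := h24lb_one_lt_q _ he.hw
  have h4 : ζ ^ (h24lb_q (padicVal q L) - 1) = 1 := by
    have hζ0 : ζ ≠ 0 := hζ.ne_zero hpk0.ne'
    have : ζ ^ (h24lb_q (padicVal q L) - 1) * ζ = 1 * ζ := by
      rw [← pow_succ, Nat.sub_add_cancel hQL.le, h2, one_mul]
    exact mul_right_cancel₀ hζ0 this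
  have h5 : p ^ k ∣ h24lb_q (padicVal q L) - 1 := hζ.dvd_of_pow_eq_one _ h4
  -- `|k_L| ^ e = Q ^ n`
  have h6 : h24lb_q (padicVal q L) ^ e = h24ld_Q q ^ Module.finrank ℚ_[q] L := hEF
  have h7 : p ^ k ∣ h24lb_q (padicVal q L) ^ e - 1 := by
    exact h5.trans (Nat.sub_one_dvd_pow_sub_one (x := h24lb_q (padicVal q L)) (n := e))
  rw [h6] at h7
  exact h24ld_dvd_of_pow hp (h24ld_one_lt_Q q) hk h7 Module.finrank_pos

end ne

/-! ### the case `q = p` -/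

section eq

variable (p : ℕ) [Fact p.Prime] (L : Type) [Field L] [Algebra ℚ_[p] L]
  [FiniteDimensional ℚ_[p] L]

variable {L}

theorem h24ld_snorm_prod {ι : Type*} (s : Finset ι) (f : ι → L) :
    snorm p L (∏ i ∈ s, f i) = ∏ i ∈ s, snorm p L (f i) := by
  classical
  induction s using Finset.induction_on with
  | empty => rw [Finset.prod_empty, Finset.prod_empty, h3lb_snorm_one]
  | insert a s ha ih => rw [Finset.prod_insert ha, Finset.prod_insert ha, h3lb_snorm_mul, ih]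

theorem h24ld_snorm_pow (x : L) (n : ℕ) : snorm p L (x ^ n) = snorm p L x ^ n := by
  induction n with
  | zero => rw [pow_zero, pow_zero, h3lb_snorm_one]
  | succ n ih => rw [pow_succ, pow_succ, h3lb_snorm_mul, ih]

theorem h24ld_snorm_sum_le {ι : Type*} (s : Finset ι) (f : ι → L)
    (hf : ∀ i ∈ s, snorm p L (f i) ≤ 1) : snorm p L (∑ i ∈ s, f i) ≤ 1 := by
  classical
  induction s using Finset.induction_on with
  | empty => rw [Finset.sum_empty, h3lb_snorm_zero]; exact zero_le_one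
  | insert a s ha ih =>
    rw [Finset.sum_insert ha]
    refine (h3lb_snorm_add_le p _ _).trans (max_le (hf a (Finset.mem_insert_self a s)) ?_)
    exact ih (fun i hi => hf i (Finset.mem_insert_of_mem hi))

theorem h24ld_snorm_root {m : ℕ} (hm : 0 < m) {ζ : L} (hζ : ζ ^ m = 1) : snorm p L ζ = 1 := by
  have h := congrArg (snorm p L) hζ
  rw [h24ld_snorm_pow, h3lb_snorm_one] at h
  exact (pow_eq_one_iff_of_nonneg (h3lb_snorm_nonneg p ζ) hm.ne').1 h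

/-- `‖1 - ζ^a‖ ≤ ‖1 - ζ‖` for a root of unity `ζ` -/
theorem h24ld_snorm_one_sub_pow_le {m : ℕ} (hm : 0 < m) {ζ : L} (hζ : ζ ^ m = 1) (a : ℕ) :
    snorm p L (1 - ζ ^ a) ≤ snorm p L (1 - ζ) := by
  have h1 : 1 - ζ ^ a = (∑ i ∈ Finset.range a, ζ ^ i) * (1 - ζ) := by
    have := geom_sum_mul ζ a
    have h2 : (∑ i ∈ Finset.range a, ζ ^ i) * (1 - ζ)
        = - ((∑ i ∈ Finset.range a, ζ ^ i) * (ζ - 1)) := by ring
    rw [h2, this]
    ring
  rw [h1, h3lb_snorm_mul]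
  have h3 : snorm p L (∑ i ∈ Finset.range a, ζ ^ i) ≤ 1 := by
    apply h24ld_snorm_sum_le
    intro i _
    rw [h24ld_snorm_pow, h24ld_snorm_root p hm hζ, one_pow]
  calc snorm p L (∑ i ∈ Finset.range a, ζ ^ i) * snorm p L (1 - ζ)
      ≤ 1 * snorm p L (1 - ζ) := mul_le_mul_of_nonneg_right h3 (h3lb_snorm_nonneg p _)
    _ = snorm p L (1 - ζ) := one_mul _

/-- all `1 - μ`, `μ` a primitive `m`-th root of unity, have the same norm -/
theorem h24ld_snorm_one_sub_eq {m : ℕ} (hm : 0 < m) {ζ μ : L} (hζ : IsPrimitiveRoot ζ m)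
    (hμ : IsPrimitiveRoot μ m) : snorm p L (1 - μ) = snorm p L (1 - ζ) := by
  haveI : NeZero m := ⟨hm.ne'⟩
  obtain ⟨a, -, ha⟩ := hζ.eq_pow_of_pow_eq_one hμ.pow_eq_one
  obtain ⟨b, -, hb⟩ := hμ.eq_pow_of_pow_eq_one hζ.pow_eq_one
  apply le_antisymm
  · rw [← ha]
    exact h24ld_snorm_one_sub_pow_le p hm hζ.pow_eq_one a
  · rw [← hb]
    exact h24ld_snorm_one_sub_pow_le p hm hμ.pow_eq_one b

/-- `‖1 - ζ‖ ^ φ(p^(k+1)) = 1/p` for a primitive `p^(k+1)`-th root of unity `ζ` -/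
theorem h24ld_snorm_one_sub_pow_totient (k : ℕ) {ζ : L} (hζ : IsPrimitiveRoot ζ (p ^ (k + 1))) :
    snorm p L (1 - ζ) ^ (p ^ (k + 1)).totient = (p : ℝ)⁻¹ := by
  have hm : 0 < p ^ (k + 1) := pow_pos (Fact.out : p.Prime).pos _
  haveI : NeZero (p ^ (k + 1)) := ⟨hm.ne'⟩
  have h1 := Polynomial.cyclotomic_eq_prod_X_sub_primitiveRoots hζ
  have h2 : Polynomial.eval 1 (Polynomial.cyclotomic (p ^ (k + 1)) L) = (p : L) :=
    Polynomial.eval_one_cyclotomic_prime_pow k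
  rw [h1, Polynomial.eval_prod] at h2
  have h3 : ∏ μ ∈ primitiveRoots (p ^ (k + 1)) L, (1 - μ) = (p : L) := by
    rw [← h2]
    apply Finset.prod_congr rfl
    intro μ _
    rw [Polynomial.eval_sub, Polynomial.eval_X, Polynomial.eval_C]
  have h4 := congrArg (snorm p L) h3
  rw [h24ld_snorm_prod] at h4
  have h5 : ∏ μ ∈ primitiveRoots (p ^ (k + 1)) L, snorm p L (1 - μ)
      = ∏ μ ∈ primitiveRoots (p ^ (k + 1)) L, snorm p L (1 - ζ) := by
    apply Finset.prod_congr rfl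
    intro μ hμ
    exact h24ld_snorm_one_sub_eq p hm hζ ((mem_primitiveRoots hm).1 hμ)
  rw [h5, Finset.prod_const, hζ.card_primitiveRoots] at h4
  rw [h4]
  have e1 : (p : L) = algebraMap ℚ_[p] L (p : ℚ_[p]) := (map_natCast _ _).symm
  rw [e1, h3lb_snorm_algebraMap, Padic.norm_p]

/-- **LOCDEG core, `q = p`**: `φ(p^(k+1)) ∣ [L : ℚ_p]` -/
theorem h24ld_totient_dvd (k : ℕ) {ζ : L} (hζ : IsPrimitiveRoot ζ (p ^ (k + 1))) :
    (p ^ (k + 1)).totient ∣ Module.finrank ℚ_[p] L := by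
  have hm : 0 < p ^ (k + 1) := pow_pos (Fact.out : p.Prime).pos _
  have h1 := h24ld_snorm_one_sub_pow_totient p k hζ
  have hne : (1 : L) - ζ ≠ 0 := by
    intro h
    have h2 : ζ = 1 := (sub_eq_zero.1 h).symm
    have h3 := hζ.unique (h2 ▸ IsPrimitiveRoot.one (M := L))
    have : 1 < p ^ (k + 1) := Nat.one_lt_pow (by omega) (Fact.out : p.Prime).one_lt
    omega
  have h2 := h3lb_ordN_spec p hne
  have hp0 : (p : ℝ) ≠ 0 := by
    have := h3lb_q_pos p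
    linarith
  have h3 : (p : ℝ) ^ (-(Module.finrank ℚ_[p] L : ℤ))
      = (p : ℝ) ^ (-(ordN p (1 - ζ) * ((p ^ (k + 1)).totient : ℤ))) := by
    calc (p : ℝ) ^ (-(Module.finrank ℚ_[p] L : ℤ))
        = ((p : ℝ)⁻¹) ^ (Module.finrank ℚ_[p] L) := by
          rw [zpow_neg, zpow_natCast, inv_pow]
      _ = (snorm p L (1 - ζ) ^ (p ^ (k + 1)).totient) ^ (Module.finrank ℚ_[p] L) := by rw [h1]
      _ = (snorm p L (1 - ζ) ^ (Module.finrank ℚ_[p] L)) ^ (p ^ (k + 1)).totient := by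
          rw [← pow_mul, ← pow_mul, mul_comm]
      _ = ((p : ℝ) ^ (-(ordN p (1 - ζ)))) ^ (p ^ (k + 1)).totient := by rw [h2]
      _ = (p : ℝ) ^ (-(ordN p (1 - ζ) * ((p ^ (k + 1)).totient : ℤ))) := by
          rw [← zpow_natCast, ← zpow_mul, neg_mul]
  have h4 := h3lb_zpow_inj p h3
  have h5 : (Module.finrank ℚ_[p] L : ℤ) = ordN p (1 - ζ) * ((p ^ (k + 1)).totient : ℤ) := by
    linarith
  have h6 : ((p ^ (k + 1)).totient : ℤ) ∣ (Module.finrank ℚ_[p] L : ℤ) :=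
    ⟨ordN p (1 - ζ), by rw [h5]; ring⟩
  exact_mod_cast h6

/-- **LOCDEG core, `q = p`**: `p ∣ [L : ℚ_p]` if `ζ_{p²} ∈ L` -/
theorem h24ld_core_eq {ζ : L} (hζ : IsPrimitiveRoot ζ (p ^ 2)) :
    p ∣ Module.finrank ℚ_[p] L := by
  have h1 := h24ld_totient_dvd p 1 hζ
  have h2 : p ∣ (p ^ (1 + 1)).totient := by
    rw [Nat.totient_prime_pow (Fact.out : p.Prime) (by omega)]
    exact ⟨p - 1, by simp⟩
  exact h2.trans h1

end eq

end H24LD

end
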