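/-
W2-C (S55) block E, slice LOCDEG (helper24), part 2: for primes `p ∈ S` and `q` there is an
`S`-level (the fixing subgroup of `ℚ(ζ_{p^k})`) whose local degree at `q` is divisible by `p`:
`∃ U ∈ (levelsS S).sets, p ∣ (U.comap (primeLocalToGlobal q)).index`.
-/
import Mathlib
import Fermat.Agent.CFT2.E.LocDegCore_helper24
import Fermat.Agent.CFT2.E.G6c_helper6
import Fermat.Agent.CFT2.E.Concrete
import Fermat.Agent.CFT2.B.LocalDecomp_helper3

set_option autoImplicit false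
set_option linter.style.haveILetI false
set_option linter.unusedSectionVars false
set_option linter.unusedVariables false

noncomputable section

namespace H24LD

open H14PT H15D H3LB H6G6 ExtCitation

local notation "Qb" => AlgebraicClosure ℚ
local notation "GQ" => (AlgebraicClosure ℚ ≃ₐ[ℚ] AlgebraicClosure ℚ)

/-- primes are prime. -/
local instance factPrimeOfPrimesLD (q : Nat.Primes) : Fact (q : ℕ).Prime := ⟨q.2⟩

/-- primitive roots of unity in `ℚ̄` -/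
theorem h24ld_exists_primitiveRoot (n : ℕ) (hn : 0 < n) : ∃ ζ : Qb, IsPrimitiveRoot ζ n := by
  haveI : NeZero (n : Qb) := ⟨Nat.cast_ne_zero.mpr hn.ne'⟩
  have hdeg : (Polynomial.cyclotomic n Qb).degree ≠ 0 :=
    (Polynomial.degree_cyclotomic_pos n Qb hn).ne'
  obtain ⟨ζ, hζ⟩ := IsAlgClosed.exists_root (Polynomial.cyclotomic n Qb) hdeg
  exact ⟨ζ, Polynomial.isRoot_cyclotomic_iff.1 hζ⟩

/-- the cyclotomic field `ℚ(ζ)` -/
def h24ld_cyc (ζ : Qb) : IntermediateField ℚ Qb := IntermediateField.adjoin ℚ {ζ}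

theorem h24ld_mem_cyc (ζ : Qb) : ζ ∈ h24ld_cyc ζ :=
  IntermediateField.subset_adjoin ℚ {ζ} (Set.mem_singleton ζ)

theorem h24ld_cyc_finite {n : ℕ} (hn : 0 < n) {ζ : Qb} (hζ : ζ ^ n = 1) :
    FiniteDimensional ℚ (h24ld_cyc ζ) := by
  have hint : IsIntegral ℚ ζ := by
    refine ⟨Polynomial.X ^ n - 1, Polynomial.monic_X_pow_sub_C 1 hn.ne', ?_⟩
    simp [hζ]
  exact IntermediateField.adjoin.finiteDimensional hint

theorem h24ld_mem_fixing_iff (ζ : Qb) (τ : GQ) :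
    τ ∈ (h24ld_cyc ζ).fixingSubgroup ↔ τ ζ = ζ := by
  constructor
  · intro h
    exact (IntermediateField.mem_fixingSubgroup_iff _ _).1 h ζ (h24ld_mem_cyc ζ)
  · intro h
    apply h6g6_mem_fixingSubgroup_adjoin
    intro t ht
    rw [Set.mem_singleton_iff] at ht
    rw [ht]
    exact h

theorem h24ld_cyc_normal {n : ℕ} (hn : 0 < n) {ζ : Qb} (hζ : IsPrimitiveRoot ζ n) :
    (h24ld_cyc ζ).fixingSubgroup.Normal := by
  haveI : NeZero n := ⟨hn.ne'⟩
  refine ⟨fun τ hτ σ => ?_⟩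
  rw [h24ld_mem_fixing_iff] at hτ ⊢
  have h1 : (σ⁻¹ ζ) ^ n = 1 := by
    rw [← map_pow, hζ.pow_eq_one, map_one]
  obtain ⟨a, -, ha⟩ := hζ.eq_pow_of_pow_eq_one h1
  change σ (τ (σ⁻¹ ζ)) = ζ
  rw [← ha, map_pow, hτ, ha]
  change (σ * σ⁻¹) ζ = ζ
  rw [mul_inv_cancel]
  rfl

/-- inertia at `q ∉ S` fixes the `p`-power roots of unity (`p ∈ S`) -/
theorem h24ld_inertia_fix (S : Finset Nat.Primes) (p : Nat.Primes) (hpS : p ∈ S)
    (q : Nat.Primes) (hq : q ∉ S) (A : ValuationSubring Qb) (hA : A.LiesOverPrime (q : ℕ))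
    (τ : GQ) (hτ : τ ∈ A.inertiaSubgroupIn ℚ) (k : ℕ) :
    ∀ w : Qb, w ^ ((p : ℕ) ^ k) = 1 → τ w = w := by
  have hp0 : (p : ℕ) ≠ 0 := p.2.ne_zero
  induction k with
  | zero =>
    intro w hw
    rw [pow_zero, pow_one] at hw
    rw [hw, map_one]
  | succ k ih =>
    intro w hw
    have h1 : (w ^ (p : ℕ)) ^ ((p : ℕ) ^ k) = 1 := by
      rw [← pow_mul, ← pow_succ']
      exact hw
    have h2 := ih _ h1
    have hA1 : w ^ (p : ℕ) ∈ A := by
      apply h6g6_mem_of_pow_mem A (pow_ne_zero k hp0)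
      rw [h1]
      exact A.one_mem
    have hA2 : (w ^ (p : ℕ))⁻¹ ∈ A := by
      apply h6g6_mem_of_pow_mem A (pow_ne_zero k hp0)
      rw [inv_pow, h1, inv_one]
      exact A.one_mem
    exact h6g6_inertia_fix S p hpS q hq A hA τ hτ w hA1 hA2 h2

theorem h24ld_cyc_unram (S : Finset Nat.Primes) (p : Nat.Primes) (hpS : p ∈ S) (k : ℕ)
    {ζ : Qb} (hζ : ζ ^ ((p : ℕ) ^ k) = 1) : (h24ld_cyc ζ).IsUnramifiedOutside S := by
  refine ⟨h24ld_cyc_finite (pow_pos p.2.pos k) hζ, fun q hq A hA τ hτ => ?_⟩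
  rw [h24ld_mem_fixing_iff]
  exact h24ld_inertia_fix S p hpS q hq A hA τ hτ k ζ hζ

/-- the cyclotomic levels are `S`-levels -/
theorem h24ld_cyc_mem_levelsS (S : Finset Nat.Primes) (p : Nat.Primes) (hpS : p ∈ S) (k : ℕ)
    {ζ : Qb} (hζ : IsPrimitiveRoot ζ ((p : ℕ) ^ k)) :
    (h24ld_cyc ζ).fixingSubgroup ∈ (levelsS S).sets :=
  ⟨h24ld_cyc ζ, h24ld_cyc_unram S p hpS k hζ.pow_eq_one,
    h24ld_cyc_normal (pow_pos p.2.pos k) hζ, rfl⟩

/-- the local degree: the index of the local level of `F` is `[F_q : ℚ_q]` -/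
theorem h24ld_index_eq (q : ℕ) [Fact q.Prime] (F : IntermediateField ℚ Qb)
    [FiniteDimensional ℚ F] (hN : F.fixingSubgroup.Normal) :
    haveI := h3lf_finiteDimensional q F
    (F.fixingSubgroup.comap (localGaloisToGlobal q)).index
      = Module.finrank ℚ_[q] (localField q F) := by
  haveI := h3lf_finiteDimensional q F
  haveI : Normal ℚ F := h3lf_normal_of_fixingSubgroup_normal F hN
  haveI := h3lf_normal q F
  haveI := h3lf_isGalois q F
  obtain ⟨hsurj, hker⟩ := h3lf_restrict q F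
  rw [← hker, Subgroup.index_ker, MonoidHom.range_eq_top.2 hsurj, Subgroup.card_top,
    IsGalois.card_aut_eq_finrank]

/-- **(LOCDEG), field form** -/
theorem h24ld_locdeg_field (S : Finset Nat.Primes) (p : Nat.Primes) (hpS : p ∈ S)
    (q : Nat.Primes) :
    ∃ F : IntermediateField ℚ Qb, F.IsUnramifiedOutside S ∧ F.fixingSubgroup.Normal ∧
      ∃ _ : FiniteDimensional ℚ_[(q : ℕ)] (localField (q : ℕ) F),
        (p : ℕ) ∣ Module.finrank ℚ_[(q : ℕ)] (localField (q : ℕ) F) := by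
  -- the exponent
  obtain ⟨k, hk2, hk⟩ : ∃ k : ℕ, 2 ≤ k ∧ h24ld_Q (q : ℕ) ^ ((p : ℕ) - 1) < (p : ℕ) ^ k := by
    obtain ⟨k, hk⟩ := pow_unbounded_of_one_lt (h24ld_Q (q : ℕ) ^ ((p : ℕ) - 1))
        (p.2.one_lt : (1 : ℕ) < (p : ℕ))
    refine ⟨k + 2, by omega, hk.trans_le ?_⟩
    exact Nat.pow_le_pow_right p.2.pos (by omega)
  have hpk : 0 < (p : ℕ) ^ k := pow_pos p.2.pos k
  obtain ⟨ζ, hζ⟩ := h24ld_exists_primitiveRoot ((p : ℕ) ^ k) hpk
  have hfinF := (h24ld_cyc_unram S p hpS k hζ.pow_eq_one).1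
  haveI := hfinF
  have hN := h24ld_cyc_normal hpk hζ
  haveI : Normal ℚ (h24ld_cyc ζ) := h3lf_normal_of_fixingSubgroup_normal _ hN
  haveI := h3lf_finiteDimensional (q : ℕ) (h24ld_cyc ζ)
  haveI := h3lf_isGalois (q : ℕ) (h24ld_cyc ζ)
  refine ⟨h24ld_cyc ζ, h24ld_cyc_unram S p hpS k hζ.pow_eq_one, hN, inferInstance, ?_⟩
  -- the root of unity in the local field
  let z : localField (q : ℕ) (h24ld_cyc ζ) :=
    ⟨padicEmbedding (q : ℕ) ζ, h3lf_mem (q : ℕ) (h24ld_cyc ζ) (h24ld_mem_cyc ζ)⟩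
  have hz' : IsPrimitiveRoot (padicEmbedding (q : ℕ) ζ) ((p : ℕ) ^ k) :=
    hζ.map_of_injective (padicEmbedding (q : ℕ)).toRingHom.injective
  have hz : IsPrimitiveRoot z ((p : ℕ) ^ k) := by
    have hinj : Function.Injective
        (algebraMap (localField (q : ℕ) (h24ld_cyc ζ)) (PadicAlgCl (q : ℕ))) :=
      Subtype.val_injective
    exact IsPrimitiveRoot.of_map_of_injective (f := algebraMap
      (localField (q : ℕ) (h24ld_cyc ζ)) (PadicAlgCl (q : ℕ))) hz' hinj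
  by_cases hpq : (p : ℕ) = (q : ℕ)
  · -- `q = p`
    have hz2 : IsPrimitiveRoot (z ^ ((p : ℕ) ^ (k - 2))) ((p : ℕ) ^ 2) := by
      have h1 : (p : ℕ) ^ k = (p : ℕ) ^ (k - 2) * (p : ℕ) ^ 2 := by
        rw [← pow_add, Nat.sub_add_cancel hk2]
      exact hz.pow hpk h1
    have hpq' : p = q := Subtype.ext hpq
    subst hpq'
    exact h24ld_core_eq (p : ℕ) hz2
  · -- `q ≠ p`
    exact h24ld_core_ne (q : ℕ) _ p.2 hpq hk hz

/-- **(LOCDEG)**: some `S`-level has local degree at `q` divisible by `p` (`p ∈ S`). -/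
theorem h24ld_locdeg (S : Finset Nat.Primes) (p : Nat.Primes) (hpS : p ∈ S) (q : Nat.Primes) :
    ∃ U ∈ (levelsS S).sets, (p : ℕ) ∣ (U.comap (primeLocalToGlobal q)).index := by
  obtain ⟨F, hF, hN, hfin, hdvd⟩ := h24ld_locdeg_field S p hpS q
  haveI := hF.1
  refine ⟨F.fixingSubgroup, ⟨F, hF, hN, rfl⟩, ?_⟩
  have h1 := h24ld_index_eq (q : ℕ) F hN
  have h2 : (F.fixingSubgroup.comap (primeLocalToGlobal q)).index
      = (F.fixingSubgroup.comap (localGaloisToGlobal (q : ℕ))).index := rfl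
  rw [h2, h1]
  exact hdvd

end H24LD

end
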