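/-
W2-C (S55) bridge slice LOC-H90-lc, Galois core (helper15).

`Ω / K` Galois (possibly infinite), `L` a finite normal subextension, `W` a subgroup of
`Gal(Ω/K)` containing `Gal(Ω/L)`.  A function `f : Gal(Ω/K) → Ωˣ` that is right-invariant under
`Gal(Ω/L)` and a (multiplicative) cocycle on `W` is a coboundary on `W`:
`h15lh_core : ∃ β : Ωˣ, (β : Ω) ∈ L ∧ ∀ s ∈ W, f s = Units.map s β / β`
(Hilbert 90 for `L` over the fixed field of the image of `W` in `Gal(L/K)`).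
-/
import Mathlib

set_option autoImplicit false
set_option linter.style.haveILetI false
set_option linter.unusedSectionVars false

noncomputable section

namespace H15LH

open groupCohomology

/-- Hilbert 90 (Mathlib), restated with `Units.map` -/
theorem h90_explicit {K' E : Type} [Field K'] [Field E] [Algebra K' E] [FiniteDimensional K' E]
    (f : (E ≃ₐ[K'] E) → Eˣ)
    (hf : ∀ σ τ, f (σ * τ) = Units.map (σ : E →* E) (f τ) * f σ) :
    ∃ β : Eˣ, ∀ σ, f σ = Units.map (σ : E →* E) β / β := by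
  obtain ⟨β, hβ⟩ := isMulCoboundary₁_of_isMulCocycle₁_of_aut_to_units f (fun σ τ => hf σ τ)
  exact ⟨β, fun σ => (hβ σ).symm⟩

variable {K Ω : Type} [Field K] [Field Ω] [Algebra K Ω] [IsGalois K Ω]
  (L : IntermediateField K Ω) [FiniteDimensional K L] [Normal K L]

/-- the action of `Gal(Ω/K)` on `Ωˣ` -/
abbrev uAct (s : Ω ≃ₐ[K] Ω) : Ωˣ →* Ωˣ := Units.map (s : Ω →* Ω)

theorem uAct_coe (s : Ω ≃ₐ[K] Ω) (u : Ωˣ) : ((uAct s u : Ωˣ) : Ω) = s (u : Ω) := rfl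

theorem uAct_mul (s t : Ω ≃ₐ[K] Ω) (u : Ωˣ) : uAct (s * t) u = uAct s (uAct t u) := by
  apply Units.ext
  rfl

theorem uAct_one (u : Ωˣ) : uAct (1 : Ω ≃ₐ[K] Ω) u = u := by
  apply Units.ext
  rfl

include L in
theorem isGalois_sub : IsGalois K L := ⟨⟩

theorem normal_fixing : L.fixingSubgroup.Normal := by
  haveI := isGalois_sub L
  infer_instance

theorem conj_mem_fixing {v : Ω ≃ₐ[K] Ω} (hv : v ∈ L.fixingSubgroup) (t : Ω ≃ₐ[K] Ω) :
    t⁻¹ * v * t ∈ L.fixingSubgroup := by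
  have := (normal_fixing L).conj_mem v hv t⁻¹
  rwa [inv_inv] at this

variable {L}

section values

variable {W : Subgroup (Ω ≃ₐ[K] Ω)} (hLW : L.fixingSubgroup ≤ W) {f : (Ω ≃ₐ[K] Ω) → Ωˣ}
  (hinv : ∀ g v, v ∈ L.fixingSubgroup → f (g * v) = f g)
  (hc : ∀ s t, s ∈ W → t ∈ W → f (s * t) = uAct s (f t) * f s)

include hc in
theorem f_one : f 1 = 1 := by
  have h := hc 1 1 W.one_mem W.one_mem
  rw [mul_one, uAct_one] at h
  exact (mul_eq_left).1 h.symm

include hinv hc in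
theorem f_fixing {v : Ω ≃ₐ[K] Ω} (hv : v ∈ L.fixingSubgroup) : f v = 1 := by
  have := hinv 1 v hv
  rw [one_mul] at this
  rw [this]
  exact f_one hc

include hLW hinv hc in
theorem f_fixed {t : Ω ≃ₐ[K] Ω} (ht : t ∈ W) {v : Ω ≃ₐ[K] Ω} (hv : v ∈ L.fixingSubgroup) :
    uAct v (f t) = f t := by
  have h1 := hc v t (hLW hv) ht
  have h2 : f (v * t) = f t := by
    have := hinv t (t⁻¹ * v * t) (conj_mem_fixing L hv t)
    rwa [show t * (t⁻¹ * v * t) = v * t by group] at this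
  rw [h2, f_fixing hinv hc hv, mul_one] at h1
  exact h1.symm

include hLW hinv hc in
theorem f_mem {t : Ω ≃ₐ[K] Ω} (ht : t ∈ W) : ((f t : Ωˣ) : Ω) ∈ L := by
  rw [← InfiniteGalois.fixedField_fixingSubgroup L, IntermediateField.mem_fixedField_iff]
  intro v hv
  have := f_fixed hLW hinv hc ht hv
  exact congrArg (fun u : Ωˣ => (u : Ω)) this

end values

/-! ### the finite Galois extension `L / K_W` -/

section galois

variable (L) (W : Subgroup (Ω ≃ₐ[K] Ω))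

/-- restriction to `L` -/
abbrev resL : (Ω ≃ₐ[K] Ω) →* (L ≃ₐ[K] L) := AlgEquiv.restrictNormalHom L

theorem resL_coe (s : Ω ≃ₐ[K] Ω) (x : L) : ((resL L s x : L) : Ω) = s (x : Ω) :=
  AlgEquiv.restrictNormal_commutes s L x

/-- the image of `W` in `Gal(L/K)` -/
def Wb : Subgroup (L ≃ₐ[K] L) := W.map (resL L)

/-- the fixed field of the image of `W` -/
def Kw : IntermediateField K L := IntermediateField.fixedField (Wb L W)

theorem fixing_Kw : (Kw L W).fixingSubgroup = Wb L W :=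
  IntermediateField.fixingSubgroup_fixedField (Wb L W)

theorem exists_lift (σ : L ≃ₐ[Kw L W] L) :
    ∃ w ∈ W, ∀ x : L, ((σ x : L) : Ω) = w (x : Ω) := by
  have h1 : (σ.restrictScalars K : L ≃ₐ[K] L) ∈ (Kw L W).fixingSubgroup :=
    ((IntermediateField.fixingSubgroupEquiv (Kw L W)).symm σ).2
  rw [fixing_Kw] at h1
  obtain ⟨w, hw, hwσ⟩ := h1
  refine ⟨w, hw, fun x => ?_⟩
  rw [← resL_coe L w x, hwσ]
  rfl

/-- a lift to `W` of an element of `Gal(L/K_W)` -/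
def liftW (σ : L ≃ₐ[Kw L W] L) : Ω ≃ₐ[K] Ω := Classical.choose (exists_lift L W σ)

theorem liftW_mem (σ : L ≃ₐ[Kw L W] L) : liftW L W σ ∈ W :=
  (Classical.choose_spec (exists_lift L W σ)).1

theorem liftW_spec (σ : L ≃ₐ[Kw L W] L) (x : L) :
    liftW L W σ (x : Ω) = ((σ x : L) : Ω) :=
  ((Classical.choose_spec (exists_lift L W σ)).2 x).symm

/-- the element of `Gal(L/K_W)` defined by `s ∈ W` -/
def ofW (s : Ω ≃ₐ[K] Ω) (hs : s ∈ W) : L ≃ₐ[Kw L W] L :=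
  IntermediateField.fixingSubgroupEquiv (Kw L W)
    ⟨resL L s, by rw [fixing_Kw]; exact ⟨s, hs, rfl⟩⟩

theorem ofW_coe (s : Ω ≃ₐ[K] Ω) (hs : s ∈ W) (x : L) :
    ((ofW L W s hs x : L) : Ω) = s (x : Ω) := by
  rw [← resL_coe L s x]
  rfl

variable {L W}

theorem mem_fixing_of_agree {s t : Ω ≃ₐ[K] Ω} (h : ∀ x : L, s (x : Ω) = t (x : Ω)) :
    s⁻¹ * t ∈ L.fixingSubgroup := by
  rw [IntermediateField.mem_fixingSubgroup_iff]
  intro x hx
  show s⁻¹ (t x) = x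
  rw [← h ⟨x, hx⟩]
  exact s.symm_apply_apply x

theorem f_congr {f : (Ω ≃ₐ[K] Ω) → Ωˣ}
    (hinv : ∀ g v, v ∈ L.fixingSubgroup → f (g * v) = f g)
    {s t : Ω ≃ₐ[K] Ω} (h : ∀ x : L, s (x : Ω) = t (x : Ω)) : f s = f t := by
  have := hinv s (s⁻¹ * t) (mem_fixing_of_agree h)
  rw [mul_inv_cancel_left] at this
  exact this.symm

end galois

/-! ### the cocycle on `Gal(L/K_W)` and Hilbert 90 -/

section h90

variable {W : Subgroup (Ω ≃ₐ[K] Ω)} (hLW : L.fixingSubgroup ≤ W) {f : (Ω ≃ₐ[K] Ω) → Ωˣ}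
  (hinv : ∀ g v, v ∈ L.fixingSubgroup → f (g * v) = f g)
  (hc : ∀ s t, s ∈ W → t ∈ W → f (s * t) = uAct s (f t) * f s)

/-- the descended cocycle -/
def fb (σ : L ≃ₐ[Kw L W] L) : (↥L)ˣ :=
  Units.mk0 (⟨((f (liftW L W σ) : Ωˣ) : Ω), f_mem hLW hinv hc (liftW_mem L W σ)⟩ : L)
    (fun h => (f (liftW L W σ)).ne_zero (congrArg Subtype.val h))

theorem fb_coe (σ : L ≃ₐ[Kw L W] L) :
    (((fb hLW hinv hc σ : (↥L)ˣ) : L) : Ω) = ((f (liftW L W σ) : Ωˣ) : Ω) := rfl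

theorem fb_cocycle (σ τ : L ≃ₐ[Kw L W] L) :
    fb hLW hinv hc (σ * τ)
      = Units.map (σ : L →* L) (fb hLW hinv hc τ) * fb hLW hinv hc σ := by
  apply Units.ext
  apply Subtype.ext
  rw [Units.val_mul, MulMemClass.coe_mul, fb_coe, fb_coe]
  have h1 : f (liftW L W (σ * τ)) = f (liftW L W σ * liftW L W τ) := by
    refine f_congr hinv (fun x => ?_)
    show (liftW L W (σ * τ)) (x : Ω) = (liftW L W σ) ((liftW L W τ) (x : Ω))
    rw [liftW_spec, liftW_spec, liftW_spec]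
    rfl
  rw [h1, hc _ _ (liftW_mem L W σ) (liftW_mem L W τ), Units.val_mul, uAct_coe]
  congr 1
  have := liftW_spec L W σ ((fb hLW hinv hc τ : (↥L)ˣ) : L)
  rw [fb_coe] at this
  exact this

include hLW hinv hc in
/-- **Hilbert 90 on `W`** -/
theorem h15lh_core :
    ∃ β : Ωˣ, (β : Ω) ∈ L ∧ ∀ s ∈ W, f s = uAct s β / β := by
  haveI hfd : FiniteDimensional ↥(Kw L W) ↥L := inferInstance
  have H := @h90_explicit ↥(Kw L W) ↥L _ _ _ hfd (fb hLW hinv hc) (fb_cocycle hLW hinv hc)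
  obtain ⟨β', hβ'⟩ := H
  refine ⟨Units.map (L.val : L →* Ω) β', (β' : L).2, fun s hs => ?_⟩
  have h1 : f s = f (liftW L W (ofW L W s hs)) := by
    refine f_congr hinv (fun x => ?_)
    rw [liftW_spec, ofW_coe]
  have h2 := hβ' (ofW L W s hs)
  rw [eq_div_iff_mul_eq'] at h2 ⊢
  apply Units.ext
  rw [Units.val_mul, uAct_coe, h1, ← fb_coe hLW hinv hc]
  have h4 := congrArg (fun u : (↥L)ˣ => (((u : (↥L)ˣ) : L) : Ω)) h2
  simp only [Units.val_mul, MulMemClass.coe_mul] at h4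
  refine h4.trans ?_
  exact ofW_coe L W s hs _

end h90

end H15LH

end
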