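/-
W2-C (S55) block E, bridge slice D3/S1 (helper24): for a `G`-module `N` (used only as a `G`-set)
and a `G`-module `X`,  `H¹(G, Hom(ℤ[N], X)) = 0`  as soon as the restrictions of 1-cocycles to the
stabilisers `Stab(n)` (coefficients in `X`) are coboundaries.

* `s1_core`   : the explicit (elementwise) statement, for ANY group `G`:  a cocycle `c` of
                `hm (ρR0 ρN) ρX` with `∀ n, ∃ x, ∀ s ∈ Stab n, c s (single n 1) = s x - x` is `d m`.
* `s1_isZero` : Mathlib form: `IsZero (groupCohomology (hm (ρR0 ρN) ρX) 1)` from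
                `∀ n, IsZero (groupCohomology (Rep.res (stab ρN n).subtype (Rep.of ρX)) 1)`.
* `s1_lc`     : level-constant form (`H15D.lcH1`).
Explicit proof: `x0 = rep n`, `γ_n x0 = n`, `m(n) := γ_n x_{x0} - c(γ_n)(n)`.
-/
import Mathlib
import Fermat.Agent.CFT2.E.R0H1_helper24

set_option autoImplicit false
set_option linter.style.haveILetI false
set_option linter.unusedSectionVars false
set_option linter.unusedVariables false

noncomputable section

namespace H24G

open H15D H14PT H15F groupCohomology CategoryTheory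

variable {G : Type} [Group G] {N : Type} [AddCommGroup N] (ρN : Representation ℤ G N)
  {X : Type} [AddCommGroup X] (ρX : Representation ℤ G X)

/-- the stabiliser of `n : N` -/
def stab (n : N) : Subgroup G where
  carrier := {g | ρN g n = n}
  one_mem' := by
    change ρN 1 n = n
    rw [map_one]; rfl
  mul_mem' := by
    intro a b ha hb
    change ρN (a * b) n = n
    rw [map_mul, Module.End.mul_apply]
    have ha' : ρN a n = n := ha
    have hb' : ρN b n = n := hb
    rw [hb', ha']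
  inv_mem' := by
    intro a ha
    change ρN a⁻¹ n = n
    have ha' : ρN a n = n := ha
    conv_lhs => rw [← ha']
    exact ρN_inv_apply ρN a n

theorem mem_stab_iff (n : N) (g : G) : g ∈ stab ρN n ↔ ρN g n = n := Iff.rfl

variable {ρN ρX}

/-- the cocycle relation evaluated at a basis vector -/
theorem val_mul {c : G → (R0 N →ₗ[ℤ] X)} (hc : c ∈ cocycles₁ (hm (ρR0 ρN) ρX)) (g h : G)
    (n : N) :
    c (g * h) (Finsupp.single n 1)
      = ρX g (c h (Finsupp.single (ρN g⁻¹ n) 1)) + c g (Finsupp.single n 1) := by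
  have h1 := (mem_cocycles₁_iff (A := hm (ρR0 ρN) ρX) c).1 hc g h
  have h2 := congrArg (fun f : R0 N →ₗ[ℤ] X => f (Finsupp.single n 1)) h1
  simp only at h2
  rw [h2]
  change ((hm (ρR0 ρN) ρX).ρ g (c h) : R0 N →ₗ[ℤ] X) (Finsupp.single n 1)
    + c g (Finsupp.single n 1) = _
  rw [hm_ρ_apply, ρR0_single]

variable (ρN ρX)

/-- **(S1), explicit form**: a 1-cocycle with values in `Hom(ℤ[N], X)` whose restrictions to the
stabilisers are coboundaries is a coboundary. -/
theorem s1_core {c : G → (R0 N →ₗ[ℤ] X)} (hc : c ∈ cocycles₁ (hm (ρR0 ρN) ρX))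
    (hstab : ∀ n : N, ∃ x : X, ∀ s : G, ρN s n = n →
      c s (Finsupp.single n 1) = ρX s x - x) :
    ∃ m : R0 N →ₗ[ℤ] X, ∀ g : G, c g = (hm (ρR0 ρN) ρX).ρ g m - m := by
  obtain ⟨rep, γ, hγ, hrep⟩ := exists_rep ρN
  choose x hx using hstab
  let v : N → X := fun n => ρX (γ n) (x (rep n)) - c (γ n) (Finsupp.single n 1)
  refine ⟨Finsupp.linearCombination ℤ v, fun g => ?_⟩
  apply Finsupp.lhom_ext
  intro n a
  have hsingle : (Finsupp.single n a : R0 N) = a • Finsupp.single n 1 := by
    rw [Finsupp.smul_single, smul_eq_mul, mul_one]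
  rw [hsingle, map_smul, map_smul]
  congr 1
  change c g (Finsupp.single n 1)
    = ((hm (ρR0 ρN) ρX).ρ g (Finsupp.linearCombination ℤ v) : R0 N →ₗ[ℤ] X) (Finsupp.single n 1)
      - Finsupp.linearCombination ℤ v (Finsupp.single n 1)
  rw [hm_ρ_apply, ρR0_single, Finsupp.linearCombination_single,
    Finsupp.linearCombination_single, one_smul, one_smul]
  change c g (Finsupp.single n 1)
    = ρX g (ρX (γ (ρN g⁻¹ n)) (x (rep (ρN g⁻¹ n)))
        - c (γ (ρN g⁻¹ n)) (Finsupp.single (ρN g⁻¹ n) 1))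
      - (ρX (γ n) (x (rep n)) - c (γ n) (Finsupp.single n 1))
  set y := ρN g⁻¹ n with hy
  have hrepy : rep y = rep n := hrep g⁻¹ n
  have hgy : ρN g y = n := ρN_apply_inv ρN g n
  rw [hrepy]
  set x0 := x (rep n) with hx0
  have e4 : ρN (γ n)⁻¹ n = rep n := by
    have h2 := ρN_inv_apply ρN (γ n) (rep n)
    rw [hγ n] at h2
    exact h2
  have hfix : ρN ((γ n)⁻¹ * g * γ y) (rep n) = rep n := by
    rw [map_mul, map_mul, Module.End.mul_apply, Module.End.mul_apply]
    have h1 : ρN (γ y) (rep n) = y := by rw [← hrepy]; exact hγ y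
    rw [h1, hgy]
    exact e4
  have h0 := hx (rep n) _ hfix
  -- `c(g γ_y)(n) = g c(γ_y)(y) + c(g)(n)`
  have e1 := val_mul hc g (γ y) n
  rw [← hy] at e1
  -- `c(γ_n h)(n) = γ_n c(h)(x0) + c(γ_n)(n)`
  have e2 := val_mul hc (γ n) ((γ n)⁻¹ * g * γ y) n
  have e3 : γ n * ((γ n)⁻¹ * g * γ y) = g * γ y := by group
  rw [e3, e4, h0] at e2
  rw [e2] at e1
  -- `γ_n (h x0 - x0) = g γ_y x0 - γ_n x0`
  have e5 : ρX (γ n) (ρX ((γ n)⁻¹ * g * γ y) x0 - x0) = ρX g (ρX (γ y) x0) - ρX (γ n) x0 := by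
    rw [map_sub]
    congr 1
    have : ρX (γ n) (ρX ((γ n)⁻¹ * g * γ y) x0) = ρX (γ n * ((γ n)⁻¹ * g * γ y)) x0 := by
      rw [map_mul (ρX) (γ n)]; rfl
    rw [this, e3, map_mul]; rfl
  rw [e5] at e1
  rw [map_sub]
  have e6 : ρX g (c (γ y) (Finsupp.single y 1))
      = ρX g (ρX (γ y) x0) - ρX (γ n) x0 + c (γ n) (Finsupp.single n 1)
        - c g (Finsupp.single n 1) := by
    rw [e1]; abel
  rw [e6]
  abel

/-- the restriction of a cocycle of `Hom(ℤ[N], X)` to the stabiliser of `n`, evaluated at `n` -/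
def stabCocycle (c : G → (R0 N →ₗ[ℤ] X)) (n : N) : stab ρN n → X :=
  fun s => c s.1 (Finsupp.single n 1)

variable {ρN ρX} in
theorem stabCocycle_mem {c : G → (R0 N →ₗ[ℤ] X)} (hc : c ∈ cocycles₁ (hm (ρR0 ρN) ρX))
    (n : N) :
    stabCocycle ρN c n ∈ cocycles₁ (Rep.res (stab ρN n).subtype (Rep.of ρX)) := by
  rw [mem_cocycles₁_iff]
  intro s t
  change c (s.1 * t.1) (Finsupp.single n 1)
    = ρX s.1 (c t.1 (Finsupp.single n 1)) + c s.1 (Finsupp.single n 1)
  rw [val_mul hc]
  have hs : ρN (s.1)⁻¹ n = n := (stab ρN n).inv_mem s.2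
  rw [hs]

/-- **(S1), Mathlib form**: `H¹(G, Hom(ℤ[N], X)) = 0` if `H¹(Stab n, X) = 0` for all `n`. -/
theorem s1_isZero
    (h : ∀ n : N, Limits.IsZero (groupCohomology (Rep.res (stab ρN n).subtype (Rep.of ρX)) 1)) :
    Limits.IsZero (groupCohomology (hm (ρR0 ρN) ρX) 1) := by
  rw [ModuleCat.isZero_iff_subsingleton]
  refine ⟨fun a b => ?_⟩
  have key : ∀ z : H1 (hm (ρR0 ρN) ρX), z = 0 := by
    intro z
    induction z using H1_induction_on with
    | h c =>
      rw [H1π_eq_zero_iff]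
      have hc : (c : G → (R0 N →ₗ[ℤ] X)) ∈ cocycles₁ (hm (ρR0 ρN) ρX) := c.2
      have hstab : ∀ n : N, ∃ x : X, ∀ s : G, ρN s n = n →
          (c : G → (R0 N →ₗ[ℤ] X)) s (Finsupp.single n 1) = ρX s x - x := by
        intro n
        haveI := ModuleCat.subsingleton_of_isZero (h n)
        have h1 : H1π (Rep.res (stab ρN n).subtype (Rep.of ρX))
            ⟨stabCocycle ρN (c : G → (R0 N →ₗ[ℤ] X)) n, stabCocycle_mem hc n⟩ = 0 :=
          Subsingleton.elim _ _
        rw [H1π_eq_zero_iff] at h1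
        obtain ⟨x, hx⟩ := h1
        refine ⟨x, fun s hs => ?_⟩
        have h2 := congrFun hx ⟨s, hs⟩
        exact h2.symm
      obtain ⟨m, hm'⟩ := s1_core ρN ρX hc hstab
      refine ⟨m, ?_⟩
      funext g
      exact (hm' g).symm
  exact (key a).trans (key b).symm

/-- **(S1), level-constant form**: `H¹_lc(G, Hom(ℤ[N], X)) = 0` if every level-constant function
`G → X` that is a cocycle on `Stab n` is a coboundary on `Stab n`. -/
theorem s1_lc (𝓤 : Levels G)
    (h : ∀ n : N, ∀ f : G → X, IsLC₁ 𝓤 f →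
      (∀ s t, ρN s n = n → ρN t n = n → f (s * t) = ρX s (f t) + f s) →
      ∃ x : X, ∀ s, ρN s n = n → f s = ρX s x - x) :
    ∀ z : lcH1 𝓤 (hm (ρR0 ρN) ρX), z = 0 := by
  intro z
  obtain ⟨⟨c, hc, hlc⟩, rfl⟩ := lcH1π_surjective z
  rw [lcH1π_eq_zero_iff]
  have hstab : ∀ n : N, ∃ x : X, ∀ s : G, ρN s n = n →
      c s (Finsupp.single n 1) = ρX s x - x := by
    intro n
    refine h n (fun g => c g (Finsupp.single n 1))
      (hlc.comp (fun φ : R0 N →ₗ[ℤ] X => φ (Finsupp.single n 1))) ?_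
    intro s t hs ht
    have hs' : ρN s⁻¹ n = n := (stab ρN n).inv_mem hs
    have := val_mul hc s t n
    rw [hs'] at this
    exact this
  obtain ⟨m, hm'⟩ := s1_core ρN ρX hc hstab
  refine ⟨m, ?_⟩
  funext g
  exact (hm' g).symm

/-- **(S1), finite-level form**: `H¹(G ⧸ U, Hom(ℤ[N], X)^U) = 0` if every right-`U`-invariant
function `G → X` that is a cocycle on `Stab n` is a coboundary on `Stab n`. -/
theorem s1_quot (U : Subgroup G) [U.Normal]
    (h : ∀ n : N, ∀ f : G → X, (∀ g u, u ∈ U → f (g * u) = f g) →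
      (∀ s t, ρN s n = n → ρN t n = n → f (s * t) = ρX s (f t) + f s) →
      ∃ x : X, ∀ s, ρN s n = n → f s = ρX s x - x) :
    Limits.IsZero (groupCohomology ((hm (ρR0 ρN) ρX).quotientToInvariants U) 1) := by
  rw [ModuleCat.isZero_iff_subsingleton]
  refine ⟨fun a b => ?_⟩
  have key : ∀ z : H1 ((hm (ρR0 ρN) ρX).quotientToInvariants U), z = 0 := by
    intro z
    induction z using H1_induction_on with
    | h cb =>
      rw [H1π_eq_zero_iff]
      have hcb := (mem_cocycles₁_iff (A := (hm (ρR0 ρN) ρX).quotientToInvariants U) cb).1 cb.2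
      let c : G → (R0 N →ₗ[ℤ] X) := fun g => (cb (g : G ⧸ U)).1
      have hc : c ∈ cocycles₁ (hm (ρR0 ρN) ρX) := by
        rw [mem_cocycles₁_iff]
        intro g g'
        have h1 := hcb (g : G ⧸ U) (g' : G ⧸ U)
        exact congrArg Subtype.val h1
      have hone : cb 1 = 0 := cocycles₁_map_one (A := (hm (ρR0 ρN) ρX).quotientToInvariants U) cb
      have hcU : ∀ g u, u ∈ U → c (g * u) = c g := by
        intro g u hu
        change (cb ((g * u : G) : G ⧸ U)).1 = (cb (g : G ⧸ U)).1
        have : ((g * u : G) : G ⧸ U) = (g : G ⧸ U) := by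
          rw [QuotientGroup.mk_mul, (QuotientGroup.eq_one_iff u).2 hu, mul_one]
        rw [this]
      have hstab : ∀ n : N, ∃ x : X, ∀ s : G, ρN s n = n →
          c s (Finsupp.single n 1) = ρX s x - x := by
        intro n
        refine h n (fun g => c g (Finsupp.single n 1)) ?_ ?_
        · intro g u hu
          exact congrArg (fun φ : R0 N →ₗ[ℤ] X => φ (Finsupp.single n 1)) (hcU g u hu)
        · intro s t hs ht
          have hs' : ρN s⁻¹ n = n := (stab ρN n).inv_mem hs
          have := val_mul hc s t n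
          rw [hs'] at this
          exact this
      obtain ⟨m, hm'⟩ := s1_core ρN ρX hc hstab
      have hminv : m ∈ Representation.invariants
          ((MonoidHom.comp (hm (ρR0 ρN) ρX).ρ U.subtype :
            Representation ℤ U (R0 N →ₗ[ℤ] X))) := by
        intro u
        have h1 := hm' u.1
        have h2 : c u.1 = 0 := by
          have := hcU 1 u.1 u.2
          rw [one_mul] at this
          rw [this]
          change (cb ((1 : G) : G ⧸ U)).1 = 0
          rw [QuotientGroup.mk_one, hone]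
          rfl
        rw [h2] at h1
        exact (sub_eq_zero.1 h1.symm)
      refine ⟨⟨m, hminv⟩, ?_⟩
      funext gb
      obtain ⟨g, rfl⟩ := QuotientGroup.mk_surjective gb
      apply Subtype.ext
      exact (hm' g).symm
  exact (key a).trans (key b).symm

end H24G

end
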