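/-
W2-C (S55) bridge slice LOC-H90-lc + W_h90loc (helper15).

* `loc_h90_nat` : for `q` prime, `W` a subgroup of `G_q = Gal(ℚ̄_q/ℚ_q)` containing a local level:
  a level-constant function `f : G_q → Xbar_q` that is a cocycle on `W` is a coboundary on `W`
  (Hilbert 90 for the local field of a finite level over the fixed field of `W`);
* `loc_h90_lc` : the same in the notation of block E (`Hq q`, `𝓥q q`, `ρX q`);
* `h90loc_of_levelTriv` : `H¹_lc(G_q, Hom(ℤ[N], Xbar_q)) = 0` (with `H24G.s1_lc`) = `PTHyp.h90loc`.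
-/
import Mathlib
import Fermat.Agent.CFT2.E.LocH90Core_helper15
import Fermat.Agent.CFT2.E.S1_helper24
import Fermat.Agent.CFT2.E.Concrete
import Fermat.Agent.CFT2.E.Pair
import Fermat.Agent.CFT2.B.LocalDecomp_helper3
import Fermat.Agent.CFT2.B.LocalFieldE_helper3

set_option autoImplicit false
set_option linter.style.haveILetI false
set_option linter.unusedSectionVars false
set_option linter.unusedVariables false

noncomputable section

namespace H15LH

open H15D H14PT H15F H3LB groupCohomology ExtCitation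

local notation "Qb" => AlgebraicClosure ℚ
local notation "GQ" => (AlgebraicClosure ℚ ≃ₐ[ℚ] AlgebraicClosure ℚ)

section nat

variable (q : ℕ) [Fact q.Prime]

local notation "Gq" => (PadicAlgCl q ≃ₐ[ℚ_[q]] PadicAlgCl q)

/-- the value of an element of `Xbar_q` -/
def xval (b : Additive (xbar q)) : (PadicAlgCl q)ˣ := ((Additive.toMul b : xbar q) : (PadicAlgCl q)ˣ)

theorem xval_injective : Function.Injective (xval q) := by
  intro a b h
  apply Additive.toMul.injective
  exact Subtype.ext h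

theorem xval_add (a b : Additive (xbar q)) : xval q (a + b) = xval q a * xval q b := rfl

theorem xval_sub (a b : Additive (xbar q)) : xval q (a - b) = xval q a / xval q b := rfl

theorem xval_ρ (g : Gq) (b : Additive (xbar q)) :
    xval q (Representation.ofMulDistribMulAction Gq (xbar q) g b) = uAct g (xval q b) := rfl

/-- **LOC-H90-lc**, for a prime number `q` -/
theorem loc_h90_nat (W : Subgroup Gq)
    (hW : ∃ V ∈ (levelsLoc (localGaloisToGlobal q)).sets, V ≤ W)
    (f : Gq → Additive (xbar q)) (hf : IsLC₁ (levelsLoc (localGaloisToGlobal q)) f)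
    (hc : ∀ s t, s ∈ W → t ∈ W →
      f (s * t) = Representation.ofMulDistribMulAction Gq (xbar q) s (f t) + f s) :
    ∃ x : Additive (xbar q), ∀ s ∈ W,
      f s = Representation.ofMulDistribMulAction Gq (xbar q) s x - x := by
  obtain ⟨V0, hV0, hfV0⟩ := hf
  obtain ⟨V1, hV1, hV1W⟩ := hW
  obtain ⟨V, ⟨F, hFfd, hFn, rfl⟩, hVle⟩ :=
    (levelsLoc (localGaloisToGlobal q)).directed V0 hV0 V1 hV1
  haveI := hFfd
  haveI : Normal ℚ F := h3lf_normal_of_fixingSubgroup_normal F hFn
  haveI : FiniteDimensional ℚ_[q] (localField q F) := h3lf_finiteDimensional q F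
  haveI : Normal ℚ_[q] (localField q F) := h3lf_normal q F
  haveI : IsGalois ℚ_[q] (PadicAlgCl q) := h3lf_isGalois_padicAlgCl q
  have hfix : (localField q F).fixingSubgroup = F.fixingSubgroup.comap (localGaloisToGlobal q) :=
    h3lf_fixingSubgroup q F
  have hLW : (localField q F).fixingSubgroup ≤ W := by
    rw [hfix]
    exact (hVle.trans inf_le_right).trans hV1W
  have hinv : ∀ g v, v ∈ (localField q F).fixingSubgroup →
      (fun g => xval q (f g)) (g * v) = (fun g => xval q (f g)) g := by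
    intro g v hv
    rw [hfix] at hv
    show xval q (f (g * v)) = xval q (f g)
    rw [hfV0 g v ((hVle.trans inf_le_left) hv)]
  have hc' : ∀ s t, s ∈ W → t ∈ W → (fun g => xval q (f g)) (s * t)
      = uAct s ((fun g => xval q (f g)) t) * (fun g => xval q (f g)) s := by
    intro s t hs ht
    show xval q (f (s * t)) = uAct s (xval q (f t)) * xval q (f s)
    rw [hc s t hs ht, xval_add, xval_ρ]
  obtain ⟨β, hβL, hβ⟩ := h15lh_core (L := localField q F) (f := fun g => xval q (f g))
    hLW hinv hc'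
  refine ⟨Additive.ofMul (⟨β, h3lf_mem_xbar q F β hβL⟩ : xbar q), fun s hs => ?_⟩
  apply xval_injective
  rw [xval_sub, xval_ρ]
  exact hβ s hs

end nat

/-- primes are prime. -/
local instance factPrimeOfPrimesLH (q : Nat.Primes) : Fact (q : ℕ).Prime := ⟨q.2⟩

/-- **LOC-H90-lc** (helper14's statement): Hilbert 90 for level-constant cocycles on a subgroup
`W` of the local Galois group containing a level -/
theorem loc_h90_lc (q : Nat.Primes) (W : Subgroup (Hq q)) (hW : ∃ V ∈ (𝓥q q).sets, V ≤ W)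
    (f : Hq q → Additive (xbar (q : ℕ))) (hf : IsLC₁ (𝓥q q) f)
    (hc : ∀ s t, s ∈ W → t ∈ W → f (s * t) = ρX q s (f t) + f s) :
    ∃ x : Additive (xbar (q : ℕ)), ∀ s ∈ W, f s = ρX q s x - x :=
  loc_h90_nat (q : ℕ) W hW f hf hc

/-- **(H90-loc), generic**: `H¹_lc(G_q, Hom(ℤ[N], Xbar_q)) = 0` for a level-trivial `N` -/
theorem h90loc_gen (q : Nat.Primes) {N : Type} [AddCommGroup N]
    (ρN : Representation ℤ (Hq q) N) (hlt : IsLevelTriv ρN (𝓥q q)) :
    ∀ z : lcH1 (𝓥q q) (hm (H24G.ρR0 ρN) (ρX q)), z = 0 := by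
  refine H24G.s1_lc ρN (ρX q) (𝓥q q) (fun n f hf hcoc => ?_)
  obtain ⟨V, hV, hfix⟩ := hlt
  have hW : ∃ V ∈ (𝓥q q).sets, V ≤ H24G.stab ρN n :=
    ⟨V, hV, fun v hv => hfix v hv n⟩
  obtain ⟨x, hx⟩ := loc_h90_lc q (H24G.stab ρN n) hW f hf
    (fun s t hs ht => hcoc s t hs ht)
  exact ⟨x, fun s hs => hx s hs⟩

/-- **(H90-loc)** along `r : G_q → G` for a level-trivial `G`-module `N` -/
theorem h90loc_comp (S : Finset Nat.Primes) (q : Nat.Primes) {N : Type} [AddCommGroup N]
    (ρN : Representation ℤ GQ N) (hlt : IsLevelTriv ρN (levelsS S)) :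
    ∀ z : lcH1 (𝓥q q) (hm ((H24G.ρR0 ρN).comp (primeLocalToGlobal q)) (ρX q)), z = 0 :=
  h90loc_gen q (ρN.comp (primeLocalToGlobal q))
    (H24G.isLevelTriv_comp (primeLocalToGlobal q)
      (levelsS_le_levelsLoc S (primeLocalToGlobal q)) hlt)

/-- **`PTHyp.h90loc` for the concrete data `ptD` of S55** -/
theorem h90loc_ptD {S : Finset Nat.Primes} {p : ℕ} [Fact p.Prime] (hpS : pPrime p ∈ S)
    (M : Rep.{0} (ZMod p) GQ) [FiniteDimensional (ZMod p) M]
    (hsm : ∀ m : M, ∃ F : IntermediateField ℚ Qb, FiniteDimensional ℚ F ∧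
      ∀ s ∈ F.fixingSubgroup, M.ρ s m = m)
    (hMur : ∀ q : Nat.Primes, q ∉ S → ∀ A : ValuationSubring Qb,
      A.LiesOverPrime (q : ℕ) → ∀ g ∈ A.inertiaSubgroupIn ℚ, M.ρ g = 1) :
    ∀ q, ∀ s : lcH1 ((ptD hpS M hsm hMur).𝓥 q)
      (hm ((ptD hpS M hsm hMur).ρR0.comp ((ptD hpS M hsm hMur).r q))
        ((ptD hpS M hsm hMur).ρX q)), s = 0 :=
  fun q => h90loc_comp S q.1 (zRho (M.dualTwist (cycloChar p)))
    (dual_isLevelTriv hpS M hsm hMur)

end H15LH

end
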