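/-
W2-C (S55) bridge slice LOC-NT' (helper5), part 2: INJECTIVITY OF INFLATION in level-constant
cohomology (degree 2) from Hilbert 90 in degree 1.

* `H5NT.h5nt_infl₂_injective` (generic in `(G, 𝓤, A)`, `L` a level): if every level-constant
  1-cochain of `A` that is a cocycle on `L.U` is a coboundary on `L.U`, then
  `infl₂ 𝓤 A L : H²(G ⧸ L.U, A^{L.U}) → H²_lc(G, A)` is injective;
* `H5NT.h5nt_infl₂_injective_X q L` : the local case `A = X q` (smooth units of `ℚ̄_q`), from
  helper15's `H15LH.loc_h90_lc`;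
* `H5NT.h5nt_trans₂_injective_X` : the same between two finite levels.
-/
import Mathlib
import Fermat.Agent.CFT2.D.InflCor_helper15
import Fermat.Agent.CFT2.E.LocH90_helper15

set_option autoImplicit false
set_option linter.style.haveILetI false
set_option linter.unusedSectionVars false
set_option linter.unusedVariables false

noncomputable section

namespace H5NT

open H15D H15F groupCohomology H14PT ExtCitation

section generic

variable {k : Type} [CommRing k] {G : Type} [Group G] (𝓤 : Levels G) (A : Rep.{0} k G)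

/-- **INF-INJ (lc form)**: Hilbert 90 on `L.U` (for level-constant cochains) implies that the
inflation from the finite level `L` is injective on `H²`. -/
theorem h5nt_infl₂_injective (L : 𝓤.Lv)
    (h90 : ∀ f : G → A, IsLC₁ 𝓤 f →
      (∀ s t, s ∈ L.U → t ∈ L.U → f (s * t) = A.ρ s (f t) + f s) →
      ∃ x : A, ∀ s ∈ L.U, f s = A.ρ s x - x) :
    Function.Injective (infl₂ 𝓤 A L) := by
  rw [← LinearMap.ker_eq_bot, LinearMap.ker_eq_bot']
  intro y hy
  induction y using H2_induction_on with | @h c =>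
  rw [infl₂_π, lcH2π_eq_zero_iff] at hy
  obtain ⟨f, hfLC, hf⟩ := hy
  have hval : ∀ g g' : G, A.ρ g (f g') - f (g * g') + f g
      = ((c ((g : G ⧸ L.U), (g' : G ⧸ L.U)) : finLv 𝓤 A L) : A) := by
    intro g g'
    have := congrFun hf (g, g')
    rw [inflZ2_apply, d₁₂_apply'] at this
    exact this
  have hone : ∀ s : G, s ∈ L.U → ((s : G) : G ⧸ L.U) = 1 :=
    fun s hs => (QuotientGroup.eq_one_iff s).2 hs
  -- the value `c(1,1)`
  have hc0fix : ∀ s ∈ L.U, A.ρ s ((c (1, 1) : finLv 𝓤 A L) : A) = ((c (1, 1) : finLv 𝓤 A L) : A) :=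
    fun s hs => (c (1, 1) : finLv 𝓤 A L).2 ⟨s, hs⟩
  have hc1 : ∀ γ : G ⧸ L.U, c (1, γ) = c (1, 1) := fun γ => cocycles₂_map_one_fst c γ
  have hc2 : ∀ g : G, ((c ((g : G ⧸ L.U), 1) : finLv 𝓤 A L) : A)
      = A.ρ g ((c (1, 1) : finLv 𝓤 A L) : A) := by
    intro g
    rw [cocycles₂_map_one_snd c (g : G ⧸ L.U)]
    rfl
  -- `f - c(1,1)` is a cocycle on `L.U`
  have hf2LC : IsLC₁ 𝓤 (fun g => f g - ((c (1, 1) : finLv 𝓤 A L) : A)) :=
    hfLC.comp (fun a => a - ((c (1, 1) : finLv 𝓤 A L) : A))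
  have hf2c : ∀ s t, s ∈ L.U → t ∈ L.U →
      (fun g => f g - ((c (1, 1) : finLv 𝓤 A L) : A)) (s * t)
        = A.ρ s ((fun g => f g - ((c (1, 1) : finLv 𝓤 A L) : A)) t)
          + (fun g => f g - ((c (1, 1) : finLv 𝓤 A L) : A)) s := by
    intro s t hs ht
    have h1 := hval s t
    rw [hone s hs, hone t ht] at h1
    show f (s * t) - _ = A.ρ s (f t - _) + (f s - _)
    rw [map_sub, hc0fix s hs, ← h1]
    abel
  obtain ⟨x, hx⟩ := h90 _ hf2LC hf2c
  -- the corrected cochain
  let b : G → A := fun g => f g - (A.ρ g x - x)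
  have hbU : ∀ s ∈ L.U, b s = ((c (1, 1) : finLv 𝓤 A L) : A) := by
    intro s hs
    have h1 := hx s hs
    show f s - (A.ρ s x - x) = _
    rw [← h1]
    abel
  have hvalb : ∀ g g' : G, A.ρ g (b g') - b (g * g') + b g
      = ((c ((g : G ⧸ L.U), (g' : G ⧸ L.U)) : finLv 𝓤 A L) : A) := by
    intro g g'
    rw [← hval g g']
    show A.ρ g (f g' - (A.ρ g' x - x)) - (f (g * g') - (A.ρ (g * g') x - x))
      + (f g - (A.ρ g x - x)) = _
    rw [map_sub, map_sub, map_mul, Module.End.mul_apply]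
    abel
  have hR : IsRConst₁ L.U b := by
    intro g s hs
    have h1 := hvalb g s
    rw [hone s hs, hc2 g, hbU s hs] at h1
    have h2 : b g - b (g * s) = 0 := by
      have := congrArg (fun z => z - A.ρ g ((c (1, 1) : finLv 𝓤 A L) : A)) h1
      simp only [sub_self] at this
      rw [← this]
      abel
    exact (sub_eq_zero.1 h2).symm
  have hfix : ∀ g s : G, s ∈ L.U → A.ρ s (b g) = b g := by
    intro g s hs
    have h1 := hvalb s g
    rw [hone s hs, hc1, hbU s hs] at h1
    have h3 : b (s * g) = b g := by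
      have := hR g (g⁻¹ * s * g) (conj_mem_of_normal hs g)
      rwa [show g * (g⁻¹ * s * g) = s * g by group] at this
    rw [h3] at h1
    have h2 : A.ρ s (b g) - b g = 0 := by
      have := congrArg (fun z => z - ((c (1, 1) : finLv 𝓤 A L) : A)) h1
      simp only [sub_self] at this
      rw [← this]
      abel
    exact sub_eq_zero.1 h2
  rw [H2π_eq_zero_iff]
  refine ⟨dscFun₁ L b hfix, ?_⟩
  funext ⟨γ, γ'⟩
  obtain ⟨g, rfl⟩ := QuotientGroup.mk_surjective γ
  obtain ⟨g', rfl⟩ := QuotientGroup.mk_surjective γ'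
  apply Subtype.ext
  rw [← hvalb, d₁₂_apply', ← QuotientGroup.mk_mul]
  rw [Submodule.coe_add, Submodule.coe_sub, finLv_ρ_mk, dscFun₁_mk _ _ _ hR,
    dscFun₁_mk _ _ _ hR, dscFun₁_mk _ _ _ hR]

/-- under the same hypothesis for `L'`, the transition map `trans₂ L L'` is injective -/
theorem h5nt_trans₂_injective (L L' : 𝓤.Lv) (h : L'.U ≤ L.U)
    (hinj : Function.Injective (infl₂ 𝓤 A L)) :
    Function.Injective (trans₂ 𝓤 A L L' h) := by
  intro y y' hy
  apply hinj
  rw [← infl₂_trans₂ 𝓤 A L L' h y, ← infl₂_trans₂ 𝓤 A L L' h y', hy]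

end generic

/-- primes are prime. -/
local instance factPrimeOfPrimesNT (q : Nat.Primes) : Fact (q : ℕ).Prime := ⟨q.2⟩

/-- **local inflation is injective on `H²`** (for the smooth units `X q` of `ℚ̄_q`) -/
theorem h5nt_infl₂_injective_X (q : Nat.Primes) (L : (𝓥q q).Lv) :
    Function.Injective (infl₂ (𝓥q q) (Rep.of (ρX q)) L) :=
  h5nt_infl₂_injective (𝓥q q) (Rep.of (ρX q)) L
    (fun f hf hc => H15LH.loc_h90_lc q L.U ⟨L.U, L.mem, le_rfl⟩ f hf hc)

/-- the transition maps of `H²(·, X q)` between finite levels are injective -/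
theorem h5nt_trans₂_injective_X (q : Nat.Primes) (L L' : (𝓥q q).Lv) (h : L'.U ≤ L.U) :
    Function.Injective (trans₂ (𝓥q q) (Rep.of (ρX q)) L L' h) :=
  h5nt_trans₂_injective (𝓥q q) (Rep.of (ρX q)) L L' h (h5nt_infl₂_injective_X q L)

end H5NT

end
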