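/-
W2-C (S55) bridge slice LOC-NT' (helper5), part 3: THE LOCAL `p`-CLASS MODULE AT FINITE LEVELS.

* `H5NT.h5nt_pcm_transport` : `H20A.IsPClassModule p` is transported along an isomorphism of
  pairs `(e, ψ) : (Γ, B) ≅ (Γ', C)` (the class is `(mapIso e ψ he 2).inv γ`);
* `H5NT.h5nt_pcm_X p q L` : for every local level `L` at `q`, the finite level
  `finLv (𝓥q q) (Rep.of (ρX q)) L` (`= (X q)^{L.U}` as a `G_q ⧸ L.U`-module) is a `p`-class module
  (helper3's `h3lb_isPClassModule` transported along BL-X, `H5B.h5bl_e`, `H5B.h5bl_ψ`).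
-/
import Mathlib
import Fermat.Agent.CFT2.A.Defs3
import Fermat.Agent.CFT2.B.Final_helper3
import Fermat.Agent.CFT2.B.LocalModel_helper5
import Fermat.Agent.CFT2.B.LocalDecomp_helper3
import Fermat.Agent.CFT2.D.Infl_helper15
import Fermat.Agent.CFT2.E.Concrete

set_option autoImplicit false
set_option linter.style.haveILetI false
set_option linter.unusedSectionVars false
set_option linter.unusedVariables false

noncomputable section

namespace H5NT

open CategoryTheory groupCohomology Rep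

section transport

attribute [local instance 1100] Rep.hV2

variable {Γ Γ' : Type} [Group Γ] [Group Γ'] (B : Rep.{0} ℤ Γ) (C : Rep.{0} ℤ Γ')
  (e : Γ ≃* Γ') (ψ : B.V ≃ₗ[ℤ] C.V)
  (he : ∀ g, ψ.toLinearMap ∘ₗ B.ρ g = C.ρ (e g) ∘ₗ ψ.toLinearMap)

/-- the pair isomorphism restricted to a subgroup -/
def h5nt_subIso (H : Subgroup Γ) (n : ℕ) :
    groupCohomology (Rep.res H.subtype B) n ≅
      groupCohomology (Rep.res (H.map e.toMonoidHom).subtype C) n :=
  groupCohomology.mapIso (B := Rep.res H.subtype B)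
    (A := Rep.res (H.map e.toMonoidHom).subtype C)
    (H.equivMapOfInjective e.toMonoidHom e.injective) ψ (fun g => he g.1) n

theorem h5nt_subIso_inv_res (H : Subgroup Γ) (n : ℕ) :
    groupCohomology.map (H.map e.toMonoidHom).subtype
        (𝟙 (Rep.res (H.map e.toMonoidHom).subtype C)) n ≫ (h5nt_subIso B C e ψ he H n).inv
      = (groupCohomology.mapIso e ψ he n).inv ≫
          groupCohomology.map H.subtype (𝟙 (Rep.res H.subtype B)) n := by
  show groupCohomology.map (H.map e.toMonoidHom).subtype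
        (𝟙 (Rep.res (H.map e.toMonoidHom).subtype C)) n ≫
      groupCohomology.map
        ((H.equivMapOfInjective e.toMonoidHom e.injective : H ≃* H.map e.toMonoidHom) :
          H →* H.map e.toMonoidHom) _ n
      = groupCohomology.map (e : Γ →* Γ') _ n ≫
          groupCohomology.map H.subtype (𝟙 (Rep.res H.subtype B)) n
  rw [← groupCohomology.map_comp, ← groupCohomology.map_comp]
  exact groupCohomology.map_congr (by ext; rfl) (by rfl) n

/-- **transport of `p`-class modules** along an isomorphism of pairs `(Γ, B) ≅ (Γ', C)` -/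
theorem h5nt_pcm_transport [Finite Γ] [Finite Γ'] (p : ℕ) (γ : groupCohomology C 2)
    (h : H20A.IsPClassModule p C γ) :
    H20A.IsPClassModule p B ((groupCohomology.mapIso e ψ he 2).inv γ) := by
  have hP : ∀ H : Subgroup Γ, IsPGroup p H → IsPGroup p (H.map e.toMonoidHom) :=
    fun H hH => hH.map _
  refine ⟨fun H hH => ?_, fun H hH => ?_, fun H hH x => ?_⟩
  · exact Limits.IsZero.of_iso (h.h1 _ (hP H hH)) (h5nt_subIso B C e ψ he H 1)
  · have h1 := h.card _ (hP H hH)
    have h2 : Nat.card (groupCohomology (H20A.resSub B H) 2)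
        = Nat.card (groupCohomology (H20A.resSub C (H.map e.toMonoidHom)) 2) :=
      Nat.card_congr (h5nt_subIso B C e ψ he H 2).toLinearEquiv.toEquiv
    have h3 : Nat.card H = Nat.card (H.map e.toMonoidHom) :=
      Nat.card_congr (H.equivMapOfInjective e.toMonoidHom e.injective).toEquiv
    rw [h2, h1, h3]
  · obtain ⟨k, hk⟩ := h.gen _ (hP H hH) ((h5nt_subIso B C e ψ he H 2).hom x)
    refine ⟨k, ?_⟩
    have h1 : (h5nt_subIso B C e ψ he H 2).inv ((h5nt_subIso B C e ψ he H 2).hom x) = x :=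
      Iso.hom_inv_id_apply _ x
    have h2 := congrArg (fun z => (h5nt_subIso B C e ψ he H 2).inv z) hk
    simp only [h1] at h2
    rw [h2, map_zsmul]
    congr 1
    have h3 := ConcreteCategory.congr_hom (h5nt_subIso_inv_res B C e ψ he H 2) γ
    exact h3

end transport

section local_pcm

open H15D H14PT H3LB H5B ExtCitation

/-- primes are prime. -/
local instance factPrimeOfPrimesNTP (q : Nat.Primes) : Fact (q : ℕ).Prime := ⟨q.2⟩

attribute [local instance 1100] Rep.hV2

/-- **the local `p`-class module at the finite level `L`**: `(X q)^{L.U}` is a `p`-class module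
for `G_q ⧸ L.U`. -/
theorem h5nt_pcm_X (p : ℕ) (q : Nat.Primes) (L : (𝓥q q).Lv) :
    ∃ γ : groupCohomology (finLv (𝓥q q) (Rep.of (ρX q)) L) 2,
      H20A.IsPClassModule p (finLv (𝓥q q) (Rep.of (ρX q)) L) γ := by
  obtain ⟨F, hFfd, hFn, hU⟩ := L.mem
  haveI := hFfd
  haveI : Normal ℚ F := h3lf_normal_of_fixingSubgroup_normal F hFn
  haveI : FiniteDimensional ℚ_[(q : ℕ)] (localField (q : ℕ) F) := h3lf_finiteDimensional (q : ℕ) F
  haveI : Normal ℚ_[(q : ℕ)] (localField (q : ℕ) F) := h3lf_normal (q : ℕ) F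
  haveI : IsGalois ℚ_[(q : ℕ)] (localField (q : ℕ) F) := ⟨⟩
  obtain ⟨γ0, hγ0⟩ := h3lb_isPClassModule p (q : ℕ) ℚ_[(q : ℕ)] (localField (q : ℕ) F)
  have hU' : L.U = F.fixingSubgroup.comap (localGaloisToGlobal (q : ℕ)) := hU
  refine ⟨_, h5nt_pcm_transport (finLv (𝓥q q) (Rep.of (ρX q)) L)
    (Rep.ofAlgebraAutOnUnits ℚ_[(q : ℕ)] (localField (q : ℕ) F))
    (h5bl_e (q : ℕ) F L.U hU') (h5bl_ψ (q : ℕ) F L.U hU').toIntLinearEquiv
    (fun g => DFunLike.ext _ _ (fun b => h5bl_compat (q : ℕ) F L.U hU' g b)) p γ0 hγ0⟩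

end local_pcm

end H5NT
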