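/-
W2-C (S55) block E wiring (helper14): `CMB S p → TDim1 S p`.
The `p`-torsion of `H²_S(B)` is cyclic: finite levels (T1) + restriction to a Sylow subgroup
(AR1) + the class module property.
-/
import Mathlib
import Fermat.Agent.CFT2.E.Interface
import Fermat.Agent.CFT2.A.ARCoh_helper26

set_option autoImplicit false
set_option linter.style.haveILetI false
set_option linter.unusedVariables false
set_option linter.unusedSectionVars false

noncomputable section

namespace H14PT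

open H15D H15F ExtCitation groupCohomology

local notation "Qb" => AlgebraicClosure ℚ
local notation "GQ" => (AlgebraicClosure ℚ ≃ₐ[ℚ] AlgebraicClosure ℚ)

/-- in a group generated by `g`, two `p`-torsion elements `x ≠ 0`, `y` satisfy `y ∈ ℤ x` -/
theorem cyc_ptors {A : Type*} [AddCommGroup A] {p : ℕ} (hp : p.Prime) (g x y : A)
    (hx : ∃ k : ℤ, x = k • g) (hy : ∃ k : ℤ, y = k • g) (px : p • x = 0) (py : p • y = 0)
    (x0 : x ≠ 0) : ∃ k : ℤ, y = k • x := by
  obtain ⟨a, rfl⟩ := hx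
  obtain ⟨b, rfl⟩ := hy
  -- `w = d g`, `d = gcd a b`
  set d : ℤ := ((Int.gcd a b : ℕ) : ℤ) with hd
  have hbez : (d : ℤ) = a * Int.gcdA a b + b * Int.gcdB a b := Int.gcd_eq_gcd_ab a b
  obtain ⟨a', ha'⟩ : (d : ℤ) ∣ a := Int.gcd_dvd_left a b
  obtain ⟨b', hb'⟩ : (d : ℤ) ∣ b := Int.gcd_dvd_right a b
  set w : A := d • g with hw
  have hxw : a • g = a' • w := by rw [hw, smul_smul, mul_comm, ← ha']
  have hyw : b • g = b' • w := by rw [hw, smul_smul, mul_comm, ← hb']
  have pw : p • w = 0 := by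
    have : w = Int.gcdA a b • (a • g) + Int.gcdB a b • (b • g) := by
      rw [hw, hbez, add_smul, mul_comm a, mul_comm b, mul_smul, mul_smul]
    rw [this, smul_add, smul_comm, px, smul_zero, smul_comm, py, smul_zero, add_zero]
  -- `p ∤ a'`
  have hpa : ¬ (p : ℤ) ∣ a' := by
    rintro ⟨c, hc⟩
    apply x0
    rw [hxw, hc, mul_comm, mul_smul, natCast_zsmul, pw, smul_zero]
  have hcop : IsCoprime (p : ℤ) a' :=
    (Nat.prime_iff_prime_int.1 hp).coprime_iff_not_dvd.2 hpa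
  obtain ⟨s, t, hst⟩ := hcop
  -- `w = t • x`
  have hwx : w = t • (a • g) := by
    rw [hxw, smul_smul]
    have : t * a' = 1 - s * p := by linarith
    rw [this, sub_smul, one_smul, mul_smul, natCast_zsmul, pw, smul_zero, sub_zero]
  refine ⟨b' * t, ?_⟩
  rw [hyw, mul_smul, ← hwx]

theorem kill_coprime_aux {A : Type*} [AddCommGroup A] {m n : ℕ}
    (h : IsCoprime (m : ℤ) (n : ℤ)) (z : A) (hm : m • z = 0) (hn : n • z = 0) : z = 0 := by
  obtain ⟨s, t, hst⟩ := h
  have h2 : (s * (m : ℤ) + t * (n : ℤ)) • z = 0 := by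
    rw [add_smul, mul_smul, mul_smul, natCast_zsmul, natCast_zsmul, hm, hn, smul_zero, smul_zero,
      add_zero]
  rw [hst, one_smul] at h2
  exact h2

theorem nsmul_sub_zsmul_aux {A : Type*} [AddCommGroup A] (p : ℕ) (k : ℤ) (x y : A)
    (px : p • x = 0) (py : p • y = 0) : p • (y - k • x) = 0 := by
  rw [smul_sub, py, smul_comm, px, smul_zero, sub_zero]

variable (S : Finset Nat.Primes) {p : ℕ} [Fact p.Prime]

/-- the finite-level statement -/
theorem dim1_fin {G : Type} [Group G] [Finite G] (C : Rep.{0} ℤ G) (γ : groupCohomology C 2)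
    (hC : H20A.IsPClassModule p C γ) (x y : groupCohomology C 2)
    (px : p • x = 0) (py : p • y = 0) (x0 : x ≠ 0) : ∃ k : ℤ, y = k • x := by
  have hp : p.Prime := Fact.out
  obtain ⟨P⟩ : Nonempty (Sylow p G) := inferInstance
  have hidx : ¬ p ∣ (P : Subgroup G).index := P.not_dvd_index
  have hcop : IsCoprime ((P : Subgroup G).index : ℤ) (p : ℤ) := by
    rw [Int.isCoprime_iff_gcd_eq_one, Int.gcd_natCast_natCast]
    exact (Nat.Coprime.symm ((Nat.Prime.coprime_iff_not_dvd hp).2 hidx))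
  -- an element killed by `p` and by the index is zero
  have key : ∀ z : groupCohomology C 2, p • z = 0 →
      H20A.resCoh C (P : Subgroup G) 2 z = 0 → z = 0 := by
    intro z pz hz
    have h1 := H26AR.h26ar_indexKillsCoh G C (P : Subgroup G) 2 z hz
    exact kill_coprime_aux hcop z h1 pz
  set r := H20A.resCoh C (P : Subgroup G) 2 with hr
  have hrx : r x ≠ 0 := fun h => x0 (key x px h)
  obtain ⟨k, hk⟩ := cyc_ptors hp (r γ) (r x) (r y) (hC.gen _ P.isPGroup' (r x))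
    (hC.gen _ P.isPGroup' (r y)) (by rw [← map_nsmul, px, map_zero])
    (by rw [← map_nsmul, py, map_zero]) hrx
  refine ⟨k, ?_⟩
  have h1 : r (y - k • x) = 0 := by rw [map_sub, map_zsmul, hk, sub_self]
  have h2 : p • (y - k • x) = 0 := nsmul_sub_zsmul_aux p k x y px py
  exact sub_eq_zero.1 (key _ h2 h1)

/-- **W-dim1** -/
theorem tDim1_of_cmb (h : CMB S p) : TDim1 S p := by
  intro x y px py x0
  obtain ⟨L₀, hL₀⟩ := h
  obtain ⟨Lx, hLx⟩ := exists_infl₂_eq (levelsS S) (Rep.of (ρB S)) x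
  obtain ⟨Ly, hLy⟩ := exists_infl₂_eq (levelsS S) (Rep.of (ρB S)) y
  obtain ⟨L1, h1x, h1y⟩ := (levelsS S).exists_lv_le Lx Ly
  obtain ⟨L, hLL1, hLL₀⟩ := (levelsS S).exists_lv_le L1 L₀
  obtain ⟨xL, hxL⟩ := hLx L (hLL1.trans h1x)
  obtain ⟨yL, hyL⟩ := hLy L (hLL1.trans h1y)
  -- kill `p • xL`, `p • yL` at a smaller level
  have hpx : infl₂ (levelsS S) (Rep.of (ρB S)) L (p • xL) = 0 := by
    rw [map_nsmul, hxL, px]
  have hpy : infl₂ (levelsS S) (Rep.of (ρB S)) L (p • yL) = 0 := by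
    rw [map_nsmul, hyL, py]
  obtain ⟨Mx, hMx, hMx'⟩ := exists_trans₂_eq_zero (levelsS S) (Rep.of (ρB S)) L _ hpx
  obtain ⟨My, hMy, hMy'⟩ := exists_trans₂_eq_zero (levelsS S) (Rep.of (ρB S)) L _ hpy
  obtain ⟨L', hL'x, hL'y⟩ := (levelsS S).exists_lv_le Mx My
  have hL'L : L'.U ≤ L.U := hL'x.trans hMx
  set x' := trans₂ (levelsS S) (Rep.of (ρB S)) L L' hL'L xL with hx'
  set y' := trans₂ (levelsS S) (Rep.of (ρB S)) L L' hL'L yL with hy'
  have px' : p • x' = 0 := by
    rw [hx', ← map_nsmul]; exact hMx' L' hL'L hL'x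
  have py' : p • y' = 0 := by
    rw [hy', ← map_nsmul]; exact hMy' L' hL'L hL'y
  have hix : infl₂ (levelsS S) (Rep.of (ρB S)) L' x' = x := by
    rw [hx', infl₂_trans₂, hxL]
  have hiy : infl₂ (levelsS S) (Rep.of (ρB S)) L' y' = y := by
    rw [hy', infl₂_trans₂, hyL]
  have x0' : x' ≠ 0 := by
    intro h0
    apply x0
    rw [← hix, h0, map_zero]
  obtain ⟨γ, hγ⟩ := hL₀ L' (hL'L.trans hLL₀)
  obtain ⟨k, hk⟩ := dim1_fin (BL S L') γ hγ x' y' px' py' x0'
  refine ⟨k, ?_⟩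
  rw [← hiy, ← hix, hk, map_zsmul]

end H14PT

end
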