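/-
W2-C (S55) bridge, slice FL1 = I-COIND (helper5): for a level `U` of `GQ` (normal, `U = Gal(ℚ̄/F)`,
`F` unramified outside `S`), `V = loc⁻¹ U ≤ H_q`, `φ : H_q ⧸ V →* GQ ⧸ U` (injective):

  `h5ic_iso : (I_q)^U ≅ Rep.coind φ ((xbar q)^V)`   in `Rep ℤ (GQ ⧸ U)`,   `f ↦ (ḡ ↦ f g)`

(`h5ic_iso_hom_apply`; evaluation at `1` is `evOne`: `h5ic_iso_hom_one`).
-/
import Mathlib
import Fermat.Agent.CFT2.E.Concrete

set_option autoImplicit false
set_option linter.style.haveILetI false
set_option linter.unusedSectionVars false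

noncomputable section

open CategoryTheory Rep

namespace H5IC

open H14PT H15D ExtCitation

local notation "Qb" => AlgebraicClosure ℚ
local notation "GQ" => (AlgebraicClosure ℚ ≃ₐ[ℚ] AlgebraicClosure ℚ)

attribute [local instance 1100] Rep.hV2

/-- primes are prime. -/
local instance h5ic_fact (q : Nat.Primes) : Fact (q : ℕ).Prime := ⟨q.2⟩

variable (S : Finset Nat.Primes) (q : Nat.Primes)

/-- the representation on `I_q` -/
abbrev h5ic_ρA : Representation ℤ GQ (Additive (ideleAt S q)) :=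
  Representation.ofMulDistribMulAction GQ (ideleAt S q)

/-- the underlying function of an element of `I_q` (additive notation) -/
def h5ic_fn (a : Additive (ideleAt S q)) (g : GQ) : PadicAlgCl (q : ℕ) :=
  ((ideleAt.fn S (Additive.toMul a) g : (PadicAlgCl (q : ℕ))ˣ) : PadicAlgCl (q : ℕ))

theorem h5ic_fn_injective : Function.Injective (h5ic_fn S q) := by
  intro a b hab
  apply congrArg Additive.ofMul (a₁ := Additive.toMul a) (a₂ := Additive.toMul b)
  apply ideleAt.ext
  intro g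
  apply Units.ext
  exact congrFun hab g

theorem h5ic_fn_add (a b : Additive (ideleAt S q)) (g : GQ) :
    h5ic_fn S q (a + b) g = h5ic_fn S q a g * h5ic_fn S q b g := rfl

theorem h5ic_fn_ρ (γ : GQ) (a : Additive (ideleAt S q)) (g : GQ) :
    h5ic_fn S q (h5ic_ρA S q γ a) g = h5ic_fn S q a (g * γ) := rfl

theorem h5ic_fn_loc (a : Additive (ideleAt S q)) (τ : Hq q) (g : GQ) :
    h5ic_fn S q a (primeLocalToGlobal q τ * g) =
      (show PadicAlgCl (q : ℕ) ≃ₐ[ℚ_[(q : ℕ)]] PadicAlgCl (q : ℕ) from τ) (h5ic_fn S q a g) := by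
  have h1 := (Additive.toMul a : ideleAt S q).2.1 τ g
  exact congrArg (fun u : (PadicAlgCl (q : ℕ))ˣ => (u : PadicAlgCl (q : ℕ))) h1

/-- the underlying element of an element of the local module -/
def h5ic_val (b : Additive (xbar (q : ℕ))) : PadicAlgCl (q : ℕ) :=
  (((Additive.toMul b : xbar (q : ℕ)) : (PadicAlgCl (q : ℕ))ˣ) : PadicAlgCl (q : ℕ))

theorem h5ic_val_injective : Function.Injective (h5ic_val q) := by
  intro a b hab
  apply congrArg Additive.ofMul (a₁ := Additive.toMul a) (a₂ := Additive.toMul b)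
  apply Subtype.ext
  apply Units.ext
  exact hab

theorem h5ic_val_ρ (τ : Hq q) (b : Additive (xbar (q : ℕ))) :
    h5ic_val q (ρX q τ b) =
      (show PadicAlgCl (q : ℕ) ≃ₐ[ℚ_[(q : ℕ)]] PadicAlgCl (q : ℕ) from τ) (h5ic_val q b) := rfl

theorem h5ic_val_add (a b : Additive (xbar (q : ℕ))) :
    h5ic_val q (a + b) = h5ic_val q a * h5ic_val q b := rfl

variable (U : Subgroup GQ) [hUn : U.Normal]

/-- the local level induced by `U` -/
abbrev h5ic_V : Subgroup (Hq q) := U.comap (primeLocalToGlobal q)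

/-- `φ : H_q ⧸ V →* GQ ⧸ U` -/
def h5ic_φ : Hq q ⧸ h5ic_V q U →* GQ ⧸ U :=
  QuotientGroup.map (h5ic_V q U) U (primeLocalToGlobal q) le_rfl

theorem h5ic_φ_mk (τ : Hq q) :
    h5ic_φ q U (τ : Hq q ⧸ h5ic_V q U) = ((primeLocalToGlobal q τ : GQ) : GQ ⧸ U) := rfl

theorem h5ic_φ_injective : Function.Injective (h5ic_φ q U) := by
  rw [injective_iff_map_eq_one]
  intro x hx
  induction x using QuotientGroup.induction_on with
  | H τ =>
    rw [h5ic_φ_mk, QuotientGroup.eq_one_iff] at hx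
    rw [QuotientGroup.eq_one_iff]
    exact hx

/-- `U`-invariance, elementwise -/
theorem h5ic_inv_iff (a : Additive (ideleAt S q)) :
    a ∈ Representation.invariants ((h5ic_ρA S q).comp U.subtype) ↔
      ∀ s ∈ U, ∀ g : GQ, h5ic_fn S q a (g * s) = h5ic_fn S q a g := by
  constructor
  · intro h s hs g
    have h1 : h5ic_ρA S q s a = a := h ⟨s, hs⟩
    have h2 := congrFun (congrArg (h5ic_fn S q) h1) g
    rwa [h5ic_fn_ρ] at h2
  · intro h s
    apply h5ic_fn_injective
    funext g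
    exact h s.1 s.2 g

variable {S q U}

/-- conjugation: `f (s * g) = f g` for `s ∈ U` -/
theorem h5ic_fn_left {a : Additive (ideleAt S q)}
    (ha : a ∈ Representation.invariants ((h5ic_ρA S q).comp U.subtype)) (s : GQ) (hs : s ∈ U)
    (g : GQ) : h5ic_fn S q a (s * g) = h5ic_fn S q a g := by
  have h1 : s * g = g * (g⁻¹ * s * g) := by group
  rw [h1]
  exact (h5ic_inv_iff S q U a).1 ha _ (hUn.conj_mem' s hs g) g

/-- the values of a `U`-invariant idele are smooth -/
theorem h5ic_fn_mem_xbar {a : Additive (ideleAt S q)}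
    (ha : a ∈ Representation.invariants ((h5ic_ρA S q).comp U.subtype))
    (hU : ∃ F : IntermediateField ℚ Qb, FiniteDimensional ℚ F ∧ U = F.fixingSubgroup) (g : GQ) :
    ideleAt.fn S (Additive.toMul a) g ∈ xbar (q : ℕ) := by
  obtain ⟨F, hF, rfl⟩ := hU
  refine ⟨F, hF, fun τ hτ τ' => ?_⟩
  have h1 := h5ic_fn_loc S q a τ' g
  have h2 := h5ic_fn_loc S q a τ (primeLocalToGlobal q τ' * g)
  have h3 := h5ic_fn_left ha (primeLocalToGlobal q τ) hτ (primeLocalToGlobal q τ' * g)
  change τ (τ' (h5ic_fn S q a g)) = τ' (h5ic_fn S q a g)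
  change _ = τ' (h5ic_fn S q a g) at h1
  change _ = τ (h5ic_fn S q a (primeLocalToGlobal q τ' * g)) at h2
  rw [← h1, ← h2, h3]

variable (S q U)

/-- the value at `g` of a `U`-invariant idele, as a `V`-invariant element of the local module -/
def h5ic_valAt (hU : ∃ F : IntermediateField ℚ Qb, FiniteDimensional ℚ F ∧ U = F.fixingSubgroup)
    (a : (Rep.of (h5ic_ρA S q)).quotientToInvariants U) (g : GQ) :
    ((Rep.of (ρX q)).quotientToInvariants (h5ic_V q U)).V :=
  ⟨Additive.ofMul ⟨ideleAt.fn S (Additive.toMul (a.1 : Additive (ideleAt S q))) g,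
      h5ic_fn_mem_xbar a.2 hU g⟩, by
    intro v
    apply h5ic_val_injective
    change (show PadicAlgCl (q : ℕ) ≃ₐ[ℚ_[(q : ℕ)]] PadicAlgCl (q : ℕ) from v.1)
      (h5ic_fn S q a.1 g) = h5ic_fn S q a.1 g
    rw [← h5ic_fn_loc]
    exact h5ic_fn_left a.2 _ v.2 g⟩

theorem h5ic_valAt_val
    (hU : ∃ F : IntermediateField ℚ Qb, FiniteDimensional ℚ F ∧ U = F.fixingSubgroup)
    (a : (Rep.of (h5ic_ρA S q)).quotientToInvariants U) (g : GQ) :
    h5ic_val q ((h5ic_valAt S q U hU a g).1 : Additive (xbar (q : ℕ))) = h5ic_fn S q a.1 g := rfl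

/-- the underlying element of a `V`-invariant -/
def h5ic_valI (b : ((Rep.of (ρX q)).quotientToInvariants (h5ic_V q U)).V) : PadicAlgCl (q : ℕ) :=
  h5ic_val q (b.1 : Additive (xbar (q : ℕ)))

theorem h5ic_valI_injective : Function.Injective (h5ic_valI q U) := by
  intro a b hab
  apply Subtype.ext
  exact h5ic_val_injective q hab

theorem h5ic_valAt_mul_right
    (hU : ∃ F : IntermediateField ℚ Qb, FiniteDimensional ℚ F ∧ U = F.fixingSubgroup)
    (a : (Rep.of (h5ic_ρA S q)).quotientToInvariants U) (g s : GQ) (hs : s ∈ U) :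
    h5ic_valAt S q U hU a (g * s) = h5ic_valAt S q U hU a g := by
  apply h5ic_valI_injective
  exact (h5ic_inv_iff S q U a.1).1 a.2 s hs g

/-- the function `GQ ⧸ U → (xbar q)^V` of a `U`-invariant idele -/
def h5ic_Φfun (hU : ∃ F : IntermediateField ℚ Qb, FiniteDimensional ℚ F ∧ U = F.fixingSubgroup)
    (a : (Rep.of (h5ic_ρA S q)).quotientToInvariants U) :
    GQ ⧸ U → ((Rep.of (ρX q)).quotientToInvariants (h5ic_V q U)).V :=
  fun x => Quotient.liftOn' x (h5ic_valAt S q U hU a) (by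
    intro g g' hgg'
    have h1 : g⁻¹ * g' ∈ U := QuotientGroup.leftRel_apply.1 hgg'
    have h2 := h5ic_valAt_mul_right S q U hU a g (g⁻¹ * g') h1
    rw [mul_inv_cancel_left] at h2
    exact h2.symm)

theorem h5ic_Φfun_mk
    (hU : ∃ F : IntermediateField ℚ Qb, FiniteDimensional ℚ F ∧ U = F.fixingSubgroup)
    (a : (Rep.of (h5ic_ρA S q)).quotientToInvariants U) (g : GQ) :
    h5ic_Φfun S q U hU a (g : GQ ⧸ U) = h5ic_valAt S q U hU a g := rfl

theorem h5ic_Φfun_mem
    (hU : ∃ F : IntermediateField ℚ Qb, FiniteDimensional ℚ F ∧ U = F.fixingSubgroup)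
    (a : (Rep.of (h5ic_ρA S q)).quotientToInvariants U) :
    h5ic_Φfun S q U hU a ∈ Representation.coindV (h5ic_φ q U)
      ((Rep.of (ρX q)).quotientToInvariants (h5ic_V q U)).ρ := by
  intro h x
  induction h using QuotientGroup.induction_on with
  | H τ =>
    induction x using QuotientGroup.induction_on with
    | H g =>
      rw [h5ic_φ_mk, ← QuotientGroup.mk_mul, h5ic_Φfun_mk, h5ic_Φfun_mk]
      apply h5ic_valI_injective
      exact h5ic_fn_loc S q a.1 τ g

/-- `Φ` as an additive map -/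
def h5ic_Φadd (hU : ∃ F : IntermediateField ℚ Qb, FiniteDimensional ℚ F ∧ U = F.fixingSubgroup) :
    ((Rep.of (h5ic_ρA S q)).quotientToInvariants U).V →+
      (Rep.coind (h5ic_φ q U) ((Rep.of (ρX q)).quotientToInvariants (h5ic_V q U))).V where
  toFun a := ⟨h5ic_Φfun S q U hU a, h5ic_Φfun_mem S q U hU a⟩
  map_zero' := by
    apply Subtype.ext
    funext x
    induction x using QuotientGroup.induction_on with
    | H g =>
      apply h5ic_valI_injective
      rfl
  map_add' a b := by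
    apply Subtype.ext
    funext x
    induction x using QuotientGroup.induction_on with
    | H g =>
      apply h5ic_valI_injective
      rfl

theorem h5ic_Φadd_apply
    (hU : ∃ F : IntermediateField ℚ Qb, FiniteDimensional ℚ F ∧ U = F.fixingSubgroup)
    (a : ((Rep.of (h5ic_ρA S q)).quotientToInvariants U).V) (g : GQ) :
    h5ic_valI q U ((h5ic_Φadd S q U hU a).1 (g : GQ ⧸ U)) = h5ic_fn S q a.1 g := rfl

theorem h5ic_Φadd_injective
    (hU : ∃ F : IntermediateField ℚ Qb, FiniteDimensional ℚ F ∧ U = F.fixingSubgroup) :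
    Function.Injective (h5ic_Φadd S q U hU) := by
  intro a b hab
  apply Subtype.ext
  apply h5ic_fn_injective
  funext g
  rw [← h5ic_Φadd_apply S q U hU a g, ← h5ic_Φadd_apply S q U hU b g, hab]

theorem h5ic_Φadd_surjective
    (hU : ∃ F : IntermediateField ℚ Qb, F.IsUnramifiedOutside S ∧ U = F.fixingSubgroup) :
    Function.Surjective (h5ic_Φadd S q U
      (by obtain ⟨F, hF, h⟩ := hU; exact ⟨F, hF.1, h⟩)) := by
  intro b
  -- the function
  let f : GQ → (PadicAlgCl (q : ℕ))ˣ := fun g =>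
    ((Additive.toMul ((b.1 (g : GQ ⧸ U)).1 : Additive (xbar (q : ℕ))) : xbar (q : ℕ)) :
      (PadicAlgCl (q : ℕ))ˣ)
  have hfval : ∀ g, ((f g : (PadicAlgCl (q : ℕ))ˣ) : PadicAlgCl (q : ℕ)) =
      h5ic_valI q U (b.1 (g : GQ ⧸ U)) := fun g => rfl
  have hf : f ∈ idele S (q : ℕ) := by
    refine ⟨fun τ g => ?_, ?_⟩
    · apply Units.ext
      have h1 := b.2 ((show Hq q from τ : Hq q) : Hq q ⧸ h5ic_V q U) (g : GQ ⧸ U)
      have h2 := congrArg (h5ic_valI q U) h1
      exact h2
    · obtain ⟨F, hF, hUF⟩ := hU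
      refine ⟨F, hF, fun g g' s hs => ?_⟩
      have h1 : ((g * s * g' : GQ) : GQ ⧸ U) = ((g * g' : GQ) : GQ ⧸ U) := by
        rw [QuotientGroup.eq]
        have h2 : (g * s * g')⁻¹ * (g * g') = g'⁻¹ * s⁻¹ * g' := by group
        rw [h2]
        apply hUn.conj_mem'
        apply inv_mem
        rw [hUF]
        exact hs
      change ((Additive.toMul ((b.1 ((g * s * g' : GQ) : GQ ⧸ U)).1 : Additive (xbar (q : ℕ))) :
        xbar (q : ℕ)) : (PadicAlgCl (q : ℕ))ˣ) = ((Additive.toMul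
          ((b.1 ((g * g' : GQ) : GQ ⧸ U)).1 : Additive (xbar (q : ℕ))) : xbar (q : ℕ)) :
            (PadicAlgCl (q : ℕ))ˣ)
      rw [h1]
  let a0 : Additive (ideleAt S q) := Additive.ofMul (⟨f, hf⟩ : ↥(idele S (q : ℕ)))
  have ha0 : a0 ∈ Representation.invariants ((h5ic_ρA S q).comp U.subtype) := by
    rw [h5ic_inv_iff]
    intro s hs g
    have h1 : ((g * s : GQ) : GQ ⧸ U) = (g : GQ ⧸ U) := by
      rw [QuotientGroup.eq]
      have h2 : (g * s)⁻¹ * g = s⁻¹ := by group
      rw [h2]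
      exact inv_mem hs
    change ((f (g * s) : (PadicAlgCl (q : ℕ))ˣ) : PadicAlgCl (q : ℕ)) = (f g : (PadicAlgCl (q : ℕ))ˣ)
    rw [hfval, hfval, h1]
  refine ⟨⟨a0, ha0⟩, ?_⟩
  apply Subtype.ext
  funext x
  induction x using QuotientGroup.induction_on with
  | H g =>
    apply h5ic_valI_injective
    rfl

theorem h5ic_hU' (hU : ∃ F : IntermediateField ℚ Qb, F.IsUnramifiedOutside S ∧
    U = F.fixingSubgroup) :
    ∃ F : IntermediateField ℚ Qb, FiniteDimensional ℚ F ∧ U = F.fixingSubgroup := by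
  obtain ⟨F, hF, h⟩ := hU
  exact ⟨F, hF.1, h⟩

/-- `Φ` as a linear equivalence -/
def h5ic_Φ (hU : ∃ F : IntermediateField ℚ Qb, F.IsUnramifiedOutside S ∧ U = F.fixingSubgroup) :
    ((Rep.of (h5ic_ρA S q)).quotientToInvariants U).V ≃ₗ[ℤ]
      (Rep.coind (h5ic_φ q U) ((Rep.of (ρX q)).quotientToInvariants (h5ic_V q U))).V :=
  LinearEquiv.ofBijective (h5ic_Φadd S q U (h5ic_hU' S U hU)).toIntLinearMap
    ⟨h5ic_Φadd_injective S q U (h5ic_hU' S U hU), h5ic_Φadd_surjective S q U hU⟩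

theorem h5ic_Φ_apply
    (hU : ∃ F : IntermediateField ℚ Qb, F.IsUnramifiedOutside S ∧ U = F.fixingSubgroup)
    (a : ((Rep.of (h5ic_ρA S q)).quotientToInvariants U).V) (g : GQ) :
    h5ic_valI q U ((h5ic_Φ S q U hU a).1 (g : GQ ⧸ U)) = h5ic_fn S q a.1 g := rfl

/-- **(I-COIND)** the `U`-invariants of the semilocal module `I_q` are coinduced from the
`V`-invariants of the local module `xbar q` along `φ : H_q ⧸ V → GQ ⧸ U`. -/
def h5ic_iso (hU : ∃ F : IntermediateField ℚ Qb, F.IsUnramifiedOutside S ∧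
    U = F.fixingSubgroup) :
    (Rep.of (h5ic_ρA S q)).quotientToInvariants U ≅
      Rep.coind (h5ic_φ q U) ((Rep.of (ρX q)).quotientToInvariants (h5ic_V q U)) :=
  Rep.mkIso (Representation.Equiv.mk (h5ic_Φ S q U hU)
    (fun γ => by
      induction γ using QuotientGroup.induction_on with
      | H γ =>
        apply LinearMap.ext
        intro a
        apply Subtype.ext
        funext x
        induction x using QuotientGroup.induction_on with
        | H g =>
          apply h5ic_valI_injective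
          rfl))

theorem h5ic_iso_hom_apply
    (hU : ∃ F : IntermediateField ℚ Qb, F.IsUnramifiedOutside S ∧ U = F.fixingSubgroup)
    (a : ((Rep.of (h5ic_ρA S q)).quotientToInvariants U).V) (g : GQ) :
    h5ic_valI q U (((h5ic_iso S q U hU).hom.hom a).1 (g : GQ ⧸ U)) = h5ic_fn S q a.1 g := rfl

/-- evaluation at `1` corresponds to `evOne` -/
theorem h5ic_iso_hom_one
    (hU : ∃ F : IntermediateField ℚ Qb, F.IsUnramifiedOutside S ∧ U = F.fixingSubgroup)
    (a : ((Rep.of (h5ic_ρA S q)).quotientToInvariants U).V) :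
    (((Additive.toMul ((((h5ic_iso S q U hU).hom.hom a).1 (1 : GQ ⧸ U)).1 :
      Additive (xbar (q : ℕ))) : xbar (q : ℕ)) : (PadicAlgCl (q : ℕ))ˣ)) =
      evOne (q : ℕ) (ideleAt.fn S (Additive.toMul (a.1 : Additive (ideleAt S q)))) := rfl

end H5IC

end
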