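/-
W2-C (S55) bridge, slice FL-SH (helper5): finite-level local-global injectivity for the
semilocal ideles (finite-level form of `PTHyp.sh2`; I-COIND + Shapiro (helper12) + additivity).

For a level `U` of `GQ` (normal, `U = Gal(ℚ̄/F)`, `F` unramified outside `S`), `V_q = loc_q⁻¹ U`:
* `h5fl_prA S U q hU : Res_φ ((I_q)^U) ⟶ (xbar q)^V`, `h5fl_prA_bijective₁/₂`
* `h5fl_prI S U hU q : Res_φ (I^U) ⟶ (xbar q)^{V_q}` for `q ∈ S`
  (`h5fl_prI_apply`: the underlying map is `prL' S q`)
* `h5fl_sh₁`, `h5fl_sh₂`: a class in `Hⁱ(GQ ⧸ U, I^U)` all of whose localisations vanish is `0`.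
* additivity of `groupCohomology.map` : `h5fl_map_add`, `h5fl_map_sum`, `h5fl_map_sum_apply`.
-/
import Mathlib
import Fermat.Agent.CFT2.E.ICoind_helper5
import Fermat.Agent.CFT2.D3.Shapiro_helper12

set_option autoImplicit false
set_option linter.style.haveILetI false
set_option linter.unusedSectionVars false

noncomputable section

open CategoryTheory Rep groupCohomology

namespace H5IC

open H14PT H15D ExtCitation

local notation "Qb" => AlgebraicClosure ℚ
local notation "GQ" => (AlgebraicClosure ℚ ≃ₐ[ℚ] AlgebraicClosure ℚ)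

attribute [local instance 1100] Rep.hV2

/-- primes are prime. -/
local instance h5fl_fact (q : Nat.Primes) : Fact (q : ℕ).Prime := ⟨q.2⟩

section additivity

variable {k G : Type} [CommRing k] [Group G]

theorem h5fl_map_add {A B : Rep.{0} k G} (f g : A ⟶ B) (n : ℕ) :
    groupCohomology.map (MonoidHom.id G) (f + g) n =
      groupCohomology.map (MonoidHom.id G) f n + groupCohomology.map (MonoidHom.id G) g n := by
  change HomologicalComplex.homologyMap ((cochainsFunctor k G).map (f + g)) n = _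
  rw [Functor.map_add, HomologicalComplex.homologyMap_add]
  rfl

theorem h5fl_map_zero {A B : Rep.{0} k G} (n : ℕ) :
    groupCohomology.map (MonoidHom.id G) (0 : A ⟶ B) n = 0 := by
  change HomologicalComplex.homologyMap ((cochainsFunctor k G).map (0 : A ⟶ B)) n = _
  rw [Functor.map_zero, HomologicalComplex.homologyMap_zero]
  rfl

theorem h5fl_map_sum {ι : Type} (s : Finset ι) {A B : Rep.{0} k G} (f : ι → (A ⟶ B)) (n : ℕ) :
    groupCohomology.map (MonoidHom.id G) (∑ i ∈ s, f i) n =
      ∑ i ∈ s, groupCohomology.map (MonoidHom.id G) (f i) n := by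
  classical
  induction s using Finset.induction_on with
  | empty => simp [h5fl_map_zero]
  | insert a s ha ih => rw [Finset.sum_insert ha, Finset.sum_insert ha, h5fl_map_add, ih]

theorem h5fl_map_sum_apply {ι : Type} (s : Finset ι) {A B : Rep.{0} k G} (f : ι → (A ⟶ B))
    (n : ℕ) (y : groupCohomology A n) :
    (groupCohomology.functor k G n).map (∑ i ∈ s, f i) y =
      ∑ i ∈ s, (groupCohomology.functor k G n).map (f i) y := by
  classical
  induction s using Finset.induction_on with
  | empty =>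
    rw [Finset.sum_empty, Finset.sum_empty]
    have h := h5fl_map_zero (k := k) (G := G) (A := A) (B := B) n
    exact congrArg (fun m : groupCohomology A n ⟶ groupCohomology B n => m.hom y) h
  | insert a s ha ih =>
    rw [Finset.sum_insert ha, Finset.sum_insert ha, ← ih]
    have h := h5fl_map_add (k := k) (G := G) (f a) (∑ i ∈ s, f i) n
    exact congrArg (fun m : groupCohomology A n ⟶ groupCohomology B n => m.hom y) h

end additivity

variable (S : Finset Nat.Primes) (U : Subgroup GQ) [hUn : U.Normal]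

/-- the projection `I^U → (I_q)^U` -/
def h5fl_proj (q : S) : (Rep.of (ρI S)).quotientToInvariants U ⟶
    (Rep.of (h5ic_ρA S q.1)).quotientToInvariants U :=
  (quotientToInvariantsFunctor ℤ U).map (X := Rep.of (ρI S)) (Y := Rep.of (h5ic_ρA S q.1))
    (Rep.ofHom ⟨(MonoidHom.toAdditive (Pi.evalMonoidHom (fun q : S => ideleAt S q.1) q)).toIntLinearMap,
      fun _ => rfl⟩)

/-- the inclusion `I_q → I` -/
def h5fl_J (q : S) : Rep.of (h5ic_ρA S q.1) ⟶ Rep.of (ρI S) :=
  Rep.ofHom ⟨(MonoidHom.toAdditive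
      (show ideleAt S q.1 →* ideles S from
        MonoidHom.mulSingle (fun q : S => ideleAt S q.1) q)).toIntLinearMap,
    fun g => by
      classical
      apply LinearMap.ext
      intro b
      apply congrArg Additive.ofMul
      funext q'
      by_cases h : q' = q
      · subst h
        change Pi.mulSingle (M := fun q : S => ideleAt S q.1) q' (g • Additive.toMul b) q' =
          g • (Pi.mulSingle (M := fun q : S => ideleAt S q.1) q' (Additive.toMul b) q')
        rw [Pi.mulSingle_eq_same, Pi.mulSingle_eq_same]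
      · change Pi.mulSingle (M := fun q : S => ideleAt S q.1) q (g • Additive.toMul b) q' =
          g • (Pi.mulSingle (M := fun q : S => ideleAt S q.1) q (Additive.toMul b) q')
        rw [Pi.mulSingle_eq_of_ne h, Pi.mulSingle_eq_of_ne h, smul_one]⟩

/-- the inclusion `(I_q)^U → I^U` -/
def h5fl_incl (q : S) : (Rep.of (h5ic_ρA S q.1)).quotientToInvariants U ⟶
    (Rep.of (ρI S)).quotientToInvariants U :=
  (quotientToInvariantsFunctor ℤ U).map (h5fl_J S q)

theorem h5fl_proj_apply (q : S) (a : ((Rep.of (ρI S)).quotientToInvariants U).V) :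
    (((h5fl_proj S U q).hom a).1 : Additive (ideleAt S q.1)) =
      Additive.ofMul ((Additive.toMul (a.1 : Additive (ideles S)) : ideles S) q) := rfl

theorem h5fl_incl_apply (q : S)
    (b : ((Rep.of (h5ic_ρA S q.1)).quotientToInvariants U).V) :
    (((h5fl_incl S U q).hom b).1 : Additive (ideles S)) =
      Additive.ofMul (Pi.mulSingle (M := fun q : S => ideleAt S q.1) q
        (Additive.toMul (b.1 : Additive (ideleAt S q.1)))) := rfl

/-- `∑_q incl_q ∘ proj_q = id` -/
theorem h5fl_sum_proj_incl :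
    ∑ q : S, h5fl_proj S U q ≫ h5fl_incl S U q = 𝟙 ((Rep.of (ρI S)).quotientToInvariants U) := by
  classical
  apply Rep.hom_ext
  apply Representation.IntertwiningMap.ext
  apply LinearMap.ext
  intro a
  rw [Rep.sum_hom]
  change (∑ q : S, (h5fl_proj S U q ≫ h5fl_incl S U q).hom) a = a
  rw [Representation.IntertwiningMap.sum_apply]
  apply Subtype.ext
  rw [Submodule.coe_sum]
  change ∑ q : S, Additive.ofMul (Pi.mulSingle (M := fun q : S => ideleAt S q.1) q
    ((Additive.toMul (a.1 : Additive (ideles S)) : ideles S) q)) = a.1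
  rw [← ofMul_prod]
  apply congrArg Additive.ofMul (a₂ := (Additive.toMul (a.1 : Additive (ideles S)) : ideles S))
  exact Finset.univ_prod_mulSingle (Additive.toMul (a.1 : Additive (ideles S)) : ideles S)

section single

variable (q : Nat.Primes)
  (hU : ∃ F : IntermediateField ℚ Qb, F.IsUnramifiedOutside S ∧ U = F.fixingSubgroup)

/-- the localisation `Res_φ ((I_q)^U) ⟶ (xbar q)^V` (evaluation at `1`) -/
def h5fl_prA : Rep.res (h5ic_φ q U) ((Rep.of (h5ic_ρA S q)).quotientToInvariants U) ⟶
    (Rep.of (ρX q)).quotientToInvariants (h5ic_V q U) :=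
  (Rep.resFunctor (h5ic_φ q U)).map (h5ic_iso S q U hU).hom ≫ H12SH.ev (h5ic_φ q U) _

theorem h5fl_prA_apply (a : ((Rep.of (h5ic_ρA S q)).quotientToInvariants U).V) :
    h5ic_valI q U ((h5fl_prA S U q hU).hom a) = h5ic_fn S q a.1 1 := rfl

theorem h5fl_map_prA (n : ℕ) :
    groupCohomology.map (h5ic_φ q U) (h5fl_prA S U q hU) n =
      (groupCohomology.functor ℤ (GQ ⧸ U) n).map (h5ic_iso S q U hU).hom ≫
        groupCohomology.map (h5ic_φ q U) (H12SH.ev (h5ic_φ q U) _) n := by
  have h := groupCohomology.map_comp (k := ℤ)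
    (A := (Rep.of (h5ic_ρA S q)).quotientToInvariants U)
    (B := Rep.coind (h5ic_φ q U) ((Rep.of (ρX q)).quotientToInvariants (h5ic_V q U)))
    (C := (Rep.of (ρX q)).quotientToInvariants (h5ic_V q U))
    (MonoidHom.id (GQ ⧸ U)) (h5ic_φ q U) (h5ic_iso S q U hU).hom
    (H12SH.ev (h5ic_φ q U) _) n
  exact Eq.trans (groupCohomology.map_congr (MonoidHom.id_comp _).symm rfl n) h

theorem h5fl_map_iso_bijective (n : ℕ) :
    Function.Bijective
      ((groupCohomology.functor ℤ (GQ ⧸ U) n).map (h5ic_iso S q U hU).hom) := by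
  have h : IsIso ((groupCohomology.functor ℤ (GQ ⧸ U) n).map (h5ic_iso S q U hU).hom) :=
    inferInstance
  exact ConcreteCategory.bijective_of_isIso _

/-- **(FL-SH, single `q`)** `H¹(GQ ⧸ U, (I_q)^U) → H¹(H_q ⧸ V, (xbar q)^V)` is bijective -/
theorem h5fl_prA_bijective₁ :
    Function.Bijective (groupCohomology.map (h5ic_φ q U) (h5fl_prA S U q hU) 1) := by
  rw [h5fl_map_prA]
  exact (H12SH.map_bijective₁ (h5ic_φ q U) _ (h5ic_φ_injective q U)).comp
    (h5fl_map_iso_bijective S U q hU 1)

/-- **(FL-SH, single `q`)** `H²(GQ ⧸ U, (I_q)^U) → H²(H_q ⧸ V, (xbar q)^V)` is bijective -/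
theorem h5fl_prA_bijective₂ :
    Function.Bijective (groupCohomology.map (h5ic_φ q U) (h5fl_prA S U q hU) 2) := by
  rw [h5fl_map_prA]
  exact (H12SH.map_bijective₂ (h5ic_φ q U) _ (h5ic_φ_injective q U)).comp
    (h5fl_map_iso_bijective S U q hU 2)

end single

section product

variable (hU : ∃ F : IntermediateField ℚ Qb, F.IsUnramifiedOutside S ∧ U = F.fixingSubgroup)

/-- the localisation `Res_φ (I^U) ⟶ (xbar q)^V` at `q ∈ S` (evaluation at `1` of the
`q`-component) -/
def h5fl_prI (q : S) : Rep.res (h5ic_φ q.1 U) ((Rep.of (ρI S)).quotientToInvariants U) ⟶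
    (Rep.of (ρX q.1)).quotientToInvariants (h5ic_V q.1 U) :=
  (Rep.resFunctor (h5ic_φ q.1 U)).map (h5fl_proj S U q) ≫ h5fl_prA S U q.1 hU

theorem h5fl_prI_apply (q : S) (a : ((Rep.of (ρI S)).quotientToInvariants U).V) :
    (((h5fl_prI S U hU q).hom a).1 : Additive (xbar ((q : Nat.Primes) : ℕ))) =
      prL' S q (a.1 : Additive (ideles S)) := rfl

theorem h5fl_map_prI (q : S) (n : ℕ) :
    groupCohomology.map (h5ic_φ q.1 U) (h5fl_prI S U hU q) n =
      (groupCohomology.functor ℤ (GQ ⧸ U) n).map (h5fl_proj S U q) ≫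
        groupCohomology.map (h5ic_φ q.1 U) (h5fl_prA S U q.1 hU) n := by
  have h := groupCohomology.map_comp (k := ℤ)
    (A := (Rep.of (ρI S)).quotientToInvariants U)
    (B := (Rep.of (h5ic_ρA S q.1)).quotientToInvariants U)
    (C := (Rep.of (ρX q.1)).quotientToInvariants (h5ic_V q.1 U))
    (MonoidHom.id (GQ ⧸ U)) (h5ic_φ q.1 U) (h5fl_proj S U q)
    (h5fl_prA S U q.1 hU) n
  exact Eq.trans (groupCohomology.map_congr (MonoidHom.id_comp _).symm rfl n) h

/-- a class all of whose components vanish is zero -/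
theorem h5fl_eq_zero_of_proj (n : ℕ)
    (y : groupCohomology ((Rep.of (ρI S)).quotientToInvariants U) n)
    (h : ∀ q : S, (groupCohomology.functor ℤ (GQ ⧸ U) n).map (h5fl_proj S U q) y = 0) :
    y = 0 := by
  have h1 : (groupCohomology.functor ℤ (GQ ⧸ U) n).map
      (∑ q : S, h5fl_proj S U q ≫ h5fl_incl S U q) y = y := by
    rw [h5fl_sum_proj_incl, CategoryTheory.Functor.map_id]
    rfl
  rw [← h1, h5fl_map_sum_apply]
  apply Finset.sum_eq_zero
  intro q _
  rw [CategoryTheory.Functor.map_comp]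
  change (groupCohomology.functor ℤ (GQ ⧸ U) n).map (h5fl_incl S U q)
    ((groupCohomology.functor ℤ (GQ ⧸ U) n).map (h5fl_proj S U q) y) = 0
  rw [h q, map_zero]

/-- **(FL-SH₂)** finite-level form of `PTHyp.sh2`: a class in `H²(GQ ⧸ U, I^U)` whose
localisations in `H²(H_q ⧸ V_q, (xbar q)^{V_q})` vanish for all `q ∈ S` is zero. -/
theorem h5fl_sh₂ (y : groupCohomology ((Rep.of (ρI S)).quotientToInvariants U) 2)
    (h : ∀ q : S, groupCohomology.map (h5ic_φ q.1 U) (h5fl_prI S U hU q) 2 y = 0) : y = 0 := by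
  apply h5fl_eq_zero_of_proj S U 2 y
  intro q
  have hinj := (h5fl_prA_bijective₂ S U q.1 hU).1
  have h1 := h q
  rw [h5fl_map_prI] at h1
  exact hinj (h1.trans (map_zero _).symm)

/-- **(FL-SH₁)** the same in degree `1`. -/
theorem h5fl_sh₁ (y : groupCohomology ((Rep.of (ρI S)).quotientToInvariants U) 1)
    (h : ∀ q : S, groupCohomology.map (h5ic_φ q.1 U) (h5fl_prI S U hU q) 1 y = 0) : y = 0 := by
  apply h5fl_eq_zero_of_proj S U 1 y
  intro q
  have hinj := (h5fl_prA_bijective₁ S U q.1 hU).1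
  have h1 := h q
  rw [h5fl_map_prI] at h1
  exact hinj (h1.trans (map_zero _).symm)

end product

end H5IC

end
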