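/-
W2-C (S55) block E, wiring slice W-sh2 (helper12): `H12SH2.tSh2 S : H14PT.TSh2 S`
(a class of `H²_S(I)` whose localisations at all `q ∈ S` vanish is zero).
Route: `z = infl₂ y` at a finite level `U`; the localisations of `y` at the finite level vanish because
the local inflation is injective (`infl₂_eq_zero`: Hilbert 90 in the lc form `H15LH.loc_h90_lc`);
then helper5's finite-level statement `H5IC.h5fl_sh₂` (I-COIND + Shapiro).
-/
import Fermat.Agent.CFT2.D.InflCor_helper15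
import Fermat.Agent.CFT2.D.InflMap_helper15
import Fermat.Agent.CFT2.E.Targets
import Fermat.Agent.CFT2.E.FLSh_helper5
import Fermat.Agent.CFT2.E.LocH90_helper15

set_option autoImplicit false
set_option linter.style.haveILetI false
set_option linter.unusedVariables false
set_option linter.unusedSectionVars false

noncomputable section

namespace H12SH2

open H15D H15F groupCohomology CategoryTheory ExtCitation H14PT

local notation "Qb" => AlgebraicClosure ℚ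
local notation "GQ" => (AlgebraicClosure ℚ ≃ₐ[ℚ] AlgebraicClosure ℚ)

/-- primes are prime. -/
local instance factPrimeOfPrimesSH2 (q : Nat.Primes) : Fact (q : ℕ).Prime := ⟨q.2⟩

variable {k : Type} [CommRing k] {G : Type} [Group G]

/-- **inflation is injective in degree 2 under Hilbert 90 for the level**: if every
level-constant function that is a cocycle on `L.U` is a coboundary on `L.U`, then
`H²(G ⧸ L.U, A^{L.U}) → H²_lc(G, A)` is injective. -/
theorem infl₂_eq_zero (𝓤 : Levels G) (A : Rep.{0} k G) (hA : IsSmooth 𝓤 A) (L : 𝓤.Lv)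
    (h90 : ∀ f : G → A, IsLC₁ 𝓤 f →
      (∀ s t, s ∈ L.U → t ∈ L.U → f (s * t) = A.ρ s (f t) + f s) →
      ∃ x : A, ∀ s ∈ L.U, f s = A.ρ s x - x)
    (y : H2 (finLv 𝓤 A L)) (hy : infl₂ 𝓤 A L y = 0) : y = 0 := by
  induction y using H2_induction_on with | @h c =>
  rw [infl₂_π, lcH2π_eq_zero_iff] at hy
  obtain ⟨f, hfLC, hf⟩ := hy
  have hval : ∀ g g' : G, (d₁₂ A).hom f (g, g')
      = ((c ((g : G ⧸ L.U), (g' : G ⧸ L.U)) : finLv 𝓤 A L) : A) := by
    intro g g'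
    have := congrFun hf (g, g')
    rw [inflZ2_apply] at this
    exact this
  have hmk1 : ∀ s ∈ L.U, ((s : G) : G ⧸ L.U) = 1 := fun s hs => (QuotientGroup.eq_one_iff s).2 hs
  -- the value `a = c(1,1)`
  set a₀ : finLv 𝓤 A L := c ((1 : G ⧸ L.U), (1 : G ⧸ L.U)) with ha₀
  set a : A := (a₀ : A) with ha
  have hafix : ∀ s ∈ L.U, A.ρ s a = a := fun s hs => a₀.2 ⟨s, hs⟩
  have hc1 : ∀ γ : G ⧸ L.U, c ((1 : G ⧸ L.U), γ) = a₀ := fun γ => cocycles₂_map_one_fst c γ
  have hc2 : ∀ g : G, ((c ((g : G ⧸ L.U), (1 : G ⧸ L.U)) : finLv 𝓤 A L) : A) = A.ρ g a := by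
    intro g
    have := cocycles₂_map_one_snd c (g : G ⧸ L.U)
    rw [this]
    rfl
  -- `f - a` is a cocycle on `L.U`
  have hcoc : ∀ s t, s ∈ L.U → t ∈ L.U → (f (s * t) - a) = A.ρ s (f t - a) + (f s - a) := by
    intro s t hs ht
    have h1 := hval s t
    rw [d₁₂_apply', hmk1 s hs, hmk1 t ht, ← ha₀, ← ha] at h1
    rw [map_sub, hafix s hs]
    have : f (s * t) = A.ρ s (f t) + f s - a := by
      rw [← h1]; abel
    rw [this]; abel
  obtain ⟨x, hx⟩ := h90 (fun g => f g - a) (hfLC.comp (fun z => z - a)) hcoc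
  -- the corrected cochain
  set b : G → A := fun g => f g - a - (A.ρ g x - x) with hb
  have hfmul : ∀ g s, s ∈ L.U → f (g * s) = A.ρ (g * s) x - A.ρ g x + f g := by
    intro g s hs
    have h1 := hval g s
    rw [d₁₂_apply', hmk1 s hs, hc2 g] at h1
    have h2 : f s - a = A.ρ s x - x := hx s hs
    have h3 : f (g * s) = A.ρ g (f s - a) + f g := by
      rw [map_sub, ← h1]; abel
    rw [h3, h2, map_sub, map_mul]
    rfl
  have hbconst : IsRConst₁ L.U b := by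
    intro g s hs
    show f (g * s) - a - (A.ρ (g * s) x - x) = f g - a - (A.ρ g x - x)
    rw [hfmul g s hs]; abel
  have hdb : ∀ g h : G, (d₁₂ A).hom b (g, h) =
      ((c ((g : G ⧸ L.U), (h : G ⧸ L.U)) : finLv 𝓤 A L) : A) - A.ρ g a := by
    intro g h
    rw [← hval, d₁₂_apply', d₁₂_apply']
    show A.ρ g (f h - a - (A.ρ h x - x)) - (f (g * h) - a - (A.ρ (g * h) x - x))
      + (f g - a - (A.ρ g x - x)) = _
    simp only [map_sub, map_mul, Module.End.mul_apply]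
    abel
  have hbfix : ∀ g s : G, s ∈ L.U → A.ρ s (b g) = b g := by
    refine fixed_of_d₁₂ hbconst (fun s hs h => ?_)
    rw [hdb, hdb, hmk1 s hs, hafix s hs, map_one, Module.End.one_apply]
    rfl
  rw [H2π_eq_zero_iff]
  refine ⟨fun γ => dscFun₁ L b hbfix γ + a₀, ?_⟩
  funext ⟨γ, γ'⟩
  obtain ⟨g, rfl⟩ := QuotientGroup.mk_surjective γ
  obtain ⟨g', rfl⟩ := QuotientGroup.mk_surjective γ'
  apply Subtype.ext
  have h1 := hdb g g'
  rw [d₁₂_apply'] at h1
  have e : ∀ z : finLv 𝓤 A L,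
      (((finLv 𝓤 A L).ρ (g : G ⧸ L.U) z : finLv 𝓤 A L) : A) = A.ρ g (z : A) := fun z => rfl
  rw [d₁₂_apply', ← QuotientGroup.mk_mul, Submodule.coe_add, Submodule.coe_sub, e,
    Submodule.coe_add, Submodule.coe_add, Submodule.coe_add, dscFun₁_mk _ _ _ hbconst,
    dscFun₁_mk _ _ _ hbconst, dscFun₁_mk _ _ _ hbconst, map_add, ← ha]
  have h2 : ((c ((g : G ⧸ L.U), (g' : G ⧸ L.U)) : finLv 𝓤 A L) : A) =
      A.ρ g (b g') - b (g * g') + b g + A.ρ g a := by
    rw [h1]; abel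
  rw [h2]; abel

/-- **(W-sh2)** -/
theorem tSh2 (S : Finset Nat.Primes) : TSh2 S := by
  intro z hz
  obtain ⟨L0, hL0⟩ := exists_infl₂_eq (levelsS S) (Rep.of (ρI S)) z
  obtain ⟨y, rfl⟩ := hL0 L0 le_rfl
  have hU : ∃ F : IntermediateField ℚ Qb, F.IsUnramifiedOutside S ∧ L0.U = F.fixingSubgroup := by
    obtain ⟨F, hF, -, h⟩ := L0.mem
    exact ⟨F, hF, h⟩
  suffices hy : y = 0 by rw [hy, map_zero]
  apply H5IC.h5fl_sh₂ S L0.U hU y
  intro q
  have hLq : H5IC.h5ic_V q.1 L0.U ∈ (𝓥q q.1).sets := by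
    obtain ⟨F, hF, hn, h⟩ := L0.mem
    exact ⟨F, hF.1, hn, by rw [h]⟩
  have hnat := infl₂_map (prIq S q) L0 ⟨H5IC.h5ic_V q.1 L0.U, hLq⟩ (H5IC.h5ic_φ q.1 L0.U)
    (fun τ => H5IC.h5ic_φ_mk q.1 L0.U τ) (H5IC.h5fl_prI S L0.U hU q)
    (fun a => H5IC.h5fl_prI_apply S L0.U hU q a) y
  rw [hz q] at hnat
  refine infl₂_eq_zero (𝓥q q.1) (Rep.of (ρX q.1)) (isSmooth_X q.1)
    ⟨H5IC.h5ic_V q.1 L0.U, hLq⟩ ?_ _ hnat.symm
  intro f hf hc
  exact H15LH.loc_h90_lc q.1 (H5IC.h5ic_V q.1 L0.U) ⟨_, hLq, le_rfl⟩ f hf hc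

end H12SH2
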