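/-
W2-C (S55) block E wiring (helper15): `CMB S p → TTng S p`.
A nonzero `p`-torsion class of `H²_S(R1)` comes from a finite level `L` (T1) acting trivially on
`R1`, where `B_L` is a `p`-class module; NT-R (`H25Syl.helper25_ntRight`) gives an equivariant
`b' : R1 → B_L` detecting it at level `L`; inflation is injective on `p`-primary classes of
`H²(G/U_L, B_L)` (INF-P, `H15D.infl₂_inj_pPart`), so the lift `b ∈ Hom_G(R1, B)` detects `u`.
-/
import Mathlib
import Fermat.Agent.CFT2.E.Interface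
import Fermat.Agent.CFT2.A.W3SylFinal_helper25
import Fermat.Agent.CFT2.D.InflInjP_helper15
import Fermat.Agent.CFT2.D.InflMap_helper15

set_option autoImplicit false
set_option linter.style.haveILetI false
set_option linter.unusedVariables false
set_option linter.unusedSectionVars false

noncomputable section

namespace H15W

open H15D H14PT H15F ExtCitation H24G groupCohomology

local notation "Qb" => AlgebraicClosure ℚ
local notation "GQ" => (AlgebraicClosure ℚ ≃ₐ[ℚ] AlgebraicClosure ℚ)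

section generic

variable {G : Type} [Group G] (𝓤 : Levels G)
  {R B : Type} [AddCommGroup R] [AddCommGroup B]
  (ρR : Representation ℤ G R) (ρB : Representation ℤ G B)

/-- every element of `R` is `L.U`-invariant when `L.U` acts trivially -/
theorem mem_inv_of_triv (L : 𝓤.Lv) (hL : ∀ s ∈ L.U, ∀ x : R, ρR s x = x) (x : R) :
    x ∈ Representation.invariants ((Rep.of ρR).ρ.comp L.U.subtype) :=
  fun s => hL s.1 s.2 x

/-- the lift of an additive map at level `L` to a linear map `R → B`, when `L.U` acts trivially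
on `R` -/
def liftLv (L : 𝓤.Lv) (hL : ∀ s ∈ L.U, ∀ x : R, ρR s x = x)
    (b' : ↥(Representation.invariants ((Rep.of ρR).ρ.comp L.U.subtype)) →+
      ↥(Representation.invariants ((Rep.of ρB).ρ.comp L.U.subtype))) : R →ₗ[ℤ] B :=
  ((Representation.invariants ((Rep.of ρB).ρ.comp L.U.subtype)).subtype ∘ₗ b'.toIntLinearMap) ∘ₗ
    (LinearMap.codRestrict _ LinearMap.id (mem_inv_of_triv 𝓤 ρR L hL))

theorem liftLv_apply (L : 𝓤.Lv) (hL : ∀ s ∈ L.U, ∀ x : R, ρR s x = x)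
    (b' : ↥(Representation.invariants ((Rep.of ρR).ρ.comp L.U.subtype)) →+
      ↥(Representation.invariants ((Rep.of ρB).ρ.comp L.U.subtype))) (x : R) :
    liftLv 𝓤 ρR ρB L hL b' x = ((b' ⟨x, mem_inv_of_triv 𝓤 ρR L hL x⟩ : _) : B) := rfl

theorem liftLv_comm (L : 𝓤.Lv) (hL : ∀ s ∈ L.U, ∀ x : R, ρR s x = x)
    (b' : ↥(Representation.invariants ((Rep.of ρR).ρ.comp L.U.subtype)) →+
      ↥(Representation.invariants ((Rep.of ρB).ρ.comp L.U.subtype)))
    (hb' : ∀ g r, b' ((Rep.of ρR).ρ.quotientToInvariants L.U g r)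
      = (Rep.of ρB).ρ.quotientToInvariants L.U g (b' r)) (g : G) (x : R) :
    liftLv 𝓤 ρR ρB L hL b' (ρR g x) = ρB g (liftLv 𝓤 ρR ρB L hL b' x) := by
  rw [liftLv_apply, liftLv_apply]
  have h := hb' (g : G ⧸ L.U) ⟨x, mem_inv_of_triv 𝓤 ρR L hL x⟩
  have h2 := congrArg Subtype.val h
  exact h2

/-- **TNG, generic form**: at a level `L` acting trivially on the lattice `R`, with `B_L` a
`p`-class module and `H¹` of `p`-subgroups vanishing below `L`, every nonzero `p`-primary class of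
`H²(G/U_L, R)` is detected, after inflation, by an invariant `b ∈ Hom_G(R, B)`. -/
theorem tng_generic (p : ℕ) [Fact p.Prime] [Module.Free ℤ R] [Module.Finite ℤ R]
    (L : 𝓤.Lv) (hL : ∀ s ∈ L.U, ∀ x : R, ρR s x = x)
    (γ : groupCohomology (finLv 𝓤 (Rep.of ρB) L) 2)
    (hγ : H20A.IsPClassModule p (finLv 𝓤 (Rep.of ρB) L) γ)
    (hv : ∀ L' : 𝓤.Lv, L'.U ≤ L.U → PVanishH1 𝓤 (Rep.of ρB) p L')
    (u' : H2 (finLv 𝓤 (Rep.of ρR) L)) (hu' : u' ≠ 0) (hp : ∃ k : ℕ, p ^ k • u' = 0) :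
    ∃ b : (hm ρR ρB).ρ.invariants,
      (ofInv ρR ρB 𝓤 b).H2 (infl₂ 𝓤 (Rep.of ρR) L u') ≠ 0 := by
  obtain ⟨b', hb', hne⟩ := H25Syl.helper25_ntRight (G ⧸ L.U) p _
    ((Rep.of ρB).ρ.quotientToInvariants L.U) γ hγ
    _ ((Rep.of ρR).ρ.quotientToInvariants L.U) u' hu' hp
  refine ⟨⟨liftLv 𝓤 ρR ρB L hL b',
    (mem_hm_invariants_iff ρR ρB _).2 (liftLv_comm 𝓤 ρR ρB L hL b' hb')⟩, ?_⟩
  intro h0
  apply hne
  have key := infl₂_ofLinear (𝓤 := 𝓤) (A := Rep.of ρR) (B := Rep.of ρB)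
    (liftLv 𝓤 ρR ρB L hL b') (liftLv_comm 𝓤 ρR ρB L hL b' hb') L
    (H20A.repHom _ _ b' hb') (fun a => rfl) u'
  have h1 : infl₂ 𝓤 (Rep.of ρB) L (H20A.cohMap (H20A.repHom _ _ b' hb') 2 u') = 0 := by
    rw [← h0]; exact key.symm
  refine infl₂_inj_pPart p L hv _ ?_ h1
  obtain ⟨k, hk⟩ := hp
  exact ⟨k, by rw [← map_nsmul, hk, map_zero]⟩

end generic

end H15W

end

noncomputable section

namespace H15W

open H15D H14PT H15F ExtCitation H24G groupCohomology

local notation "Qb" => AlgebraicClosure ℚ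
local notation "GQ" => (AlgebraicClosure ℚ ≃ₐ[ℚ] AlgebraicClosure ℚ)

variable (S : Finset Nat.Primes) {p : ℕ} [Fact p.Prime]

theorem pVanish_of_pClass (L' : (levelsS S).Lv) (γ : groupCohomology (BL S L') 2)
    (hγ : H20A.IsPClassModule p (BL S L') γ) :
    PVanishH1 (levelsS S) (Rep.of (ρB S)) p L' := by
  intro H hH z
  haveI := ModuleCat.subsingleton_of_isZero (hγ.h1 H hH)
  exact Subsingleton.elim _ _

/-- **W-tng**: `CMB S p → TTng S p` -/
theorem tTng_of_cmb (h : CMB S p) : TTng S p := by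
  intro N _ _ ρN hlt hpN u pu u0
  obtain ⟨L₀, hL₀⟩ := h
  obtain ⟨U1, hU1, hU1t⟩ := isLevelTriv_R1 hlt
  obtain ⟨Lu, hLu⟩ := exists_infl₂_eq_of_nsmul (levelsS S) (Rep.of (ρR1 ρN)) p u pu
  obtain ⟨L2, h2a, h2b⟩ := (levelsS S).exists_lv_le L₀ Lu
  obtain ⟨L, hLa, hLb⟩ := (levelsS S).exists_lv_le L2 ⟨U1, hU1⟩
  obtain ⟨u', hu', pu'⟩ := hLu L (hLa.trans h2b)
  obtain ⟨γ, hγ⟩ := hL₀ L (hLa.trans h2a)
  have hv : ∀ L' : (levelsS S).Lv, L'.U ≤ L.U → PVanishH1 (levelsS S) (Rep.of (ρB S)) p L' := by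
    intro L' hL'
    obtain ⟨γ', hγ'⟩ := hL₀ L' (hL'.trans (hLa.trans h2a))
    exact pVanish_of_pClass S L' γ' hγ'
  have u'0 : u' ≠ 0 := by
    rintro rfl
    exact u0 (by rw [← hu', map_zero])
  obtain ⟨b, hb⟩ := tng_generic (levelsS S) (ρR1 ρN) (ρB S) p L
    (fun s hs x => hU1t s (hLb hs) x) γ hγ hv u' u'0 ⟨1, by rw [pow_one]; exact pu'⟩
  exact ⟨b, by rw [← hu']; exact hb⟩

end H15W

end
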