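/-
W2-C (S55) block E (helper14): auxiliary targets for `TTnlg`.

* `sRloc hlt q` : the resolution `0 → R1 → R0 → N → 0` restricted to the local group at `q`;
* `TFrGlob S`   : (FR) Frobenius reciprocity for `I = ∏ Coind X q`: a local equivariant map
                  `c_q : R → X q` is `pr_q ∘ c` for a global equivariant `c : R → I` whose other
                  components vanish  (`c r = (g ↦ c_q (g r))` at `q`, `1` elsewhere);
* `TLocNT S p`  : (LOC-NT') local Nakayama–Tate in lc form: every additive character of a finite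
                  subgroup of `H¹(G_q, N)` with values in `H²(G_q, X q)` is `a ↦ (c_q)_* (δ a)`.
Plan: `TTnlg ⇐ C2B + TFin + TLocNT + TSh2 + TFrGlob` (`W_tnlg.lean`).
-/
import Mathlib
import Fermat.Agent.CFT2.E.Interface
import Fermat.Agent.CFT2.E.Main2

set_option autoImplicit false
set_option linter.style.haveILetI false
set_option linter.unusedVariables false

noncomputable section

namespace H14PT

open H15D H15F ExtCitation H24G groupCohomology

local notation "Qb" => AlgebraicClosure ℚ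
local notation "GQ" => (AlgebraicClosure ℚ ≃ₐ[ℚ] AlgebraicClosure ℚ)

/-- primes are prime. -/
local instance factPrimeOfPrimesT3 (q : Nat.Primes) : Fact (q : ℕ).Prime := ⟨q.2⟩

variable (S : Finset Nat.Primes) (p : ℕ)

/-- the resolution `0 → R1 → R0 → N → 0` restricted to the local group at `q` -/
def sRloc {N : Type} [AddCommGroup N] {ρN : Representation ℤ GQ N}
    (hlt : IsLevelTriv ρN (levelsS S)) (q : S) :
    SES (𝓥q q.1) (Rep.of ((ρR1 ρN).comp (primeLocalToGlobal q.1)))
      (Rep.of ((ρR0 ρN).comp (primeLocalToGlobal q.1)))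
      (Rep.of (ρN.comp (primeLocalToGlobal q.1))) :=
  sesRes (sR hlt) (primeLocalToGlobal q.1) (levelsS_le_levelsLoc S (primeLocalToGlobal q.1))

/-- (FR) Frobenius reciprocity for `I`, with support at `q` -/
def TFrGlob : Prop := ∀ {R : Type} [AddCommGroup R] (ρR : Representation ℤ GQ R),
  IsLevelTriv ρR (levelsS S) → ∀ (q : S)
    (cq : (hm (ρR.comp (primeLocalToGlobal q.1)) (ρX q.1)).ρ.invariants),
    ∃ c : (hm ρR (ρI S)).ρ.invariants,
      prLq S ρR q (c : R →ₗ[ℤ] Additive (ideles S))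
        = (cq : R →ₗ[ℤ] Additive (xbar ((q : Nat.Primes) : ℕ))) ∧
      ∀ q' : S, q' ≠ q → prLq S ρR q' (c : R →ₗ[ℤ] Additive (ideles S)) = 0

/-- (LOC-NT') local Nakayama–Tate, lc form -/
def TLocNT : Prop := ∀ {N : Type} [AddCommGroup N] [Finite N] (ρN : Representation ℤ GQ N)
    (hlt : IsLevelTriv ρN (levelsS S)), (∀ n : N, p • n = 0) → ∀ q : S,
    ∀ (A : AddSubgroup (lcH1 (𝓥q q.1) (Rep.of (ρN.comp (primeLocalToGlobal q.1))))), Finite A →
    ∀ χ : A →+ lcH2 (𝓥q q.1) (Rep.of (ρX q.1)),
      ∃ cq : (hm ((ρR1 ρN).comp (primeLocalToGlobal q.1)) (ρX q.1)).ρ.invariants,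
        ∀ a : A, (ofInv ((ρR1 ρN).comp (primeLocalToGlobal q.1)) (ρX q.1) (𝓥q q.1) cq).H2
          ((sRloc S hlt q).δ₁ (a : lcH1 (𝓥q q.1) (Rep.of (ρN.comp (primeLocalToGlobal q.1)))))
            = χ a

end H14PT

end
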