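/-
W2-C (S55) block E, wiring slice W-shR, degree 1 (helper21):
`H21SH.tSh1 S : H14PT.TSh1 S` and `H21SH.tH90I S : H14PT.TH90I S` (from `TH90loc`).

Core (`sh1_core`): for a level-trivial `R`, a level-constant 1-cocycle `c : GQ → Hom(R, I)` whose
localisations `pr_q ∘ c ∘ loc_q` are coboundaries `d m_q` is the coboundary of
`F(r)_q(g) := pr_q(c(g)(g r)) + m_q(g r)`  (Shapiro's lemma made explicit in degree 1).
-/
import Mathlib
import Fermat.Agent.CFT2.E.Targets
import Fermat.Agent.CFT2.E.W_h90loc_helper15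

set_option autoImplicit false
set_option linter.style.haveILetI false
set_option linter.unusedVariables false
set_option linter.unusedSectionVars false

noncomputable section

namespace H21SH

open H15D H15F groupCohomology ExtCitation H14PT

local notation "Qb" => AlgebraicClosure ℚ
local notation "GQ" => (AlgebraicClosure ℚ ≃ₐ[ℚ] AlgebraicClosure ℚ)

/-- primes are prime. -/
local instance factPrimeOfPrimesSH1 (q : Nat.Primes) : Fact (q : ℕ).Prime := ⟨q.2⟩

variable (S : Finset Nat.Primes)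

/-- evaluation `I → (PadicAlgCl q)ˣ`, `x ↦ x_q(h)` -/
def ev (q : S) (h : GQ) : Additive (ideles S) →+ Additive (PadicAlgCl ((q : Nat.Primes) : ℕ))ˣ :=
  MonoidHom.toAdditive
    { toFun := fun f => ideleAt.fn S (f q) h
      map_one' := rfl
      map_mul' := fun _ _ => rfl }

/-- the inclusion `X_q → (PadicAlgCl q)ˣ` -/
def cx (q : S) :
    Additive (xbar ((q : Nat.Primes) : ℕ)) →+ Additive (PadicAlgCl ((q : Nat.Primes) : ℕ))ˣ :=
  MonoidHom.toAdditive (xbar ((q : Nat.Primes) : ℕ)).subtype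

theorem ev_ρI (q : S) (h g : GQ) (x : Additive (ideles S)) :
    ev S q h (ρI S g x) = ev S q (h * g) x := rfl

theorem ev_one (q : S) (x : Additive (ideles S)) : ev S q 1 x = cx S q (prL' S q x) := rfl

theorem ev_ext {x y : Additive (ideles S)} (h : ∀ q g, ev S q g x = ev S q g y) : x = y := by
  apply congrArg Additive.ofMul (a₁ := Additive.toMul x) (a₂ := Additive.toMul y)
  funext q
  apply ideleAt.ext
  intro g
  exact congrArg Additive.toMul (h q g)

theorem cx_injective (q : S) : Function.Injective (cx S q) := by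
  intro a b hab
  apply congrArg Additive.ofMul (a₁ := Additive.toMul a) (a₂ := Additive.toMul b)
  exact Subtype.ext (congrArg Additive.toMul hab)

section core

variable {S} {R : Type} [AddCommGroup R] (ρR : Representation ℤ GQ R)
  (c : GQ → (R →ₗ[ℤ] Additive (ideles S)))
  (m : ∀ q : S, R →ₗ[ℤ] Additive (xbar ((q : Nat.Primes) : ℕ)))

/-- the value `F(r)_q(g) = pr_q(c(g)(g r)) + m_q(g r)` in `X_q` -/
def Fval (q : S) (r : R) (g : GQ) : Additive (xbar ((q : Nat.Primes) : ℕ)) :=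
  prL' S q (c g (ρR g r)) + m q (ρR g r)

theorem Fval_add (q : S) (r r' : R) (g : GQ) :
    Fval ρR c m q (r + r') g = Fval ρR c m q r g + Fval ρR c m q r' g := by
  unfold Fval
  rw [map_add, map_add, map_add, map_add]
  abel

theorem rho_mul_inv (g h : GQ) (r : R) : ρR (h * g) (ρR g⁻¹ r) = ρR h r := by
  rw [map_mul, Module.End.mul_apply, rho_rho_inv]

variable (hcoc : ∀ g h, c (g * h) = (hm ρR (ρI S)).ρ g (c h) + c g)

include hcoc in
theorem c_mul_apply (g h : GQ) (r : R) :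
    c (g * h) (ρR g r) = ρI S g (c h r) + c g (ρR g r) := by
  rw [hcoc g h, LinearMap.add_apply, hm_ρ_apply, rho_inv_rho]

variable (hloc : ∀ (q : S) (τ : Hq (q : Nat.Primes)) (r : R),
    prL' S q (c (primeLocalToGlobal (q : Nat.Primes) τ) r) =
      ρX (q : Nat.Primes) τ (m q (ρR (primeLocalToGlobal (q : Nat.Primes) τ)⁻¹ r)) - m q r)

include hcoc hloc in
/-- equivariance under the decomposition group -/
theorem Fval_loc (q : S) (r : R) (τ : Hq (q : Nat.Primes)) (g : GQ) :
    Fval ρR c m q r (primeLocalToGlobal (q : Nat.Primes) τ * g) =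
      ρX (q : Nat.Primes) τ (Fval ρR c m q r g) := by
  unfold Fval
  have h1 : ρR (primeLocalToGlobal (q : Nat.Primes) τ * g) r =
      ρR (primeLocalToGlobal (q : Nat.Primes) τ) (ρR g r) := by
    rw [map_mul, Module.End.mul_apply]
  rw [h1, c_mul_apply ρR c hcoc, map_add, prL'_comm, hloc, rho_inv_rho, map_add]
  abel

include hcoc in
/-- the level of `F` -/
theorem Fval_level (hlc : IsLC₁ (levelsS S) c) (hR : IsLevelTriv ρR (levelsS S)) :
    ∃ F : IntermediateField ℚ Qb, F.IsUnramifiedOutside S ∧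
      ∀ (q : S) (r : R) (g g' s : GQ), s ∈ F.fixingSubgroup →
        Fval ρR c m q r (g * s * g') = Fval ρR c m q r (g * g') := by
  obtain ⟨U, hU, hUc⟩ := hlc
  obtain ⟨U', hU', hUR⟩ := hR
  obtain ⟨W, hW, hWle⟩ := (levelsS S).directed U hU U' hU'
  obtain ⟨F, hF, hn, rfl⟩ := hW
  refine ⟨F, hF, fun q r g g' s hs => ?_⟩
  haveI := hn
  have h1 : g * s * g' = (g * g') * (g'⁻¹ * s * g') := by group
  have h2 : g'⁻¹ * s * g' ∈ F.fixingSubgroup := by
    have := Subgroup.Normal.conj_mem (inferInstance : F.fixingSubgroup.Normal) s hs g'⁻¹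
    simpa using this
  unfold Fval
  rw [h1, hUc _ _ (hWle h2).1, map_mul, Module.End.mul_apply, hUR _ (hWle h2).2]

variable (hlc : IsLC₁ (levelsS S) c) (hR : IsLevelTriv ρR (levelsS S))

include hcoc hloc hlc hR in
theorem Fval_mem (q : S) (r : R) :
    (fun g => ((Additive.toMul (Fval ρR c m q r g) : xbar ((q : Nat.Primes) : ℕ)) :
      (PadicAlgCl ((q : Nat.Primes) : ℕ))ˣ)) ∈ idele S ((q : Nat.Primes) : ℕ) := by
  refine ⟨fun τ g => ?_, ?_⟩
  · have := Fval_loc ρR c m hcoc hloc q r τ g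
    exact congrArg (fun y : Additive (xbar ((q : Nat.Primes) : ℕ)) =>
      ((Additive.toMul y : xbar ((q : Nat.Primes) : ℕ)) :
        (PadicAlgCl ((q : Nat.Primes) : ℕ))ˣ)) this
  · obtain ⟨F, hF, h⟩ := Fval_level ρR c m hcoc hlc hR
    exact ⟨F, hF, fun g g' s hs => by
      show ((Additive.toMul (Fval ρR c m q r (g * s * g')) : xbar ((q : Nat.Primes) : ℕ)) :
        (PadicAlgCl ((q : Nat.Primes) : ℕ))ˣ) = _
      rw [h q r g g' s hs]⟩

/-- the primitive `F ∈ Hom(R, I)` -/
def Fprim : R →ₗ[ℤ] Additive (ideles S) :=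
  (AddMonoidHom.mk' (fun r => Additive.ofMul (fun q : S =>
      (⟨_, Fval_mem ρR c m hcoc hloc hlc hR q r⟩ : ideleAt S (q : Nat.Primes))))
    (fun r r' => by
      apply ev_ext
      intro q g
      show cx S q (Fval ρR c m q (r + r') g) = cx S q (Fval ρR c m q r g)
        + cx S q (Fval ρR c m q r' g)
      rw [Fval_add, map_add])).toIntLinearMap

theorem ev_Fprim (q : S) (h : GQ) (r : R) :
    ev S q h (Fprim ρR c m hcoc hloc hlc hR r) = cx S q (Fval ρR c m q r h) := rfl

include hcoc hloc hlc hR in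
/-- **the cocycle is the coboundary of `F`** -/
theorem d_Fprim (g : GQ) :
    (hm ρR (ρI S)).ρ g (Fprim ρR c m hcoc hloc hlc hR) - Fprim ρR c m hcoc hloc hlc hR = c g := by
  apply LinearMap.ext
  intro r
  apply ev_ext
  intro q h
  rw [LinearMap.sub_apply, hm_ρ_apply, map_sub, ev_ρI, ev_Fprim, ev_Fprim, ← map_sub]
  have h1 : Fval ρR c m q (ρR g⁻¹ r) (h * g) - Fval ρR c m q r h = prL' S q (ρI S h (c g r)) := by
    unfold Fval
    rw [rho_mul_inv, c_mul_apply ρR c hcoc, map_add]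
    abel
  rw [h1, ← ev_one, ev_ρI, one_mul]

end core

/-- **Shapiro in degree 1** for `Hom(R, I)`, `R` level-trivial: a class in `H¹_S(Hom(R, I))` all of
whose localisations in `H¹(G_q, Hom(R, X_q))` vanish is zero. -/
theorem sh1_core {R : Type} [AddCommGroup R] (ρR : Representation ℤ GQ R)
    (hR : IsLevelTriv ρR (levelsS S)) (t : lcH1 (levelsS S) (hm ρR (ρI S)))
    (ht : ∀ q : S, (prHq S ρR q).H1 t = 0) : t = 0 := by
  obtain ⟨c, rfl⟩ := lcH1π_surjective t
  have hcoc : ∀ g h, (c : GQ → (R →ₗ[ℤ] Additive (ideles S))) (g * h) =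
      (hm ρR (ρI S)).ρ g ((c : GQ → (R →ₗ[ℤ] Additive (ideles S))) h) +
        (c : GQ → (R →ₗ[ℤ] Additive (ideles S))) g :=
    (mem_cocycles₁_iff _).1 c.2.1
  have hlc : IsLC₁ (levelsS S) (c : GQ → (R →ₗ[ℤ] Additive (ideles S))) := c.2.2
  have hex : ∀ q : S, ∃ m : R →ₗ[ℤ] Additive (xbar ((q : Nat.Primes) : ℕ)),
      ∀ (τ : Hq (q : Nat.Primes)) (r : R),
        prL' S q ((c : GQ → (R →ₗ[ℤ] Additive (ideles S)))
            (primeLocalToGlobal (q : Nat.Primes) τ) r) =
          ρX (q : Nat.Primes) τ (m (ρR (primeLocalToGlobal (q : Nat.Primes) τ)⁻¹ r)) - m r := by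
    intro q
    have h1 := ht q
    rw [PP.H1_π, lcH1π_eq_zero_iff] at h1
    obtain ⟨m, hm⟩ := h1
    refine ⟨m, fun τ r => ?_⟩
    have h2 := congrFun hm τ
    rw [d₀₁_apply'] at h2
    have h3 := congrArg (fun φ : R →ₗ[ℤ] Additive (xbar ((q : Nat.Primes) : ℕ)) => φ r) h2
    simp only at h3
    rw [← map_inv]
    exact h3.symm
  choose m hm using hex
  rw [lcH1π_eq_zero_iff]
  refine ⟨Fprim ρR _ m hcoc hm hlc hR, ?_⟩
  funext g
  rw [d₀₁_apply']
  exact d_Fprim ρR _ m hcoc hm hlc hR g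

/-- **(SH1)** -/
theorem tSh1 : TSh1 S := fun ρN hlt t ht =>
  sh1_core S (H24G.ρR1 ρN) (H24G.isLevelTriv_R1 hlt) t ht

/-- **(H90-I)** -/
theorem tH90I : TH90I S := fun ρN hlt s =>
  sh1_core S (H24G.ρR0 ρN) (H24G.isLevelTriv_R0 hlt) s
    (fun q => H15W.tH90loc S ρN hlt q _)

end H21SH
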