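/-
W2-C (S55) block E, wiring slice TFrGlob (helper21): `H21SH.tFrGlob S : H14PT.TFrGlob S`
(Frobenius reciprocity for `I = ∏ Coind X_q`): a `G_q`-equivariant `c_q : R → X_q` (`R` level-trivial)
is `pr_q ∘ c` for the `GQ`-equivariant `c : R → I`, `c(r) = (g ↦ c_q(g r))` at `q` and `1` elsewhere.
-/
import Mathlib
import Fermat.Agent.CFT2.E.Targets3
import Fermat.Agent.CFT2.E.W_sh1_helper21

set_option autoImplicit false
set_option linter.style.haveILetI false
set_option linter.unusedVariables false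
set_option linter.unusedSectionVars false

noncomputable section

namespace H21SH

open H15D H15F groupCohomology ExtCitation H14PT

local notation "Qb" => AlgebraicClosure ℚ
local notation "GQ" => (AlgebraicClosure ℚ ≃ₐ[ℚ] AlgebraicClosure ℚ)

/-- primes are prime. -/
local instance factPrimeOfPrimesFR (q : Nat.Primes) : Fact (q : ℕ).Prime := ⟨q.2⟩

section fr

variable {S : Finset Nat.Primes} {R : Type} [AddCommGroup R] (ρR : Representation ℤ GQ R)
  (hR : IsLevelTriv ρR (levelsS S)) (q : S)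
  (cq : R →ₗ[ℤ] Additive (xbar ((q : Nat.Primes) : ℕ)))
  (hcq : ∀ (τ : Hq (q : Nat.Primes)) (r : R),
    cq (ρR (primeLocalToGlobal (q : Nat.Primes) τ) r) = ρX (q : Nat.Primes) τ (cq r))

include hR hcq in
theorem fr_mem (r : R) :
    (fun g : GQ => ((Additive.toMul (cq (ρR g r)) : xbar ((q : Nat.Primes) : ℕ)) :
      (PadicAlgCl ((q : Nat.Primes) : ℕ))ˣ)) ∈ idele S ((q : Nat.Primes) : ℕ) := by
  refine ⟨fun τ g => ?_, ?_⟩
  · have h1 : cq (ρR (primeLocalToGlobal (q : Nat.Primes) τ * g) r) =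
        ρX (q : Nat.Primes) τ (cq (ρR g r)) := by
      rw [map_mul, Module.End.mul_apply]
      exact hcq τ (ρR g r)
    exact congrArg (fun y : Additive (xbar ((q : Nat.Primes) : ℕ)) =>
      ((Additive.toMul y : xbar ((q : Nat.Primes) : ℕ)) :
        (PadicAlgCl ((q : Nat.Primes) : ℕ))ˣ)) h1
  · obtain ⟨U, ⟨F, hF, hn, rfl⟩, hUR⟩ := hR
    refine ⟨F, hF, fun g g' s hs => ?_⟩
    have key : cq (ρR (g * s * g') r) = cq (ρR (g * g') r) := by
      rw [map_mul, map_mul, Module.End.mul_apply, Module.End.mul_apply, hUR s hs, map_mul,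
        Module.End.mul_apply]
    exact congrArg (fun y : Additive (xbar ((q : Nat.Primes) : ℕ)) =>
      ((Additive.toMul y : xbar ((q : Nat.Primes) : ℕ)) :
        (PadicAlgCl ((q : Nat.Primes) : ℕ))ˣ)) key

/-- the `q`-component of `c(r)` -/
def frAt (r : R) : ideleAt S (q : Nat.Primes) := ⟨_, fr_mem ρR hR q cq hcq r⟩

theorem frAt_fn (r : R) (g : GQ) :
    ideleAt.fn S (frAt ρR hR q cq hcq r) g =
      ((Additive.toMul (cq (ρR g r)) : xbar ((q : Nat.Primes) : ℕ)) :
        (PadicAlgCl ((q : Nat.Primes) : ℕ))ˣ) := rfl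

theorem frAt_add (r r' : R) :
    frAt ρR hR q cq hcq (r + r') = frAt ρR hR q cq hcq r * frAt ρR hR q cq hcq r' := by
  apply ideleAt.ext
  intro g
  rw [ideleAt.fn_mul, frAt_fn, frAt_fn, frAt_fn, map_add, map_add]
  rfl

open Classical in
/-- the idele `c(r)`: `frAt` at `q`, `1` elsewhere -/
def frIdele (r : R) : ideles S :=
  fun q' => if h : q' = q then h ▸ frAt ρR hR q cq hcq r else 1

theorem frIdele_same (r : R) : frIdele ρR hR q cq hcq r q = frAt ρR hR q cq hcq r := by
  unfold frIdele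
  rw [dif_pos rfl]

theorem frIdele_ne (r : R) (q' : S) (h : q' ≠ q) : frIdele ρR hR q cq hcq r q' = 1 := by
  unfold frIdele
  rw [dif_neg h]

theorem ev_frIdele_same (r : R) (g : GQ) :
    ev S q g (Additive.ofMul (frIdele ρR hR q cq hcq r)) = cx S q (cq (ρR g r)) := by
  show Additive.ofMul (ideleAt.fn S (frIdele ρR hR q cq hcq r q) g) = _
  rw [frIdele_same]
  rfl

theorem ev_frIdele_ne (r : R) (q' : S) (h : q' ≠ q) (g : GQ) :
    ev S q' g (Additive.ofMul (frIdele ρR hR q cq hcq r)) = 0 := by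
  show Additive.ofMul (ideleAt.fn S (frIdele ρR hR q cq hcq r q') g) = _
  rw [frIdele_ne ρR hR q cq hcq r q' h]
  rfl

/-- the global map `c : R → I` -/
def frMap : R →ₗ[ℤ] Additive (ideles S) :=
  (AddMonoidHom.mk' (fun r => Additive.ofMul (frIdele ρR hR q cq hcq r))
    (fun r r' => by
      apply ev_ext
      intro q' g
      rw [map_add]
      by_cases h : q' = q
      · subst h
        rw [ev_frIdele_same, ev_frIdele_same, ev_frIdele_same, map_add, map_add, map_add]
      · rw [ev_frIdele_ne _ _ _ _ _ _ _ h, ev_frIdele_ne _ _ _ _ _ _ _ h,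
          ev_frIdele_ne _ _ _ _ _ _ _ h, add_zero])).toIntLinearMap

theorem frMap_apply (r : R) :
    frMap ρR hR q cq hcq r = Additive.ofMul (frIdele ρR hR q cq hcq r) := rfl

theorem frMap_equivariant (γ : GQ) (r : R) :
    frMap ρR hR q cq hcq (ρR γ r) = ρI S γ (frMap ρR hR q cq hcq r) := by
  apply ev_ext
  intro q' g
  rw [ev_ρI, frMap_apply, frMap_apply]
  by_cases h : q' = q
  · subst h
    rw [ev_frIdele_same, ev_frIdele_same, map_mul, Module.End.mul_apply]
  · rw [ev_frIdele_ne _ _ _ _ _ _ _ h, ev_frIdele_ne _ _ _ _ _ _ _ h]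

theorem frMap_pr_same (r : R) : prL' S q (frMap ρR hR q cq hcq r) = cq r := by
  apply cx_injective S q
  rw [← ev_one, frMap_apply, ev_frIdele_same, map_one, Module.End.one_apply]

theorem frMap_pr_ne (q' : S) (h : q' ≠ q) (r : R) : prL' S q' (frMap ρR hR q cq hcq r) = 0 := by
  apply cx_injective S q'
  rw [← ev_one, frMap_apply, ev_frIdele_ne _ _ _ _ _ _ _ h, map_zero]

end fr

/-- **(FR)** Frobenius reciprocity for `I`, with support at `q` -/
theorem tFrGlob (S : Finset Nat.Primes) : TFrGlob S := by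
  intro R _ ρR hR q cq
  have hcq : ∀ (τ : Hq (q : Nat.Primes)) (r : R),
      (cq : R →ₗ[ℤ] Additive (xbar ((q : Nat.Primes) : ℕ)))
        (ρR (primeLocalToGlobal (q : Nat.Primes) τ) r) =
      ρX (q : Nat.Primes) τ ((cq : R →ₗ[ℤ] Additive (xbar ((q : Nat.Primes) : ℕ))) r) :=
    fun τ r => (mem_hm_invariants_iff _ _ _).1 cq.2 τ r
  refine ⟨⟨frMap ρR hR q _ hcq, ?_⟩, ?_, ?_⟩
  · rw [mem_hm_invariants_iff]
    intro g x
    exact frMap_equivariant ρR hR q _ hcq g x
  · apply LinearMap.ext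
    intro r
    exact frMap_pr_same ρR hR q _ hcq r
  · intro q' hq'
    apply LinearMap.ext
    intro r
    exact frMap_pr_ne ρR hR q _ hcq q' hq' r

end H21SH
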