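import Mathlib
import Fermat.Agent.CFT2.A.NTCons_helper26

set_option autoImplicit false
set_option linter.style.haveILetI false

noncomputable section

open CategoryTheory groupCohomology

namespace H5NT

open H26NT

variable {G : Type} [Group G] [Finite G]
variable {R V : Type} [AddCommGroup R] [AddCommGroup V]
  (ρR : Representation ℤ G R) (ρV : Representation ℤ G V)

/-- **NT-SURJ-SUB**: every additive map from a subgroup `A0` of `p`-primary classes of
`H²(G, R)` to `H²(G, C)` is induced by some `b ∈ Hom_G(R, C)` (`C` a `p`-class module, `R` a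
lattice). -/
theorem h5nt_surj_sub (hNTR : H20A.NTRightStatement G) (p : ℕ) [Fact p.Prime]
    (γ : groupCohomology (Rep.of ρV) 2) (hcm : H20A.IsPClassModule p (Rep.of ρV) γ)
    [Module.Free ℤ R] [Module.Finite ℤ R]
    (A0 : AddSubgroup (groupCohomology (Rep.of ρR) 2))
    (hA0 : ∀ u ∈ A0, ∃ k : ℕ, (p ^ k) • u = 0)
    (φ : A0 →+ groupCohomology (Rep.of ρV) 2) :
    ∃ (b : R →+ V) (hb : ∀ g r, b (ρR g r) = ρV g (b r)),
      ∀ u : A0, H20A.cohMap (H20A.repHom ρR ρV b hb) 2 u = φ u := by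
  obtain ⟨P⟩ : Nonempty (Sylow p G) := inferInstance
  have hP : IsPGroup p (P : Subgroup G) := P.isPGroup'
  have hcard := hcm.card (P : Subgroup G) hP
  haveI hfin : Finite (groupCohomology (H20A.resSub (Rep.of ρV) (P : Subgroup G)) 2) :=
    Nat.finite_of_card_ne_zero (by rw [hcard]; exact Nat.card_pos.ne')
  haveI hcyc : IsAddCyclic (groupCohomology (H20A.resSub (Rep.of ρV) (P : Subgroup G)) 2) :=
    ⟨⟨H20A.resCoh (Rep.of ρV) (P : Subgroup G) 2 γ, fun x => by
      obtain ⟨k, hk⟩ := hcm.gen (P : Subgroup G) hP x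
      exact ⟨k, hk.symm⟩⟩⟩
  haveI hfinX : Finite (groupCohomology (Rep.of ρR) 2) := h26nt_fin R ρR
  haveI hfinA : Finite A0 := Finite.of_injective (fun a : A0 => (a : groupCohomology (Rep.of ρR) 2))
    Subtype.val_injective
  let ι := A0.subtype
  let resV := H20A.resCoh (Rep.of ρV) (P : Subgroup G) 2
  let Θ : eqHoms ρR ρV →+ (A0 →+
      groupCohomology (H20A.resSub (Rep.of ρV) (P : Subgroup G)) 2) :=
    AddMonoidHom.mk' (fun b => (resV.comp (pushHom ρR ρV b)).comp ι) (fun b b' => by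
      ext u
      simp only [AddMonoidHom.comp_apply, map_add, AddMonoidHom.add_apply])
  have hexp : ∀ a : A0,
      Nat.card (groupCohomology (H20A.resSub (Rep.of ρV) (P : Subgroup G)) 2) • a = 0 := by
    intro a
    apply Subtype.ext
    rw [hcard]
    exact card_sylow_smul p P (Rep.of ρR) 1 a.1 (hA0 a.1 a.2)
  have hpp : ∀ (b : eqHoms ρR ρV) (u : groupCohomology (Rep.of ρR) 2),
      (∃ k : ℕ, (p ^ k) • u = 0) → ∃ k : ℕ, (p ^ k) • (pushHom ρR ρV b u) = 0 := by
    rintro b u ⟨k, hk⟩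
    refine ⟨k, ?_⟩
    rw [← map_nsmul, hk, map_zero]
  have hsep : ∀ a : A0, (∀ ψ ∈ Θ.range, ψ a = 0) → a = 0 := by
    intro a ha
    by_contra hne
    have hne' : (a : groupCohomology (Rep.of ρR) 2) ≠ 0 := fun h => hne (Subtype.ext h)
    obtain ⟨b, hb, hbu⟩ := hNTR p V ρV γ hcm R ρR a.1 hne' (hA0 a.1 a.2)
    apply hbu
    have h1 := ha (Θ ⟨b, hb⟩) ⟨⟨b, hb⟩, rfl⟩
    exact res_injective_pPart p P (Rep.of ρV) 2 _ (hpp ⟨b, hb⟩ a.1 (hA0 a.1 a.2)) h1
  have hx := dual_surj hexp Θ.range hsep (resV.comp φ)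
  obtain ⟨b, hb⟩ := hx
  refine ⟨b.1, b.2, fun u => ?_⟩
  have h1 := congrArg (fun ψ => ψ u) hb
  have h2 : resV (pushHom ρR ρV b u.1) = resV (φ u) := h1
  have h3 : resV (pushHom ρR ρV b u.1 - φ u) = 0 := by
    rw [map_sub, h2, sub_self]
  have h4 : ∃ k : ℕ, (p ^ k) • (pushHom ρR ρV b u.1 - φ u) = 0 := by
    obtain ⟨k, hk⟩ := hA0 u.1 u.2
    refine ⟨k, ?_⟩
    have hk' : (p ^ k) • u = 0 := Subtype.ext hk
    rw [smul_sub, ← map_nsmul, ← map_nsmul, hk, hk', map_zero, map_zero, sub_zero]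
  have h5 := res_injective_pPart p P (Rep.of ρV) 2 _ h4 h3
  exact sub_eq_zero.1 h5

end H5NT
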