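/-
W2-C (S55) bridge slice LOC-NT' (helper5), part 4: LOCAL NAKAYAMA-TATE IN LEVEL-CONSTANT FORM.

* `H5NT.h5nt_locNT_gen` (generic in `(G, 𝓥, X, R)`): if inflation is injective on `H²(·, X)` at
  all levels and all finite levels of `X` are `p`-class modules, then for a level-trivial lattice
  `R`, a finite subgroup `A2` of `p`-primary classes of `H²_lc(G, R)` and ANY additive
  `χ : A2 → H²_lc(G, X)` there is `c ∈ Hom_G(R, X)` with `c_* u = χ u` for all `u ∈ A2`;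
* `H5NT.h5nt_locNT` : the local case (`G = H_q`, `X = X q`), unconditional.
-/
import Mathlib
import Fermat.Agent.CFT2.E.LocNTSub_helper5
import Fermat.Agent.CFT2.E.LocNTInfl_helper5
import Fermat.Agent.CFT2.E.LocNTPcm_helper5
import Fermat.Agent.CFT2.D.InflCor_helper15
import Fermat.Agent.CFT2.D.InflMap_helper15
import Fermat.Agent.CFT2.E.Hom
import Fermat.Agent.CFT2.A.W3SylFinal_helper25
import Fermat.Agent.CFT2.E.Targets

set_option autoImplicit false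
set_option linter.style.haveILetI false
set_option linter.unusedSectionVars false
set_option linter.unusedVariables false

noncomputable section

namespace H5NT

open H15D H15F H14PT groupCohomology CategoryTheory ExtCitation

section generic

variable {G : Type} [Group G] (𝓥 : Levels G)

/-- a finite family of levels has a common lower bound -/
theorem h5nt_exists_lv_le_finset {ι : Type} (s : Finset ι) (f : ι → 𝓥.Lv) :
    ∃ L : 𝓥.Lv, ∀ i ∈ s, L.U ≤ (f i).U := by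
  classical
  induction s using Finset.induction_on with
  | empty =>
    obtain ⟨L⟩ := 𝓥.exists_lv
    exact ⟨L, fun i hi => absurd hi (Finset.notMem_empty i)⟩
  | insert a s ha ih =>
    obtain ⟨L, hL⟩ := ih
    obtain ⟨L', h1, h2⟩ := 𝓥.exists_lv_le L (f a)
    refine ⟨L', fun i hi => ?_⟩
    rcases Finset.mem_insert.1 hi with rfl | hi
    · exact h2
    · exact h1.trans (hL i hi)

/-- a finite family of levels has a common lower bound -/
theorem h5nt_exists_lv_le_finite {ι : Type} [Finite ι] (f : ι → 𝓥.Lv) :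
    ∃ L : 𝓥.Lv, ∀ i, L.U ≤ (f i).U := by
  haveI := Fintype.ofFinite ι
  obtain ⟨L, hL⟩ := h5nt_exists_lv_le_finset 𝓥 (Finset.univ : Finset ι) f
  exact ⟨L, fun i => hL i (Finset.mem_univ i)⟩

variable {X R : Type} [AddCommGroup X] [AddCommGroup R]
  (ρX : Representation ℤ G X) (ρR : Representation ℤ G R)

/-- **local Nakayama-Tate in lc form, generic version** -/
theorem h5nt_locNT_gen (p : ℕ) [Fact p.Prime] [Module.Free ℤ R] [Module.Finite ℤ R]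
    (hlt : IsLevelTriv ρR 𝓥)
    (hinj : ∀ L : 𝓥.Lv, Function.Injective (infl₂ 𝓥 (Rep.of ρX) L))
    (hpcm : ∀ L : 𝓥.Lv, ∃ γ : groupCohomology (finLv 𝓥 (Rep.of ρX) L) 2,
      H20A.IsPClassModule p (finLv 𝓥 (Rep.of ρX) L) γ)
    (A2 : AddSubgroup (lcH2 𝓥 (Rep.of ρR))) [Finite A2]
    (hA2 : ∀ u ∈ A2, ∃ k : ℕ, (p ^ k) • u = 0)
    (χ : A2 →+ lcH2 𝓥 (Rep.of ρX)) :
    ∃ c : (hm ρR ρX).ρ.invariants, ∀ u : A2, (ofInv ρR ρX 𝓥 c).H2 u = χ u := by
  classical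
  obtain ⟨UR, hUR, hRtriv⟩ := hlt
  -- the common level
  have h1 : ∀ u : A2, ∃ L0 : 𝓥.Lv, ∀ L : 𝓥.Lv, L.U ≤ L0.U →
      (∃ y : H2 (finLv 𝓥 (Rep.of ρR) L), infl₂ 𝓥 (Rep.of ρR) L y = u.1 ∧
        ∃ k : ℕ, (p ^ k) • y = 0) ∧
      (∃ z : H2 (finLv 𝓥 (Rep.of ρX) L), infl₂ 𝓥 (Rep.of ρX) L z = χ u) := by
    intro u
    obtain ⟨k, hk⟩ := hA2 u.1 u.2
    obtain ⟨La, ha⟩ := exists_infl₂_eq_of_nsmul 𝓥 (Rep.of ρR) (p ^ k) u.1 hk
    obtain ⟨Lb, hb⟩ := exists_infl₂_eq 𝓥 (Rep.of ρX) (χ u)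
    obtain ⟨L0, h0a, h0b⟩ := 𝓥.exists_lv_le La Lb
    refine ⟨L0, fun L hL => ⟨?_, hb L (hL.trans h0b)⟩⟩
    obtain ⟨y, hy, hky⟩ := ha L (hL.trans h0a)
    exact ⟨y, hy, k, hky⟩
  choose Lu hLu using h1
  obtain ⟨L1, hL1⟩ := h5nt_exists_lv_le_finite 𝓥 Lu
  obtain ⟨L, hLL1, hLR⟩ := 𝓥.exists_lv_le L1 ⟨UR, hUR⟩
  have hRL : ∀ s ∈ L.U, ∀ x : R, ρR s x = x := fun s hs x => hRtriv s (hLR hs) x
  have hA : ∀ u : A2, ∃ y : H2 (finLv 𝓥 (Rep.of ρR) L), infl₂ 𝓥 (Rep.of ρR) L y = u.1 ∧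
      ∃ k : ℕ, (p ^ k) • y = 0 := fun u => (hLu u L (hLL1.trans (hL1 u))).1
  have hX : ∀ u : A2, ∃ z : H2 (finLv 𝓥 (Rep.of ρX) L), infl₂ 𝓥 (Rep.of ρX) L z = χ u :=
    fun u => (hLu u L (hLL1.trans (hL1 u))).2
  -- the subgroup `A0` of finite level
  let A0 : AddSubgroup (groupCohomology (finLv 𝓥 (Rep.of ρR) L) 2) :=
    { carrier := {y | (∃ k : ℕ, (p ^ k) • y = 0) ∧ infl₂ 𝓥 (Rep.of ρR) L y ∈ A2}
      zero_mem' := ⟨⟨0, smul_zero _⟩, by rw [map_zero]; exact A2.zero_mem⟩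
      add_mem' := by
        rintro y y' ⟨⟨k, hk⟩, hy⟩ ⟨⟨k', hk'⟩, hy'⟩
        refine ⟨⟨k + k', ?_⟩, by rw [map_add]; exact A2.add_mem hy hy'⟩
        have e1 : (p ^ (k + k')) • y = 0 := by rw [pow_add, mul_comm, mul_smul, hk, smul_zero]
        have e2 : (p ^ (k + k')) • y' = 0 := by rw [pow_add, mul_smul, hk', smul_zero]
        rw [smul_add, e1, e2, add_zero]
      neg_mem' := by
        rintro y ⟨⟨k, hk⟩, hy⟩
        exact ⟨⟨k, by rw [smul_neg, hk, neg_zero]⟩, by rw [map_neg]; exact A2.neg_mem hy⟩ }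
  let g : A0 →+ A2 := AddMonoidHom.mk' (fun y => ⟨infl₂ 𝓥 (Rep.of ρR) L y.1, y.2.2⟩)
    (fun y y' => Subtype.ext (map_add _ _ _))
  let eX := LinearEquiv.ofInjective (infl₂ 𝓥 (Rep.of ρX) L) (hinj L)
  have hχr : ∀ y : A0, χ (g y) ∈ LinearMap.range (infl₂ 𝓥 (Rep.of ρX) L) := fun y => by
    obtain ⟨z, hz⟩ := hX (g y)
    exact ⟨z, hz⟩
  let φ : A0 →+ groupCohomology (finLv 𝓥 (Rep.of ρX) L) 2 :=
    AddMonoidHom.mk' (fun y => eX.symm ⟨χ (g y), hχr y⟩) (fun y y' => by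
      rw [← map_add]
      congr 1
      apply Subtype.ext
      show χ (g (y + y')) = χ (g y) + χ (g y')
      rw [map_add, map_add])
  have hφ : ∀ y : A0, infl₂ 𝓥 (Rep.of ρX) L (φ y) = χ (g y) := fun y => by
    have := eX.apply_symm_apply ⟨χ (g y), hχr y⟩
    exact congrArg Subtype.val this
  obtain ⟨γ, hγ⟩ := hpcm L
  obtain ⟨b, hb, hbφ⟩ := h5nt_surj_sub (G := G ⧸ L.U) (ρR := ρR.quotientToInvariants L.U)
    (ρV := ρX.quotientToInvariants L.U) (H25Syl.helper25_ntRight _) p γ hγ A0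
    (fun u hu => hu.1) φ
  -- the homomorphism `c : R → X`
  have hmemR : ∀ r : R, r ∈ Representation.invariants (ρR.comp L.U.subtype) :=
    fun r s => hRL s.1 s.2 r
  let c0 : R →ₗ[ℤ] X :=
    (AddMonoidHom.mk' (fun r => ((b ⟨r, hmemR r⟩ :
        ↥(Representation.invariants (ρX.comp L.U.subtype))) : X)) (fun r r' => by
      have : (⟨r + r', hmemR (r + r')⟩ : ↥(Representation.invariants (ρR.comp L.U.subtype)))
          = ⟨r, hmemR r⟩ + ⟨r', hmemR r'⟩ := rfl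
      rw [this, map_add]
      rfl)).toIntLinearMap
  have hc0 : ∀ r : R, c0 r = ((b ⟨r, hmemR r⟩ :
      ↥(Representation.invariants (ρX.comp L.U.subtype))) : X) := fun r => rfl
  have hc0eq : ∀ (g : G) (r : R), c0 (ρR g r) = ρX g (c0 r) := by
    intro g r
    rw [hc0, hc0]
    have h1 := hb (g : G ⧸ L.U) ⟨r, hmemR r⟩
    have h2 : (ρR.quotientToInvariants L.U) (g : G ⧸ L.U) ⟨r, hmemR r⟩
        = ⟨ρR g r, hmemR (ρR g r)⟩ := rfl
    rw [h2] at h1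
    rw [h1]
    rfl
  refine ⟨⟨c0, (mem_hm_invariants_iff ρR ρX c0).2 hc0eq⟩, fun u => ?_⟩
  obtain ⟨y, hy, hky⟩ := hA u
  have hyA0 : y ∈ A0 := ⟨hky, by rw [hy]; exact u.2⟩
  have hgy : g ⟨y, hyA0⟩ = u := Subtype.ext hy
  have h2 := infl₂_ofLinear 𝓥 (A := Rep.of ρR) (B := Rep.of ρX) c0 hc0eq L
    (H20A.repHom (ρR.quotientToInvariants L.U) (ρX.quotientToInvariants L.U) b hb)
    (fun a => rfl) y
  have h3 : (((groupCohomology.functor ℤ (G ⧸ L.U) 2).map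
      (H20A.repHom (ρR.quotientToInvariants L.U) (ρX.quotientToInvariants L.U) b hb)).hom y)
      = φ ⟨y, hyA0⟩ := hbφ ⟨y, hyA0⟩
  rw [h3, hφ, hgy, hy] at h2
  exact h2

/-- the version for a resolution `0 → R1 → R0 → N → 0` with `H¹_lc(G, R0) = 0` and `p N = 0`:
every additive map on a finite subgroup `A` of `H¹_lc(G, N)` is `a ↦ c_* (δ a)`. -/
theorem h5nt_locNT_ses_gen (p : ℕ) [Fact p.Prime] {R0 N : Type} [AddCommGroup R0]
    [AddCommGroup N] [Module.Free ℤ R] [Module.Finite ℤ R]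
    (ρR0 : Representation ℤ G R0) (ρN : Representation ℤ G N)
    (E : SES 𝓥 (Rep.of ρR) (Rep.of ρR0) (Rep.of ρN))
    (hlt : IsLevelTriv ρR 𝓥)
    (hinj : ∀ L : 𝓥.Lv, Function.Injective (infl₂ 𝓥 (Rep.of ρX) L))
    (hpcm : ∀ L : 𝓥.Lv, ∃ γ : groupCohomology (finLv 𝓥 (Rep.of ρX) L) 2,
      H20A.IsPClassModule p (finLv 𝓥 (Rep.of ρX) L) γ)
    (hr0 : ∀ s : lcH1 𝓥 (Rep.of ρR0), s = 0)
    (hpN : ∀ n : N, p • n = 0)
    (A : AddSubgroup (lcH1 𝓥 (Rep.of ρN))) [Finite A]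
    (χ : A →+ lcH2 𝓥 (Rep.of ρX)) :
    ∃ c : (hm ρR ρX).ρ.invariants, ∀ a : A, (ofInv ρR ρX 𝓥 c).H2 (E.δ₁ a) = χ a := by
  classical
  have hβinj : Function.Injective E.δ₁ := by
    rw [← LinearMap.ker_eq_bot, LinearMap.ker_eq_bot']
    intro y hy
    obtain ⟨x, hx⟩ := (E.exact_H1'' y).1 hy
    rw [← hx, hr0 x, map_zero]
  have hptor : ∀ a : lcH1 𝓥 (Rep.of ρN), p • a = 0 := by
    intro a
    obtain ⟨f, rfl⟩ := lcH1π_surjective a
    rw [← map_nsmul]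
    have : p • f = 0 := by
      apply Subtype.ext
      funext g
      exact hpN ((f : G → N) g)
    rw [this, map_zero]
  let A2 : AddSubgroup (lcH2 𝓥 (Rep.of ρR)) := A.map E.δ₁.toAddMonoidHom
  let j : A →+ A2 := AddMonoidHom.mk' (fun a => ⟨E.δ₁ a.1, ⟨a.1, a.2, rfl⟩⟩)
    (fun a a' => Subtype.ext (map_add E.δ₁ a.1 a'.1))
  have hjbij : Function.Bijective j := by
    constructor
    · intro a a' h
      apply Subtype.ext
      apply hβinj
      exact congrArg Subtype.val h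
    · rintro ⟨u, a, ha, rfl⟩
      exact ⟨⟨a, ha⟩, rfl⟩
  let e : A ≃+ A2 := AddEquiv.ofBijective j hjbij
  haveI : Finite A2 := Finite.of_equiv A e.toEquiv
  have hA2 : ∀ u ∈ A2, ∃ k : ℕ, (p ^ k) • u = 0 := by
    rintro u ⟨a, ha, rfl⟩
    refine ⟨1, ?_⟩
    rw [pow_one]
    show p • E.δ₁ a = 0
    rw [← map_nsmul, hptor a, map_zero]
  obtain ⟨c, hc⟩ := h5nt_locNT_gen 𝓥 ρX ρR p hlt hinj hpcm A2 hA2
    (χ.comp e.symm.toAddMonoidHom)
  refine ⟨c, fun a => ?_⟩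
  have h1 := hc (e a)
  have h2 : (χ.comp e.symm.toAddMonoidHom) (e a) = χ a := by
    show χ (e.symm (e a)) = χ a
    rw [AddEquiv.symm_apply_apply]
  rw [h2] at h1
  exact h1

end generic

/-- primes are prime. -/
local instance factPrimeOfPrimesNTL (q : Nat.Primes) : Fact (q : ℕ).Prime := ⟨q.2⟩

local notation "GQ" => (AlgebraicClosure ℚ ≃ₐ[ℚ] AlgebraicClosure ℚ)

/-- **LOC-NT''** (local Nakayama-Tate in lc form): for a level-trivial lattice `R` of the local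
Galois group `H_q`, a finite subgroup `A2` of `p`-primary classes of `H²_lc(H_q, R)` and any
additive `χ : A2 → H²_lc(H_q, X q)` there is `c ∈ Hom_{H_q}(R, X q)` with `c_* u = χ u` on `A2`. -/
theorem h5nt_locNT (p : ℕ) [Fact p.Prime] (q : Nat.Primes) {R : Type} [AddCommGroup R]
    [Module.Free ℤ R] [Module.Finite ℤ R] (ρR : Representation ℤ (Hq q) R)
    (hlt : IsLevelTriv ρR (𝓥q q))
    (A2 : AddSubgroup (lcH2 (𝓥q q) (Rep.of ρR))) [Finite A2]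
    (hA2 : ∀ u ∈ A2, ∃ k : ℕ, (p ^ k) • u = 0)
    (χ : A2 →+ lcH2 (𝓥q q) (Rep.of (ρX q))) :
    ∃ c : (hm ρR (ρX q)).ρ.invariants, ∀ u : A2, (ofInv ρR (ρX q) (𝓥q q) c).H2 u = χ u :=
  h5nt_locNT_gen (𝓥q q) (ρX q) ρR p hlt (h5nt_infl₂_injective_X q) (h5nt_pcm_X p q) A2 hA2 χ

/-- **LOC-NT'** for a resolution `0 → R1 → R0 → N → 0` of `H_q`-modules -/
theorem h5nt_locNT_ses (p : ℕ) [Fact p.Prime] (q : Nat.Primes) {R1 R0 N : Type}
    [AddCommGroup R1] [AddCommGroup R0] [AddCommGroup N] [Module.Free ℤ R1] [Module.Finite ℤ R1]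
    (ρR1 : Representation ℤ (Hq q) R1) (ρR0 : Representation ℤ (Hq q) R0)
    (ρN : Representation ℤ (Hq q) N)
    (E : SES (𝓥q q) (Rep.of ρR1) (Rep.of ρR0) (Rep.of ρN))
    (hlt : IsLevelTriv ρR1 (𝓥q q))
    (hr0 : ∀ s : lcH1 (𝓥q q) (Rep.of ρR0), s = 0)
    (hpN : ∀ n : N, p • n = 0)
    (A : AddSubgroup (lcH1 (𝓥q q) (Rep.of ρN))) [Finite A]
    (χ : A →+ lcH2 (𝓥q q) (Rep.of (ρX q))) :
    ∃ c : (hm ρR1 (ρX q)).ρ.invariants,
      ∀ a : A, (ofInv ρR1 (ρX q) (𝓥q q) c).H2 (E.δ₁ a) = χ a :=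
  h5nt_locNT_ses_gen (𝓥q q) (ρX q) ρR1 p ρR0 ρN E hlt (h5nt_infl₂_injective_X q)
    (h5nt_pcm_X p q) hr0 hpN A χ

/-- **LOC-NT'** in the shape needed for the target `TTnlg`: the module `N` is a level-trivial
`p`-torsion `G_ℚ`-module, the local resolution is the restriction of `H24G.sR hlt`. -/
theorem h5nt_locNT_target (p : ℕ) [Fact p.Prime] (S : Finset Nat.Primes) (q : Nat.Primes)
    {N : Type} [AddCommGroup N] [Finite N] (ρN : Representation ℤ GQ N)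
    (hlt : IsLevelTriv ρN (levelsS S)) (hpN : ∀ n : N, p • n = 0)
    (A : AddSubgroup (lcH1 (𝓥q q) (Rep.of (ρN.comp (primeLocalToGlobal q))))) [Finite A]
    (χ : A →+ lcH2 (𝓥q q) (Rep.of (ρX q))) :
    ∃ c : (hm ((H24G.ρR1 ρN).comp (primeLocalToGlobal q)) (ρX q)).ρ.invariants,
      ∀ a : A, (ofInv ((H24G.ρR1 ρN).comp (primeLocalToGlobal q)) (ρX q) (𝓥q q) c).H2
        ((sesRes (H24G.sR hlt) (primeLocalToGlobal q)
          (levelsS_le_levelsLoc S (primeLocalToGlobal q))).δ₁ a) = χ a :=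
  h5nt_locNT_ses p q ((H24G.ρR1 ρN).comp (primeLocalToGlobal q))
    ((H24G.ρR0 ρN).comp (primeLocalToGlobal q)) (ρN.comp (primeLocalToGlobal q))
    (sesRes (H24G.sR hlt) (primeLocalToGlobal q) (levelsS_le_levelsLoc S (primeLocalToGlobal q)))
    (H24G.isLevelTriv_comp (primeLocalToGlobal q) (levelsS_le_levelsLoc S (primeLocalToGlobal q))
      (H24G.isLevelTriv_R1 hlt))
    (H24G.r0h1 (ρN.comp (primeLocalToGlobal q)) (𝓥q q)) hpN A χ

end H5NT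

end
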