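/-
W2-C (S55) block E, target `TLocNT` (helper5): local Nakayama-Tate in lc form, in exactly the
shape of `H14PT.TLocNT S p` (`Targets3.lean`).  Proof: `H5NT.h5nt_locNT_target`.
-/
import Mathlib
import Fermat.Agent.CFT2.E.LocNT_helper5
import Fermat.Agent.CFT2.E.Targets3

set_option autoImplicit false
set_option linter.style.haveILetI false
set_option linter.unusedVariables false

noncomputable section

namespace H5NT

open H15D H14PT ExtCitation

/-- **`TLocNT`** (LOC-NT'), unconditional -/
theorem h5nt_tLocNT (S : Finset Nat.Primes) (p : ℕ) [Fact p.Prime] : H14PT.TLocNT S p := by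
  intro N _ _ ρN hlt hpN q A hA χ
  haveI := hA
  exact h5nt_locNT_target p S q.1 ρN hlt hpN A χ

end H5NT

end
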