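/-
W2-C (S55) block E, wiring of the target `TTnlg` (helper5):

  `C2B S p hS → TFin S p → TLocNT S p → TSh2 S → TFrGlob S → TTnlg S p hS`.

Proof: a functional `ψ` on `H¹_S(N)` that factors through the localisation at `q` is a functional
`ψ'` on the finite image `A` of `res_q`; by (C2) its values lift uniquely to `p`-torsion classes
of `H²_S(I)` supported at `q`, so `ψ' = π_* ∘ ζ` with `ζ` additive; local Nakayama-Tate gives
`c_q` with `(c_q)_* (δ a) = pr_q ζ(a)`; Frobenius reciprocity gives `c` with `pr_q ∘ c = c_q` and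
`pr_{q'} ∘ c = 0`; Shapiro injectivity (SH2) gives `c_* (δ y) = ζ (res_q y)`.
-/
import Mathlib
import Fermat.Agent.CFT2.E.Targets3

set_option autoImplicit false
set_option linter.style.haveILetI false
set_option linter.unusedVariables false
set_option linter.unusedSectionVars false

noncomputable section

namespace H5TN

open H15D H15F H14PT ExtCitation H24G groupCohomology

local notation "GQ" => (AlgebraicClosure ℚ ≃ₐ[ℚ] AlgebraicClosure ℚ)

/-- primes are prime. -/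
local instance factPrimeOfPrimesTN (q : Nat.Primes) : Fact (q : ℕ).Prime := ⟨q.2⟩

variable (S : Finset Nat.Primes)

/-- the local pull-push datum of `pr_q ∘ c` -/
def h5tn_locC {R : Type} [AddCommGroup R] (ρR : Representation ℤ GQ R) (q : S)
    (c : (hm ρR (ρI S)).ρ.invariants) :
    PP (𝓥q q.1) (𝓥q q.1) (Rep.of (ρR.comp (primeLocalToGlobal q.1))) (Rep.of (ρX q.1)) :=
  PP.ofLinear (𝓥q q.1) (prLq S ρR q (c : R →ₗ[ℤ] Additive (ideles S))) (fun h x => by
    show prL' S q ((c : R →ₗ[ℤ] Additive (ideles S)) (ρR (primeLocalToGlobal q.1 h) x)) = _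
    rw [(mem_hm_invariants_iff ρR (ρI S) _).1 c.2, prL'_comm]
    rfl)

/-- `pr_q ∘ c_* = (pr_q ∘ c)_* ∘ res_q` on `H²` -/
theorem h5tn_prIq_ofInv {R : Type} [AddCommGroup R] (ρR : Representation ℤ GQ R) (q : S)
    (c : (hm ρR (ρI S)).ρ.invariants) (u : lcH2 (levelsS S) (Rep.of ρR)) :
    (prIq S q).H2 ((ofInv ρR (ρI S) (levelsS S) c).H2 u)
      = (h5tn_locC S ρR q c).H2 ((resq S ρR q).H2 u) := by
  rw [← PP.comp_H2, ← PP.comp_H2]
  exact PP.H2_congr rfl rfl _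

/-- `res_q ∘ δ = δ_loc ∘ res_q` -/
theorem h5tn_res_δ₁ {N : Type} [AddCommGroup N] {ρN : Representation ℤ GQ N}
    (hlt : IsLevelTriv ρN (levelsS S)) (q : S) (y : lcH1 (levelsS S) (Rep.of ρN)) :
    (resq S (ρR1 ρN) q).H2 ((sR hlt).δ₁ y) = (sRloc S hlt q).δ₁ ((resq S ρN q).H1 y) := by
  have h := (sesResMap (sR hlt) (primeLocalToGlobal q.1)
    (levelsS_le_levelsLoc S (primeLocalToGlobal q.1))).δ₁_comm y
  have h1 : (sesResMap (sR hlt) (primeLocalToGlobal q.1)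
      (levelsS_le_levelsLoc S (primeLocalToGlobal q.1))).P'.H2 ((sR hlt).δ₁ y)
        = (resq S (ρR1 ρN) q).H2 ((sR hlt).δ₁ y) := PP.H2_congr rfl rfl _
  have h2 : (sesResMap (sR hlt) (primeLocalToGlobal q.1)
      (levelsS_le_levelsLoc S (primeLocalToGlobal q.1))).P''.H1 y
        = (resq S ρN q).H1 y := PP.H1_congr rfl rfl _
  rw [← h1, ← h, h2]
  rfl

variable (p : ℕ) [Fact p.Prime]

/-- **W-tnlg**: the target `TTnlg` from `C2B`, `TFin`, `TLocNT`, `TSh2`, `TFrGlob`. -/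
theorem h5tn_tTnlg (hS : S.Nonempty) (hC2 : C2B S p hS) (hFin : TFin S p)
    (hLoc : TLocNT S p) (hSh2 : TSh2 S) (hFr : TFrGlob S) : TTnlg S p hS := by
  intro N _ _ ρN hlt hpN q ψ hψ
  classical
  haveI : Finite (lcH1 (levelsS S) (Rep.of ρN)) := hFin ρN hlt hpN
  have hptor : ∀ y : lcH1 (levelsS S) (Rep.of ρN), p • y = 0 :=
    PTData.smul_lcH1_eq_zero (levelsS S) (Rep.of ρN) p hpN
  let resN : lcH1 (levelsS S) (Rep.of ρN) →+
      lcH1 (𝓥q q.1) (Rep.of (ρN.comp (primeLocalToGlobal q.1))) :=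
    (resq S ρN q).H1.toAddMonoidHom
  let f : lcH1 (levelsS S) (Rep.of ρN) →+ resN.range := resN.rangeRestrict
  have hfsurj : Function.Surjective f := resN.rangeRestrict_surjective
  haveI : Finite resN.range := Finite.of_surjective f hfsurj
  have hfval : ∀ y, ((f y : resN.range) :
      lcH1 (𝓥q q.1) (Rep.of (ρN.comp (primeLocalToGlobal q.1)))) = (resq S ρN q).H1 y :=
    fun y => rfl
  have hker : f.ker ≤ ψ.ker := by
    intro y hy
    rw [AddMonoidHom.mem_ker] at hy ⊢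
    apply hψ
    rw [← hfval, hy]
    rfl
  let ψ' : resN.range →+ lcH2 (levelsS S) (Rep.of (ρB S)) :=
    f.liftOfRightInverse (Function.surjInv hfsurj) (Function.rightInverse_surjInv hfsurj)
      ⟨ψ, hker⟩
  have hψ' : ∀ y, ψ' (f y) = ψ y := fun y =>
    AddMonoidHom.liftOfRightInverse_comp_apply f (Function.surjInv hfsurj)
      (Function.rightInverse_surjInv hfsurj) ⟨ψ, hker⟩ y
  obtain ⟨hC2inj, hC2surj⟩ := hC2 q
  have hpψ' : ∀ a, p • ψ' a = 0 := by
    intro a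
    obtain ⟨y, rfl⟩ := hfsurj a
    rw [hψ', ← map_nsmul, hptor, map_zero]
  have hex : ∀ a : resN.range, ∃ z : lcH2 (levelsS S) (Rep.of (ρI S)), p • z = 0 ∧
      (∀ q' : S, q' ≠ q → (prIq S q').H2 z = 0) ∧ (sEIB S hS).Pπ.H2 z = ψ' a :=
    fun a => hC2surj (ψ' a) (hpψ' a)
  choose ζ0 hζp hζs hζπ using hex
  have hζadd : ∀ a b, ζ0 (a + b) = ζ0 a + ζ0 b := by
    intro a b
    have h0 : ζ0 (a + b) - (ζ0 a + ζ0 b) = 0 := by
      apply hC2inj
      · rw [smul_sub, smul_add, hζp, hζp, hζp, add_zero, sub_zero]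
      · intro q' hq'
        rw [map_sub, map_add, hζs _ q' hq', hζs _ q' hq', hζs _ q' hq', add_zero, sub_zero]
      · rw [map_sub, map_add, hζπ, hζπ, hζπ, map_add, sub_self]
    exact sub_eq_zero.1 h0
  let ζ : resN.range →+ lcH2 (levelsS S) (Rep.of (ρI S)) := AddMonoidHom.mk' ζ0 hζadd
  let χ : resN.range →+ lcH2 (𝓥q q.1) (Rep.of (ρX q.1)) :=
    ((prIq S q).H2.toAddMonoidHom).comp ζ
  obtain ⟨cq, hcq⟩ := hLoc ρN hlt hpN q resN.range inferInstance χ
  obtain ⟨c, hc1, hc2⟩ := hFr (ρR1 ρN) (isLevelTriv_R1 hlt) q cq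
  refine ⟨c, fun y => ?_⟩
  have key : (ofInv (ρR1 ρN) (ρI S) (levelsS S) c).H2 ((sR hlt).δ₁ y) = ζ0 (f y) := by
    rw [← sub_eq_zero]
    apply hSh2
    intro q'
    rw [map_sub, sub_eq_zero, h5tn_prIq_ofInv]
    by_cases hq' : q' = q
    · subst hq'
      rw [h5tn_res_δ₁]
      have h5 : (h5tn_locC S (ρR1 ρN) q' c).H2
          ((sRloc S hlt q').δ₁ ((resq S ρN q').H1 y))
          = (ofInv ((ρR1 ρN).comp (primeLocalToGlobal q'.1)) (ρX q'.1) (𝓥q q'.1) cq).H2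
            ((sRloc S hlt q').δ₁ ((resq S ρN q').H1 y)) :=
        PP.H2_congr (P := h5tn_locC S (ρR1 ρN) q' c)
          (Q := ofInv ((ρR1 ρN).comp (primeLocalToGlobal q'.1)) (ρX q'.1) (𝓥q q'.1) cq)
          rfl hc1 _
      rw [h5]
      exact hcq (f y)
    · rw [hζs _ q' hq']
      have h6 : (h5tn_locC S (ρR1 ρN) q' c).H2 ((resq S (ρR1 ρN) q').H2 ((sR hlt).δ₁ y))
          = (PP.ofLinear (𝓥q q'.1) (0 : (Rep.of ((ρR1 ρN).comp (primeLocalToGlobal q'.1)))
              →ₗ[ℤ] (Rep.of (ρX q'.1))) (fun g a => by simp)).H2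
            ((resq S (ρR1 ρN) q').H2 ((sR hlt).δ₁ y)) :=
        PP.H2_congr (P := h5tn_locC S (ρR1 ρN) q' c)
          (Q := PP.ofLinear (𝓥q q'.1) (0 : (Rep.of ((ρR1 ρN).comp (primeLocalToGlobal q'.1)))
              →ₗ[ℤ] (Rep.of (ρX q'.1))) (fun g a => by simp))
          rfl (hc2 q' hq') _
      rw [h6, ofLinear_zero_H2]
  rw [key, hζπ, hψ']

end H5TN

end
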