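/-
W2-C (S55) block E, target `TTnlg` (helper5): `C2B S p hS → TFin S p → TTnlg S p hS`
(`TLocNT` = helper5, `TSh2` = helper12, `TFrGlob` = helper21 plugged in).
-/
import Mathlib
import Fermat.Agent.CFT2.E.W_tnlg_helper5
import Fermat.Agent.CFT2.E.W_locnt_helper5
import Fermat.Agent.CFT2.E.W_sh2_helper12
import Fermat.Agent.CFT2.E.W_frglob_helper21

set_option autoImplicit false

noncomputable section

namespace H5TN

open H14PT

/-- **the target `TTnlg`** from the block C inputs `C2B` and `TFin` alone -/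
theorem h5tn_tTnlg_of_c2b (S : Finset Nat.Primes) (p : ℕ) [Fact p.Prime] (hS : S.Nonempty)
    (hC2 : C2B S p hS) (hFin : TFin S p) : TTnlg S p hS :=
  h5tn_tTnlg S p hS hC2 hFin (H5NT.h5nt_tLocNT S p) (H12SH2.tSh2 S) (H21SH.tFrGlob S)

end H5TN

end
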