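/-
W2-C (S55) block E, target TFin (helper24): INTERFACE of the sub-slices.

`H14PT.TFin S p` : `H¹_S(N)` is finite (`N` finite, level-trivial, killed by `p`).  Route (Kummer):

* (RED)    `RedStatement`  : `HomFin S p → TFin S p`  (a level-constant cocycle is determined by its
           restriction to a level `U₀` acting trivially on `N` and finitely many values);
* (HOMFIN) `HomFin S p`    : for every `S`-level `U₀` there is an `S`-level `U' ≤ U₀` on which every
           level-constant `χ : GQ → ZMod p`, additive on `U₀`, vanishes;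
* (KH90)   `KH90Statement` : Kummer theory in `Qb` (Hilbert 90 by Dedekind independence);
* (KVAL)   `KValStatement` : `a ∈ F₀ˣ` a `p`-th power in an `S`-level `F ⊇ F₀` ⇒ `p ∣ ord_P(a)` for all
           primes `P` of `F₀` outside `S`  (needs UNR-TR: `UnrTrStatement`);
* (KFIN)   `KFinStatement` : for a number field `K`: the `x ∈ Kˣ` with `p ∣ ord_P(x)` for all `P ∉ S`
           lie in finitely many classes modulo `p`-th powers (class group + units + primes over `S`);
* (ASM)    `HomFin S p ⇐ KH90 + KVAL + KFIN` (helper24).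
Nothing here is proved by a placeholder.
-/
import Mathlib
import Fermat.Agent.CFT2.E.Targets
import Fermat.Agent.CFT2.C.Slices_helper17

set_option autoImplicit false
set_option linter.style.haveILetI false
set_option linter.unusedVariables false

noncomputable section

namespace H24FIN

open H15D H14PT H17C NumberField

local notation "Qb" => AlgebraicClosure ℚ
local notation "GQ" => (AlgebraicClosure ℚ ≃ₐ[ℚ] AlgebraicClosure ℚ)

/-- **(HOMFIN)** a uniform `S`-level kills all level-constant characters `U₀ → ℤ/p`. -/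
def HomFin (S : Finset Nat.Primes) (p : ℕ) : Prop :=
  ∀ U₀ ∈ (levelsS S).sets, ∃ U' ∈ (levelsS S).sets, U' ≤ U₀ ∧
    ∀ χ : GQ → ZMod p, IsLC₁ (levelsS S) χ →
      (∀ σ ∈ U₀, ∀ τ ∈ U₀, χ (σ * τ) = χ σ + χ τ) → ∀ s ∈ U', χ s = 0

/-- **(RED)** reduction of `TFin` to `HomFin`. -/
def RedStatement : Prop :=
  ∀ (S : Finset Nat.Primes) (p : ℕ), p.Prime → HomFin S p → TFin S p

/-- **(KH90)** Kummer theory inside `Qb`: a character `χ : U₀ → ℤ/p` trivial on
`U = Gal(Qb/F) ≤ U₀` is `σ ↦ σ(b)/b` for some `b ∈ Fˣ`, if `U₀` fixes the `p`-th root of unity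
`ζ`. -/
def KH90Statement : Prop :=
  ∀ (p : ℕ), p.Prime → ∀ (ζ : Qb) (U₀ : Subgroup GQ) (F : IntermediateField ℚ Qb),
    FiniteDimensional ℚ F → F.fixingSubgroup ≤ U₀ → (∀ σ ∈ U₀, σ ζ = ζ) → ζ ^ p = 1 →
    ∀ χ : GQ → ZMod p, (∀ σ ∈ U₀, ∀ τ ∈ U₀, χ (σ * τ) = χ σ + χ τ) →
      (∀ σ ∈ U₀, ∀ u ∈ F.fixingSubgroup, χ (σ * u) = χ σ) →
      ∃ b : Qb, b ≠ 0 ∧ b ∈ F ∧ ∀ σ ∈ U₀, σ b = ζ ^ (χ σ).val * b

/-- **(UNR-TR)** the prelude's "unramified outside `S`" gives the tensor model's. -/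
def UnrTrStatement (S : Finset Nat.Primes) : Prop :=
  ∀ (F : IntermediateField ℚ Qb) [NumberField F], F.IsUnramifiedOutside S →
    F.fixingSubgroup.Normal → UnramOutside S F ⊤

/-- **(KVAL)** a `p`-th power in a Galois number field `F` unramified outside `S` has divisor
divisible by `p` outside `S` on every subfield. -/
def KValStatement : Prop :=
  ∀ (S : Finset Nat.Primes) (p : ℕ) (F₀ F : IntermediateField ℚ Qb) [NumberField F₀]
    [NumberField F], UnramOutside S F ⊤ → F.fixingSubgroup.Normal → F₀ ≤ F →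
    ∀ a : (↥F₀)ˣ, (∃ b : Qb, b ∈ F ∧ b ^ p = ((a : ↥F₀) : Qb)) →
      ∀ P : PrimesS S F₀, (p : ℤ) ∣ ordP P (a : ↥F₀)

/-- **(KFIN)** Kummer finiteness for a number field. -/
def KFinStatement : Prop :=
  ∀ (S : Finset Nat.Primes) (K : Type) [Field K] [NumberField K] (p : ℕ), 0 < p →
    ∃ T : Set Kˣ, T.Finite ∧ ∀ x : Kˣ, (∀ P : PrimesS S K, (p : ℤ) ∣ ordP P (x : K)) →
      ∃ t ∈ T, ∃ y : Kˣ, x = t * y ^ p

/-- **(ASM)** assembly of `HomFin`. -/
def HomFinAsmStatement : Prop :=
  ∀ (S : Finset Nat.Primes) (p : ℕ), p.Prime → (∃ q ∈ S, (q : ℕ) = p) →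
    KH90Statement → KValStatement → UnrTrStatement S → KFinStatement → HomFin S p

end H24FIN

end
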