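import Mathlib
import Fermat.Agent.CFT2.E.TFinDefs_helper24
import Fermat.Agent.CFT2.C.UnitIndexFinite_helper12

/-!
# W2-C (S55) block E, target TFin, slice KFIN (helper12)

`H24FIN.KFinStatement`: for a number field `K`, a finite set `S` of rational primes and `p > 0`,
the `x ∈ Kˣ` with `p ∣ ord_P(x)` for all primes `P` of `K` outside `S` lie in finitely many
classes modulo `p`-th powers.

Proof by three finite coverings (`cover_step`): residues of `ord_v(x)` modulo `p` at the finitely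
many `v` above `S`; the ideal class of `div(x)/p`; the units modulo `p`-th powers (Dirichlet).
-/

set_option autoImplicit false
set_option linter.style.haveILetI false
set_option linter.unusedSectionVars false
set_option linter.unusedVariables false

noncomputable section

namespace H12KF

open H17C NumberField IsDedekindDomain H12FIN
open scoped nonZeroDivisors

/-! ### the covering step -/

/-- if `V` maps to a finite set such that elements with the same image differ by an element of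
`W` and a `p`-th power, and `W` is covered by finitely many classes modulo `p`-th powers, then so
is `V` -/
theorem cover_step {G : Type*} [CommGroup G] {X : Type*} [Finite X] (V W : Set G) (φ : G → X)
    (p : ℕ)
    (hφ : ∀ x ∈ V, ∀ x' ∈ V, φ x = φ x' → ∃ w ∈ W, ∃ y : G, x = x' * w * y ^ p)
    (hW : ∃ T : Set G, T.Finite ∧ ∀ w ∈ W, ∃ t ∈ T, ∃ y : G, w = t * y ^ p) :
    ∃ T : Set G, T.Finite ∧ ∀ x ∈ V, ∃ t ∈ T, ∃ y : G, x = t * y ^ p := by
  classical
  obtain ⟨T', hT', hW'⟩ := hW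
  let r : X → G := fun c => if h : ∃ x ∈ V, φ x = c then h.choose else 1
  refine ⟨Set.image2 (· * ·) (Set.range r) T', Set.Finite.image2 _ (Set.finite_range r) hT', ?_⟩
  intro x hx
  have h : ∃ x' ∈ V, φ x' = φ x := ⟨x, hx, rfl⟩
  have hr : r (φ x) = h.choose := dif_pos h
  obtain ⟨hrV, hrφ⟩ := h.choose_spec
  obtain ⟨w, hw, y, hy⟩ := hφ x hx _ hrV hrφ.symm
  obtain ⟨t, ht, y', hy'⟩ := hW' w hw
  refine ⟨r (φ x) * t, Set.mem_image2_of_mem ⟨_, rfl⟩ ht, y' * y, ?_⟩
  rw [hr]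
  generalize h.choose = r₀ at hy
  rw [hy, hy', mul_pow]
  simp only [mul_assoc]

/-! ### units modulo `p`-th powers -/

section units

variable (K : Type) [Field K] [NumberField K]

theorem units_cover (p : ℕ) (hp : 0 < p) :
    ∃ T : Set (𝓞 K)ˣ, T.Finite ∧ ∀ u : (𝓞 K)ˣ, ∃ t ∈ T, ∃ e : (𝓞 K)ˣ, u = t * e ^ p := by
  classical
  let N : Subgroup (𝓞 K)ˣ := (powMonoidHom p : (𝓞 K)ˣ →* (𝓞 K)ˣ).range
  haveI : Group.FG (𝓞 K)ˣ := Group.fg_iff_monoid_fg.mpr inferInstance
  haveI : Finite ((𝓞 K)ˣ ⧸ N) := by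
    apply CommGroup.finite_of_fg_isMulTorsion
    intro g
    induction g using QuotientGroup.induction_on with
    | H u =>
      rw [isOfFinOrder_iff_pow_eq_one]
      refine ⟨p, hp, ?_⟩
      rw [← QuotientGroup.mk_pow, QuotientGroup.eq_one_iff]
      exact ⟨u, rfl⟩
  refine ⟨Set.range (fun c : (𝓞 K)ˣ ⧸ N => Quotient.out c), Set.finite_range _, fun u => ?_⟩
  refine ⟨Quotient.out (QuotientGroup.mk u : (𝓞 K)ˣ ⧸ N), ⟨_, rfl⟩, ?_⟩
  have h : (QuotientGroup.mk (Quotient.out (QuotientGroup.mk u : (𝓞 K)ˣ ⧸ N)) : (𝓞 K)ˣ ⧸ N) =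
      QuotientGroup.mk u := Quotient.out_eq _
  rw [QuotientGroup.eq] at h
  obtain ⟨e, he⟩ := h
  refine ⟨e, ?_⟩
  have he' : e ^ p = (Quotient.out (QuotientGroup.mk u : (𝓞 K)ˣ ⧸ N))⁻¹ * u := he
  rw [he', mul_inv_cancel_left]

end units

/-! ### orders at all primes -/

section ord

variable {K : Type} [Field K] [NumberField K]

/-- `ord_v(x)` for a height one prime `v` -/
def ordv (v : HeightOneSpectrum (𝓞 K)) (x : K) : ℤ := - WithZero.log (v.valuation K x)

theorem ordv_mul (v : HeightOneSpectrum (𝓞 K)) {x y : K} (hx : x ≠ 0) (hy : y ≠ 0) :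
    ordv v (x * y) = ordv v x + ordv v y := by
  unfold ordv
  rw [map_mul, WithZero.log_mul ((Valuation.ne_zero_iff _).mpr hx)
    ((Valuation.ne_zero_iff _).mpr hy)]
  ring

theorem ordv_one (v : HeightOneSpectrum (𝓞 K)) : ordv v (1 : K) = 0 := by
  unfold ordv
  simp

theorem ordv_inv (v : HeightOneSpectrum (𝓞 K)) {x : K} (hx : x ≠ 0) :
    ordv v x⁻¹ = - ordv v x := by
  have h := ordv_mul v hx (inv_ne_zero hx)
  rw [mul_inv_cancel₀ hx, ordv_one] at h
  linarith

theorem ordv_pow (v : HeightOneSpectrum (𝓞 K)) {x : K} (hx : x ≠ 0) (n : ℕ) :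
    ordv v (x ^ n) = n * ordv v x := by
  induction n with
  | zero => simp [ordv_one]
  | succ n ih =>
    rw [pow_succ, ordv_mul v (pow_ne_zero n hx) hx, ih]
    push_cast
    ring

theorem ordP_eq_ordv {S : Finset Nat.Primes} (P : PrimesS S K) (x : K) :
    ordP P x = ordv P.toHOS x := rfl

theorem val_eq_one_of_ordv (v : HeightOneSpectrum (𝓞 K)) (x : K) (hx : x ≠ 0)
    (h : ordv v x = 0) : v.valuation K x = 1 := by
  unfold ordv at h
  have h0 : v.valuation K x ≠ 0 := (Valuation.ne_zero_iff _).mpr hx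
  have h1 : WithZero.log (v.valuation K x) = 0 := neg_eq_zero.mp h
  rw [← WithZero.exp_log h0, h1, WithZero.exp_zero]

/-- an element all of whose orders vanish is a unit of `𝓞 K` -/
theorem exists_unit_of_ordv (t : Kˣ) (h : ∀ v : HeightOneSpectrum (𝓞 K), ordv v (t : K) = 0) :
    ∃ u : (𝓞 K)ˣ, Units.map (algebraMap (𝓞 K) K : 𝓞 K →* K) u = t := by
  have h' : ∀ v : HeightOneSpectrum (𝓞 K), ordv v ((t⁻¹ : Kˣ) : K) = 0 := by
    intro v
    rw [Units.val_inv_eq_inv_val, ordv_inv v t.ne_zero, h v, neg_zero]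
  obtain ⟨y, hy⟩ := HeightOneSpectrum.mem_integers_of_valuation_le_one (R := 𝓞 K) K (t : K)
    (fun v => (val_eq_one_of_ordv v _ t.ne_zero (h v)).le)
  obtain ⟨y', hy'⟩ := HeightOneSpectrum.mem_integers_of_valuation_le_one (R := 𝓞 K) K
    ((t⁻¹ : Kˣ) : K) (fun v => (val_eq_one_of_ordv v _ (t⁻¹).ne_zero (h' v)).le)
  have hyy : y * y' = 1 := by
    apply RingOfIntegers.ext
    show algebraMap (𝓞 K) K (y * y') = algebraMap (𝓞 K) K 1
    rw [map_mul, hy, hy', map_one, ← Units.val_mul, mul_inv_cancel, Units.val_one]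
  refine ⟨⟨y, y', hyy, by rw [mul_comm]; exact hyy⟩, ?_⟩
  apply Units.ext
  exact hy

/-- finitely many height one primes lie above `S` -/
theorem finite_aboveS (S : Finset Nat.Primes) :
    {v : HeightOneSpectrum (𝓞 K) | aboveS S K v}.Finite := by
  have hfin : ∀ q : Nat.Primes,
      {v : HeightOneSpectrum (𝓞 K) | (((q : ℕ) : ℤ) : 𝓞 K) ∈ v.asIdeal}.Finite := by
    intro q
    have hq0 : (((q : ℕ) : ℤ) : 𝓞 K) ≠ 0 := by
      have : ((q : ℕ) : ℤ) ≠ 0 := by exact_mod_cast q.2.ne_zero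
      exact_mod_cast this
    have hI : (Ideal.span {(((q : ℕ) : ℤ) : 𝓞 K)} : Ideal (𝓞 K)) ≠ 0 := by
      simpa using hq0
    refine (Ideal.finite_factors hI).subset ?_
    intro v hv
    simp only [Set.mem_ofPred_eq] at hv ⊢
    rw [Ideal.dvd_iff_le, Ideal.span_singleton_le_iff_mem]
    exact hv
  refine (Set.Finite.biUnion S.finite_toSet (fun q _ => hfin q)).subset ?_
  rintro v ⟨q, hq, h⟩
  simp only [Set.mem_iUnion]
  exact ⟨q, hq, h⟩

theorem ordv_div (v : HeightOneSpectrum (𝓞 K)) (x y : Kˣ) :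
    ordv v ((x / y : Kˣ) : K) = ordv v (x : K) - ordv v (y : K) := by
  rw [Units.val_div_eq_div_val, div_eq_mul_inv, ordv_mul v x.ne_zero (inv_ne_zero y.ne_zero),
    ordv_inv v y.ne_zero]
  ring

end ord

/-! ### the three coverings -/

section main

variable (S : Finset Nat.Primes) (K : Type) [Field K] [NumberField K] (p : ℕ)

/-- the elements whose divisor outside `S` is divisible by `p` -/
def setV : Set Kˣ := {x | ∀ P : PrimesS S K, (p : ℤ) ∣ ordP P (x : K)}

/-- the elements whose divisor is divisible by `p` -/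
def setV0 : Set Kˣ := {x | ∀ v : HeightOneSpectrum (𝓞 K), (p : ℤ) ∣ ordv v (x : K)}

/-- the units of `𝓞 K` in `Kˣ` -/
def setU : Set Kˣ := Set.range (Units.map (algebraMap (𝓞 K) K : 𝓞 K →* K))

theorem cover_U (hp : 0 < p) :
    ∃ T : Set Kˣ, T.Finite ∧ ∀ w ∈ setU K, ∃ t ∈ T, ∃ y : Kˣ, w = t * y ^ p := by
  obtain ⟨T, hT, h⟩ := units_cover K p hp
  refine ⟨Units.map (algebraMap (𝓞 K) K : 𝓞 K →* K) '' T, hT.image _, ?_⟩
  rintro w ⟨u, rfl⟩
  obtain ⟨t, ht, e, he⟩ := h u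
  refine ⟨_, ⟨t, ht, rfl⟩, Units.map (algebraMap (𝓞 K) K : 𝓞 K →* K) e, ?_⟩
  rw [he, map_mul, map_pow]

/-- no height one prime lies above the empty set -/
theorem not_aboveS_empty (v : HeightOneSpectrum (𝓞 K)) :
    ¬ aboveS (∅ : Finset Nat.Primes) K v :=
  fun ⟨q, hq, _⟩ => absurd hq (Finset.notMem_empty q)

/-- the divisor `div(w)/p` -/
def dDiv (w : Kˣ) : DivS (∅ : Finset Nat.Primes) K :=
  Finsupp.mapRange (fun n : ℤ => n / (p : ℤ)) (Int.zero_ediv _)
    (divS (∅ : Finset Nat.Primes) K (Additive.ofMul w))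

theorem dDiv_apply (w : Kˣ) (P : PrimesS (∅ : Finset Nat.Primes) K) :
    dDiv K p w P = ordP P (w : K) / (p : ℤ) := by
  unfold dDiv
  rw [Finsupp.mapRange_apply, divS_apply]
  rfl

theorem mul_dDiv {w : Kˣ} (hw : w ∈ setV0 K p) (v : HeightOneSpectrum (𝓞 K)) :
    (p : ℤ) * dDiv K p w (toPrimesS v (not_aboveS_empty K v)) = ordv v (w : K) := by
  rw [dDiv_apply]
  exact Int.mul_ediv_cancel' (hw v)

theorem cover_V0 (hp : 0 < p) :
    ∃ T : Set Kˣ, T.Finite ∧ ∀ w ∈ setV0 K p, ∃ t ∈ T, ∃ y : Kˣ, w = t * y ^ p := by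
  refine cover_step (X := CG K) (setV0 K p) (setU K) (fun w => idlCls (dDiv K p w)) p ?_
    (cover_U K p hp)
  intro w hw w' hw' h
  obtain ⟨z, hz, -⟩ := exists_of_idlCls_eq (dDiv K p w') (dDiv K p w) h.symm
  have ht : ∀ v : HeightOneSpectrum (𝓞 K), ordv v ((w / (w' * z ^ p) : Kˣ) : K) = 0 := by
    intro v
    have h1 := DFunLike.congr_fun hz (toPrimesS v (not_aboveS_empty K v))
    rw [divS_apply, Finsupp.sub_apply] at h1
    have h2 : ordv v (z : K) = dDiv K p w (toPrimesS v (not_aboveS_empty K v)) -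
        dDiv K p w' (toPrimesS v (not_aboveS_empty K v)) := h1
    rw [ordv_div, Units.val_mul, Units.val_pow_eq_pow_val,
      ordv_mul v w'.ne_zero (pow_ne_zero p z.ne_zero), ordv_pow v z.ne_zero, h2,
      ← mul_dDiv K p hw v, ← mul_dDiv K p hw' v]
    ring
  obtain ⟨u, hu⟩ := exists_unit_of_ordv _ ht
  refine ⟨_, ⟨u, hu⟩, z, ?_⟩
  show w = w' * (w / (w' * z ^ p)) * z ^ p
  rw [div_eq_mul_inv, mul_inv]
  calc w = w * (w' * w'⁻¹) * ((z ^ p)⁻¹ * z ^ p) := by
        rw [mul_inv_cancel, inv_mul_cancel, mul_one, mul_one]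
    _ = w' * (w * (w'⁻¹ * (z ^ p)⁻¹)) * z ^ p := by
        simp only [mul_assoc, mul_left_comm, mul_comm]

/-- **KFIN**, for the set `V` -/
theorem cover_V (hp : 0 < p) :
    ∃ T : Set Kˣ, T.Finite ∧ ∀ x ∈ setV S K p, ∃ t ∈ T, ∃ y : Kˣ, x = t * y ^ p := by
  haveI : NeZero p := ⟨hp.ne'⟩
  haveI : Finite {v : HeightOneSpectrum (𝓞 K) // aboveS S K v} := (finite_aboveS S).to_subtype
  refine cover_step (X := {v : HeightOneSpectrum (𝓞 K) // aboveS S K v} → ZMod p)
    (setV S K p) (setV0 K p) (fun x v => ((ordv v.1 (x : K) : ℤ) : ZMod p)) p ?_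
    (cover_V0 K p hp)
  intro x hx x' hx' h
  refine ⟨x / x', ?_, 1, ?_⟩
  · intro v
    rw [ordv_div]
    by_cases hv : aboveS S K v
    · have h1 := congrFun h ⟨v, hv⟩
      have h2 : ((ordv v (x : K) : ℤ) : ZMod p) = ((ordv v (x' : K) : ℤ) : ZMod p) := h1
      rw [ZMod.intCast_eq_intCast_iff_dvd_sub] at h2
      have := dvd_neg.mpr h2
      rwa [neg_sub] at this
    · exact dvd_sub (hx (toPrimesS v hv)) (hx' (toPrimesS v hv))
  · rw [one_pow, mul_one, mul_div_cancel]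

/-- **KFIN** -/
theorem kfin : H24FIN.KFinStatement := by
  intro S K _ _ p hp
  exact cover_V S K p hp

end main

end H12KF
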