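/-
W2-C (S55) block C2 / E (helper15): EXISTENCE of a class supported at `q` and the reduction of
`C2B` to its injectivity half.

* `H15C2.exists_ptorsion_of_pClass` : a `p`-class module of a finite group of order divisible by
  `p` has a class of order `p` in `H²`;
* `H15C2.ex_fin`   : finite level: a `p`-torsion class of `H²(H_q/V_q, Xbar_q^{V_q})` is the
  localisation at `q` of a `p`-torsion class of `H²(G/U, I^U)` whose other localisations vanish;
* `H15C2.c2b_ex`   : `∃ z₀ ∈ H²_S(I)`, `p z₀ = 0`, supported at `q`, with nonzero localisation at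
  `q` (LOCDEG + local `p`-class module + Shapiro surjectivity + local inflation injectivity);
* `H15C2.c2b_of_inj` : `TDim1 S p` + part (1) of `C2B` ⇒ `C2B S p hS`.
-/
import Mathlib
import Fermat.Agent.CFT2.E.Interface
import Fermat.Agent.CFT2.E.FLSh_helper5
import Fermat.Agent.CFT2.E.LocNTInfl_helper5
import Fermat.Agent.CFT2.E.LocNTPcm_helper5
import Fermat.Agent.CFT2.E.LocDeg_helper24
import Fermat.Agent.CFT2.D.InflMap_helper15
import Fermat.Agent.CFT2.A.ARCoh_helper26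

set_option autoImplicit false
set_option linter.style.haveILetI false
set_option linter.unusedVariables false
set_option linter.unusedSectionVars false

noncomputable section

namespace H15C2

open H15D H15F H14PT ExtCitation groupCohomology CategoryTheory H5IC

local notation "Qb" => AlgebraicClosure ℚ
local notation "GQ" => (AlgebraicClosure ℚ ≃ₐ[ℚ] AlgebraicClosure ℚ)


/-- primes are prime. -/
local instance factPrimeOfPrimesC2 (q : Nat.Primes) : Fact (q : ℕ).Prime := ⟨q.2⟩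

/-- a `p`-class module of a group of order divisible by `p` has a class of order `p` in `H²` -/
theorem exists_ptorsion_of_pClass {G : Type} [Group G] [Finite G] (p : ℕ) [Fact p.Prime]
    (C : Rep.{0} ℤ G) (γ : groupCohomology C 2) (hC : H20A.IsPClassModule p C γ)
    (hdvd : p ∣ Nat.card G) :
    ∃ y : groupCohomology C 2, p • y = 0 ∧ y ≠ 0 := by
  have hp : p.Prime := Fact.out
  obtain ⟨P⟩ : Nonempty (Sylow p G) := inferInstance
  have hidx : ¬ p ∣ (P : Subgroup G).index := P.not_dvd_index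
  obtain ⟨a, ha⟩ := IsPGroup.exists_card_eq P.isPGroup'
  have ha1 : 1 ≤ a := by
    rcases Nat.eq_zero_or_pos a with h0 | h0
    · exfalso
      rw [h0, pow_zero] at ha
      have h1 := (P : Subgroup G).card_mul_index
      rw [ha, one_mul] at h1
      exact hidx (h1 ▸ hdvd)
    · exact h0
  set r := H20A.resCoh C (P : Subgroup G) 2 with hr
  set x := r γ with hx
  have hgen : ∀ z : groupCohomology (H20A.resSub C (P : Subgroup G)) 2,
      z ∈ AddSubgroup.zmultiples x := by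
    intro z
    obtain ⟨k, hk⟩ := hC.gen _ P.isPGroup' z
    exact ⟨k, hk.symm⟩
  have hcard := hC.card _ P.isPGroup'
  haveI : Finite (groupCohomology (H20A.resSub C (P : Subgroup G)) 2) := by
    apply Nat.finite_of_card_ne_zero
    rw [hcard, ha]
    exact pow_ne_zero _ hp.ne_zero
  have hord : addOrderOf x = p ^ a := by
    rw [addOrderOf_eq_card_of_forall_mem_zmultiples hgen, hcard, ha]
  have hkill : (P : Subgroup G).index • (p ^ a • γ) = 0 := by
    apply H26AR.h26ar_indexKillsCoh G C (P : Subgroup G) 2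
    rw [map_nsmul, ← hr, ← hx, ← hord]
    exact addOrderOf_nsmul_eq_zero x
  refine ⟨((P : Subgroup G).index * p ^ (a - 1)) • γ, ?_, fun h0 => ?_⟩
  · rw [smul_smul]
    have e : p * ((P : Subgroup G).index * p ^ (a - 1)) = (P : Subgroup G).index * p ^ a := by
      have : p ^ a = p ^ (a - 1) * p := by
        rw [← pow_succ, Nat.sub_add_cancel ha1]
      rw [this]; ring
    rw [e, mul_smul]
    exact hkill
  · have h1 : ((P : Subgroup G).index * p ^ (a - 1)) • x = 0 := by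
      rw [hx, ← map_nsmul, h0, map_zero]
    have h2 := addOrderOf_dvd_of_nsmul_eq_zero h1
    rw [hord] at h2
    have e : p ^ a = p * p ^ (a - 1) := by
      rw [← pow_succ', Nat.sub_add_cancel ha1]
    rw [e] at h2
    exact hidx (Nat.dvd_of_mul_dvd_mul_right (pow_pos hp.pos _) h2)


variable (S : Finset Nat.Primes) (U : Subgroup GQ) [hUn : U.Normal]

section hv2

attribute [local instance 1100] Rep.hV2

theorem incl_proj_same (q : S) :
    h5fl_incl S U q ≫ h5fl_proj S U q = 𝟙 ((Rep.of (h5ic_ρA S q.1)).quotientToInvariants U) := by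
  classical
  apply Rep.hom_ext
  apply Representation.IntertwiningMap.ext
  apply LinearMap.ext
  intro a
  apply Subtype.ext
  change Additive.ofMul (Pi.mulSingle (M := fun q : S => ideleAt S q.1) q
    (Additive.toMul (a.1 : Additive (ideleAt S q.1))) q) = a.1
  rw [Pi.mulSingle_eq_same]
  rfl

theorem incl_proj_ne (q q' : S) (h : q' ≠ q) :
    h5fl_incl S U q ≫ h5fl_proj S U q' = 0 := by
  classical
  apply Rep.hom_ext
  apply Representation.IntertwiningMap.ext
  apply LinearMap.ext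
  intro a
  apply Subtype.ext
  change Additive.ofMul (Pi.mulSingle (M := fun q : S => ideleAt S q.1) q
    (Additive.toMul (a.1 : Additive (ideleAt S q.1))) q') = 0
  rw [Pi.mulSingle_eq_of_ne h]
  rfl

theorem map_incl_proj (q q' : S) (n : ℕ)
    (yA : groupCohomology ((Rep.of (h5ic_ρA S q.1)).quotientToInvariants U) n) :
    (groupCohomology.functor ℤ (GQ ⧸ U) n).map (h5fl_proj S U q')
      ((groupCohomology.functor ℤ (GQ ⧸ U) n).map (h5fl_incl S U q) yA)
      = (groupCohomology.functor ℤ (GQ ⧸ U) n).map (h5fl_incl S U q ≫ h5fl_proj S U q') yA := by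
  rw [CategoryTheory.Functor.map_comp]
  rfl




theorem comp_prI_eq (hUF : ∃ F : IntermediateField ℚ Qb, F.IsUnramifiedOutside S ∧
    U = F.fixingSubgroup) (q q' : S) (n : ℕ) :
    (groupCohomology.functor ℤ (GQ ⧸ U) n).map (h5fl_incl S U q) ≫
      groupCohomology.map (h5ic_φ q'.1 U) (h5fl_prI S U hUF q') n =
    (groupCohomology.functor ℤ (GQ ⧸ U) n).map (h5fl_incl S U q ≫ h5fl_proj S U q') ≫
      groupCohomology.map (h5ic_φ q'.1 U) (h5fl_prA S U q'.1 hUF) n :=
  (congrArg (fun m => (groupCohomology.functor ℤ (GQ ⧸ U) n).map (h5fl_incl S U q) ≫ m)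
    (h5fl_map_prI S U hUF q' n)).trans
  ((Category.assoc _ _ _).symm.trans
    (congrArg (fun m => m ≫ groupCohomology.map (h5ic_φ q'.1 U) (h5fl_prA S U q'.1 hUF) n)
      ((groupCohomology.functor ℤ (GQ ⧸ U) n).map_comp (h5fl_incl S U q)
        (h5fl_proj S U q')).symm))

theorem comp_prI_ne (hUF : ∃ F : IntermediateField ℚ Qb, F.IsUnramifiedOutside S ∧
    U = F.fixingSubgroup) (q q' : S) (h : q' ≠ q) (n : ℕ) :
    (groupCohomology.functor ℤ (GQ ⧸ U) n).map (h5fl_incl S U q) ≫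
      groupCohomology.map (h5ic_φ q'.1 U) (h5fl_prI S U hUF q') n = 0 := by
  refine (comp_prI_eq S U hUF q q' n).trans ?_
  have h0 := h5fl_map_zero (k := ℤ) (G := GQ ⧸ U)
    (A := (Rep.of (h5ic_ρA S q.1)).quotientToInvariants U)
    (B := (Rep.of (h5ic_ρA S q'.1)).quotientToInvariants U) n
  have h1 : (groupCohomology.functor ℤ (GQ ⧸ U) n).map (h5fl_incl S U q ≫ h5fl_proj S U q')
      = 0 := by
    rw [incl_proj_ne S U q q' h]
    exact h0
  exact (congrArg (fun m => m ≫ groupCohomology.map (h5ic_φ q'.1 U) (h5fl_prA S U q'.1 hUF) n)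
    h1).trans Limits.zero_comp

theorem comp_prI_same (hUF : ∃ F : IntermediateField ℚ Qb, F.IsUnramifiedOutside S ∧
    U = F.fixingSubgroup) (q : S) (n : ℕ) :
    (groupCohomology.functor ℤ (GQ ⧸ U) n).map (h5fl_incl S U q) ≫
      groupCohomology.map (h5ic_φ q.1 U) (h5fl_prI S U hUF q) n =
      groupCohomology.map (h5ic_φ q.1 U) (h5fl_prA S U q.1 hUF) n := by
  refine (comp_prI_eq S U hUF q q n).trans ?_
  have h1 : (groupCohomology.functor ℤ (GQ ⧸ U) n).map (h5fl_incl S U q ≫ h5fl_proj S U q)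
      = 𝟙 _ := by
    rw [incl_proj_same S U q]
    exact (groupCohomology.functor ℤ (GQ ⧸ U) n).map_id _
  exact (congrArg (fun m => m ≫ groupCohomology.map (h5ic_φ q.1 U) (h5fl_prA S U q.1 hUF) n)
    h1).trans (Category.id_comp _)

/-- finite-level EX -/
theorem ex_fin (hUF : ∃ F : IntermediateField ℚ Qb, F.IsUnramifiedOutside S ∧ U = F.fixingSubgroup)
    (p : ℕ) (q : S)
    (yq : groupCohomology ((Rep.of (ρX q.1)).quotientToInvariants (h5ic_V q.1 U)) 2)
    (pyq : p • yq = 0) :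
    ∃ y : groupCohomology ((Rep.of (ρI S)).quotientToInvariants U) 2, p • y = 0 ∧
      groupCohomology.map (h5ic_φ q.1 U) (h5fl_prI S U hUF q) 2 y = yq ∧
      ∀ q' : S, q' ≠ q → groupCohomology.map (h5ic_φ q'.1 U) (h5fl_prI S U hUF q') 2 y = 0 := by
  obtain ⟨yA, hyA⟩ := (h5fl_prA_bijective₂ S U q.1 hUF).2 yq
  have pyA : p • yA = 0 := by
    apply (h5fl_prA_bijective₂ S U q.1 hUF).1
    rw [map_nsmul, hyA, pyq, map_zero]
  refine ⟨H20A.cohMap (h5fl_incl S U q) 2 yA, ?_, ?_, ?_⟩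
  · rw [← map_nsmul, pyA, map_zero]
  · have h1 := comp_prI_same S U hUF q 2
    have h2 := congrArg (fun m => (ConcreteCategory.hom m) yA) h1
    exact h2.trans hyA
  · intro q' hq'
    have h1 := comp_prI_ne S U hUF q q' hq' 2
    have h2 := congrArg (fun m => (ConcreteCategory.hom m) yA) h1
    exact h2

end hv2

set_option maxHeartbeats 1600000 in
/-- **EX**: a nonzero `p`-torsion class of `H²_S(I)` supported at `q` -/
theorem c2b_ex (p : ℕ) [Fact p.Prime] (hpS : pPrime p ∈ S) (q : S) :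
    ∃ z₀ : lcH2 (levelsS S) (Rep.of (ρI S)), p • z₀ = 0 ∧
      (∀ q' : S, q' ≠ q → (prIq S q').H2 z₀ = 0) ∧ (prIq S q).H2 z₀ ≠ 0 := by
  obtain ⟨U, hU, hdvd⟩ := H24LD.h24ld_locdeg S (pPrime p) hpS q.1
  haveI : U.Normal := (levelsS S).normal U hU
  have hUF : ∃ F : IntermediateField ℚ Qb, F.IsUnramifiedOutside S ∧ U = F.fixingSubgroup := by
    obtain ⟨F, hF, -, h⟩ := hU
    exact ⟨F, hF, h⟩
  have hLq : ∀ q' : S, h5ic_V q'.1 U ∈ (𝓥q q'.1).sets := fun q' => by
    obtain ⟨F, hF, hn, h⟩ := hU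
    exact ⟨F, hF.1, hn, by rw [h]⟩
  -- the local class
  obtain ⟨γ, hγ⟩ := H5NT.h5nt_pcm_X p q.1 ⟨h5ic_V q.1 U, hLq q⟩
  have hcard : p ∣ Nat.card (Hq q.1 ⧸ h5ic_V q.1 U) := by
    rw [← Subgroup.index_eq_card]
    exact hdvd
  haveI : (h5ic_V q.1 U).Normal := (𝓥q q.1).normal _ (hLq q)
  haveI : Finite (Hq q.1 ⧸ h5ic_V q.1 U) :=
    Levels.Lv.instFiniteQuotLv (⟨h5ic_V q.1 U, hLq q⟩ : (𝓥q q.1).Lv)
  obtain ⟨yq, pyq, yq0⟩ := exists_ptorsion_of_pClass (G := Hq q.1 ⧸ h5ic_V q.1 U) p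
    (finLv (𝓥q q.1) (Rep.of (ρX q.1)) ⟨h5ic_V q.1 U, hLq q⟩) γ hγ hcard
  obtain ⟨y, py, hyq, hy'⟩ := ex_fin S U hUF p q yq pyq
  have hnat : ∀ q' : S, (prIq S q').H2 (infl₂ (levelsS S) (Rep.of (ρI S)) ⟨U, hU⟩ y) =
      infl₂ (𝓥q q'.1) (Rep.of (ρX q'.1)) ⟨h5ic_V q'.1 U, hLq q'⟩
        ((groupCohomology.map (h5ic_φ q'.1 U) (h5fl_prI S U hUF q') 2).hom y) := fun q' =>
    infl₂_map (prIq S q') ⟨U, hU⟩ ⟨h5ic_V q'.1 U, hLq q'⟩ (h5ic_φ q'.1 U)
      (fun τ => h5ic_φ_mk q'.1 U τ) (h5fl_prI S U hUF q')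
      (fun a => h5fl_prI_apply S U hUF q' a) y
  refine ⟨infl₂ (levelsS S) (Rep.of (ρI S)) ⟨U, hU⟩ y, ?_, ?_, ?_⟩
  · rw [← map_nsmul, py, map_zero]
  · intro q' hq'
    refine (hnat q').trans ?_
    exact (congrArg (infl₂ (𝓥q q'.1) (Rep.of (ρX q'.1)) ⟨h5ic_V q'.1 U, hLq q'⟩)
      (hy' q' hq')).trans (map_zero _)
  · intro h0
    have h1 := (hnat q).symm.trans h0
    have h2 := H5NT.h5nt_infl₂_injective_X q.1 ⟨h5ic_V q.1 U, hLq q⟩ (h1.trans (map_zero _).symm)
    exact yq0 (hyq.symm.trans h2)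

/-- **C2B from (1) and `TDim1`**: part (2) of `C2B` follows from part (1), the cyclicity of the
`p`-torsion of `H²_S(B)` and the existence of a class supported at `q`. -/
theorem c2b_of_inj (p : ℕ) [Fact p.Prime] (hpS : pPrime p ∈ S) (hS : S.Nonempty)
    (hdim : TDim1 S p)
    (h1 : ∀ q : S, ∀ z : lcH2 (levelsS S) (Rep.of (ρI S)), p • z = 0 →
      (∀ q' : S, q' ≠ q → (prIq S q').H2 z = 0) → (sEIB S hS).Pπ.H2 z = 0 → z = 0) :
    C2B S p hS := by
  intro q
  refine ⟨h1 q, fun w pw => ?_⟩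
  obtain ⟨z₀, pz₀, hz₀, hz₀q⟩ := c2b_ex S p hpS q
  have hz₀0 : z₀ ≠ 0 := by
    rintro rfl
    exact hz₀q (map_zero _)
  have hπ : (sEIB S hS).Pπ.H2 z₀ ≠ 0 := fun h => hz₀0 (h1 q z₀ pz₀ hz₀ h)
  have pπ : p • (sEIB S hS).Pπ.H2 z₀ = 0 := by rw [← map_nsmul, pz₀, map_zero]
  obtain ⟨k, hk⟩ := hdim ((sEIB S hS).Pπ.H2 z₀) w pπ pw hπ
  refine ⟨k • z₀, ?_, fun q' hq' => ?_, ?_⟩
  · rw [smul_comm, pz₀, smul_zero]
  · rw [map_zsmul, hz₀ q' hq', smul_zero]
  · rw [map_zsmul, hk]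

end H15C2

end
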