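/-
W2-C (S55) block E (helper14): decomposition of the norm of `G ⧸ U'` along `U1 ⧸ U'`
(`U' ≤ U1` normal subgroups of finite index), generic.
-/
import Mathlib
import Fermat.Agent.CFT2.D.Infl_helper15
import Fermat.Agent.CFT2.A.Defs

set_option autoImplicit false
set_option linter.style.haveILetI false
set_option linter.unusedVariables false
set_option linter.unusedSectionVars false

noncomputable section

namespace H14PT

open H15D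

section bij

variable {G : Type} [Group G] (U1 U' : Subgroup G) [U1.Normal] [U'.Normal] (hle : U' ≤ U1)

/-- `K = U1 ⧸ U'` inside `G ⧸ U'` -/
abbrev kerK : Subgroup (G ⧸ U') := U1.map (QuotientGroup.mk' U')

/-- the projection `G ⧸ U' → G ⧸ U1` -/
def projQ : G ⧸ U' →* G ⧸ U1 := QuotientGroup.map U' U1 (MonoidHom.id G) hle

theorem projQ_mk (g : G) : projQ U1 U' hle (g : G ⧸ U') = (g : G ⧸ U1) := rfl

theorem mem_kerK_iff (x : G ⧸ U') : x ∈ kerK U1 U' ↔ projQ U1 U' hle x = 1 := by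
  constructor
  · rintro ⟨u, hu, rfl⟩
    exact (QuotientGroup.eq_one_iff u).2 hu
  · intro h
    obtain ⟨g, rfl⟩ := QuotientGroup.mk_surjective x
    have : g ∈ U1 := (QuotientGroup.eq_one_iff g).1 h
    exact ⟨g, this, rfl⟩

/-- the decomposition map `(c, k) ↦ out c * k` -/
def decMap (x : (G ⧸ U1) × kerK U1 U') : G ⧸ U' :=
  ((Quotient.out x.1 : G) : G ⧸ U') * x.2

theorem projQ_decMap (x : (G ⧸ U1) × kerK U1 U') : projQ U1 U' hle (decMap U1 U' x) = x.1 := by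
  unfold decMap
  rw [map_mul, projQ_mk, (mem_kerK_iff U1 U' hle _).1 x.2.2, mul_one]
  exact QuotientGroup.out_eq' x.1

include hle in
theorem decMap_bijective : Function.Bijective (decMap U1 U') := by
  constructor
  · rintro ⟨c, k⟩ ⟨c', k'⟩ h
    have h1 := congrArg (projQ U1 U' hle) h
    rw [projQ_decMap, projQ_decMap] at h1
    simp only at h1
    subst h1
    have h2 : (k : G ⧸ U') = k' := mul_left_cancel h
    rw [Subtype.ext h2]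
  · intro g
    refine ⟨(projQ U1 U' hle g, ⟨((Quotient.out (projQ U1 U' hle g) : G) : G ⧸ U')⁻¹ * g, ?_⟩), ?_⟩
    · rw [mem_kerK_iff U1 U' hle, map_mul, map_inv, projQ_mk, QuotientGroup.out_eq',
        inv_mul_cancel]
    · unfold decMap
      simp

include hle in
theorem sum_decMap {M : Type*} [AddCommMonoid M] [Fintype (G ⧸ U')] [Fintype (G ⧸ U1)]
    [Fintype (kerK U1 U')] (F : G ⧸ U' → M) :
    ∑ g, F g = ∑ c : G ⧸ U1, ∑ k : kerK U1 U', F (decMap U1 U' (c, k)) := by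
  rw [← Fintype.sum_prod_type (f := fun x : (G ⧸ U1) × kerK U1 U' => F (decMap U1 U' x))]
  exact (Fintype.sum_bijective (decMap U1 U') (decMap_bijective U1 U' hle) _ _ (fun _ => rfl)).symm

end bij

section main

variable {G : Type} [Group G] (𝓤 : Levels G) (L1 L' : 𝓤.Lv) (hle : L'.U ≤ L1.U)
  {B R0 R1 : Type} [AddCommGroup B] [AddCommGroup R0] [AddCommGroup R1]
  (ρB : Representation ℤ G B) (ρ0 : Representation ℤ G R0) (ρ1 : Representation ℤ G R1)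

/-- the conjugate `g ↦ ρB g ∘ a₀ ∘ ρ0 g⁻¹` -/
def conjL (a₀ : R0 →ₗ[ℤ] B) (g : G) : R0 →ₗ[ℤ] B := (ρB g) ∘ₗ a₀ ∘ₗ (ρ0 g⁻¹)

theorem conjL_apply (a₀ : R0 →ₗ[ℤ] B) (g : G) (r : R0) :
    conjL ρB ρ0 a₀ g r = ρB g (a₀ (ρ0 g⁻¹ r)) := rfl

theorem conjL_mul_right (a₀ : R0 →ₗ[ℤ] B) (U : Subgroup G)
    (h0 : ∀ u ∈ U, ∀ r, ρ0 u r = r) (ha : ∀ u ∈ U, ∀ r, ρB u (a₀ r) = a₀ r) (g u : G)
    (hu : u ∈ U) : conjL ρB ρ0 a₀ (g * u) = conjL ρB ρ0 a₀ g := by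
  apply LinearMap.ext
  intro r
  rw [conjL_apply, conjL_apply, mul_inv_rev, map_mul, map_mul, Module.End.mul_apply,
    Module.End.mul_apply, h0 u⁻¹ (U.inv_mem hu), ha u hu]

theorem conjL_out (a₀ : R0 →ₗ[ℤ] B) (U : Subgroup G) [U.Normal]
    (h0 : ∀ u ∈ U, ∀ r, ρ0 u r = r) (ha : ∀ u ∈ U, ∀ r, ρB u (a₀ r) = a₀ r) (g : G) :
    conjL ρB ρ0 a₀ (Quotient.out (g : G ⧸ U)) = conjL ρB ρ0 a₀ g := by
  obtain ⟨h, hh⟩ := QuotientGroup.mk_out_eq_mul U g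
  rw [hh]
  exact conjL_mul_right ρB ρ0 a₀ U h0 ha g h h.2

/-- the trace `∑_{c ∈ G ⧸ U} out c · a₀` -/
def traceL (a₀ : R0 →ₗ[ℤ] B) (U : Subgroup G) [Fintype (G ⧸ U)] : R0 →ₗ[ℤ] B :=
  ∑ c : G ⧸ U, conjL ρB ρ0 a₀ (Quotient.out c)

theorem traceL_apply (a₀ : R0 →ₗ[ℤ] B) (U : Subgroup G) [Fintype (G ⧸ U)] (r : R0) :
    traceL ρB ρ0 a₀ U r = ∑ c : G ⧸ U, ρB (Quotient.out c) (a₀ (ρ0 (Quotient.out c)⁻¹ r)) := by
  unfold traceL
  rw [LinearMap.sum_apply]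
  rfl

theorem traceL_equivariant (a₀ : R0 →ₗ[ℤ] B) (U : Subgroup G) [U.Normal] [Fintype (G ⧸ U)]
    (h0 : ∀ u ∈ U, ∀ r, ρ0 u r = r) (ha : ∀ u ∈ U, ∀ r, ρB u (a₀ r) = a₀ r) (γ : G) (r : R0) :
    traceL ρB ρ0 a₀ U (ρ0 γ r) = ρB γ (traceL ρB ρ0 a₀ U r) := by
  rw [traceL_apply, traceL_apply, map_sum]
  -- reindex by `c ↦ γ • c`
  have hbij : Function.Bijective (fun c : G ⧸ U => (γ : G ⧸ U) * c) :=
    Group.mulLeft_bijective _
  rw [← Fintype.sum_bijective _ hbij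
    (fun c => ρB γ (ρB (Quotient.out c) (a₀ (ρ0 (Quotient.out c)⁻¹ r))))
    (fun c => ρB (Quotient.out c) (a₀ (ρ0 (Quotient.out c)⁻¹ (ρ0 γ r)))) ?_]
  intro c
  -- `out (γ c)` and `γ out c` differ by an element of `U`
  have h1 : conjL ρB ρ0 a₀ (Quotient.out ((γ : G ⧸ U) * c)) = conjL ρB ρ0 a₀ (γ * Quotient.out c) := by
    have : ((γ : G ⧸ U) * c) = ((γ * Quotient.out c : G) : G ⧸ U) := by
      rw [QuotientGroup.mk_mul, QuotientGroup.out_eq']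
    rw [this]
    exact conjL_out ρB ρ0 a₀ U h0 ha _
  have h2 := LinearMap.congr_fun h1 (ρ0 γ r)
  rw [conjL_apply, conjL_apply] at h2
  have e1 : ρ0 (γ * Quotient.out c)⁻¹ (ρ0 γ r) = ρ0 (Quotient.out c)⁻¹ r := by
    rw [← Module.End.mul_apply, ← map_mul]
    have : (γ * Quotient.out c)⁻¹ * γ = (Quotient.out c)⁻¹ := by group
    rw [this]
  rw [h2, e1, map_mul, Module.End.mul_apply]

end main

section fin

variable {G : Type} [Group G] (𝓤 : Levels G) (L1 L' : 𝓤.Lv) (hle : L'.U ≤ L1.U)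
  {B R0 R1 : Type} [AddCommGroup B] [AddCommGroup R0] [AddCommGroup R1]
  (ρB : Representation ℤ G B) (ρ0 : Representation ℤ G R0) (ρ1 : Representation ℤ G R1)

/-- the norm of `K = U1 ⧸ U'` on `B^{U'}`, with values in `B` -/
def normK (x : finLv 𝓤 (Rep.of ρB) L') : B :=
  letI : Fintype ↥(kerK L1.U L'.U) := Fintype.ofFinite _
  ((∑ k : ↥(kerK L1.U L'.U), (finLv 𝓤 (Rep.of ρB) L').ρ (k : G ⧸ L'.U) x :
    finLv 𝓤 (Rep.of ρB) L') : B)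

theorem normK_eq (x : finLv 𝓤 (Rep.of ρB) L') :
    letI : Fintype ↥(kerK L1.U L'.U) := Fintype.ofFinite _
    normK 𝓤 L1 L' ρB x = ∑ k : ↥(kerK L1.U L'.U),
      (((finLv 𝓤 (Rep.of ρB) L').ρ (k : G ⧸ L'.U) x : finLv 𝓤 (Rep.of ρB) L') : B) := by
  unfold normK
  exact Submodule.coe_sum _ _ _

theorem normK_add (x y : finLv 𝓤 (Rep.of ρB) L') :
    normK 𝓤 L1 L' ρB (x + y) = normK 𝓤 L1 L' ρB x + normK 𝓤 L1 L' ρB y := by
  unfold normK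
  simp only [map_add, Finset.sum_add_distrib]
  rfl

/-- every element of `R1` as an element of the finite level (if `U'` acts trivially) -/
def toLv (h1 : ∀ u ∈ L'.U, ∀ r, ρ1 u r = r) (r : R1) : finLv 𝓤 (Rep.of ρ1) L' :=
  ⟨r, fun u => h1 u.1 u.2 r⟩

theorem toLv_coe (h1 : ∀ u ∈ L'.U, ∀ r, ρ1 u r = r) (r : finLv 𝓤 (Rep.of ρ1) L') :
    toLv 𝓤 L' ρ1 h1 (r : R1) = r := rfl

section mainthm

variable [Module.Free ℤ R1] [Module.Finite ℤ R1]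

include hle in
/-- **the norm decomposition**: a norm `N_{G/U'} f` of `f : R1 → B^{U'}` is `a ∘ ι` for a
`G`-equivariant `a : R0 → B`, if `N_{U1/U'} B^{U'} ⊆ p B^{U1}`, `U1` acts trivially on `R0, R1`
and `p R0 ⊆ ι R1`. -/
theorem norm_dec_main (ι : R1 →ₗ[ℤ] R0) (hι : ∀ g r, ι (ρ1 g r) = ρ0 g (ι r))
    (p : ℕ) (mulp : R0 →ₗ[ℤ] R1) (hmulp : ∀ r, mulp (ι r) = p • r)
    (h0 : ∀ u ∈ L1.U, ∀ r, ρ0 u r = r) (h1 : ∀ u ∈ L1.U, ∀ r, ρ1 u r = r)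
    (hnorm : ∀ x : finLv 𝓤 (Rep.of ρB) L', ∃ b' : B, (∀ s ∈ L1.U, ρB s b' = b') ∧
      normK 𝓤 L1 L' ρB x = p • b')
    (f : (finLv 𝓤 (Rep.of ρ1) L') →+ (finLv 𝓤 (Rep.of ρB) L')) :
    letI : Fintype (G ⧸ L'.U) := Fintype.ofFinite _
    ∃ a : R0 →ₗ[ℤ] B, (∀ g r, a (ρ0 g r) = ρB g (a r)) ∧
      ∀ r : finLv 𝓤 (Rep.of ρ1) L', a (ι (r : R1)) =
        ∑ g : G ⧸ L'.U, (((finLv 𝓤 (Rep.of ρB) L').ρ g
          (f ((finLv 𝓤 (Rep.of ρ1) L').ρ g⁻¹ r)) : finLv 𝓤 (Rep.of ρB) L') : B) := by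
  classical
  letI : Fintype (G ⧸ L'.U) := Fintype.ofFinite _
  letI : Fintype (G ⧸ L1.U) := Fintype.ofFinite _
  letI : Fintype ↥(kerK L1.U L'.U) := Fintype.ofFinite _
  have h1' : ∀ u ∈ L'.U, ∀ r, ρ1 u r = r := fun u hu r => h1 u (hle hu) r
  -- `g₁ = N_K ∘ f`
  let g₁ : R1 →ₗ[ℤ] B := AddMonoidHom.toIntLinearMap
    (AddMonoidHom.mk' (fun r => normK 𝓤 L1 L' ρB (f (toLv 𝓤 L' ρ1 h1' r))) (fun r r' => by
      have : toLv 𝓤 L' ρ1 h1' (r + r') = toLv 𝓤 L' ρ1 h1' r + toLv 𝓤 L' ρ1 h1' r' := rfl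
      rw [this, map_add, normK_add]))
  have hg₁ : ∀ r, g₁ r = normK 𝓤 L1 L' ρB (f (toLv 𝓤 L' ρ1 h1' r)) := fun r => rfl
  -- divide by `p` on a basis
  let bas := Module.Free.chooseBasis ℤ R1
  choose b' hb'inv hb'eq using fun i => hnorm (f (toLv 𝓤 L' ρ1 h1' (bas i)))
  let BU1 : Submodule ℤ B := Representation.invariants (ρB.comp L1.U.subtype)
  let f'₀ : R1 →ₗ[ℤ] ↥BU1 := bas.constr ℤ (fun i => ⟨b' i, fun u => hb'inv i u.1 u.2⟩)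
  have hf' : ∀ r, p • ((f'₀ r : ↥BU1) : B) = g₁ r := by
    have : (p : ℤ) • (BU1.subtype ∘ₗ f'₀) = g₁ := by
      apply bas.ext
      intro i
      rw [LinearMap.smul_apply, LinearMap.comp_apply, Module.Basis.constr_basis, hg₁, hb'eq,
        natCast_zsmul]
      rfl
    intro r
    have h2 := LinearMap.congr_fun this r
    rw [LinearMap.smul_apply, natCast_zsmul] at h2
    exact h2
  let a₀ : R0 →ₗ[ℤ] B := BU1.subtype ∘ₗ f'₀ ∘ₗ mulp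
  have ha₀ : ∀ u ∈ L1.U, ∀ r, ρB u (a₀ r) = a₀ r := fun u hu r => (f'₀ (mulp r)).2 ⟨u, hu⟩
  have ha₀ι : ∀ r : R1, a₀ (ι r) = g₁ r := by
    intro r
    show ((f'₀ (mulp (ι r)) : ↥BU1) : B) = g₁ r
    rw [hmulp, map_nsmul, ← hf']
    rfl
  refine ⟨traceL ρB ρ0 a₀ L1.U, fun g r => traceL_equivariant ρB ρ0 a₀ L1.U h0 ha₀ g r, ?_⟩
  intro r
  rw [traceL_apply, sum_decMap L1.U L'.U hle]
  refine Finset.sum_congr rfl (fun c _ => ?_)
  -- the inner sum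
  have hr_c : a₀ (ρ0 (Quotient.out c)⁻¹ (ι (r : R1))) =
      normK 𝓤 L1 L' ρB (f ((finLv 𝓤 (Rep.of ρ1) L').ρ
        ((Quotient.out c : G) : G ⧸ L'.U)⁻¹ r)) := by
    rw [← hι, ha₀ι, hg₁]
    rfl
  rw [hr_c, normK_eq, map_sum]
  refine Finset.sum_congr rfl (fun k _ => ?_)
  -- `K` acts trivially on `R1`
  have hk : (finLv 𝓤 (Rep.of ρ1) L').ρ ((k : G ⧸ L'.U))⁻¹ = 1 := by
    obtain ⟨u, hu, huk⟩ := k.2
    apply LinearMap.ext
    intro x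
    apply Subtype.ext
    rw [← huk]
    show ((finLv 𝓤 (Rep.of ρ1) L').ρ ((u⁻¹ : G) : G ⧸ L'.U) x : finLv 𝓤 (Rep.of ρ1) L').1 = x.1
    exact h1 u⁻¹ (L1.U.inv_mem hu) x.1
  unfold decMap
  simp only
  rw [mul_inv_rev, map_mul, map_mul, hk, one_mul]
  rfl

end mainthm

end fin

end H14PT

end
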