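/-
W2-C (S55) block E wiring (helper14): `CMB S p → C3B S p → TAlpha1 S p`.
Finite-level core: helper26's `H26NT.h26nt_alpha1`; the norm term is absorbed with `norm_dec_main`
at a level where norms are `p`-th multiples (C3B).
-/
import Mathlib
import Fermat.Agent.CFT2.E.Interface
import Fermat.Agent.CFT2.E.NormDec
import Fermat.Agent.CFT2.E.W_tng_helper15
import Fermat.Agent.CFT2.D.InflMap_helper15
import Fermat.Agent.CFT2.D.InflInjP_helper15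
import Fermat.Agent.CFT2.A.NTAlpha_helper26
import Fermat.Agent.CFT2.A.W3SylFinal_helper25

set_option autoImplicit false
set_option linter.style.haveILetI false
set_option linter.unusedVariables false
set_option linter.unusedSectionVars false

noncomputable section

namespace H14PT

open H15D H15F ExtCitation H24G groupCohomology

local notation "Qb" => AlgebraicClosure ℚ
local notation "GQ" => (AlgebraicClosure ℚ ≃ₐ[ℚ] AlgebraicClosure ℚ)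

section norm

variable {G : Type} [Group G] [Finite G] {R V : Type} [AddCommGroup R] [AddCommGroup V]
  (ρR : Representation ℤ G R) (ρV : Representation ℤ G V)

theorem normOf_homRep_apply (f : R →ₗ[ℤ] V) (r : R) :
    letI : Fintype G := Fintype.ofFinite G
    (H20A.normOf (H20A.homRep ρR ρV) f : R →ₗ[ℤ] V) r = ∑ g : G, ρV g (f (ρR g⁻¹ r)) := by
  letI : Fintype G := Fintype.ofFinite G
  show ((Representation.norm (H20A.homRep ρR ρV)) f : R →ₗ[ℤ] V) r = _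
  unfold Representation.norm
  rw [LinearMap.sum_apply, LinearMap.sum_apply]
  rfl

end norm

section generic

variable {G : Type} [Group G] (𝓤 : Levels G)
  {R0 R1 B : Type} [AddCommGroup R0] [AddCommGroup R1] [AddCommGroup B]
  (ρ0 : Representation ℤ G R0) (ρ1 : Representation ℤ G R1) (ρB : Representation ℤ G B)

/-- a linear map between level-trivial/invariant parts at the finite level -/
def finMap (L : 𝓤.Lv) (φ : R1 →ₗ[ℤ] B) (hφ : ∀ g r, φ (ρ1 g r) = ρB g (φ r)) :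
    (finLv 𝓤 (Rep.of ρ1) L) →+ (finLv 𝓤 (Rep.of ρB) L) :=
  AddMonoidHom.mk' (fun x => (⟨φ x.1, fun u => by
      show ρB u.1 (φ x.1) = φ x.1
      rw [← hφ]
      exact congrArg φ (x.2 u)⟩ : finLv 𝓤 (Rep.of ρB) L))
    (fun x y => by
      apply Subtype.ext
      exact map_add φ x.1 y.1)

theorem finMap_coe (L : 𝓤.Lv) (φ : R1 →ₗ[ℤ] B) (hφ : ∀ g r, φ (ρ1 g r) = ρB g (φ r))
    (x : finLv 𝓤 (Rep.of ρ1) L) :
    ((finMap 𝓤 ρ1 ρB L φ hφ x : finLv 𝓤 (Rep.of ρB) L) : B) = φ (x : R1) := rfl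

theorem finMap_comm (L : 𝓤.Lv) (φ : R1 →ₗ[ℤ] B) (hφ : ∀ g r, φ (ρ1 g r) = ρB g (φ r))
    (g : G ⧸ L.U) (x : finLv 𝓤 (Rep.of ρ1) L) :
    finMap 𝓤 ρ1 ρB L φ hφ ((finLv 𝓤 (Rep.of ρ1) L).ρ g x)
      = (finLv 𝓤 (Rep.of ρB) L).ρ g (finMap 𝓤 ρ1 ρB L φ hφ x) := by
  obtain ⟨g, rfl⟩ := QuotientGroup.mk_surjective g
  apply Subtype.ext
  exact hφ g x.1

section main

variable [Module.Free ℤ R0] [Module.Finite ℤ R0] [Module.Free ℤ R1] [Module.Finite ℤ R1]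

set_option maxHeartbeats 1600000 in
/-- **ALPHA1, generic form** -/
theorem alpha1_generic (p : ℕ) [Fact p.Prime]
    (ι : R1 →ₗ[ℤ] R0) (hι : ∀ g r, ι (ρ1 g r) = ρ0 g (ι r))
    (mulp : R0 →ₗ[ℤ] R1) (hmulp : ∀ r, mulp (ι r) = p • r)
    (L1 L' : 𝓤.Lv) (hle : L'.U ≤ L1.U)
    (h0 : ∀ u ∈ L1.U, ∀ r, ρ0 u r = r) (h1 : ∀ u ∈ L1.U, ∀ r, ρ1 u r = r)
    (hnorm : ∀ x : finLv 𝓤 (Rep.of ρB) L', ∃ b' : B, (∀ s ∈ L1.U, ρB s b' = b') ∧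
      normK 𝓤 L1 L' ρB x = p • b')
    (γ : groupCohomology (finLv 𝓤 (Rep.of ρB) L') 2)
    (hγ : H20A.IsPClassModule p (finLv 𝓤 (Rep.of ρB) L') γ)
    (hv : ∀ L'' : 𝓤.Lv, L''.U ≤ L'.U → PVanishH1 𝓤 (Rep.of ρB) p L'')
    (b : (hm ρ1 ρB).ρ.invariants)
    (hb0 : ∀ u : lcH2 𝓤 (Rep.of ρ1), (PP.ofLinear 𝓤 (A := Rep.of ρ1) (B := Rep.of ρ0) ι hι).H2 u = 0 →
      (ofInv ρ1 ρB 𝓤 b).H2 u = 0) :
    ∃ m : ℕ, m.Coprime p ∧ ∃ a : (hm ρ0 ρB).ρ.invariants,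
      m • (b : R1 →ₗ[ℤ] B) = (a : R0 →ₗ[ℤ] B) ∘ₗ ι := by
  classical
  have h0' : ∀ u ∈ L'.U, ∀ r, ρ0 u r = r := fun u hu r => h0 u (hle hu) r
  have h1' : ∀ u ∈ L'.U, ∀ r, ρ1 u r = r := fun u hu r => h1 u (hle hu) r
  have hbeq : ∀ g x, (b : R1 →ₗ[ℤ] B) (ρ1 g x) = ρB g ((b : R1 →ₗ[ℤ] B) x) :=
    (mem_hm_invariants_iff ρ1 ρB _).1 b.2
  -- the finite-level maps
  obtain ⟨ι', hι'def⟩ : ∃ x : (finLv 𝓤 (Rep.of ρ1) L') →+ (finLv 𝓤 (Rep.of ρ0) L'),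
    x = finMap 𝓤 ρ1 ρ0 L' ι hι := ⟨_, rfl⟩
  have hι' : ∀ (g : G ⧸ L'.U) (r : finLv 𝓤 (Rep.of ρ1) L'),
      ι' ((finLv 𝓤 (Rep.of ρ1) L').ρ g r) = (finLv 𝓤 (Rep.of ρ0) L').ρ g (ι' r) := by
    rw [hι'def]; exact finMap_comm 𝓤 ρ1 ρ0 L' ι hι
  have hι'c : ∀ x : finLv 𝓤 (Rep.of ρ1) L', ((ι' x : finLv 𝓤 (Rep.of ρ0) L') : R0) = ι (x : R1) := by
    rw [hι'def]; exact fun x => rfl
  obtain ⟨b', hb'def⟩ : ∃ x : (finLv 𝓤 (Rep.of ρ1) L') →+ (finLv 𝓤 (Rep.of ρB) L'),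
    x = finMap 𝓤 ρ1 ρB L' (b : R1 →ₗ[ℤ] B) hbeq := ⟨_, rfl⟩
  have hb' : ∀ (g : G ⧸ L'.U) (r : finLv 𝓤 (Rep.of ρ1) L'),
      b' ((finLv 𝓤 (Rep.of ρ1) L').ρ g r) = (finLv 𝓤 (Rep.of ρB) L').ρ g (b' r) := by
    rw [hb'def]; exact finMap_comm 𝓤 ρ1 ρB L' (b : R1 →ₗ[ℤ] B) hbeq
  have hb'c : ∀ x : finLv 𝓤 (Rep.of ρ1) L',
      ((b' x : finLv 𝓤 (Rep.of ρB) L') : B) = (b : R1 →ₗ[ℤ] B) (x : R1) := by
    rw [hb'def]; exact fun x => rfl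
  have hker : ∀ u : groupCohomology (Rep.of ((Rep.of ρ1).ρ.quotientToInvariants L'.U)) 2,
      (∃ k : ℕ, (p ^ k) • u = 0) →
      H20A.cohMap (H20A.repHom _ _ ι' hι') 2 u = 0 →
      H20A.cohMap (H20A.repHom _ _ b' hb') 2 u = 0 := by
    intro u hu hu0
    have key1 := infl₂_ofLinear (𝓤 := 𝓤) (A := Rep.of ρ1) (B := Rep.of ρ0) ι hι L'
      (H20A.repHom _ _ ι' hι') (fun a => hι'c a) u
    have key2 := infl₂_ofLinear (𝓤 := 𝓤) (A := Rep.of ρ1) (B := Rep.of ρB)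
      (b : R1 →ₗ[ℤ] B) hbeq L' (H20A.repHom _ _ b' hb') (fun a => hb'c a) u
    have e1 : (PP.ofLinear 𝓤 (A := Rep.of ρ1) (B := Rep.of ρ0) ι hι).H2
        (infl₂ 𝓤 (Rep.of ρ1) L' u) = 0 := by
      rw [key1]
      exact (congrArg (infl₂ 𝓤 (Rep.of ρ0) L') hu0).trans (map_zero _)
    have e2 := hb0 _ e1
    have e3 : infl₂ 𝓤 (Rep.of ρB) L' (H20A.cohMap (H20A.repHom _ _ b' hb') 2 u) = 0 := by
      rw [← e2]; exact key2.symm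
    refine infl₂_inj_pPart p L' hv _ ?_ e3
    obtain ⟨k, hk⟩ := hu
    exact ⟨k, by rw [← map_nsmul, hk, map_zero]⟩
  obtain ⟨m, a', ha', f, hm, hmf⟩ := H26NT.h26nt_alpha1 p
    ((Rep.of ρB).ρ.quotientToInvariants L'.U) ((Rep.of ρ0).ρ.quotientToInvariants L'.U)
    ((Rep.of ρ1).ρ.quotientToInvariants L'.U)
    (H25Syl.helper25_ntRight _) (H25Syl.helper25_ntLeft _) γ hγ ι' hι' b' hb' hker
  obtain ⟨a'', ha'', hsum⟩ := norm_dec_main 𝓤 L1 L' hle ρB ρ0 ρ1 ι hι p mulp hmulp h0 h1 hnorm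
    f.toAddMonoidHom
  obtain ⟨a1, ha1def⟩ : ∃ x : R0 →ₗ[ℤ] B, x = H15W.liftLv 𝓤 ρ0 ρB L' h0' a' := ⟨_, rfl⟩
  have ha1 : ∀ g r, a1 (ρ0 g r) = ρB g (a1 r) := by
    rw [ha1def]; exact H15W.liftLv_comm 𝓤 ρ0 ρB L' h0' a' ha'
  have ha1c : ∀ r : R0, a1 r = ((a' ⟨r, H15W.mem_inv_of_triv 𝓤 ρ0 L' h0' r⟩ : _) : B) := by
    rw [ha1def]; exact fun r => rfl
  refine ⟨m, hm, ⟨a1 + a'', (mem_hm_invariants_iff ρ0 ρB _).2 (fun g r => by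
    rw [LinearMap.add_apply, LinearMap.add_apply, ha1, ha'', map_add])⟩, ?_⟩
  apply LinearMap.ext
  intro r
  have h := hmf (toLv 𝓤 L' ρ1 h1' r)
  have h2 := congrArg Subtype.val h
  have h3 := hsum (toLv 𝓤 L' ρ1 h1' r)
  rw [normOf_homRep_apply] at h2
  have e1 : ι' (toLv 𝓤 L' ρ1 h1' r) = ⟨ι r, H15W.mem_inv_of_triv 𝓤 ρ0 L' h0' (ι r)⟩ :=
    Subtype.ext (hι'c _)
  have e2 : ((m • b' (toLv 𝓤 L' ρ1 h1' r) : finLv 𝓤 (Rep.of ρB) L') : B)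
      = m • (b : R1 →ₗ[ℤ] B) r := by
    have e3 : (b : R1 →ₗ[ℤ] B) r = ((b' (toLv 𝓤 L' ρ1 h1' r) : finLv 𝓤 (Rep.of ρB) L') : B) :=
      (hb'c (toLv 𝓤 L' ρ1 h1' r)).symm
    rw [e3]
    rfl
  show m • (b : R1 →ₗ[ℤ] B) r = a1 (ι r) + a'' (ι r)
  have h3' : a'' (ι r) = _ := h3
  rw [← e2, h2, ha1c, ← e1, h3']
  exact (Submodule.coe_add _ _).trans (congrArg _ (Submodule.coe_sum _ _ _))

end main

end generic

variable {S : Finset Nat.Primes} {p : ℕ} [Fact p.Prime]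

/-- **W-alpha1**: `CMB S p → C3B S p → TAlpha1 S p` -/
theorem tAlpha1_of (hcm : CMB S p) (hc3 : C3B S p) : TAlpha1 S p := by
  intro N _ _ ρN hlt pN b hb0
  obtain ⟨U0, hU0, h0fix⟩ := isLevelTriv_R0 hlt
  obtain ⟨U1', hU1', h1fix⟩ := isLevelTriv_R1 hlt
  obtain ⟨L₀, hL₀⟩ := hcm
  obtain ⟨La, ha1, ha2⟩ := (levelsS S).exists_lv_le ⟨U0, hU0⟩ ⟨U1', hU1'⟩
  obtain ⟨L1, hc1, hc2⟩ := (levelsS S).exists_lv_le La L₀
  obtain ⟨L', hL', hnorm⟩ := hc3 L1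
  obtain ⟨γ, hγ⟩ := hL₀ L' (hL'.trans hc2)
  have hv : ∀ L'' : (levelsS S).Lv, L''.U ≤ L'.U →
      PVanishH1 (levelsS S) (Rep.of (ρB S)) p L'' := by
    intro L'' hL''
    obtain ⟨γ', hγ'⟩ := hL₀ L'' (hL''.trans (hL'.trans hc2))
    exact H15W.pVanish_of_pClass S L'' γ' hγ'
  have h0 : ∀ u ∈ L1.U, ∀ r, ρR0 ρN u r = r := fun u hu r => h0fix u (ha1 (hc1 hu)) r
  have h1 : ∀ u ∈ L1.U, ∀ r, ρR1 ρN u r = r := fun u hu r => h1fix u (ha2 (hc1 hu)) r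
  obtain ⟨mulp, hmulp⟩ : ∃ f : R0 N →ₗ[ℤ] R1 N, ∀ r : R1 N, f ((sR hlt).ι r) = p • r :=
    ⟨LinearMap.codRestrict (LinearMap.ker (H24G.π N)) (p • LinearMap.id)
      (fun r => smul_mem_ker p pN r), fun r => Subtype.ext rfl⟩
  have hb0' : ∀ u : lcH2 (levelsS S) (Rep.of (ρR1 ρN)),
      (PP.ofLinear (levelsS S) (A := Rep.of (ρR1 ρN)) (B := Rep.of (ρR0 ρN))
        (sR hlt).ι (sR hlt).ι_comm).H2 u = 0 →
      (ofInv (ρR1 ρN) (ρB S) (levelsS S) b).H2 u = 0 := by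
    intro u hu
    obtain ⟨y, rfl⟩ := ((sR hlt).exact_H2' u).1 hu
    exact hb0 y
  exact alpha1_generic (levelsS S) (ρR0 ρN) (ρR1 ρN) (ρB S) p (sR hlt).ι (sR hlt).ι_comm
    mulp hmulp L1 L' hL' h0 h1 hnorm γ hγ hv b hb0'

end H14PT

end
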