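/-
W2-C (S55) block E (helper14): auxiliary targets for `THp`.

* `TSh2R S` : `TSh2` for `Hom(R0, I)`: a class in `H²_S(Hom(R0, I))` all of whose localisations
  in `H²(G_q, Hom(R0, X q))` vanish is zero;
* `THB1 S p` : `H¹` of an open subgroup `W ≤ GQ` with values in `B` has no `p`-torsion (lc form);
Plan: `THp ⇐ TSh2R + TH90I + THB1` (helper24's `s1_core` for the last step).
-/
import Mathlib
import Fermat.Agent.CFT2.E.Interface

set_option autoImplicit false
set_option linter.style.haveILetI false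
set_option linter.unusedVariables false

noncomputable section

namespace H14PT

open H15D H15F ExtCitation H24G groupCohomology

local notation "Qb" => AlgebraicClosure ℚ
local notation "GQ" => (AlgebraicClosure ℚ ≃ₐ[ℚ] AlgebraicClosure ℚ)

/-- primes are prime. -/
local instance factPrimeOfPrimesT2 (q : Nat.Primes) : Fact (q : ℕ).Prime := ⟨q.2⟩

variable (S : Finset Nat.Primes) (p : ℕ)

/-- (SH2R) `TSh2` for `Hom(R0, I)` -/
def TSh2R : Prop := ∀ {N : Type} [AddCommGroup N] [Finite N] (ρN : Representation ℤ GQ N),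
  IsLevelTriv ρN (levelsS S) → ∀ z : lcH2 (levelsS S) (hm (ρR0 ρN) (ρI S)),
    (∀ q : S, (prHq S (ρR0 ρN) q).H2 z = 0) → z = 0

/-- (HB1) no `p`-torsion in `H¹(W, B)` for open subgroups `W` (level-constant cochains) -/
def THB1 : Prop := ∀ (W : Subgroup GQ), (∃ U ∈ (levelsS S).sets, U ≤ W) →
  ∀ f : GQ → (Additive (ideles S) ⧸ imE S), IsLC₁ (levelsS S) f →
    (∀ s t, s ∈ W → t ∈ W → f (s * t) = ρB S s (f t) + f s) →
    (∃ x₀ : Additive (ideles S) ⧸ imE S, ∀ s ∈ W, p • f s = ρB S s x₀ - x₀) →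
    ∃ x : Additive (ideles S) ⧸ imE S, ∀ s ∈ W, f s = ρB S s x - x

end H14PT

end
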