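/-
W2-C (S55) block E wiring (helper25): **W-hb1** `CMB S p → THB1 S p`.

A level-constant cocycle `f` on an open subgroup `W ≤ GQ` with values in `B = I/E` such that
`p • f` is a coboundary on `W` is a coboundary on `W`:
descend to a finite level `U ≤ W`; the class in `H¹(W/U, B^U)` is `p`-torsion; restriction to a
Sylow `p`-subgroup of `W/U` is injective on `p`-primary classes (`H26NT.res_injective_pPart`) and
`H¹(P, B^U) = 0` for every `p`-subgroup `P` of `GQ/U` (`CMB`).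
-/
import Mathlib
import Fermat.Agent.CFT2.E.Targets2
import Fermat.Agent.CFT2.A.NTCons_helper26
import Fermat.Agent.CFT2.A.AV1_helper25

set_option autoImplicit false
set_option linter.style.haveILetI false
set_option linter.unusedVariables false
set_option linter.unusedSectionVars false

noncomputable section

namespace H25E

open H15D H15F groupCohomology CategoryTheory H20A

/-- **finite-level core**: if `H¹(P, C) = 0` for all `p`-subgroups `P` of the finite group `G`,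
then `H¹(W, C)` has no `p`-torsion, for every subgroup `W`. -/
theorem hb1_core {G : Type} [Group G] [Finite G] (p : ℕ) [Fact p.Prime] (C : Rep.{0} ℤ G)
    (h1 : ∀ H : Subgroup G, IsPGroup p H → Limits.IsZero (groupCohomology (resSub C H) 1))
    (W : Subgroup G) (v : groupCohomology (resSub C W) 1) (hv : p • v = 0) : v = 0 := by
  obtain ⟨P⟩ : Nonempty (Sylow p W) := inferInstance
  have hP : IsPGroup p (P : Subgroup W) := P.isPGroup'
  have hz : Limits.IsZero (groupCohomology (resSub (resSub C W) (P : Subgroup W)) 1) :=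
    (h1 ((P : Subgroup W).map W.subtype) (hP.map W.subtype)).of_iso
      (H25AV.cohResRes C W (P : Subgroup W) 1)
  refine H26NT.res_injective_pPart p P (resSub C W) 1 v ⟨1, by rwa [pow_one]⟩ ?_
  haveI := (ModuleCat.isZero_iff_subsingleton.1 hz)
  exact Subsingleton.elim _ _

/-- the finite-level core in terms of explicit cocycles -/
theorem hb1_fin {G : Type} [Group G] [Finite G] (p : ℕ) [Fact p.Prime] (C : Rep.{0} ℤ G)
    (h1 : ∀ H : Subgroup G, IsPGroup p H → Limits.IsZero (groupCohomology (resSub C H) 1))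
    (W : Subgroup G) (c : W → C) (hc : ∀ s t : W, c (s * t) = C.ρ (s : G) (c t) + c s)
    (x₀ : C) (hx₀ : ∀ s : W, p • c s = C.ρ (s : G) x₀ - x₀) :
    ∃ x : C, ∀ s : W, c s = C.ρ (s : G) x - x := by
  have hmem : c ∈ cocycles₁ (resSub C W) := (mem_cocycles₁_iff (A := resSub C W) c).2 hc
  set z : cocycles₁ (resSub C W) := ⟨c, hmem⟩ with hz
  have hpz : (H1π (resSub C W)) (p • z) = 0 := by
    rw [H1π_eq_zero_iff]
    refine (mem_coboundaries₁_iff' (A := resSub C W) _).2 ⟨x₀, ?_⟩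
    funext s
    exact (hx₀ s).symm
  have hv : p • (H1π (resSub C W)) z = 0 := by
    rw [← hpz, map_nsmul]
  have h0 := hb1_core p C h1 W _ hv
  rw [H1π_eq_zero_iff] at h0
  obtain ⟨x, hx⟩ := (mem_coboundaries₁_iff' (A := resSub C W) _).1 h0
  exact ⟨x, fun s => (congrFun hx s).symm⟩

/-! ### descent to a finite level -/

section generic

variable {G : Type} [Group G]

/-- **W-hb1, generic form**: for a level structure `𝓤` on `G` and a `G`-module `A` whose finite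
levels `A^U` (for small `U`) have `H¹(P, A^U) = 0` for all `p`-subgroups `P ≤ G/U`: a
level-constant cocycle on a subgroup `W` containing a level, `p` times which is a coboundary on
`W`, is a coboundary on `W`. -/
theorem hb1_generic (𝓤 : Levels G) (A : Rep.{0} ℤ G) (p : ℕ) [Fact p.Prime]
    (hcm : ∃ L₀ : 𝓤.Lv, ∀ L : 𝓤.Lv, L.U ≤ L₀.U → ∀ H : Subgroup (G ⧸ L.U), IsPGroup p H →
      Limits.IsZero (groupCohomology (resSub (finLv 𝓤 A L) H) 1))
    (W : Subgroup G) (hW : ∃ U ∈ 𝓤.sets, U ≤ W) (f : G → A) (hf : IsLC₁ 𝓤 f)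
    (hcoc : ∀ s t, s ∈ W → t ∈ W → f (s * t) = A.ρ s (f t) + f s)
    (hp : ∃ x₀ : A, ∀ s ∈ W, p • f s = A.ρ s x₀ - x₀) :
    ∃ x : A, ∀ s ∈ W, f s = A.ρ s x - x := by
  classical
  obtain ⟨L₀, hL₀⟩ := hcm
  obtain ⟨U₁, hU₁, hU₁W⟩ := hW
  obtain ⟨U₂, hU₂, hU₂f⟩ := hf
  obtain ⟨x₀, hx₀⟩ := hp
  obtain ⟨L₁, h1a, h1b⟩ := 𝓤.exists_lv_le ⟨U₁, hU₁⟩ ⟨U₂, hU₂⟩
  obtain ⟨L, hLL₁, hLL₀⟩ := 𝓤.exists_lv_le L₁ L₀
  have hLW : L.U ≤ W := (hLL₁.trans h1a).trans hU₁W
  have hLf : IsRConst₁ L.U f := fun g s hs => hU₂f g s ((hLL₁.trans h1b) hs)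
  -- `f 1 = 0`
  have hf1 : f 1 = 0 := by
    have h := hcoc 1 1 W.one_mem W.one_mem
    rw [mul_one, map_one] at h
    exact left_eq_add.1 h
  -- `f s = 0` for `s ∈ L.U`
  have hfU : ∀ s ∈ L.U, f s = 0 := fun s hs => by
    have h := hLf 1 s hs
    rw [one_mul] at h
    rw [h, hf1]
  -- the values on `W` are fixed by `L.U`
  have hfix : ∀ t ∈ W, ∀ s ∈ L.U, A.ρ s (f t) = f t := by
    intro t ht s hs
    have h1 := hcoc s t (hLW hs) ht
    have h3 : f (s * t) = f t := by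
      have h := hLf t (t⁻¹ * s * t) (conj_mem_of_normal hs t)
      rwa [show t * (t⁻¹ * s * t) = s * t by group] at h
    rw [h3, hfU s hs, add_zero] at h1
    exact h1.symm
  -- `x₀` is fixed by `L.U`
  have hx₀fix : ∀ s ∈ L.U, A.ρ s x₀ = x₀ := by
    intro s hs
    have h := hx₀ s (hLW hs)
    rw [hfU s hs, smul_zero] at h
    exact sub_eq_zero.1 h.symm
  -- the cochain extended by zero outside `W`
  set f' : G → A := fun g => if g ∈ W then f g else 0 with hf'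
  have hf'W : ∀ g ∈ W, f' g = f g := fun g hg => if_pos hg
  have hf'fix : ∀ g s, s ∈ L.U → A.ρ s (f' g) = f' g := by
    intro g s hs
    by_cases hg : g ∈ W
    · rw [hf'W g hg]
      exact hfix g hg s hs
    · simp only [hf', if_neg hg, map_zero]
  have hf'c : IsRConst₁ L.U f' := by
    intro g s hs
    by_cases hg : g ∈ W
    · have h : g * s ∈ W := W.mul_mem hg (hLW hs)
      rw [hf'W _ h, hf'W _ hg]
      exact hLf g s hs
    · have h : g * s ∉ W := fun h => hg (by simpa using W.mul_mem h (W.inv_mem (hLW hs)))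
      simp only [hf', if_neg hg, if_neg h]
  set fb : G ⧸ L.U → finLv 𝓤 A L := dscFun₁ L f' hf'fix with hfb
  set Wb : Subgroup (G ⧸ L.U) := W.map (QuotientGroup.mk' L.U) with hWb
  have hlift : ∀ w : Wb, ∃ g ∈ W, (g : G ⧸ L.U) = (w : G ⧸ L.U) := fun w => by
    obtain ⟨g, hg, hgw⟩ := Subgroup.mem_map.1 w.2
    exact ⟨g, hg, hgw⟩
  have hfbmk : ∀ g ∈ W, ((fb (g : G ⧸ L.U) : finLv 𝓤 A L) : A) = f g := fun g hg => by
    rw [hfb, dscFun₁_mk L f' hf'fix hf'c g, hf'W g hg]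
  have key := hb1_fin p (finLv 𝓤 A L) (hL₀ L hLL₀) Wb (fun w => fb (w : G ⧸ L.U)) ?_
    ⟨x₀, fun s => hx₀fix s.1 s.2⟩ ?_
  · obtain ⟨x, hx⟩ := key
    refine ⟨(x : A), fun s hs => ?_⟩
    have h := hx ⟨(s : G ⧸ L.U), Subgroup.mem_map_of_mem _ hs⟩
    have h' := congrArg (fun y : finLv 𝓤 A L => (y : A)) h
    simp only at h'
    rw [hfbmk s hs] at h'
    rw [h']
    rfl
  · intro w₁ w₂
    obtain ⟨g₁, hg₁, e₁⟩ := hlift w₁
    obtain ⟨g₂, hg₂, e₂⟩ := hlift w₂
    apply Subtype.ext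
    show ((fb ((w₁ : G ⧸ L.U) * (w₂ : G ⧸ L.U)) : finLv 𝓤 A L) : A) =
      (((finLv 𝓤 A L).ρ (w₁ : G ⧸ L.U) (fb (w₂ : G ⧸ L.U)) + fb (w₁ : G ⧸ L.U) :
        finLv 𝓤 A L) : A)
    rw [← e₁, ← e₂, ← QuotientGroup.mk_mul, hfbmk _ (W.mul_mem hg₁ hg₂), Submodule.coe_add,
      finLv_ρ_mk, hfbmk _ hg₁, hfbmk _ hg₂]
    exact hcoc g₁ g₂ hg₁ hg₂
  · intro w
    obtain ⟨g, hg, e⟩ := hlift w
    apply Subtype.ext
    show ((p • fb (w : G ⧸ L.U) : finLv 𝓤 A L) : A) =
      (((finLv 𝓤 A L).ρ (w : G ⧸ L.U) ⟨x₀, fun s => hx₀fix s.1 s.2⟩ -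
        (⟨x₀, fun s => hx₀fix s.1 s.2⟩ : finLv 𝓤 A L) : finLv 𝓤 A L) : A)
    rw [← e, Submodule.coe_sub, finLv_ρ_mk, Submodule.coe_smul_of_tower, hfbmk _ hg]
    exact hx₀ g hg

end generic

/-! ### the wiring slice -/

/-- **W-hb1**: `CMB S p → THB1 S p`. -/
theorem h25e_hb1 (S : Finset Nat.Primes) (p : ℕ) [Fact p.Prime] (h : H14PT.CMB S p) :
    H14PT.THB1 S p := by
  intro W hW f hf hcoc hp
  obtain ⟨L₀, hL₀⟩ := h
  exact hb1_generic (levelsS S) (Rep.of (H14PT.ρB S)) p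
    ⟨L₀, fun L hL H hH => (hL₀ L hL).choose_spec.h1 H hH⟩ W hW f hf hcoc hp

end H25E

end
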