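/-
W2-C (S55) block E, wiring slice W-hp (helper12):
`H12HP.hp_of : S.Nonempty → TSh2R S → TH90I S → THB1 S p → THp S p`
(lc chase with `sB0 = hmSES (sEIB S hS) (ρR0 ρN)`: `ι_* u` is locally trivial, so `0` (TSh2R); `u = δ v`;
`p v` comes from `H¹(Hom(R0, I)) = 0` (TH90I); the stabiliser cocycles of `v` are `p`-torsion, hence
coboundaries (THB1), and `v = 0` by `H24G.s1_core`).
-/
import Fermat.Agent.CFT2.E.Targets2
import Fermat.Agent.CFT2.E.S1_helper24
import Fermat.Agent.CFT2.D.Exact_helper15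

set_option autoImplicit false
set_option linter.style.haveILetI false
set_option linter.unusedVariables false
set_option linter.unusedSectionVars false

noncomputable section

namespace H12HP

open H15D H15F ExtCitation H24G H14PT groupCohomology

local notation "Qb" => AlgebraicClosure ℚ
local notation "GQ" => (AlgebraicClosure ℚ ≃ₐ[ℚ] AlgebraicClosure ℚ)

/-- primes are prime. -/
local instance factPrimeOfPrimesHP (q : Nat.Primes) : Fact (q : ℕ).Prime := ⟨q.2⟩

variable (S : Finset Nat.Primes) (p : ℕ)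

/-- the localisation of `ι_* u` is the localisation of `u` -/
theorem loc_ι (hS : S.Nonempty) {N : Type} [AddCommGroup N] [Finite N]
    (ρN : Representation ℤ GQ N) (hlt : IsLevelTriv ρN (levelsS S)) (q : S)
    (u : lcH2 (levelsS S) (hm (ρR0 ρN) (ρE S))) :
    (prHq S (ρR0 ρN) q).H2 ((hmSES (sEIB S hS) (ρR0 ρN) (isLevelTriv_R0 hlt)).Pι.H2 u) =
      (lamq S (ρR0 ρN) q).H2 u := by
  rw [← PP.comp_H2]
  apply PP.H2_congr
  · rfl
  · rfl

/-- a `p`-torsion class of `H¹_S(Hom(R0, B))` vanishes -/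
theorem h1_hom_B_torsion (hb1 : THB1 S p) {N : Type} [AddCommGroup N] [Finite N]
    (ρN : Representation ℤ GQ N) (hlt : IsLevelTriv ρN (levelsS S))
    (v : lcH1 (levelsS S) (hm (ρR0 ρN) (ρB S))) (hv : p • v = 0) : v = 0 := by
  obtain ⟨⟨c, hc, hlc⟩, rfl⟩ := lcH1π_surjective v
  have hpv : lcH1π (levelsS S) (hm (ρR0 ρN) (ρB S)) (p • ⟨c, hc, hlc⟩) = 0 := by
    rw [map_nsmul]; exact hv
  rw [lcH1π_eq_zero_iff] at hpv
  obtain ⟨m₀, hm₀⟩ := hpv
  rw [lcH1π_eq_zero_iff]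
  obtain ⟨U, hU, hUN⟩ := hlt
  have hstab : ∀ n : N, ∃ x : Additive (ideles S) ⧸ imE S, ∀ s : GQ, ρN s n = n →
      c s (Finsupp.single n 1) = ρB S s x - x := by
    intro n
    refine hb1 (stab ρN n) ⟨U, hU, fun s hs => hUN s hs n⟩
      (fun g => c g (Finsupp.single n 1))
      (hlc.comp (fun φ : R0 N →ₗ[ℤ] (Additive (ideles S) ⧸ imE S) => φ (Finsupp.single n 1)))
      ?_ ?_
    · intro s t hs ht
      have hs' : ρN s⁻¹ n = n := (stab ρN n).inv_mem hs
      have := val_mul hc s t n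
      rw [hs'] at this
      exact this
    · refine ⟨m₀ (Finsupp.single n 1), fun s hs => ?_⟩
      have h1 := congrFun hm₀ s
      have h2 := congrArg (fun φ : R0 N →ₗ[ℤ] (Additive (ideles S) ⧸ imE S) =>
        φ (Finsupp.single n 1)) h1
      have hs' : ρN s⁻¹ n = n := (stab ρN n).inv_mem hs
      have h3 : ((d₀₁ (hm (ρR0 ρN) (ρB S))).hom m₀ s : R0 N →ₗ[ℤ] (Additive (ideles S) ⧸ imE S))
          (Finsupp.single n 1) = ρB S s (m₀ (Finsupp.single n 1)) - m₀ (Finsupp.single n 1) := by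
        rw [d₀₁_apply']
        show ((hm (ρR0 ρN) (ρB S)).ρ s m₀ : R0 N →ₗ[ℤ] (Additive (ideles S) ⧸ imE S))
          (Finsupp.single n 1) - m₀ (Finsupp.single n 1) = _
        rw [hm_ρ_apply, ρR0_single, hs']
      rw [← h3]
      exact h2.symm
  obtain ⟨m, hm'⟩ := s1_core ρN (ρB S) hc hstab
  refine ⟨m, ?_⟩
  funext g
  exact (hm' g).symm

/-- **(W-hp)** -/
theorem hp_of (hS : S.Nonempty) (hsh : TSh2R S) (h90 : TH90I S) (hb1 : THB1 S p) : THp S p := by
  intro N _ _ ρN hlt hpN u hpu hloc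
  set sB0 := hmSES (sEIB S hS) (ρR0 ρN) (isLevelTriv_R0 hlt) with hsB0
  -- step 1
  have h1 : sB0.Pι.H2 u = 0 := by
    apply hsh ρN hlt
    intro q
    rw [hsB0, loc_ι S hS ρN hlt q u]
    exact hloc q
  -- step 2
  obtain ⟨v, hv⟩ := (sB0.exact_H2' u).1 h1
  -- step 3
  have h3 : sB0.δ₁ (p • v) = 0 := by
    rw [map_nsmul, hv]; exact hpu
  obtain ⟨w, hw⟩ := (sB0.exact_H1'' (p • v)).1 h3
  have hw0 : w = 0 := h90 ρN hlt w
  have hpv : p • v = 0 := by
    rw [← hw, hw0, map_zero]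
  -- step 4
  have hv0 : v = 0 := h1_hom_B_torsion S p hb1 ρN hlt v hpv
  rw [← hv, hv0, map_zero]

end H12HP
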