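/-
W2-C (S55) block E, slice W-shR (helper15): "coinduced-like" modules in the level-constant setting.

`LCCoind 𝓤 loc ρA ρX pr` : the map `A → ∏_q Coind^{lc}_{H_q}(X_q)`, `a ↦ (x ↦ pr_q (x a))`, is
bijective onto the families that are `H_q`-equivariant and constant modulo a level (inserted
anywhere).  Consequences:
* `LCCoind.sh1` : Shapiro injectivity in degree 1, in cocycle form (`c = dF` if all localisations
  of `c` are coboundaries);
* `LCCoind.hom` : the projection formula: `Hom(R, A)` is again coinduced-like (for `Hom(R|, X_q)`)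
  if `R` is level-trivial.
-/
import Mathlib
import Fermat.Agent.CFT2.E.Hom

set_option autoImplicit false
set_option linter.style.haveILetI false
set_option linter.unusedVariables false
set_option linter.unusedSectionVars false

noncomputable section

namespace H15SH

open H15D H15F H14PT groupCohomology

variable {G : Type} [Group G] (𝓤 : Levels G) {Q : Type} {H : Q → Type} [∀ q, Group (H q)]
  (loc : ∀ q, H q →* G)
  {A : Type} [AddCommGroup A] (ρA : Representation ℤ G A)
  {X : Q → Type} [∀ q, AddCommGroup (X q)] (ρX : ∀ q, Representation ℤ (H q) (X q))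
  (pr : ∀ q, A →ₗ[ℤ] X q)

/-- `A` is the level-constant coinduction of the `X q` along `loc q`, via `pr q` -/
structure LCCoind : Prop where
  comm : ∀ q (τ : H q) (a : A), pr q (ρA (loc q τ) a) = ρX q τ (pr q a)
  ext : ∀ a : A, (∀ q (x : G), pr q (ρA x a) = 0) → a = 0
  glue : ∀ U ∈ 𝓤.sets, ∀ Φ : ∀ q, G → X q,
    (∀ q τ g, Φ q (loc q τ * g) = ρX q τ (Φ q g)) →
    (∀ q g g' s, s ∈ U → Φ q (g * s * g') = Φ q (g * g')) →
    ∃ a : A, ∀ q x, pr q (ρA x a) = Φ q x

variable {𝓤 loc ρA ρX pr}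

theorem LCCoind.ext_eq (h : LCCoind 𝓤 loc ρA ρX pr) {a a' : A}
    (haa : ∀ q x, pr q (ρA x a) = pr q (ρA x a')) : a = a' := by
  have := h.ext (a - a') (fun q x => by rw [map_sub, map_sub, haa, sub_self])
  exact sub_eq_zero.1 this

theorem rho_mul_apply' (g g' : G) (a : A) : ρA (g * g') a = ρA g (ρA g' a) := by
  rw [map_mul]; rfl

theorem conj_mem' {U : Subgroup G} [U.Normal] {s : G} (hs : s ∈ U) (g : G) :
    g⁻¹ * s * g ∈ U := by
  have := Subgroup.Normal.conj_mem (inferInstance : U.Normal) s hs g⁻¹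
  rwa [inv_inv] at this

/-- **Shapiro injectivity in degree 1** (cocycle form) -/
theorem LCCoind.sh1 (h : LCCoind 𝓤 loc ρA ρX pr) (c : G → A)
    (hc : ∀ g g', c (g * g') = ρA g (c g') + c g) (hlc : IsLC₁ 𝓤 c)
    (m : ∀ q, X q) (hm : ∀ q τ, pr q (c (loc q τ)) = ρX q τ (m q) - m q) :
    ∃ F : A, ∀ g, c g = ρA g F - F := by
  obtain ⟨U, hU, hUc⟩ := hlc
  haveI := 𝓤.normal U hU
  obtain ⟨F, hF⟩ := h.glue U hU (fun q x => pr q (c x) + m q)
    (fun q τ g => by
      show pr q (c (loc q τ * g)) + m q = ρX q τ (pr q (c g) + m q)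
      rw [hc, map_add, h.comm, hm, map_add]; abel)
    (fun q g g' s hs => by
      show pr q (c (g * s * g')) + m q = pr q (c (g * g')) + m q
      have e : g * s * g' = g * g' * (g'⁻¹ * s * g') := by group
      rw [e, hUc _ _ (conj_mem' hs g')])
  refine ⟨F, fun g => h.ext_eq (fun q x => ?_)⟩
  rw [map_sub, map_sub, ← rho_mul_apply', hF, hF]
  show pr q (ρA x (c g)) = pr q (c (x * g)) + m q - (pr q (c x) + m q)
  rw [hc x g, map_add]; abel

/-- post-composition `Hom(R, A) → Hom(R, X)` -/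
def postL {R A' X' : Type} [AddCommGroup R] [AddCommGroup A'] [AddCommGroup X']
    (φ : A' →ₗ[ℤ] X') : (R →ₗ[ℤ] A') →ₗ[ℤ] (R →ₗ[ℤ] X') where
  toFun f := φ ∘ₗ f
  map_add' f f' := by apply LinearMap.ext; intro x; simp
  map_smul' a f := by apply LinearMap.ext; intro x; simp

@[simp] theorem postL_apply {R A' X' : Type} [AddCommGroup R] [AddCommGroup A']
    [AddCommGroup X'] (φ : A' →ₗ[ℤ] X') (f : R →ₗ[ℤ] A') (x : R) :
    (postL φ f : R →ₗ[ℤ] X') x = φ (f x) := rfl

theorem linHom_apply' {R : Type} [AddCommGroup R] (ρR : Representation ℤ G R) (g : G)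
    (f : R →ₗ[ℤ] A) (x : R) :
    (Representation.linHom ρR ρA g f : R →ₗ[ℤ] A) x = ρA g (f (ρR g⁻¹ x)) := rfl

/-- **projection formula**: `Hom(R, A)` is coinduced-like for `Hom(R|, X q)` -/
theorem LCCoind.hom (h : LCCoind 𝓤 loc ρA ρX pr) {R : Type} [AddCommGroup R]
    (ρR : Representation ℤ G R) (hR : IsLevelTriv ρR 𝓤) :
    LCCoind 𝓤 loc (Representation.linHom ρR ρA)
      (fun q => Representation.linHom (ρR.comp (loc q)) (ρX q)) (fun q => postL (pr q)) := by
  refine ⟨fun q τ a => ?_, fun a ha => ?_, fun U hU Φ hΦ1 hΦ2 => ?_⟩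
  · apply LinearMap.ext
    intro r
    rw [postL_apply, linHom_apply', linHom_apply', postL_apply, h.comm]
    simp only [MonoidHom.comp_apply, map_inv]
  · apply LinearMap.ext
    intro r
    refine h.ext (a r) (fun q x => ?_)
    have h1 := congrArg (fun φ : R →ₗ[ℤ] X q => φ (ρR x r)) (ha q x)
    simp only [postL_apply, linHom_apply', LinearMap.zero_apply] at h1
    rw [rho_inv_rho] at h1
    exact h1
  · obtain ⟨UR, hUR, hRt⟩ := hR
    obtain ⟨U', hU', hle⟩ := 𝓤.directed U hU UR hUR
    haveI := 𝓤.normal U' hU'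
    have key : ∀ r : R, ∃ a : A, ∀ q x, pr q (ρA x a) = Φ q x (ρR x r) := by
      intro r
      refine h.glue U' hU' (fun q x => Φ q x (ρR x r)) (fun q τ g => ?_) (fun q g g' s hs => ?_)
      · show Φ q (loc q τ * g) (ρR (loc q τ * g) r) = ρX q τ (Φ q g (ρR g r))
        rw [hΦ1, linHom_apply']
        simp only [MonoidHom.comp_apply, map_inv]
        rw [rho_mul_apply', rho_inv_rho]
      · show Φ q (g * s * g') (ρR (g * s * g') r) = Φ q (g * g') (ρR (g * g') r)
        rw [hΦ2 q g g' s (hle hs).1]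
        have e : g * s * g' = g * g' * (g'⁻¹ * s * g') := by group
        rw [e, rho_mul_apply' (ρA := ρR) (g * g'), hRt _ (hle (conj_mem' hs g')).2]
    choose a ha using key
    have hadd : ∀ r r', a (r + r') = a r + a r' := by
      intro r r'
      refine h.ext_eq (fun q x => ?_)
      rw [map_add, map_add, ha, ha, ha, map_add, map_add]
    refine ⟨(AddMonoidHom.mk' a hadd).toIntLinearMap, fun q x => ?_⟩
    apply LinearMap.ext
    intro r
    rw [postL_apply, linHom_apply']
    show pr q (ρA x (a (ρR x⁻¹ r))) = Φ q x r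
    rw [ha, rho_rho_inv]

end H15SH

end
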