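/-
W2-C (S55) block E, slice W-shR (helper15): from the level-constant coinduced-like structure
`H15SH.LCCoind` to the finite levels: `A^U` is coinduced-like (`H12SA.IsCoindLike`) for the
`(X q)^{V_q}`, `V_q = loc_q⁻¹ U`; consequence: Shapiro injectivity in degree 2 for `lcH2`
(`LCCoind.sh2`), given the local Hilbert 90 on the `V_q`.
-/
import Mathlib
import Fermat.Agent.CFT2.E.ShLC_helper15
import Fermat.Agent.CFT2.E.W_sh2_helper12
import Fermat.Agent.CFT2.E.ShAbs_helper12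

set_option autoImplicit false
set_option linter.style.haveILetI false
set_option linter.unusedVariables false
set_option linter.unusedSectionVars false

noncomputable section

namespace H15SH

open H15D H15F H14PT groupCohomology CategoryTheory

variable {G : Type} [Group G] (𝓤 : Levels G) {Q : Type} {H : Q → Type} [∀ q, Group (H q)]
  (𝓥 : ∀ q, Levels (H q)) (loc : ∀ q, H q →* G)
  {A : Type} [AddCommGroup A] (ρA : Representation ℤ G A)
  {X : Q → Type} [∀ q, AddCommGroup (X q)] (ρX : ∀ q, Representation ℤ (H q) (X q))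
  (pr : ∀ q, A →ₗ[ℤ] X q)
  (L : 𝓤.Lv) (hV : ∀ q, L.U.comap (loc q) ∈ (𝓥 q).sets)

/-- the local level induced by `L` -/
def locLv (q : Q) : (𝓥 q).Lv := ⟨L.U.comap (loc q), hV q⟩

/-- `φ_q : H_q ⧸ V_q →* G ⧸ U` -/
def locφ (q : Q) : H q ⧸ (locLv 𝓤 𝓥 loc L hV q).U →* G ⧸ L.U :=
  QuotientGroup.map (locLv 𝓤 𝓥 loc L hV q).U L.U (loc q) le_rfl

theorem locφ_mk (q : Q) (τ : H q) :
    locφ 𝓤 𝓥 loc L hV q (τ : H q ⧸ (locLv 𝓤 𝓥 loc L hV q).U) = ((loc q τ : G) : G ⧸ L.U) := rfl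

theorem locφ_injective (q : Q) : Function.Injective (locφ 𝓤 𝓥 loc L hV q) := by
  rw [injective_iff_map_eq_one]
  intro x hx
  induction x using QuotientGroup.induction_on with
  | H τ =>
    rw [locφ_mk, QuotientGroup.eq_one_iff] at hx
    rw [QuotientGroup.eq_one_iff]
    exact hx

variable {𝓤 loc ρA ρX pr}

/-- the linear map `A^U → (X q)^{V_q}` induced by `pr q` -/
def locFL (hc : ∀ q (τ : H q) (a : A), pr q (ρA (loc q τ) a) = ρX q τ (pr q a)) (q : Q) :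
    finLv 𝓤 (Rep.of ρA) L →ₗ[ℤ] finLv (𝓥 q) (Rep.of (ρX q)) (locLv 𝓤 𝓥 loc L hV q) :=
  LinearMap.codRestrict _ ((pr q) ∘ₗ
      (Representation.invariants ((Rep.of ρA).ρ.comp L.U.subtype)).subtype)
    (fun a τ => by
      show ρX q τ.1 (pr q a.1) = pr q a.1
      rw [← hc]
      exact congrArg (pr q) (a.2 ⟨loc q τ.1, τ.2⟩))

theorem locFL_coe (hc : ∀ q (τ : H q) (a : A), pr q (ρA (loc q τ) a) = ρX q τ (pr q a)) (q : Q)
    (a : finLv 𝓤 (Rep.of ρA) L) :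
    ((locFL 𝓥 L hV hc q a : finLv (𝓥 q) (Rep.of (ρX q)) (locLv 𝓤 𝓥 loc L hV q)) : X q)
      = pr q (a : A) := rfl

/-- the localisation at the finite level, as a morphism of representations -/
def locF (hc : ∀ q (τ : H q) (a : A), pr q (ρA (loc q τ) a) = ρX q τ (pr q a)) (q : Q) :
    Rep.res (locφ 𝓤 𝓥 loc L hV q) (finLv 𝓤 (Rep.of ρA) L) ⟶
      finLv (𝓥 q) (Rep.of (ρX q)) (locLv 𝓤 𝓥 loc L hV q) :=
  Rep.ofHom ⟨locFL 𝓥 L hV hc q, fun d => by
    apply LinearMap.ext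
    intro a
    induction d using QuotientGroup.induction_on with
    | H τ =>
      apply Subtype.ext
      exact hc q τ a.1⟩

theorem locF_coe (hc : ∀ q (τ : H q) (a : A), pr q (ρA (loc q τ) a) = ρX q τ (pr q a)) (q : Q)
    (a : finLv 𝓤 (Rep.of ρA) L) :
    (((locF 𝓥 L hV hc q).hom a : finLv (𝓥 q) (Rep.of (ρX q)) (locLv 𝓤 𝓥 loc L hV q)) : X q)
      = pr q (a : A) := rfl

theorem mk_mul_mem_eq {U : Subgroup G} [U.Normal] (g g' s : G) (hs : s ∈ U) :
    ((g * s * g' : G) : G ⧸ U) = ((g * g' : G) : G ⧸ U) := by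
  rw [QuotientGroup.mk_mul, QuotientGroup.mk_mul, (QuotientGroup.eq_one_iff s).2 hs, mul_one,
    ← QuotientGroup.mk_mul]

/-- **the finite levels of a coinduced-like module are coinduced-like** -/
theorem LCCoind.isCoindLike (h : LCCoind 𝓤 loc ρA ρX pr) :
    H12SA.IsCoindLike (finLv 𝓤 (Rep.of ρA) L) (locφ 𝓤 𝓥 loc L hV)
      (fun q => finLv (𝓥 q) (Rep.of (ρX q)) (locLv 𝓤 𝓥 loc L hV q))
      (locF 𝓥 L hV h.comm) := by
  refine ⟨fun a ha => ?_, fun Φ hΦ => ?_⟩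
  · apply Subtype.ext
    refine h.ext a.1 (fun q x => ?_)
    exact congrArg Subtype.val (ha q (x : G ⧸ L.U))
  · obtain ⟨a, ha⟩ := h.glue L.U L.mem (fun q g => ((Φ q (g : G ⧸ L.U)).1 : X q))
      (fun q τ g => by
        have := hΦ q (τ : H q ⧸ (locLv 𝓤 𝓥 loc L hV q).U) (g : G ⧸ L.U)
        rw [locφ_mk, ← QuotientGroup.mk_mul] at this
        exact congrArg Subtype.val this)
      (fun q g g' s hs => by
        show ((Φ q ((g * s * g' : G) : G ⧸ L.U)).1 : X q) = (Φ q ((g * g' : G) : G ⧸ L.U)).1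
        rw [mk_mul_mem_eq g g' s hs])
    have hinv : a ∈ Representation.invariants ((Rep.of ρA).ρ.comp L.U.subtype) := by
      intro s
      refine h.ext_eq (fun q x => ?_)
      show pr q (ρA x (ρA s.1 a)) = pr q (ρA x a)
      rw [← rho_mul_apply', ha, ha]
      show ((Φ q ((x * s.1 : G) : G ⧸ L.U)).1 : X q) = (Φ q ((x : G) : G ⧸ L.U)).1
      have := mk_mul_mem_eq (U := L.U) x 1 s.1 s.2
      rw [mul_one, mul_one] at this
      rw [this]
    refine ⟨⟨a, hinv⟩, fun q x => ?_⟩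
    induction x using QuotientGroup.induction_on with
    | H x =>
      apply Subtype.ext
      exact ha q x

/-- **Shapiro injectivity in degree 2** for a coinduced-like module, given Hilbert 90 (in
level-constant form) for the local modules on the local levels induced by small levels -/
theorem LCCoind.sh2 (h : LCCoind 𝓤 loc ρA ρX pr)
    (hX : ∀ q, IsSmooth (𝓥 q) (Rep.of (ρX q)))
    (P : ∀ q, PP 𝓤 (𝓥 q) (Rep.of ρA) (Rep.of (ρX q)))
    (hPr : ∀ q τ, (P q).r τ = loc q τ) (hPφ : ∀ q a, (P q).φ a = pr q a)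
    (L₀ : 𝓤.Lv)
    (hV' : ∀ L : 𝓤.Lv, ∀ q, L.U.comap (loc q) ∈ (𝓥 q).sets)
    (h90 : ∀ L : 𝓤.Lv, L.U ≤ L₀.U → ∀ q, ∀ f : H q → X q, IsLC₁ (𝓥 q) f →
      (∀ s t, s ∈ L.U.comap (loc q) → t ∈ L.U.comap (loc q) →
        f (s * t) = ρX q s (f t) + f s) →
      ∃ x : X q, ∀ s ∈ L.U.comap (loc q), f s = ρX q s x - x)
    (z : lcH2 𝓤 (Rep.of ρA)) (hz : ∀ q, (P q).H2 z = 0) : z = 0 := by
  obtain ⟨L1, hL1⟩ := exists_infl₂_eq 𝓤 (Rep.of ρA) z
  obtain ⟨L', hL1', hL0'⟩ := 𝓤.exists_lv_le L1 L₀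
  obtain ⟨y, rfl⟩ := hL1 L' hL1'
  suffices hy : y = 0 by rw [hy, map_zero]
  refine H12SA.sh2_abs _ _ _ _ (h.isCoindLike 𝓥 L' (hV' L'))
    (locφ_injective 𝓤 𝓥 loc L' (hV' L')) y (fun q => ?_)
  have hnat := infl₂_map (P q) L' (locLv 𝓤 𝓥 loc L' (hV' L') q) (locφ 𝓤 𝓥 loc L' (hV' L') q)
    (fun τ => by rw [locφ_mk, hPr]) (locF 𝓥 L' (hV' L') h.comm q)
    (fun a => by rw [hPφ]; rfl) y
  rw [hz q] at hnat
  exact H12SH2.infl₂_eq_zero (𝓥 q) (Rep.of (ρX q)) (hX q) (locLv 𝓤 𝓥 loc L' (hV' L') q)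
    (h90 L' hL0' q) _ hnat.symm

/-- **Hilbert 90 for `Hom(R, X)`**, `R` free with trivial action of `V`: from Hilbert 90 for `X` -/
theorem h90_hom {H' : Type} [Group H'] (𝓥' : Levels H') {R X' : Type} [AddCommGroup R]
    [AddCommGroup X'] [Module.Free ℤ R]
    (ρR : Representation ℤ H' R) (ρX' : Representation ℤ H' X') (V : Subgroup H')
    (hRV : ∀ s ∈ V, ∀ r, ρR s r = r)
    (h90 : ∀ f : H' → X', IsLC₁ 𝓥' f →
      (∀ s t, s ∈ V → t ∈ V → f (s * t) = ρX' s (f t) + f s) →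
      ∃ x : X', ∀ s ∈ V, f s = ρX' s x - x)
    (f : H' → (R →ₗ[ℤ] X')) (hf : IsLC₁ 𝓥' f)
    (hc : ∀ s t, s ∈ V → t ∈ V → f (s * t) = Representation.linHom ρR ρX' s (f t) + f s) :
    ∃ x : R →ₗ[ℤ] X', ∀ s ∈ V, f s = Representation.linHom ρR ρX' s x - x := by
  classical
  set b := Module.Free.chooseBasis ℤ R with hb
  have key : ∀ i, ∃ x : X', ∀ s ∈ V, f s (b i) = ρX' s x - x := by
    intro i
    refine h90 (fun s => f s (b i)) (hf.comp (fun φ : R →ₗ[ℤ] X' => φ (b i)))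
      (fun s t hs ht => ?_)
    show f (s * t) (b i) = ρX' s (f t (b i)) + f s (b i)
    rw [hc s t hs ht, LinearMap.add_apply, linHom_apply', hRV s⁻¹ (V.inv_mem hs)]
  choose x hx using key
  refine ⟨b.constr ℤ x, fun s hs => ?_⟩
  apply b.ext
  intro i
  rw [LinearMap.sub_apply, linHom_apply', hRV s⁻¹ (V.inv_mem hs), Module.Basis.constr_basis]
  exact hx i s hs

end H15SH

end
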