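/-
W2-C (S55) block E, slice W-shR (helper15): the semilocal ideles `I = ∏_{q ∈ S} I_q` are the
level-constant coinduction of the local modules `Xbar_q` (`H15SH.LCCoind`), via evaluation at `1`.
-/
import Mathlib
import Fermat.Agent.CFT2.E.ShLC_helper15
import Fermat.Agent.CFT2.E.Targets

set_option autoImplicit false
set_option linter.style.haveILetI false
set_option linter.unusedVariables false
set_option linter.unusedSectionVars false

noncomputable section

namespace H15SH

open H15D H15F H14PT ExtCitation groupCohomology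

local notation "Qb" => AlgebraicClosure ℚ
local notation "GQ" => (AlgebraicClosure ℚ ≃ₐ[ℚ] AlgebraicClosure ℚ)

/-- primes are prime. -/
local instance factPrimeOfPrimesSI (q : Nat.Primes) : Fact (q : ℕ).Prime := ⟨q.2⟩

variable (S : Finset Nat.Primes)

/-- the value at `x` of the `q`-component of an idele -/
def ival (q : S) (a : Additive (ideles S)) (x : GQ) : (PadicAlgCl ((q : Nat.Primes) : ℕ))ˣ :=
  ideleAt.fn S ((Additive.toMul a : ideles S) q) x

theorem ival_ext {a a' : Additive (ideles S)} (h : ∀ q x, ival S q a x = ival S q a' x) :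
    a = a' := by
  apply congrArg Additive.ofMul (a₁ := Additive.toMul a) (a₂ := Additive.toMul a')
  funext q
  apply ideleAt.ext
  intro g
  exact h q g

theorem ival_ρ (q : S) (γ : GQ) (a : Additive (ideles S)) (x : GQ) :
    ival S q (ρI S γ a) x = ival S q a (x * γ) := rfl

theorem ival_zero (q : S) (x : GQ) : ival S q 0 x = 1 := rfl

/-- the underlying unit of an element of `Xbar_q` -/
def xval (q : S) (b : Additive (xbar ((q : Nat.Primes) : ℕ))) :
    (PadicAlgCl ((q : Nat.Primes) : ℕ))ˣ :=
  ((Additive.toMul b : xbar ((q : Nat.Primes) : ℕ)) : (PadicAlgCl ((q : Nat.Primes) : ℕ))ˣ)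

theorem xval_injective (q : S) : Function.Injective (xval S q) := by
  intro a b hab
  apply congrArg Additive.ofMul (a₁ := Additive.toMul a) (a₂ := Additive.toMul b)
  exact Subtype.ext hab

theorem xval_zero (q : S) : xval S q 0 = 1 := rfl

theorem xval_prL' (q : S) (a : Additive (ideles S)) : xval S q (prL' S q a) = ival S q a 1 := rfl

theorem xval_ρX (q : S) (τ : Hq q.1) (b : Additive (xbar ((q : Nat.Primes) : ℕ))) :
    xval S q (ρX q.1 τ b) = unitsActLoc ((q : Nat.Primes) : ℕ) τ (xval S q b) := rfl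

/-- the idele with prescribed values -/
def mkIdele (U : Subgroup GQ) (hU : U ∈ (levelsS S).sets)
    (Φ : ∀ q : S, GQ → Additive (xbar ((q : Nat.Primes) : ℕ)))
    (h1 : ∀ (q : S) (τ : Hq q.1) (g : GQ),
      Φ q (primeLocalToGlobal q.1 τ * g) = ρX q.1 τ (Φ q g))
    (h2 : ∀ (q : S) (g g' s : GQ), s ∈ U → Φ q (g * s * g') = Φ q (g * g')) :
    Additive (ideles S) :=
  Additive.ofMul (fun q : S =>
    (⟨fun g => xval S q (Φ q g), by
      refine ⟨fun τ g => ?_, ?_⟩
      · exact (congrArg (xval S q) (h1 q τ g)).trans (xval_ρX S q τ _)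
      · obtain ⟨F, hF, -, hUF⟩ := hU
        refine ⟨F, hF, fun g g' s hs => ?_⟩
        exact congrArg (xval S q) (h2 q g g' s (by rw [hUF]; exact hs))⟩ : ↥(idele S ((q : Nat.Primes) : ℕ))))

theorem ival_mkIdele (U : Subgroup GQ) (hU : U ∈ (levelsS S).sets)
    (Φ : ∀ q : S, GQ → Additive (xbar ((q : Nat.Primes) : ℕ)))
    (h1 : ∀ (q : S) (τ : Hq q.1) (g : GQ),
      Φ q (primeLocalToGlobal q.1 τ * g) = ρX q.1 τ (Φ q g))
    (h2 : ∀ (q : S) (g g' s : GQ), s ∈ U → Φ q (g * s * g') = Φ q (g * g'))
    (q : S) (x : GQ) : ival S q (mkIdele S U hU Φ h1 h2) x = xval S q (Φ q x) := rfl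

/-- **the ideles are coinduced-like** -/
theorem lcCoind_I : LCCoind (levelsS S) (fun q : S => primeLocalToGlobal q.1) (ρI S)
    (fun q : S => ρX q.1) (fun q : S => prL' S q) := by
  refine ⟨fun q τ a => prL'_comm S q τ a, fun a ha => ?_, fun U hU Φ h1 h2 => ?_⟩
  · refine ival_ext S (fun q x => ?_)
    have h := congrArg (xval S q) (ha q x)
    rw [xval_prL', ival_ρ, one_mul, xval_zero] at h
    rw [h, ival_zero]
  · refine ⟨mkIdele S U hU Φ h1 h2, fun q x => ?_⟩
    apply xval_injective S q
    rw [xval_prL', ival_ρ, one_mul, ival_mkIdele]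

end H15SH

end
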