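/-
W2-C (S55) block E, wiring slice W-shR, degree 2 (helper15): `H15SH.tSh2R S : H14PT.TSh2R S`
(a class of `H²_S(Hom(R0, I))` whose localisations in `H²(G_q, Hom(R0|, Xbar_q))` vanish is zero).
Route: `Hom(R, I)` is coinduced-like (`lcCoind_I` + projection formula), so its finite levels are
coinduced-like (`LCCoind.isCoindLike`), where helper12's abstract Shapiro lemma `H12SA.sh2_abs`
applies; the local inflation is injective by Hilbert 90 for `Hom(R|, Xbar_q)` (`h90_hom` +
`H15LH.loc_h90_lc`).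
-/
import Mathlib
import Fermat.Agent.CFT2.E.ShFin_helper15
import Fermat.Agent.CFT2.E.ShIdele_helper15
import Fermat.Agent.CFT2.E.LocH90_helper15
import Fermat.Agent.CFT2.E.Targets2

set_option autoImplicit false
set_option linter.style.haveILetI false
set_option linter.unusedVariables false
set_option linter.unusedSectionVars false

noncomputable section

namespace H15SH

open H15D H15F H14PT ExtCitation H24G groupCohomology

local notation "Qb" => AlgebraicClosure ℚ
local notation "GQ" => (AlgebraicClosure ℚ ≃ₐ[ℚ] AlgebraicClosure ℚ)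

/-- primes are prime. -/
local instance factPrimeOfPrimesS2R (q : Nat.Primes) : Fact (q : ℕ).Prime := ⟨q.2⟩

variable (S : Finset Nat.Primes)

/-- **Shapiro injectivity in degree 2 for `Hom(R, I)`**, `R` a level-trivial lattice -/
theorem sh2_gen {R : Type} [AddCommGroup R] [Module.Free ℤ R] [Module.Finite ℤ R]
    (ρR : Representation ℤ GQ R) (hR : IsLevelTriv ρR (levelsS S))
    (z : lcH2 (levelsS S) (hm ρR (ρI S)))
    (hz : ∀ q : S, (prHq S ρR q).H2 z = 0) : z = 0 := by
  obtain ⟨UR, hUR, hRt⟩ := hR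
  have hR' : IsLevelTriv ρR (levelsS S) := ⟨UR, hUR, hRt⟩
  refine ((lcCoind_I S).hom ρR hR').sh2 (𝓥 := fun q : S => 𝓥q q.1)
    (fun q => hm_isSmooth (isLevelTriv_comp (primeLocalToGlobal q.1)
      (levelsS_le_levelsLoc S (primeLocalToGlobal q.1)) hR') (isSmooth_X q.1))
    (fun q => prHq S ρR q) (fun q τ => rfl) (fun q a => rfl) ⟨UR, hUR⟩
    (fun L q => by
      obtain ⟨F, hF, hn, h⟩ := L.mem
      exact ⟨F, hF.1, hn, by rw [h]⟩)
    (fun L hL q f hf hc => ?_) z hz
  have hLq : L.U.comap (primeLocalToGlobal q.1) ∈ (𝓥q q.1).sets := by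
    obtain ⟨F, hF, hn, h⟩ := L.mem
    exact ⟨F, hF.1, hn, by rw [h]⟩
  exact h90_hom (𝓥q q.1) (ρR.comp (primeLocalToGlobal q.1)) (ρX q.1)
    (L.U.comap (primeLocalToGlobal q.1)) (fun s hs r => hRt _ (hL hs) r)
    (fun f' hf' hc' => H15LH.loc_h90_lc q.1 _ ⟨_, hLq, le_rfl⟩ f' hf' hc') f hf hc

/-- **(SH2R)** -/
theorem tSh2R : TSh2R S := fun ρN hlt z hz => sh2_gen S (ρR0 ρN) (isLevelTriv_R0 hlt) z hz

end H15SH

end
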