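/-
W2-C (S55) block E (helper14): FINAL ASSEMBLY of block E.
`S55_of_blockC : CMB S p → C2B S p hS → C3B S p → TFin S p → (conclusion of S55)`.
All ten targets of `S55_of_targets` are wired to the four deliverables of block C.
-/
import Mathlib
import Fermat.Agent.CFT2.E.Targets
import Fermat.Agent.CFT2.E.Interface
import Fermat.Agent.CFT2.E.W_dim1
import Fermat.Agent.CFT2.E.W_alpha1
import Fermat.Agent.CFT2.E.W_tng_helper15
import Fermat.Agent.CFT2.E.W_h90loc_helper15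
import Fermat.Agent.CFT2.E.W_hb1_helper25
import Fermat.Agent.CFT2.E.W_hp_helper12
import Fermat.Agent.CFT2.E.W_sh1_helper21
import Fermat.Agent.CFT2.E.W_sh2R_helper15
import Fermat.Agent.CFT2.E.W_sh2_helper12
import Fermat.Agent.CFT2.E.W_tnlg2_helper5

set_option autoImplicit false
set_option linter.style.haveILetI false
set_option linter.unusedVariables false

noncomputable section

namespace H14PT

open H15D H15F ExtCitation H24G groupCohomology

variable {p : ℕ} [Fact p.Prime]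

/-- **S55 from the four deliverables of block C** -/
theorem S55_of_blockC (hp2 : p ≠ 2) (S : Finset Nat.Primes) (hpS : pPrime p ∈ S)
    (M : Rep (ZMod p) (AlgebraicClosure ℚ ≃ₐ[ℚ] AlgebraicClosure ℚ))
    [FiniteDimensional (ZMod p) M]
    (hsm : ∀ m : M, ∃ F : IntermediateField ℚ (AlgebraicClosure ℚ), FiniteDimensional ℚ F ∧
      ∀ s ∈ F.fixingSubgroup, M.ρ s m = m)
    (hMur : ∀ q : Nat.Primes, q ∉ S → ∀ A : ValuationSubring (AlgebraicClosure ℚ),
      A.LiesOverPrime (q : ℕ) → ∀ g ∈ A.inertiaSubgroupIn ℚ, M.ρ g = 1)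
    (hcm : CMB S p) (hc2 : C2B S p ⟨pPrime p, hpS⟩) (hc3 : C3B S p) (hfin : TFin S p) :
    ∃ B : sha₁ S (M.dualTwist (cycloChar p)) →ₗ[ZMod p] sha₂ S M →ₗ[ZMod p] ZMod p,
      (∀ y, (∀ x, B y x = 0) → y = 0) ∧ (∀ x, (∀ y, B y x = 0) → x = 0) :=
  S55_of_targets hp2 S hpS M hsm hMur hfin (H21SH.tH90I S) (H15W.tH90loc S) (H21SH.tSh1 S)
    (H12SH2.tSh2 S)
    (H12HP.hp_of S p ⟨pPrime p, hpS⟩ (H15SH.tSh2R S) (H21SH.tH90I S) (H25E.h25e_hb1 S p hcm))
    (tDim1_of_cmb S hcm) (H15W.tTng_of_cmb S hcm)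
    (H5TN.h5tn_tTnlg_of_c2b S p ⟨pPrime p, hpS⟩ hc2 hfin) (tAlpha1_of hcm hc3)

end H14PT

end
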