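/-
W2-C (S55) block E, target TFin, slice KVAL (helper24): `H24FIN.h24fin_kval : KValStatement`.
If `a ∈ F₀ˣ` is a `p`-th power in a Galois number field `F ⊇ F₀` unramified outside `S`, then
`p ∣ ord_P(a)` for all primes `P` of `F₀` outside `S`  (`e(Q|P) = 1` for `Q | P`, by trivial inertia).
-/
import Mathlib
import Fermat.Agent.CFT2.E.TFinDefs_helper24

set_option autoImplicit false
set_option linter.style.haveILetI false
set_option linter.unusedVariables false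

noncomputable section

namespace H24FIN

open H15D H14PT H17C NumberField IsDedekindDomain

local notation "Qb" => AlgebraicClosure ℚ
local notation "GQ" => (AlgebraicClosure ℚ ≃ₐ[ℚ] AlgebraicClosure ℚ)

theorem h24fin_ordP_pow {S : Finset Nat.Primes} {K : Type} [Field K] [NumberField K]
    (P : PrimesS S K) {x : K} (hx : x ≠ 0) (n : ℕ) : ordP P (x ^ n) = n * ordP P x := by
  induction n with
  | zero => simp [ordP_one]
  | succ n ih =>
    rw [pow_succ, ordP_mul P (pow_ne_zero n hx) hx, ih]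
    push_cast
    ring

theorem h24fin_kval : KValStatement := by
  haveI : IsGalois ℚ Qb := H15F.h15f_isGalois_Qb
  intro S p F₀ F _ _ hunr hn hle a hab P
  obtain ⟨b, hbF, hb⟩ := hab
  rcases Nat.eq_zero_or_pos p with hp0 | hp
  · subst hp0
    rw [pow_zero] at hb
    have ha1 : (a : ↥F₀) = 1 := by
      apply Subtype.ext
      exact hb.symm
    rw [ha1, ordP_one]
    exact dvd_zero _
  letI alg : Algebra ↥F₀ ↥F := (IntermediateField.inclusion hle).toRingHom.toAlgebra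
  haveI : IsScalarTower ℚ ↥F₀ ↥F :=
    IsScalarTower.of_algebraMap_eq (fun x => ((IntermediateField.inclusion hle).commutes x).symm)
  haveI : IsGalois ℚ ↥F := (InfiniteGalois.normal_iff_isGalois F).mp hn
  haveI : IsGalois ↥F₀ ↥F := IsGalois.tower_top_of_isGalois ℚ ↥F₀ ↥F
  haveI : FiniteDimensional ↥F₀ ↥F := Module.Finite.right ℚ ↥F₀ ↥F
  haveI hPp : P.1.IsPrime := P.2.1
  have hP0 : P.1 ≠ ⊥ := P.2.2.1
  obtain ⟨⟨Q, hQp, hQo⟩⟩ := (inferInstance : Nonempty (Ideal.primesOver P.1 (𝓞 ↥F)))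
  haveI := hQp
  haveI := hQo
  have hQ0 : Q ≠ ⊥ := Ideal.ne_bot_of_liesOver_of_ne_bot hP0 Q
  have hQS : ∀ q ∈ S, (((q : ℕ) : ℤ) : 𝓞 ↥F) ∉ Q := by
    intro q hq hmem
    apply P.2.2.2 q hq
    rw [hQo.over, Ideal.mem_comap, map_intCast]
    exact hmem
  let Q' : PrimesS S ↥F := ⟨Q, hQp, hQ0, hQS⟩
  -- trivial inertia
  have hin : Q.inertia (↥F ≃ₐ[↥F₀] ↥F) = ⊥ := by
    rw [eq_bot_iff]
    intro τ hτ
    rw [Subgroup.mem_bot]
    have h1 := hunr Q' (τ.restrictScalars ℚ) (Subgroup.mem_top _) (fun x => hτ x)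
    apply AlgEquiv.ext
    intro x
    have h2 := congrArg (fun σ : ↥F ≃ₐ[ℚ] ↥F => σ x) h1
    exact h2
  have hPmax : P.1.IsMaximal := Ideal.IsPrime.isMaximal inferInstance hP0
  have hfk : Finite (𝓞 ↥F₀ ⧸ P.1) := Ideal.finiteQuotientOfFreeOfNeBot _ hP0
  have he : Q.ramificationIdx (𝓞 ↥F₀) = 1 := by
    have h1 := Ideal.card_inertia_eq_ramificationIdxIn (G := ↥F ≃ₐ[↥F₀] ↥F) P.1 Q
    rw [hin, Subgroup.card_bot] at h1
    rw [← Ideal.ramificationIdxIn_eq_ramificationIdx P.1 Q (↥F ≃ₐ[↥F₀] ↥F), ← h1]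
  haveI : Q'.toHOS.asIdeal.LiesOver P.toHOS.asIdeal := hQo
  have h1 := IsDedekindDomain.HeightOneSpectrum.valuation_liesOver ↥F P.toHOS Q'.toHOS (a : ↥F₀)
  have he' : P.toHOS.asIdeal.ramificationIdx' Q'.toHOS.asIdeal = 1 := by
    have h2 := Ideal.ramificationIdx'_eq_ramificationIdx P.toHOS.asIdeal Q'.toHOS.asIdeal hP0
    rw [h2]
    exact he
  rw [he', pow_one] at h1
  have h3 : ordP P (a : ↥F₀) = ordP Q' (algebraMap ↥F₀ ↥F (a : ↥F₀)) := by
    unfold ordP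
    rw [h1]
  have hb0 : b ≠ 0 := by
    rintro rfl
    rw [zero_pow hp.ne'] at hb
    have : (a : ↥F₀) = 0 := by
      apply Subtype.ext
      exact hb.symm
    exact a.ne_zero this
  have h4 : algebraMap ↥F₀ ↥F (a : ↥F₀) = (⟨b, hbF⟩ : ↥F) ^ p := by
    apply Subtype.ext
    show ((a : ↥F₀) : Qb) = _
    rw [← hb]
    rfl
  have hb0' : (⟨b, hbF⟩ : ↥F) ≠ 0 := by
    intro h
    exact hb0 (congrArg Subtype.val h)
  rw [h3, h4, h24fin_ordP_pow Q' hb0']
  exact Dvd.intro _ rfl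

end H24FIN

end
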