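/-
W2-C (S55) block E, target TFin, slice ASM (helper24):
`H24FIN.h24fin_homFinAsm : HomFinAsmStatement`  (`HomFin S p ⇐ KH90 + KVAL + UNR-TR + KFIN`, `p ∈ S`),
`H24FIN.h24fin_tfin_of` : `TFin S p` from the slices `RED`, `KH90`, `UNR-TR`, `KFIN`.
-/
import Mathlib
import Fermat.Agent.CFT2.E.TFinDefs_helper24
import Fermat.Agent.CFT2.E.LocDeg_helper24
import Fermat.Agent.CFT2.E.TFinKVal_helper24

set_option autoImplicit false
set_option linter.style.haveILetI false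
set_option linter.unusedVariables false

noncomputable section

namespace H24FIN

open H15D H14PT H17C NumberField IsDedekindDomain H24LD

local notation "Qb" => AlgebraicClosure ℚ
local notation "GQ" => (AlgebraicClosure ℚ ≃ₐ[ℚ] AlgebraicClosure ℚ)

/-- the sup of two normal `S`-level fields -/
theorem h24fin_sup_level {S : Finset Nat.Primes} {F F' : IntermediateField ℚ Qb}
    (hF : F.IsUnramifiedOutside S) (hN : F.fixingSubgroup.Normal)
    (hF' : F'.IsUnramifiedOutside S) (hN' : F'.fixingSubgroup.Normal) :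
    (F ⊔ F').IsUnramifiedOutside S ∧ (F ⊔ F').fixingSubgroup.Normal := by
  refine ⟨hF.sup hF', ?_⟩
  rw [IntermediateField.fixingSubgroup_sup]
  haveI := hN
  haveI := hN'
  infer_instance

/-- finitely many elements of `S`-levels lie in a common `S`-level -/
theorem h24fin_exists_level {S : Finset Nat.Primes} (C : Set Qb) (hC : C.Finite)
    (hCl : ∀ c ∈ C, ∃ F : IntermediateField ℚ Qb, F.IsUnramifiedOutside S ∧
      F.fixingSubgroup.Normal ∧ c ∈ F)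
    (F₀ : IntermediateField ℚ Qb) (hF₀ : F₀.IsUnramifiedOutside S)
    (hN₀ : F₀.fixingSubgroup.Normal) :
    ∃ Fs : IntermediateField ℚ Qb, Fs.IsUnramifiedOutside S ∧ Fs.fixingSubgroup.Normal ∧
      F₀ ≤ Fs ∧ ∀ c ∈ C, c ∈ Fs := by
  induction C, hC using Set.Finite.induction_on with
  | empty => exact ⟨F₀, hF₀, hN₀, le_refl _, fun c hc => absurd hc (Set.notMem_empty c)⟩
  | @insert c C hcC hCfin ih =>
    obtain ⟨Fs, hFs, hNs, hle, hmem⟩ := ih (fun c' hc' => hCl c' (Set.mem_insert_of_mem c hc'))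
    obtain ⟨F, hF, hN, hcF⟩ := hCl c (Set.mem_insert c C)
    obtain ⟨h1, h2⟩ := h24fin_sup_level hFs hNs hF hN
    refine ⟨Fs ⊔ F, h1, h2, le_trans hle le_sup_left, ?_⟩
    intro c' hc'
    rcases Set.mem_insert_iff.1 hc' with rfl | hc'
    · exact (le_sup_right : F ≤ Fs ⊔ F) hcF
    · exact (le_sup_left : Fs ≤ Fs ⊔ F) (hmem c' hc')

/-- the `p`-th roots of an element form a finite set -/
theorem h24fin_roots_finite (p : ℕ) (hp : 0 < p) (t : Qb) : {c : Qb | c ^ p = t}.Finite := by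
  have : {c : Qb | c ^ p = t} = ↑(Polynomial.nthRoots p t).toFinset := by
    ext c
    simp [Polynomial.mem_nthRoots hp]
  rw [this]
  exact Finset.finite_toSet _

theorem h24fin_homFinAsm : HomFinAsmStatement := by
  haveI : IsGalois ℚ Qb := H15F.h15f_isGalois_Qb
  intro S p hp hpS hkh90 hkval hunr hkfin U₀ hU₀
  haveI : NeZero p := ⟨hp.ne_zero⟩
  obtain ⟨q, hqS, hqp⟩ := hpS
  obtain ⟨F₁, hF₁, hN₁, rfl⟩ := hU₀
  obtain ⟨ζ, hζ⟩ := h24ld_exists_primitiveRoot p hp.pos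
  have hζ' : IsPrimitiveRoot ζ ((q : ℕ) ^ 1) := by rw [pow_one, hqp]; exact hζ
  have hC : (h24ld_cyc ζ).IsUnramifiedOutside S := h24ld_cyc_unram S q hqS 1 hζ'.pow_eq_one
  have hCn : (h24ld_cyc ζ).fixingSubgroup.Normal := h24ld_cyc_normal (pow_pos q.2.pos 1) hζ'
  obtain ⟨hF₀, hN₀⟩ := h24fin_sup_level hF₁ hN₁ hC hCn
  set F₀ : IntermediateField ℚ Qb := F₁ ⊔ h24ld_cyc ζ with hF₀def
  haveI : FiniteDimensional ℚ F₀ := hF₀.1
  haveI : NumberField F₀ := ⟨⟩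
  have hζF₀ : ζ ∈ F₀ := (le_sup_right : h24ld_cyc ζ ≤ F₀) (h24ld_mem_cyc ζ)
  obtain ⟨T, hTfin, hT⟩ := hkfin S ↥F₀ p hp.pos
  -- the finite set of roots
  let Cset : Set Qb := {c | (∃ t ∈ T, c ^ p = (((t : (↥F₀)ˣ) : ↥F₀) : Qb)) ∧
    ∃ F : IntermediateField ℚ Qb, F.IsUnramifiedOutside S ∧ F.fixingSubgroup.Normal ∧ c ∈ F}
  have hCfin : Cset.Finite := by
    refine Set.Finite.subset (Set.Finite.biUnion hTfin
      (fun t _ => h24fin_roots_finite p hp.pos (((t : (↥F₀)ˣ) : ↥F₀) : Qb))) ?_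
    rintro c ⟨⟨t, ht, hc⟩, -⟩
    exact Set.mem_biUnion ht hc
  obtain ⟨Fs, hFs, hNs, hle0, hCs⟩ := h24fin_exists_level Cset hCfin (fun c hc => hc.2) F₀ hF₀ hN₀
  refine ⟨Fs.fixingSubgroup, ⟨Fs, hFs, hNs, rfl⟩,
    IntermediateField.fixingSubgroup_antitone (le_trans le_sup_left hle0), ?_⟩
  intro χ hχlc hχadd s hs
  obtain ⟨U, ⟨F, hF, hN, rfl⟩, hconst⟩ := hχlc
  obtain ⟨hF', hN'⟩ := h24fin_sup_level hF hN hFs hNs
  set F' : IntermediateField ℚ Qb := F ⊔ Fs with hF'def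
  haveI : FiniteDimensional ℚ F' := hF'.1
  haveI : NumberField F' := ⟨⟩
  have hle' : F₀ ≤ F' := le_trans hle0 le_sup_right
  have hU₀le : F₀.fixingSubgroup ≤ F₁.fixingSubgroup :=
    IntermediateField.fixingSubgroup_antitone le_sup_left
  have hζfix : ∀ σ ∈ F₀.fixingSubgroup, σ ζ = ζ := fun σ hσ =>
    (IntermediateField.mem_fixingSubgroup_iff _ _).1 hσ ζ hζF₀
  obtain ⟨b, hb0, hbF, hb⟩ := hkh90 p hp ζ F₀.fixingSubgroup F' hF'.1
    (IntermediateField.fixingSubgroup_antitone hle') hζfix hζ.pow_eq_one χ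
    (fun σ hσ τ hτ => hχadd σ (hU₀le hσ) τ (hU₀le hτ))
    (fun σ _ u hu => hconst σ u (IntermediateField.fixingSubgroup_antitone le_sup_left hu))
  -- `a = b ^ p ∈ F₀`
  have ha : b ^ p ∈ F₀ := by
    have h1 : b ^ p ∈ IntermediateField.fixedField F₀.fixingSubgroup := by
      rw [IntermediateField.mem_fixedField_iff]
      intro σ hσ
      rw [map_pow, hb σ hσ, mul_pow, ← pow_mul, mul_comm _ p, pow_mul, hζ.pow_eq_one, one_pow,
        one_mul]
    rwa [InfiniteGalois.fixedField_fixingSubgroup] at h1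
  have ha0 : (⟨b ^ p, ha⟩ : ↥F₀) ≠ 0 := by
    intro h
    exact pow_ne_zero p hb0 (congrArg Subtype.val h)
  obtain ⟨t, ht, y, hty⟩ := hT (Units.mk0 ⟨b ^ p, ha⟩ ha0)
    (hkval S p F₀ F' (hunr F' hF' hN') hN' hle' (Units.mk0 ⟨b ^ p, ha⟩ ha0) ⟨b, hbF, rfl⟩)
  have hty' : b ^ p = (((t : (↥F₀)ˣ) : ↥F₀) : Qb) * (((y : (↥F₀)ˣ) : ↥F₀) : Qb) ^ p := by
    have := congrArg (fun u : (↥F₀)ˣ => (((u : (↥F₀)ˣ) : ↥F₀) : Qb)) hty
    simpa using this
  have hy0 : (((y : (↥F₀)ˣ) : ↥F₀) : Qb) ≠ 0 := by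
    intro h
    exact y.ne_zero (Subtype.ext h)
  have hyF' : (((y : (↥F₀)ˣ) : ↥F₀) : Qb) ∈ F' := hle' (y : ↥F₀).2
  have hcC : b / (((y : (↥F₀)ˣ) : ↥F₀) : Qb) ∈ Cset := by
    refine ⟨⟨t, ht, ?_⟩, F', hF', hN', div_mem hbF hyF'⟩
    rw [div_pow, hty']
    field_simp
  have hbFs : b ∈ Fs := by
    have h1 := hCs _ hcC
    have h2 : b = b / (((y : (↥F₀)ˣ) : ↥F₀) : Qb) * (((y : (↥F₀)ˣ) : ↥F₀) : Qb) := by
      field_simp
    rw [h2]
    exact mul_mem h1 (hle0 (y : ↥F₀).2)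
  have h1 : s b = b := (IntermediateField.mem_fixingSubgroup_iff _ _).1 hs b hbFs
  have h2 : s b = ζ ^ (χ s).val * b :=
    hb s (IntermediateField.fixingSubgroup_antitone hle0 hs)
  have h3 : ζ ^ (χ s).val = 1 := by
    have h4 : ζ ^ (χ s).val * b = 1 * b := by rw [← h2, h1, one_mul]
    exact mul_right_cancel₀ hb0 h4
  have h5 : p ∣ (χ s).val := (hζ.pow_eq_one_iff_dvd _).1 h3
  have h6 : (χ s).val = 0 := Nat.eq_zero_of_dvd_of_lt h5 (ZMod.val_lt _)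
  exact (ZMod.val_eq_zero _).1 h6

/-- **TFin from the slices** -/
theorem h24fin_tfin_of (S : Finset Nat.Primes) (p : ℕ) (hp : p.Prime)
    (hpS : ∃ q ∈ S, (q : ℕ) = p) (hred : RedStatement) (hkh90 : KH90Statement)
    (hunr : UnrTrStatement S) (hkfin : KFinStatement) : TFin S p :=
  hred S p hp (h24fin_homFinAsm S p hp hpS hkh90 h24fin_kval hunr hkfin)

end H24FIN

end
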