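/-
W2-C (S55) block E, target TFin (helper24), slice KH90 (helper9).
`H9KH.kh90 : H24FIN.KH90Statement`: Kummer theory inside `ℚ̄` (Hilbert 90 by Dedekind
independence of the embeddings `F → ℚ̄`).
-/
import Fermat.Agent.CFT2.E.TFinDefs_helper24

set_option autoImplicit false
set_option linter.style.haveILetI false
set_option linter.unusedVariables false
set_option linter.unusedSectionVars false

noncomputable section

namespace H9KH

local notation "Qb" => AlgebraicClosure ℚ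
local notation "GQ" => (AlgebraicClosure ℚ ≃ₐ[ℚ] AlgebraicClosure ℚ)

/-- `ℚ̄/ℚ` is normal -/
theorem normal_Qb' : Normal ℚ Qb :=
  haveI halg : Algebra.IsAlgebraic ℚ Qb := AlgebraicClosure.isAlgebraic ℚ
  normal_iff.2 fun x => ⟨(halg.isAlgebraic x).isIntegral, IsAlgClosed.splits _⟩

/-- `ℚ̄/ℚ` is Galois -/
theorem isGalois_Qb' : IsGalois ℚ Qb :=
  haveI := normal_Qb'
  ⟨⟩

/-- powers of a `p`-th root of unity only depend on the exponent mod `p` -/
theorem pow_val_add {p : ℕ} [NeZero p] (ζ : Qb) (hζ : ζ ^ p = 1) (a b : ZMod p) :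
    ζ ^ (a + b).val = ζ ^ a.val * ζ ^ b.val := by
  rw [ZMod.val_add, ← pow_add]
  conv_rhs => rw [← Nat.mod_add_div (a.val + b.val) p]
  rw [pow_add, pow_mul, hζ, one_pow, mul_one]

section

variable (U₀ : Subgroup GQ) (F : IntermediateField ℚ Qb)

/-- restriction of `c ∈ GQ` to `F` -/
def restr (c : GQ) : F →ₐ[ℚ] Qb := (c : Qb →ₐ[ℚ] Qb).comp F.val

theorem restr_apply (c : GQ) (x : F) : restr F c x = c (x : Qb) := rfl

theorem restr_mul (σ c : GQ) : restr F (σ * c) = (σ : Qb →ₐ[ℚ] Qb).comp (restr F c) := rfl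

/-- two elements with the same restriction differ by an element of `Gal(ℚ̄/F)` -/
theorem inv_mul_mem_of_restr_eq {c c' : GQ} (h : restr F c' = restr F c) :
    c'⁻¹ * c ∈ F.fixingSubgroup := by
  rw [IntermediateField.mem_fixingSubgroup_iff]
  intro x hx
  have h1 : c' x = c x := congrArg (fun f : F →ₐ[ℚ] Qb => f ⟨x, hx⟩) h
  show c'⁻¹ (c x) = x
  rw [← h1]
  show (c'⁻¹ * c') x = x
  simp

variable (p : ℕ) (χ : GQ → ZMod p)

open Classical in
/-- the value of `χ` on an embedding (chosen preimage in `U₀`) -/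
def chiEmb (φ : F →ₐ[ℚ] Qb) : ZMod p :=
  if h : ∃ c ∈ U₀, restr F c = φ then χ h.choose else 0

theorem chiEmb_restr
    (hinv : ∀ σ ∈ U₀, ∀ u ∈ F.fixingSubgroup, χ (σ * u) = χ σ) (c : GQ) (hc : c ∈ U₀) :
    chiEmb U₀ F p χ (restr F c) = χ c := by
  have h : ∃ c' ∈ U₀, restr F c' = restr F c := ⟨c, hc, rfl⟩
  unfold chiEmb
  rw [dif_pos h]
  obtain ⟨h1, h2⟩ := h.choose_spec
  have h3 := hinv h.choose h1 _ (inv_mul_mem_of_restr_eq F h2)
  rw [mul_inv_cancel_left] at h3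
  exact h3.symm

end

/-- **KH90** -/
theorem kh90 : H24FIN.KH90Statement := by
  classical
  intro p hp ζ U₀ F hfin hle hζfix hζ χ hadd hinv
  haveI : Fact p.Prime := ⟨hp⟩
  haveI : NeZero p := ⟨hp.ne_zero⟩
  haveI := hfin
  haveI := isGalois_Qb'
  have hζ0 : ζ ≠ 0 := by
    rintro rfl
    rw [zero_pow hp.ne_zero] at hζ
    exact zero_ne_one hζ
  -- `χ 1 = 0`
  have hχ1 : χ 1 = 0 := by
    have := hadd 1 U₀.one_mem 1 U₀.one_mem
    rw [mul_one] at this
    exact left_eq_add.mp this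
  -- the index set
  set E : Finset (F →ₐ[ℚ] Qb) := Finset.univ.filter (fun φ => ∃ c ∈ U₀, restr F c = φ) with hE
  have hmemE : ∀ φ, φ ∈ E ↔ ∃ c ∈ U₀, restr F c = φ := by
    intro φ; rw [hE, Finset.mem_filter]; simp
  set X := chiEmb U₀ F p χ with hX
  set a : (F →ₐ[ℚ] Qb) → Qb := fun φ => (ζ ^ (X φ).val)⁻¹ with ha
  have ha0 : ∀ φ, a φ ≠ 0 := fun φ => inv_ne_zero (pow_ne_zero _ hζ0)
  set B : F → Qb := fun x => ∑ φ ∈ E, a φ * φ x with hB
  -- `B` is not identically zero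
  have hBne : ∃ x : F, B x ≠ 0 := by
    by_contra hall
    push Not at hall
    have hli := linearIndependent_algHom_toLinearMap ℚ F Qb
    rw [linearIndependent_iff'] at hli
    have h0 : ∑ φ ∈ E, a φ • (φ.toLinearMap : F →ₗ[ℚ] Qb) = 0 := by
      apply LinearMap.ext
      intro x
      rw [LinearMap.sum_apply, LinearMap.zero_apply]
      have := hall x
      rw [hB] at this
      simpa [LinearMap.smul_apply] using this
    have h1 := hli E a h0 (restr F 1) ((hmemE _).2 ⟨1, U₀.one_mem, rfl⟩)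
    exact ha0 _ h1
  obtain ⟨x, hx⟩ := hBne
  -- the transformation rule
  have hrule : ∀ σ ∈ U₀, σ (B x) = ζ ^ (χ σ).val * B x := by
    intro σ hσ
    have hσa : ∀ φ, σ (a φ) = a φ := by
      intro φ
      rw [ha]
      simp only
      rw [map_inv₀, map_pow, hζfix σ hσ]
    rw [hB]
    simp only
    rw [map_sum, Finset.mul_sum]
    refine Finset.sum_bij' (fun φ _ => (σ : Qb →ₐ[ℚ] Qb).comp φ)
      (fun ψ _ => ((σ⁻¹ : GQ) : Qb →ₐ[ℚ] Qb).comp ψ) ?_ ?_ ?_ ?_ ?_
    · intro φ hφ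
      obtain ⟨c, hc, rfl⟩ := (hmemE φ).1 hφ
      exact (hmemE _).2 ⟨σ * c, U₀.mul_mem hσ hc, rfl⟩
    · intro ψ hψ
      obtain ⟨c, hc, rfl⟩ := (hmemE ψ).1 hψ
      exact (hmemE _).2 ⟨σ⁻¹ * c, U₀.mul_mem (U₀.inv_mem hσ) hc, rfl⟩
    · intro φ _
      apply AlgHom.ext
      intro y
      show σ⁻¹ (σ (φ y)) = φ y
      show (σ⁻¹ * σ) (φ y) = φ y
      simp
    · intro ψ _
      apply AlgHom.ext
      intro y
      show σ (σ⁻¹ (ψ y)) = ψ y
      show (σ * σ⁻¹) (ψ y) = ψ y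
      simp
    · intro φ hφ
      obtain ⟨c, hc, rfl⟩ := (hmemE φ).1 hφ
      rw [map_mul, hσa]
      have h1 : X ((σ : Qb →ₐ[ℚ] Qb).comp (restr F c)) = χ σ + X (restr F c) := by
        rw [← restr_mul, hX, chiEmb_restr U₀ F p χ hinv _ (U₀.mul_mem hσ hc),
          chiEmb_restr U₀ F p χ hinv _ hc, hadd σ hσ c hc]
      have h2 : a ((σ : Qb →ₐ[ℚ] Qb).comp (restr F c))
          = (ζ ^ (χ σ).val)⁻¹ * a (restr F c) := by
        rw [ha]
        simp only
        rw [h1, pow_val_add ζ hζ, mul_inv]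
      rw [h2]
      have h3 : ζ ^ (χ σ).val ≠ 0 := pow_ne_zero _ hζ0
      show a (restr F c) * σ (restr F c x)
        = ζ ^ (χ σ).val * ((ζ ^ (χ σ).val)⁻¹ * a (restr F c) * σ (restr F c x))
      field_simp
  refine ⟨B x, hx, ?_, hrule⟩
  -- `B x ∈ F`
  rw [← InfiniteGalois.fixedField_fixingSubgroup F, IntermediateField.mem_fixedField_iff]
  intro u hu
  have h1 := hrule u (hle hu)
  have h2 : χ u = 0 := by
    have := hinv 1 U₀.one_mem u hu
    rw [one_mul] at this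
    rw [this, hχ1]
  rw [h2, ZMod.val_zero, pow_zero, one_mul] at h1
  exact h1

end H9KH
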