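/-
W2-C (S55) block E, target TFin (helper24): UNR-TR in the shape `H24FIN.UnrTrStatement S` (helper9).
-/
import Fermat.Agent.CFT2.E.TFinDefs_helper24
import Fermat.Agent.CFT2.C.BClsLevel_helper9

set_option autoImplicit false
set_option linter.style.haveILetI false
set_option linter.unusedVariables false

noncomputable section

namespace H9BL

/-- **(UNR-TR)** in helper24's shape. -/
theorem unrTr24 (S : Finset Nat.Primes) : H24FIN.UnrTrStatement S := by
  intro F _ hF hn
  haveI := hF.1
  haveI : IsGalois ℚ F := isGalois_of_normal F hn
  exact unramOutside S F hF

end H9BL
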