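/-
W2-C (S55) block E, target TFin (helper24): `H24FIN.h24fin_homFin : HomFin S p` UNCONDITIONAL
(`p` prime, `p ∈ S`), from KH90 (helper9), KVAL (helper24), UNR-TR (helper9), KFIN (helper12);
`h24fin_tfin_of_red : RedStatement → TFin S p`.
-/
import Mathlib
import Fermat.Agent.CFT2.E.TFinAsm_helper24
import Fermat.Agent.CFT2.E.TFinKFin_helper12
import Fermat.Agent.CFT2.E.TFinKH90_helper9
import Fermat.Agent.CFT2.E.TFinUnrTr_helper9

set_option autoImplicit false
set_option linter.style.haveILetI false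
set_option linter.unusedVariables false

noncomputable section

namespace H24FIN

open H15D H14PT H17C NumberField

/-- **HomFin**, unconditional (`p ∈ S`) -/
theorem h24fin_homFin (S : Finset Nat.Primes) (p : ℕ) (hp : p.Prime)
    (hpS : ∃ q ∈ S, (q : ℕ) = p) : HomFin S p :=
  h24fin_homFinAsm S p hp hpS H9KH.kh90 h24fin_kval (H9BL.unrTr24 S) H12KF.kfin

/-- **TFin** from `RED` -/
theorem h24fin_tfin_of_red (hred : RedStatement) (S : Finset Nat.Primes) (p : ℕ) (hp : p.Prime)
    (hpS : ∃ q ∈ S, (q : ℕ) = p) : TFin S p :=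
  hred S p hp (h24fin_homFin S p hp hpS)

end H24FIN

end
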