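/-
W2-C (S55) block E, target TFin, slice RED (helper21):
`H24FIN.RedStatement : ∀ S p, p.Prime → HomFin S p → TFin S p`.

A level-constant 1-cocycle `f : G → N` (`N` finite, killed by `p`, trivial action of a level
`U₀`) is additive on `U₀`; composing with the functionals `N → ℤ/p` and using `HomFin` it vanishes
on a level `U' ≤ U₀`, hence is right `U'`-invariant, i.e. a function on the finite set `G ⧸ U'`.
Nothing here is proved by a placeholder.
-/
import Mathlib
import Fermat.Agent.CFT2.E.TFinDefs_helper24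

set_option autoImplicit false
set_option linter.style.haveILetI false
set_option linter.unusedVariables false

noncomputable section

namespace H21RD

open H15D H15F H14PT groupCohomology

variable {G : Type} [Group G]

/-- additive functionals to `ℤ/p` separate the points of a `ℤ/p`-vector space. -/
theorem exists_functional_ne_aux {p : ℕ} [Fact p.Prime] {N : Type} [AddCommGroup N]
    [Module (ZMod p) N] {n : N} (hn : n ≠ 0) :
    ∃ φ : N →+ ZMod p, φ n ≠ 0 := by
  by_contra hcon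
  apply hn
  refine (Module.forall_dual_apply_eq_zero_iff (ZMod p) n).1 ?_
  intro φ
  by_contra h
  exact hcon ⟨φ.toAddMonoidHom, h⟩

/-- additive functionals to `ℤ/p` separate the points of an abelian group killed by `p`. -/
theorem exists_functional_ne {p : ℕ} (hp : p.Prime) {N : Type} [AddCommGroup N]
    (hpN : ∀ n : N, p • n = 0) {n : N} (hn : n ≠ 0) :
    ∃ φ : N →+ ZMod p, φ n ≠ 0 :=
  haveI : Fact p.Prime := ⟨hp⟩
  letI : Module (ZMod p) N := AddCommGroup.zmodModule hpN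
  exists_functional_ne_aux hn

/-- the abstract reduction. -/
theorem red_core (𝓤 : Levels G) {p : ℕ} (hp : p.Prime)
    (hHF : ∀ U₀ ∈ 𝓤.sets, ∃ U' ∈ 𝓤.sets, U' ≤ U₀ ∧ ∀ χ : G → ZMod p, IsLC₁ 𝓤 χ →
      (∀ σ ∈ U₀, ∀ τ ∈ U₀, χ (σ * τ) = χ σ + χ τ) → ∀ s ∈ U', χ s = 0)
    {N : Type} [AddCommGroup N] [Finite N] (ρN : Representation ℤ G N)
    (hN : IsLevelTriv ρN 𝓤) (hpN : ∀ n : N, p • n = 0) :
    Finite (lcH1 𝓤 (Rep.of ρN)) := by
  obtain ⟨U₀, hU₀, htriv⟩ := hN
  obtain ⟨U', hU', hle, hvan⟩ := hHF U₀ hU₀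
  haveI : U'.FiniteIndex := 𝓤.finite U' hU'
  -- cocycle identity
  have hcoc : ∀ f : ↥(lcZ1 𝓤 (Rep.of ρN)), ∀ g h : G,
      (f : G → N) (g * h) = ρN g ((f : G → N) h) + (f : G → N) g := by
    intro f g h
    exact (mem_cocycles₁_iff (f : G → (Rep.of ρN))).1 ((mem_lcZ1_iff _).1 f.2).1 g h
  -- every cocycle vanishes on `U'`
  have hzero : ∀ f : ↥(lcZ1 𝓤 (Rep.of ρN)), ∀ s ∈ U', (f : G → N) s = 0 := by
    intro f s hs
    by_contra hne
    obtain ⟨φ, hφ⟩ := exists_functional_ne hp hpN hne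
    apply hφ
    refine hvan (fun g => φ ((f : G → N) g)) (((mem_lcZ1_iff _).1 f.2).2.comp φ) ?_ s hs
    intro σ hσ τ hτ
    show φ ((f : G → N) (σ * τ)) = φ ((f : G → N) σ) + φ ((f : G → N) τ)
    rw [hcoc f σ τ, htriv σ hσ, map_add, add_comm]
  -- hence is right `U'`-invariant
  have hrc : ∀ f : ↥(lcZ1 𝓤 (Rep.of ρN)), ∀ g : G, ∀ s ∈ U',
      (f : G → N) (g * s) = (f : G → N) g := by
    intro f g s hs
    rw [hcoc f g s, hzero f s hs, map_zero, zero_add]
  haveI : Finite (G ⧸ U') := Subgroup.finite_quotient_of_finiteIndex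
  haveI : Finite ↥(lcZ1 𝓤 (Rep.of ρN)) := by
    refine Finite.of_injective
      (fun (f : ↥(lcZ1 𝓤 (Rep.of ρN))) (q : G ⧸ U') => (f : G → N) q.out) ?_
    intro f f' hff
    apply Subtype.ext
    funext g
    have h1 := congrFun hff (g : G ⧸ U')
    simp only at h1
    have h2 : ((g : G ⧸ U').out) = g * (g⁻¹ * (g : G ⧸ U').out) := by group
    have h3 : g⁻¹ * (g : G ⧸ U').out ∈ U' := by
      rw [← QuotientGroup.eq]
      exact (QuotientGroup.out_eq' _).symm
    rw [h2, hrc f g _ h3, hrc f' g _ h3] at h1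
    exact h1
  exact Finite.of_surjective _ (lcH1π_surjective (𝓤 := 𝓤) (A := Rep.of ρN))

/-- **(RED)** -/
theorem redStatement : H24FIN.RedStatement := by
  intro S p hp hHF N _ _ ρN hN hpN
  exact red_core (levelsS S) hp hHF ρN hN hpN

end H21RD

end
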