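/-
W2-C (S55) block E, target TFin (helper24): **`H24FIN.h24fin_tfin : TFin S p`** UNCONDITIONAL
(`p` prime, `p ∈ S`):  `H¹_S(N)` is finite for finite level-trivial `N` killed by `p`.
Slices: RED (helper21), KH90 + UNR-TR (helper9), KFIN (helper12), KVAL + ASM (helper24).
-/
import Mathlib
import Fermat.Agent.CFT2.E.TFinHomFin_helper24
import Fermat.Agent.CFT2.E.TFinRed_helper21

set_option autoImplicit false
set_option linter.style.haveILetI false
set_option linter.unusedVariables false

noncomputable section

namespace H24FIN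

open H15D H14PT

/-- **(FIN)** the target `TFin`, unconditional. -/
theorem h24fin_tfin (S : Finset Nat.Primes) (p : ℕ) (hp : p.Prime)
    (hpS : ∃ q ∈ S, (q : ℕ) = p) : TFin S p :=
  h24fin_tfin_of_red H21RD.redStatement S p hp hpS

/-- `TFin` in the form used by `S55_of_targets` (`pPrime p ∈ S`). -/
theorem h24fin_tfin' (S : Finset Nat.Primes) (p : ℕ) [Fact p.Prime]
    (hpS : ExtCitation.pPrime p ∈ S) : TFin S p :=
  h24fin_tfin S p (Fact.out) ⟨ExtCitation.pPrime p, hpS, rfl⟩

end H24FIN

end
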