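/-
W2-C (S55) (helper14): FINAL ASSEMBLY, part 2.  With CMB (helper25), TFin (helper24),
B-CLS strong (helper22), LEVEL-FIELD (helper9), EX-TR (helper14), C2B ⇐ C2Key (helper5):
`S55_of_key_ex : C2Key S p hS → ExTensorStatement S p → (conclusion of S55)`.
-/
import Mathlib
import Fermat.Agent.CFT2.E.Final
import Fermat.Agent.CFT2.E.TFinFinal_helper24
import Fermat.Agent.CFT2.C.CMBFinal_helper25
import Fermat.Agent.CFT2.C.BCls.Strong_helper22
import Fermat.Agent.CFT2.C.BCls.LevelField_helper9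
import Fermat.Agent.CFT2.C3.ExTr_helper14
import Fermat.Agent.CFT2.C2.Reduce_helper5

set_option autoImplicit false
set_option linter.style.haveILetI false
set_option linter.unusedVariables false

noncomputable section

namespace H14PT

open H15D H15F ExtCitation H24G groupCohomology

variable {p : ℕ} [Fact p.Prime]

/-- **S55 from `C2Key` and the existence theorem mod `p` in the tensor model** -/
theorem S55_of_key_ex (hp2 : p ≠ 2) (S : Finset Nat.Primes) (hpS : pPrime p ∈ S)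
    (M : Rep (ZMod p) (AlgebraicClosure ℚ ≃ₐ[ℚ] AlgebraicClosure ℚ))
    [FiniteDimensional (ZMod p) M]
    (hsm : ∀ m : M, ∃ F : IntermediateField ℚ (AlgebraicClosure ℚ), FiniteDimensional ℚ F ∧
      ∀ s ∈ F.fixingSubgroup, M.ρ s m = m)
    (hMur : ∀ q : Nat.Primes, q ∉ S → ∀ A : ValuationSubring (AlgebraicClosure ℚ),
      A.LiesOverPrime (q : ℕ) → ∀ g ∈ A.inertiaSubgroupIn ℚ, M.ρ g = 1)
    (hkey : H5LP.C2Key S p ⟨pPrime p, hpS⟩) (hex : H17X.ExTensorStatement S p) :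
    ∃ B : sha₁ S (M.dualTwist (cycloChar p)) →ₗ[ZMod p] sha₂ S M →ₗ[ZMod p] ZMod p,
      (∀ y, (∀ x, B y x = 0) → y = 0) ∧ (∀ x, (∀ y, B y x = 0) → x = 0) := by
  have hp : p.Prime := Fact.out
  have hpS' : ∃ q ∈ S, (q : ℕ) = p := ⟨pPrime p, hpS, rfl⟩
  have hcm : CMB S p := H25C.h25c_cmb S p hp hp2 hpS'
  exact S55_of_blockC hp2 S hpS M hsm hMur hcm
    (H5LP.h5lp_c2b_of ⟨pPrime p, hpS⟩ (tDim1_of_cmb S hcm) (H12SH2.tSh2 S) hkey)
    (H14X.exTr S p hp hpS' (H9BL.levelFieldStmt S) (H22BC.h22bc_bclsStrong S p hp hpS') hex)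
    (H24FIN.h24fin_tfin' S p hpS)

end H14PT

end
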