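/-
W2-C (S55) (helper14): FINAL ASSEMBLY, part 3.
* `c3b_final`  : `H14PT.C3B S p`, unconditional (`p` odd, `p ∈ S`): helper17's assembly with
  EX-LOC (helper13), EX-KUM (helper10), EX-SPLIT (helper20), EX (helper15) plugged in;
* `S55_of_keyStatement` : `H3C2.KeyStatement S q₀ → (conclusion of S55)`.
-/
import Mathlib
import Fermat.Agent.CFT2.E.Final
import Fermat.Agent.CFT2.E.TFinFinal_helper24
import Fermat.Agent.CFT2.C.CMBFinal_helper25
import Fermat.Agent.CFT2.C3.C3BFinal_helper17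
import Fermat.Agent.CFT2.C3.ExLoc_helper13
import Fermat.Agent.CFT2.C3.ExKum_helper10
import Fermat.Agent.CFT2.C3.ExSplit_helper20
import Fermat.Agent.CFT2.C3.Ex_helper15
import Fermat.Agent.CFT2.C2.Final_helper3
import Fermat.Agent.CFT2.C2.Form_helper5

set_option autoImplicit false
set_option linter.style.haveILetI false
set_option linter.unusedVariables false

noncomputable section

namespace H14PT

open H15D H15F ExtCitation H24G groupCohomology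

/-- **C3B**, unconditional -/
theorem c3b_final (S : Finset Nat.Primes) (p : ℕ) (hp : p.Prime) (hp2 : p ≠ 2)
    (hpS : ∃ q ∈ S, (q : ℕ) = p) : C3B S p :=
  H17X.h17x_c3b_of H13XL.h13xl_loc H10XK.h10xk_kummer H20XS.h20xs_split
    (fun hMu S p hp hp2 hpS => H15X.ex hMu S p hp hp2 hpS) S p hp hp2 hpS

variable {p : ℕ} [Fact p.Prime]

/-- **S55 from C2B** -/
theorem S55_of_c2b (hp2 : p ≠ 2) (S : Finset Nat.Primes) (hpS : pPrime p ∈ S)
    (M : Rep (ZMod p) (AlgebraicClosure ℚ ≃ₐ[ℚ] AlgebraicClosure ℚ))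
    [FiniteDimensional (ZMod p) M]
    (hsm : ∀ m : M, ∃ F : IntermediateField ℚ (AlgebraicClosure ℚ), FiniteDimensional ℚ F ∧
      ∀ s ∈ F.fixingSubgroup, M.ρ s m = m)
    (hMur : ∀ q : Nat.Primes, q ∉ S → ∀ A : ValuationSubring (AlgebraicClosure ℚ),
      A.LiesOverPrime (q : ℕ) → ∀ g ∈ A.inertiaSubgroupIn ℚ, M.ρ g = 1)
    (hc2 : C2B S p ⟨pPrime p, hpS⟩) :
    ∃ B : sha₁ S (M.dualTwist (cycloChar p)) →ₗ[ZMod p] sha₂ S M →ₗ[ZMod p] ZMod p,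
      (∀ y, (∀ x, B y x = 0) → y = 0) ∧ (∀ x, (∀ y, B y x = 0) → x = 0) := by
  have hp : p.Prime := Fact.out
  have hpS' : ∃ q ∈ S, (q : ℕ) = p := ⟨pPrime p, hpS, rfl⟩
  exact S55_of_blockC hp2 S hpS M hsm hMur (H25C.h25c_cmb S p hp hp2 hpS') hc2
    (c3b_final S p hp hp2 hpS') (H24FIN.h24fin_tfin' S p hpS)

/-- **S55 from the KEY statement of C2B** -/
theorem S55_of_keyStatement (hp2 : p ≠ 2) (S : Finset Nat.Primes) (hpS : pPrime p ∈ S)
    (M : Rep (ZMod p) (AlgebraicClosure ℚ ≃ₐ[ℚ] AlgebraicClosure ℚ))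
    [FiniteDimensional (ZMod p) M]
    (hsm : ∀ m : M, ∃ F : IntermediateField ℚ (AlgebraicClosure ℚ), FiniteDimensional ℚ F ∧
      ∀ s ∈ F.fixingSubgroup, M.ρ s m = m)
    (hMur : ∀ q : Nat.Primes, q ∉ S → ∀ A : ValuationSubring (AlgebraicClosure ℚ),
      A.LiesOverPrime (q : ℕ) → ∀ g ∈ A.inertiaSubgroupIn ℚ, M.ρ g = 1)
    (hkey : H3C2.KeyStatement S ⟨pPrime p, hpS⟩) :
    ∃ B : sha₁ S (M.dualTwist (cycloChar p)) →ₗ[ZMod p] sha₂ S M →ₗ[ZMod p] ZMod p,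
      (∀ y, (∀ x, B y x = 0) → y = 0) ∧ (∀ x, (∀ y, B y x = 0) → x = 0) :=
  S55_of_c2b hp2 S hpS M hsm hMur
    (H3C2.h3c2_c2b_of S ⟨pPrime p, hpS⟩ hp2 ⟨pPrime p, hpS⟩
      (H5LP.h5lp_form (S := S) (p := p) ⟨pPrime p, hpS⟩) hkey)

end H14PT

end
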