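/-
W2-C (S55) block E, bridge slices D3/PF + D3/FR (helper24).
`φ : D →* G`, `R` a `G`-module, `W` a `D`-module (all as `(V, ρ)`, `ρ : Representation ℤ _ V`).

* PF (projection formula): `pf : Hom(R, Coind W) ≃ Coind Hom(R|D, W)`, `f ↦ (g ↦ (r ↦ f(g⁻¹ r)(g)))`,
  `G`-equivariant (`pf_comm`, `pfIso`), compatible with evaluation at `1` (`pf_ev`);
  consequences (with helper12's Shapiro): restriction + evaluation
  `Hⁱ(G, Hom(R, Coind W)) → Hⁱ(D, Hom(R|D, W))` is injective, `i = 1, 2`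
  (elementwise `pf_sh1_inj`, `pf_sh2_inj`; map form `pf_map_injective₁/₂`).
* FR (Frobenius reciprocity): `fr : Hom_D(R, W) ≃ Hom_G(R, Coind W)`, `c0 ↦ (r ↦ g ↦ c0 (g r))`.
-/
import Mathlib
import Fermat.Agent.CFT2.E.Hom
import Fermat.Agent.CFT2.D3.Shapiro_helper12

set_option autoImplicit false
set_option linter.style.haveILetI false
set_option linter.unusedSectionVars false
set_option linter.unusedVariables false

noncomputable section

namespace H24G

open H15D H14PT groupCohomology CategoryTheory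

variable {G D : Type} [Group G] [Group D] (φ : D →* G)
  {R : Type} [AddCommGroup R] (ρR : Representation ℤ G R)
  {W : Type} [AddCommGroup W] (ρW : Representation ℤ D W)

/-- `Hom(R, Coind W)` -/
abbrev homCoind : Rep.{0} ℤ G := hm ρR (Rep.coind φ (Rep.of ρW)).ρ

/-- `Coind Hom(R|D, W)` -/
abbrev coindHom : Rep.{0} ℤ G := Rep.coind φ (hm (ρR.comp φ) ρW)

theorem ρR_inv_mul (g : G) (r : R) : ρR g⁻¹ (ρR g r) = r := rho_inv_rho ρR g r

theorem ρR_mul_inv (g : G) (r : R) : ρR g (ρR g⁻¹ r) = r := rho_rho_inv ρR g r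

theorem ρR_mul_apply (g h : G) (r : R) : ρR (g * h) r = ρR g (ρR h r) := by
  rw [map_mul]; rfl

/-- the value `f(r)(g)` of `f ∈ Hom(R, Coind W)` -/
def hcVal (f : homCoind φ ρR ρW) (r : R) (g : G) : W :=
  ((f : R →ₗ[ℤ] Rep.coind φ (Rep.of ρW)) r).1 g

variable {φ ρR ρW}

theorem hcVal_add_left (f f' : homCoind φ ρR ρW) (r : R) (g : G) :
    hcVal φ ρR ρW (f + f') r g = hcVal φ ρR ρW f r g + hcVal φ ρR ρW f' r g := rfl

theorem hcVal_add (f : homCoind φ ρR ρW) (r r' : R) (g : G) :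
    hcVal φ ρR ρW f (r + r') g = hcVal φ ρR ρW f r g + hcVal φ ρR ρW f r' g := by
  unfold hcVal
  rw [map_add]
  rfl

theorem hcVal_smul (f : homCoind φ ρR ρW) (a : ℤ) (r : R) (g : G) :
    hcVal φ ρR ρW f (a • r) g = a • hcVal φ ρR ρW f r g := by
  unfold hcVal
  rw [map_smul]
  rfl

theorem hcVal_equiv (f : homCoind φ ρR ρW) (r : R) (d : D) (g : G) :
    hcVal φ ρR ρW f r (φ d * g) = ρW d (hcVal φ ρR ρW f r g) :=
  ((f : R →ₗ[ℤ] Rep.coind φ (Rep.of ρW)) r).2 d g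

theorem hcVal_ρ (h : G) (f : homCoind φ ρR ρW) (r : R) (g : G) :
    hcVal φ ρR ρW ((homCoind φ ρR ρW).ρ h f) r g = hcVal φ ρR ρW f (ρR h⁻¹ r) (g * h) := rfl

theorem hc_ext {f f' : homCoind φ ρR ρW}
    (h : ∀ r g, hcVal φ ρR ρW f r g = hcVal φ ρR ρW f' r g) : f = f' := by
  apply LinearMap.ext
  intro r
  apply Subtype.ext
  funext g
  exact h r g

variable (φ ρR ρW)

/-- the value `F(g)(r)` of `F ∈ Coind Hom(R|D, W)` -/
def chVal (F : coindHom φ ρR ρW) (g : G) (r : R) : W := (F.1 g : R →ₗ[ℤ] W) r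

variable {φ ρR ρW}

theorem chVal_add_left (F F' : coindHom φ ρR ρW) (g : G) (r : R) :
    chVal φ ρR ρW (F + F') g r = chVal φ ρR ρW F g r + chVal φ ρR ρW F' g r := rfl

theorem chVal_add (F : coindHom φ ρR ρW) (g : G) (r r' : R) :
    chVal φ ρR ρW F g (r + r') = chVal φ ρR ρW F g r + chVal φ ρR ρW F g r' := by
  unfold chVal
  rw [map_add]

theorem chVal_smul (F : coindHom φ ρR ρW) (g : G) (a : ℤ) (r : R) :
    chVal φ ρR ρW F g (a • r) = a • chVal φ ρR ρW F g r := by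
  unfold chVal
  rw [map_smul]

theorem chVal_equiv (F : coindHom φ ρR ρW) (d : D) (g : G) (r : R) :
    chVal φ ρR ρW F (φ d * g) r = ρW d (chVal φ ρR ρW F g (ρR (φ d)⁻¹ r)) := by
  have h1 := F.2 d g
  have h2 := congrArg (fun ψ : R →ₗ[ℤ] W => ψ r) h1
  simp only at h2
  unfold chVal
  rw [h2]
  change ((hm (ρR.comp φ) ρW).ρ d (F.1 g) : R →ₗ[ℤ] W) r = _
  rw [hm_ρ_apply]
  simp only [MonoidHom.comp_apply, map_inv]

theorem chVal_ρ (h : G) (F : coindHom φ ρR ρW) (g : G) (r : R) :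
    chVal φ ρR ρW ((coindHom φ ρR ρW).ρ h F) g r = chVal φ ρR ρW F (g * h) r := rfl

theorem ch_ext {F F' : coindHom φ ρR ρW}
    (h : ∀ g r, chVal φ ρR ρW F g r = chVal φ ρR ρW F' g r) : F = F' := by
  apply Subtype.ext
  funext g
  apply LinearMap.ext
  intro r
  exact h g r

variable (φ ρR ρW)

/-- PF, forward map: `f ↦ (g ↦ (r ↦ f(g⁻¹ r)(g)))` -/
def pfFun (f : homCoind φ ρR ρW) : coindHom φ ρR ρW :=
  ⟨fun g =>
    ({ toFun := fun r => hcVal φ ρR ρW f (ρR g⁻¹ r) g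
       map_add' := fun r r' => by rw [map_add, hcVal_add]
       map_smul' := fun a r => by rw [map_smul, hcVal_smul]; rfl } : R →ₗ[ℤ] W), by
    rw [Representation.mem_coindV]
    intro d g
    apply LinearMap.ext
    intro r
    change hcVal φ ρR ρW f (ρR (φ d * g)⁻¹ r) (φ d * g)
      = ((hm (ρR.comp φ) ρW).ρ d
          ({ toFun := fun r => hcVal φ ρR ρW f (ρR g⁻¹ r) g
             map_add' := fun r r' => by rw [map_add, hcVal_add]
             map_smul' := fun a r => by rw [map_smul, hcVal_smul]; rfl } : R →ₗ[ℤ] W) :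
            R →ₗ[ℤ] W) r
    rw [hm_ρ_apply, hcVal_equiv]
    change ρW d (hcVal φ ρR ρW f (ρR (φ d * g)⁻¹ r) g)
      = ρW d (hcVal φ ρR ρW f (ρR g⁻¹ (ρR (φ d⁻¹) r)) g)
    rw [mul_inv_rev, ρR_mul_apply, show φ d⁻¹ = (φ d)⁻¹ from map_inv φ d]⟩

theorem chVal_pfFun (f : homCoind φ ρR ρW) (g : G) (r : R) :
    chVal φ ρR ρW (pfFun φ ρR ρW f) g r = hcVal φ ρR ρW f (ρR g⁻¹ r) g := rfl

/-- PF, backward map: `F ↦ (r ↦ (g ↦ F(g)(g r)))` -/
def pfInv (F : coindHom φ ρR ρW) : homCoind φ ρR ρW :=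
  ({ toFun := fun r => ⟨fun g => chVal φ ρR ρW F g (ρR g r), by
        rw [Representation.mem_coindV]
        intro d g
        change chVal φ ρR ρW F (φ d * g) (ρR (φ d * g) r) = ρW d (chVal φ ρR ρW F g (ρR g r))
        rw [chVal_equiv, ρR_mul_apply, ρR_inv_mul]⟩
     map_add' := fun r r' => by
        apply Subtype.ext
        funext g
        change chVal φ ρR ρW F g (ρR g (r + r'))
          = chVal φ ρR ρW F g (ρR g r) + chVal φ ρR ρW F g (ρR g r')
        rw [map_add, chVal_add]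
     map_smul' := fun a r => by
        apply Subtype.ext
        funext g
        change chVal φ ρR ρW F g (ρR g (a • r)) = a • chVal φ ρR ρW F g (ρR g r)
        rw [map_smul, chVal_smul] } : R →ₗ[ℤ] Rep.coind φ (Rep.of ρW))

theorem hcVal_pfInv (F : coindHom φ ρR ρW) (r : R) (g : G) :
    hcVal φ ρR ρW (pfInv φ ρR ρW F) r g = chVal φ ρR ρW F g (ρR g r) := rfl

/-- **(PF)** the projection formula `Hom(R, Coind W) ≃ Coind Hom(R|D, W)` -/
def pf : homCoind φ ρR ρW ≃ₗ[ℤ] coindHom φ ρR ρW where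
  toFun := pfFun φ ρR ρW
  invFun := pfInv φ ρR ρW
  map_add' f f' := by
    apply ch_ext
    intro g r
    rw [chVal_add_left, chVal_pfFun, chVal_pfFun, chVal_pfFun, hcVal_add_left]
  map_smul' a f := by
    apply ch_ext
    intro g r
    rfl
  left_inv f := by
    apply hc_ext
    intro r g
    rw [hcVal_pfInv, chVal_pfFun, ρR_inv_mul]
  right_inv F := by
    apply ch_ext
    intro g r
    rw [chVal_pfFun, hcVal_pfInv, ρR_mul_inv]

theorem chVal_pf (f : homCoind φ ρR ρW) (g : G) (r : R) :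
    chVal φ ρR ρW (pf φ ρR ρW f) g r = hcVal φ ρR ρW f (ρR g⁻¹ r) g := rfl

theorem hcVal_pf_symm (F : coindHom φ ρR ρW) (r : R) (g : G) :
    hcVal φ ρR ρW ((pf φ ρR ρW).symm F) r g = chVal φ ρR ρW F g (ρR g r) := rfl

/-- `pf` is `G`-equivariant -/
theorem pf_comm (h : G) (f : homCoind φ ρR ρW) :
    pf φ ρR ρW ((homCoind φ ρR ρW).ρ h f) = (coindHom φ ρR ρW).ρ h (pf φ ρR ρW f) := by
  apply ch_ext
  intro g r
  rw [chVal_pf, hcVal_ρ, chVal_ρ, chVal_pf, mul_inv_rev, ρR_mul_apply]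

theorem pf_symm_comm (h : G) (F : coindHom φ ρR ρW) :
    (pf φ ρR ρW).symm ((coindHom φ ρR ρW).ρ h F)
      = (homCoind φ ρR ρW).ρ h ((pf φ ρR ρW).symm F) := by
  apply (pf φ ρR ρW).injective
  rw [pf_comm, LinearEquiv.apply_symm_apply, LinearEquiv.apply_symm_apply]

/-- **(PF)** compatibility with evaluation at `1` -/
theorem pf_ev (f : homCoind φ ρR ρW) (r : R) :
    chVal φ ρR ρW (pf φ ρR ρW f) 1 r = hcVal φ ρR ρW f r 1 := by
  rw [chVal_pf, inv_one, map_one]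
  rfl

/-- `pf` as an isomorphism of `Rep ℤ G` -/
def pfIso : homCoind φ ρR ρW ≅ coindHom φ ρR ρW :=
  Rep.mkIso (Representation.Equiv.mk (pf φ ρR ρW) (fun h => by
    apply LinearMap.ext
    intro f
    exact pf_comm φ ρR ρW h f))

theorem pfIso_hom_apply (f : homCoind φ ρR ρW) :
    (pfIso φ ρR ρW).hom.hom f = pf φ ρR ρW f := rfl

/-! ### transport of cocycles and coboundaries along equivariant linear maps -/

section transport

variable {A B : Rep.{0} ℤ G} (e : A →ₗ[ℤ] B) (he : ∀ g a, e (A.ρ g a) = B.ρ g (e a))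

include he in
theorem map_mem_cocycles₁ {c : G → A} (hc : c ∈ cocycles₁ A) :
    (fun g => e (c g)) ∈ cocycles₁ B := by
  rw [mem_cocycles₁_iff] at hc ⊢
  intro g h
  rw [hc g h, map_add, he]

include he in
theorem map_mem_coboundaries₁ {c : G → A} (hc : c ∈ coboundaries₁ A) :
    (fun g => e (c g)) ∈ coboundaries₁ B := by
  obtain ⟨a, rfl⟩ := hc
  refine ⟨e a, ?_⟩
  funext g
  change B.ρ g (e a) - e a = e (A.ρ g a - a)
  rw [map_sub, he]

include he in
theorem map_mem_cocycles₂ {c : G × G → A} (hc : c ∈ cocycles₂ A) :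
    (fun p => e (c p)) ∈ cocycles₂ B := by
  rw [mem_cocycles₂_iff] at hc ⊢
  intro g h j
  change e (c (g * h, j)) + e (c (g, h)) = B.ρ g (e (c (h, j))) + e (c (g, h * j))
  rw [← map_add, hc g h j, map_add, he]

include he in
theorem map_mem_coboundaries₂ {c : G × G → A} (hc : c ∈ coboundaries₂ A) :
    (fun p => e (c p)) ∈ coboundaries₂ B := by
  obtain ⟨f, rfl⟩ := hc
  refine ⟨fun g => e (f g), ?_⟩
  funext p
  change B.ρ p.1 (e (f p.2)) - e (f (p.1 * p.2)) + e (f p.1)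
    = e (A.ρ p.1 (f p.2) - f (p.1 * p.2) + f p.1)
  rw [map_add, map_sub, he]

end transport

/-! ### evaluation at `1` and Shapiro for `Hom(R, Coind W)` -/

/-- post-composition with the evaluation at `1`: `Hom(R, Coind W) → Hom(R|D, W)` -/
def evPost : homCoind φ ρR ρW →ₗ[ℤ] hm (ρR.comp φ) ρW where
  toFun f :=
    ({ toFun := fun r => hcVal φ ρR ρW f r 1
       map_add' := fun r r' => hcVal_add f r r' 1
       map_smul' := fun a r => hcVal_smul f a r 1 } : R →ₗ[ℤ] W)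
  map_add' f f' := by
    apply LinearMap.ext
    intro r
    rfl
  map_smul' a f := by
    apply LinearMap.ext
    intro r
    rfl

theorem evPost_apply (f : homCoind φ ρR ρW) (r : R) :
    (evPost φ ρR ρW f : R →ₗ[ℤ] W) r = hcVal φ ρR ρW f r 1 := rfl

/-- `ev₁ ∘ pf = (ev₁)_*` -/
theorem pf_one (f : homCoind φ ρR ρW) :
    ((pf φ ρR ρW f).1 1 : R →ₗ[ℤ] W) = evPost φ ρR ρW f := by
  apply LinearMap.ext
  intro r
  exact pf_ev φ ρR ρW f r

theorem evPost_comm (d : D) (f : homCoind φ ρR ρW) :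
    evPost φ ρR ρW ((homCoind φ ρR ρW).ρ (φ d) f)
      = (hm (ρR.comp φ) ρW).ρ d (evPost φ ρR ρW f) := by
  apply LinearMap.ext
  intro r
  rw [evPost_apply, hcVal_ρ, hm_ρ_apply, evPost_apply, one_mul]
  have h1 := hcVal_equiv f (ρR (φ d)⁻¹ r) d 1
  rw [mul_one] at h1
  rw [h1]
  simp only [MonoidHom.comp_apply, map_inv]

/-- restriction along `φ` and evaluation at `1` on 1-cochains of `Hom(R, Coind W)` -/
def pfRes₁ (c : G → homCoind φ ρR ρW) : D → hm (ρR.comp φ) ρW :=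
  fun d => evPost φ ρR ρW (c (φ d))

/-- restriction along `φ` and evaluation at `1` on 2-cochains of `Hom(R, Coind W)` -/
def pfRes₂ (c : G × G → homCoind φ ρR ρW) : D × D → hm (ρR.comp φ) ρW :=
  fun p => evPost φ ρR ρW (c (φ p.1, φ p.2))

theorem res₁_pf (c : G → homCoind φ ρR ρW) :
    H12SH.res₁ φ (hm (ρR.comp φ) ρW) (fun g => pf φ ρR ρW (c g)) = pfRes₁ φ ρR ρW c := by
  funext d
  exact pf_one φ ρR ρW (c (φ d))

theorem res₂_pf (c : G × G → homCoind φ ρR ρW) :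
    H12SH.res₂ φ (hm (ρR.comp φ) ρW) (fun p => pf φ ρR ρW (c p)) = pfRes₂ φ ρR ρW c := by
  funext p
  exact pf_one φ ρR ρW (c (φ p.1, φ p.2))

variable {φ ρR ρW}

theorem pfRes₁_mem_cocycles₁ {c : G → homCoind φ ρR ρW} (hc : c ∈ cocycles₁ (homCoind φ ρR ρW)) :
    pfRes₁ φ ρR ρW c ∈ cocycles₁ (hm (ρR.comp φ) ρW) := by
  rw [← res₁_pf]
  exact H12SH.res₁_mem_cocycles₁
    (map_mem_cocycles₁ (pf φ ρR ρW).toLinearMap (fun g a => pf_comm φ ρR ρW g a) hc)

theorem pfRes₂_mem_cocycles₂ {c : G × G → homCoind φ ρR ρW}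
    (hc : c ∈ cocycles₂ (homCoind φ ρR ρW)) :
    pfRes₂ φ ρR ρW c ∈ cocycles₂ (hm (ρR.comp φ) ρW) := by
  rw [← res₂_pf]
  exact H12SH.res₂_mem_cocycles₂
    (map_mem_cocycles₂ (pf φ ρR ρW).toLinearMap (fun g a => pf_comm φ ρR ρW g a) hc)

/-- **SH-1 for `Hom(R, Coind W)`** (injectivity, elementwise) -/
theorem pf_sh1_inj {c : G → homCoind φ ρR ρW} (hc : c ∈ cocycles₁ (homCoind φ ρR ρW))
    (h : pfRes₁ φ ρR ρW c ∈ coboundaries₁ (hm (ρR.comp φ) ρW)) :
    c ∈ coboundaries₁ (homCoind φ ρR ρW) := by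
  rw [← res₁_pf] at h
  have h1 := H12SH.sh1_inj
    (map_mem_cocycles₁ (pf φ ρR ρW).toLinearMap (fun g a => pf_comm φ ρR ρW g a) hc) h
  have h2 := map_mem_coboundaries₁ (pf φ ρR ρW).symm.toLinearMap
    (fun g a => pf_symm_comm φ ρR ρW g a) h1
  have h3 : (fun g => (pf φ ρR ρW).symm.toLinearMap ((pf φ ρR ρW).toLinearMap (c g))) = c := by
    funext g
    exact (pf φ ρR ρW).symm_apply_apply (c g)
  rw [h3] at h2
  exact h2

/-- **SH-2 for `Hom(R, Coind W)`** (injectivity, elementwise) -/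
theorem pf_sh2_inj (hφ : Function.Injective φ) {c : G × G → homCoind φ ρR ρW}
    (hc : c ∈ cocycles₂ (homCoind φ ρR ρW))
    (h : pfRes₂ φ ρR ρW c ∈ coboundaries₂ (hm (ρR.comp φ) ρW)) :
    c ∈ coboundaries₂ (homCoind φ ρR ρW) := by
  rw [← res₂_pf] at h
  have h1 := H12SH.sh2_inj hφ
    (map_mem_cocycles₂ (pf φ ρR ρW).toLinearMap (fun g a => pf_comm φ ρR ρW g a) hc) h
  have h2 := map_mem_coboundaries₂ (pf φ ρR ρW).symm.toLinearMap
    (fun g a => pf_symm_comm φ ρR ρW g a) h1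
  have h3 : (fun p => (pf φ ρR ρW).symm.toLinearMap ((pf φ ρR ρW).toLinearMap (c p))) = c := by
    funext p
    exact (pf φ ρR ρW).symm_apply_apply (c p)
  rw [h3] at h2
  exact h2

/-- **SH-1 for `Hom(R, Coind W)`** (surjectivity, elementwise) -/
theorem pf_sh1_surj (hφ : Function.Injective φ) {b : D → hm (ρR.comp φ) ρW}
    (hb : b ∈ cocycles₁ (hm (ρR.comp φ) ρW)) :
    ∃ c ∈ cocycles₁ (homCoind φ ρR ρW), pfRes₁ φ ρR ρW c = b := by
  obtain ⟨c', hc', hcb⟩ := H12SH.sh1_surj (φ := φ) hφ hb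
  refine ⟨fun g => (pf φ ρR ρW).symm (c' g),
    map_mem_cocycles₁ (pf φ ρR ρW).symm.toLinearMap (fun g a => pf_symm_comm φ ρR ρW g a) hc', ?_⟩
  rw [← res₁_pf, ← hcb]
  congr 1
  funext g
  exact (pf φ ρR ρW).apply_symm_apply (c' g)

/-- **SH-2 for `Hom(R, Coind W)`** (surjectivity, elementwise) -/
theorem pf_sh2_surj (hφ : Function.Injective φ) {b : D × D → hm (ρR.comp φ) ρW}
    (hb : b ∈ cocycles₂ (hm (ρR.comp φ) ρW)) :
    ∃ c ∈ cocycles₂ (homCoind φ ρR ρW), pfRes₂ φ ρR ρW c = b := by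
  obtain ⟨c', hc', hcb⟩ := H12SH.sh2_surj (φ := φ) hφ hb
  refine ⟨fun p => (pf φ ρR ρW).symm (c' p),
    map_mem_cocycles₂ (pf φ ρR ρW).symm.toLinearMap (fun g a => pf_symm_comm φ ρR ρW g a) hc', ?_⟩
  rw [← res₂_pf, ← hcb]
  congr 1
  funext p
  exact (pf φ ρR ρW).apply_symm_apply (c' p)

/-! ### the map form -/

variable (φ ρR ρW)

/-- restriction + evaluation at `1` as a morphism `Res_φ Hom(R, Coind W) ⟶ Hom(R|D, W)` -/
def evPostHom : Rep.res φ (homCoind φ ρR ρW) ⟶ hm (ρR.comp φ) ρW :=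
  Rep.ofHom ⟨evPost φ ρR ρW, fun d => by
    apply LinearMap.ext
    intro f
    exact evPost_comm φ ρR ρW d f⟩

theorem evPostHom_apply (f : homCoind φ ρR ρW) :
    (evPostHom φ ρR ρW).hom f = evPost φ ρR ρW f := rfl

theorem coe_mapCocycles₁_evPost (c : cocycles₁ (homCoind φ ρR ρW)) :
    ⇑(mapCocycles₁ φ (evPostHom φ ρR ρW) c) = pfRes₁ φ ρR ρW c := rfl

theorem coe_mapCocycles₂_evPost (c : cocycles₂ (homCoind φ ρR ρW)) :
    ⇑(mapCocycles₂ φ (evPostHom φ ρR ρW) c) = pfRes₂ φ ρR ρW c := rfl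

/-- `H¹(G, Hom(R, Coind W)) → H¹(D, Hom(R|D, W))` is injective. -/
theorem pf_map_injective₁ : Function.Injective (map φ (evPostHom φ ρR ρW) 1) := by
  rw [injective_iff_map_eq_zero]
  intro x hx
  induction x using H1_induction_on with
  | h c =>
    rw [H1π_comp_map_apply, H1π_eq_zero_iff, coe_mapCocycles₁_evPost] at hx
    rw [H1π_eq_zero_iff]
    exact pf_sh1_inj c.2 hx

/-- `H²(G, Hom(R, Coind W)) → H²(D, Hom(R|D, W))` is injective (`φ` injective). -/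
theorem pf_map_injective₂ (hφ : Function.Injective φ) :
    Function.Injective (map φ (evPostHom φ ρR ρW) 2) := by
  rw [injective_iff_map_eq_zero]
  intro x hx
  induction x using H2_induction_on with
  | h c =>
    rw [H2π_comp_map_apply, H2π_eq_zero_iff, coe_mapCocycles₂_evPost] at hx
    rw [H2π_eq_zero_iff]
    exact pf_sh2_inj hφ c.2 hx

theorem pf_map_surjective₁ (hφ : Function.Injective φ) :
    Function.Surjective (map φ (evPostHom φ ρR ρW) 1) := by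
  intro x
  induction x using H1_induction_on with
  | h b =>
    obtain ⟨c, hc, hcb⟩ := pf_sh1_surj (φ := φ) (ρR := ρR) (ρW := ρW) hφ b.2
    refine ⟨H1π _ ⟨c, hc⟩, ?_⟩
    rw [H1π_comp_map_apply]
    congr 1
    apply Subtype.ext
    rw [← hcb]
    rfl

theorem pf_map_surjective₂ (hφ : Function.Injective φ) :
    Function.Surjective (map φ (evPostHom φ ρR ρW) 2) := by
  intro x
  induction x using H2_induction_on with
  | h b =>
    obtain ⟨c, hc, hcb⟩ := pf_sh2_surj (φ := φ) (ρR := ρR) (ρW := ρW) hφ b.2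
    refine ⟨H2π _ ⟨c, hc⟩, ?_⟩
    rw [H2π_comp_map_apply]
    congr 1
    apply Subtype.ext
    rw [← hcb]
    rfl

theorem pf_map_bijective₁ (hφ : Function.Injective φ) :
    Function.Bijective (map φ (evPostHom φ ρR ρW) 1) :=
  ⟨pf_map_injective₁ φ ρR ρW, pf_map_surjective₁ φ ρR ρW hφ⟩

theorem pf_map_bijective₂ (hφ : Function.Injective φ) :
    Function.Bijective (map φ (evPostHom φ ρR ρW) 2) :=
  ⟨pf_map_injective₂ φ ρR ρW hφ, pf_map_surjective₂ φ ρR ρW hφ⟩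

/-! ### FR : Frobenius reciprocity `Hom_D(R, W) ≃ Hom_G(R, Coind W)` -/

/-- the `G`-map `R → Coind W`, `r ↦ (g ↦ c0 (g r))`, of a linear map `c0 : R → W` -/
def frFun (c0 : R →ₗ[ℤ] W) (hc0 : ∀ d r, c0 (ρR (φ d) r) = ρW d (c0 r)) :
    homCoind φ ρR ρW :=
  ({ toFun := fun r => ⟨fun g => c0 (ρR g r), by
        rw [Representation.mem_coindV]
        intro d g
        change c0 (ρR (φ d * g) r) = ρW d (c0 (ρR g r))
        rw [ρR_mul_apply, hc0]⟩
     map_add' := fun r r' => by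
        apply Subtype.ext
        funext g
        change c0 (ρR g (r + r')) = c0 (ρR g r) + c0 (ρR g r')
        rw [map_add, map_add]
     map_smul' := fun a r => by
        apply Subtype.ext
        funext g
        change c0 (ρR g (a • r)) = a • c0 (ρR g r)
        rw [map_smul, map_smul] } : R →ₗ[ℤ] Rep.coind φ (Rep.of ρW))

theorem hcVal_frFun (c0 : R →ₗ[ℤ] W) (hc0 : ∀ d r, c0 (ρR (φ d) r) = ρW d (c0 r))
    (r : R) (g : G) : hcVal φ ρR ρW (frFun φ ρR ρW c0 hc0) r g = c0 (ρR g r) := rfl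

theorem frFun_mem_invariants (c0 : R →ₗ[ℤ] W) (hc0 : ∀ d r, c0 (ρR (φ d) r) = ρW d (c0 r)) :
    frFun φ ρR ρW c0 hc0 ∈ (homCoind φ ρR ρW).ρ.invariants := by
  intro h
  apply hc_ext
  intro r g
  rw [hcVal_ρ, hcVal_frFun, hcVal_frFun, ← ρR_mul_apply, mul_assoc, mul_inv_cancel, mul_one]

theorem evPost_frFun (c0 : R →ₗ[ℤ] W) (hc0 : ∀ d r, c0 (ρR (φ d) r) = ρW d (c0 r)) :
    evPost φ ρR ρW (frFun φ ρR ρW c0 hc0) = c0 := by
  apply LinearMap.ext
  intro r
  rw [evPost_apply, hcVal_frFun, map_one]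
  rfl

/-- an invariant `f` of `Hom(R, Coind W)` is determined by `ev₁ ∘ f`: `f(r)(g) = f(g r)(1)` -/
theorem hcVal_of_mem_invariants {f : homCoind φ ρR ρW}
    (hf : f ∈ (homCoind φ ρR ρW).ρ.invariants) (r : R) (g : G) :
    hcVal φ ρR ρW f r g = hcVal φ ρR ρW f (ρR g r) 1 := by
  have h1 := hf g⁻¹
  have h2 : hcVal φ ρR ρW ((homCoind φ ρR ρW).ρ g⁻¹ f) r g = hcVal φ ρR ρW f r g := by rw [h1]
  rw [hcVal_ρ, inv_inv, mul_inv_cancel] at h2
  exact h2.symm

/-- `ev₁ ∘ f` is `D`-equivariant for an invariant `f` of `Hom(R, Coind W)` -/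
theorem evPost_mem_invariants {f : homCoind φ ρR ρW}
    (hf : f ∈ (homCoind φ ρR ρW).ρ.invariants) :
    evPost φ ρR ρW f ∈ (hm (ρR.comp φ) ρW).ρ.invariants := by
  intro d
  rw [← evPost_comm, hf]

/-- **(FR)** Frobenius reciprocity `Hom_D(R, W) ≃ Hom_G(R, Coind W)`,
`c0 ↦ (r ↦ g ↦ c0 (g r))`, with inverse `f ↦ ev₁ ∘ f`. -/
def fr : (hm (ρR.comp φ) ρW).ρ.invariants ≃ₗ[ℤ] (homCoind φ ρR ρW).ρ.invariants where
  toFun c0 := ⟨frFun φ ρR ρW c0.1
      (fun d r => ((mem_hm_invariants_iff (ρR.comp φ) ρW c0.1).1 c0.2) d r),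
    frFun_mem_invariants φ ρR ρW c0.1 _⟩
  invFun f := ⟨evPost φ ρR ρW f.1, evPost_mem_invariants φ ρR ρW f.2⟩
  map_add' c0 c0' := by
    apply Subtype.ext
    apply hc_ext
    intro r g
    rfl
  map_smul' a c0 := by
    apply Subtype.ext
    apply hc_ext
    intro r g
    rfl
  left_inv c0 := by
    apply Subtype.ext
    exact evPost_frFun φ ρR ρW c0.1
      (fun d r => ((mem_hm_invariants_iff (ρR.comp φ) ρW c0.1).1 c0.2) d r)
  right_inv f := by
    apply Subtype.ext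
    apply hc_ext
    intro r g
    have h1 : hcVal φ ρR ρW (frFun φ ρR ρW (evPost φ ρR ρW f.1)
        (fun d r => ((mem_hm_invariants_iff (ρR.comp φ) ρW (evPost φ ρR ρW f.1)).1
          (evPost_mem_invariants φ ρR ρW f.2)) d r)) r g = hcVal φ ρR ρW f.1 r g := by
      rw [hcVal_frFun, evPost_apply, ← hcVal_of_mem_invariants φ ρR ρW f.2]
    exact h1

theorem fr_apply (c0 : (hm (ρR.comp φ) ρW).ρ.invariants) (r : R) (g : G) :
    hcVal φ ρR ρW (fr φ ρR ρW c0).1 r g = (c0.1 : R →ₗ[ℤ] W) (ρR g r) := rfl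

theorem fr_symm_apply (f : (homCoind φ ρR ρW).ρ.invariants) :
    ((fr φ ρR ρW).symm f).1 = evPost φ ρR ρW f.1 := rfl

theorem evPost_fr (c0 : (hm (ρR.comp φ) ρW).ρ.invariants) :
    evPost φ ρR ρW (fr φ ρR ρW c0).1 = c0.1 :=
  congrArg Subtype.val ((fr φ ρR ρW).symm_apply_apply c0)

end H24G

end
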