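import Mathlib
import Fermat.Agent.CFT2.D3.Shapiro_helper12

/-!
# W2-C (S55), block E (helper12): abstract finite Shapiro lemma in "coinduced-like" form

`M : Rep ℤ G`, a family `φ q : D q →* G`, `W q : Rep ℤ (D q)`, morphisms
`f q : Res_{φ q} M ⟶ W q` such that `a ↦ (q, x) ↦ f_q (x a)` identifies `M` with
`∏_q Coind_{φ q} (W q)` (`IsCoindLike`).  Then a class of `H¹(G, M)` (resp. `H²(G, M)`, `φ q`
injective) all of whose images in `H^i(D q, W q)` vanish is zero.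
-/

set_option autoImplicit false
set_option linter.style.haveILetI false
set_option linter.unusedSectionVars false
set_option linter.unusedVariables false

noncomputable section

namespace H12SA

open groupCohomology CategoryTheory

variable {G : Type} [Group G] (M : Rep.{0} ℤ G) {Q : Type} {D : Q → Type} [∀ q, Group (D q)]
  (φ : ∀ q, D q →* G) (W : ∀ q, Rep.{0} ℤ (D q)) (f : ∀ q, Rep.res (φ q) M ⟶ W q)

/-- `M → ∏_q Coind_{φ_q} W_q`, `a ↦ (x ↦ f_q (x a))`, is bijective -/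
def IsCoindLike : Prop :=
  (∀ a : M, (∀ q (x : G), (f q).hom (M.ρ x a) = 0) → a = 0) ∧
  (∀ Φ : ∀ q, G → W q, (∀ q d g, Φ q (φ q d * g) = (W q).ρ d (Φ q g)) →
    ∃ a : M, ∀ q x, (f q).hom (M.ρ x a) = Φ q x)

variable {M φ W}

/-- the evaluation `E q x a = f_q (x a)` -/
def ev (q : Q) (x : G) (a : M) : W q := (f q).hom (M.ρ x a)

theorem ev_ρ (q : Q) (x γ : G) (a : M) : ev f q x (M.ρ γ a) = ev f q (x * γ) a := by
  show (f q).hom (M.ρ x (M.ρ γ a)) = (f q).hom (M.ρ (x * γ) a)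
  rw [map_mul]; rfl

theorem ev_equiv (q : Q) (d : D q) (g : G) (a : M) :
    ev f q (φ q d * g) a = (W q).ρ d (ev f q g a) := by
  show (f q).hom (M.ρ (φ q d * g) a) = (W q).ρ d ((f q).hom (M.ρ g a))
  rw [map_mul]
  exact Rep.hom_comm_apply (f q) d (M.ρ g a)

theorem ev_add (q : Q) (x : G) (a b : M) : ev f q x (a + b) = ev f q x a + ev f q x b := by
  show (f q).hom (M.ρ x (a + b)) = _
  rw [map_add, map_add]; rfl

theorem ev_sub (q : Q) (x : G) (a b : M) : ev f q x (a - b) = ev f q x a - ev f q x b := by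
  show (f q).hom (M.ρ x (a - b)) = _
  rw [map_sub, map_sub]; rfl

theorem ev_one (q : Q) (a : M) : ev f q 1 a = (f q).hom a := by
  show (f q).hom (M.ρ 1 a) = _
  rw [map_one]; rfl

theorem ext_of_ev (h : IsCoindLike M φ W f) {a b : M} (hab : ∀ q x, ev f q x a = ev f q x b) :
    a = b := by
  rw [← sub_eq_zero]
  refine h.1 _ fun q x => ?_
  have := ev_sub f q x a b
  rw [hab q x, sub_self] at this
  exact this

/-! ### degree 1 -/

theorem sh1_cocycle (h : IsCoindLike M φ W f) {c : G → M} (hc : c ∈ cocycles₁ M)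
    (hq : ∀ q, (fun d : D q => (f q).hom (c (φ q d))) ∈ coboundaries₁ (W q)) :
    c ∈ coboundaries₁ M := by
  have hc' := (mem_cocycles₁_iff c).1 hc
  choose w hw using hq
  have hw' : ∀ q (d : D q), ev f q 1 (c (φ q d)) = (W q).ρ d (w q) - w q := fun q d => by
    rw [ev_one]; exact (congrFun (hw q) d).symm
  have hcoc : ∀ q (x g : G), ev f q 1 (c (x * g)) = ev f q x (c g) + ev f q 1 (c x) := by
    intro q x g
    rw [hc', ev_add, ev_ρ, one_mul]
  obtain ⟨a, ha⟩ := h.2 (fun q x => ev f q 1 (c x) + w q) (fun q d g => by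
    show ev f q 1 (c (φ q d * g)) + w q = (W q).ρ d (ev f q 1 (c g) + w q)
    rw [hcoc, hw', map_add, ← ev_equiv, mul_one]
    abel)
  refine ⟨a, ?_⟩
  funext g
  apply ext_of_ev f h
  intro q x
  show ev f q x (M.ρ g a - a) = ev f q x (c g)
  rw [ev_sub, ev_ρ]
  show (f q).hom (M.ρ (x * g) a) - (f q).hom (M.ρ x a) = _
  rw [ha, ha]
  show ev f q 1 (c (x * g)) + w q - (ev f q 1 (c x) + w q) = _
  rw [hcoc]
  abel

/-- abstract Shapiro, degree 1 (implicit arguments) -/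
theorem sh1_abs' (h : IsCoindLike M φ W f) (y : H1 M)
    (hy : ∀ q, map (φ q) (f q) 1 y = 0) : y = 0 := by
  induction y using H1_induction_on with
  | h c =>
    rw [H1π_eq_zero_iff]
    refine sh1_cocycle f h c.2 fun q => ?_
    have := hy q
    rw [H1π_comp_map_apply, H1π_eq_zero_iff] at this
    exact this

/-! ### degree 2 -/

/-- the homogeneous form of a 2-cochain, evaluated through `f q` -/
def hm₂ (c : G × G → M) (q : Q) (a b e : G) : W q := ev f q a (c (a⁻¹ * b, b⁻¹ * e))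

theorem hm₂_cocycle {c : G × G → M} (hc : c ∈ cocycles₂ M) (q : Q) (a b e k : G) :
    hm₂ f c q b e k + hm₂ f c q a b k = hm₂ f c q a e k + hm₂ f c q a b e := by
  have h1 := (mem_cocycles₂_iff c).1 hc (a⁻¹ * b) (b⁻¹ * e) (e⁻¹ * k)
  have e1 : a⁻¹ * b * (b⁻¹ * e) = a⁻¹ * e := by group
  have e2 : b⁻¹ * e * (e⁻¹ * k) = b⁻¹ * k := by group
  have e3 : a * (a⁻¹ * b) = b := by group
  rw [e1, e2] at h1
  have h2 := congrArg (ev f q a) h1
  rw [ev_add, ev_add, ev_ρ, e3] at h2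
  simp only [hm₂]
  rw [h2]

theorem hm₂_equiv (c : G × G → M) (q : Q) (d : D q) (a b e : G) :
    hm₂ f c q (φ q d * a) (φ q d * b) (φ q d * e) = (W q).ρ d (hm₂ f c q a b e) := by
  simp only [hm₂]
  have e1 : (φ q d * a)⁻¹ * (φ q d * b) = a⁻¹ * b := by group
  have e2 : (φ q d * b)⁻¹ * (φ q d * e) = b⁻¹ * e := by group
  rw [e1, e2, ev_equiv]

theorem ev_eq_hm₂ (c : G × G → M) (q : Q) (g h x : G) :
    ev f q x (c (g, h)) = hm₂ f c q x (x * g) (x * g * h) := by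
  simp only [hm₂]
  have e1 : x⁻¹ * (x * g) = g := by group
  have e2 : (x * g)⁻¹ * (x * g * h) = h := by group
  rw [e1, e2]

theorem sh2_cocycle (h : IsCoindLike M φ W f) (hφ : ∀ q, Function.Injective (φ q))
    {c : G × G → M} (hc : c ∈ cocycles₂ M)
    (hq : ∀ q, (fun p : D q × D q => (f q).hom (c (φ q p.1, φ q p.2))) ∈ coboundaries₂ (W q)) :
    c ∈ coboundaries₂ M := by
  choose β hβ using hq
  have hβ' : ∀ q (d d' : D q), ev f q 1 (c (φ q d, φ q d')) =
      (W q).ρ d (β q d') - β q (d * d') + β q d := fun q d d' => by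
    rw [ev_one]; exact (congrFun (hβ q) (d, d')).symm
  choose δ hδ using fun q => H12SH.exists_retraction (φ q) (hφ q)
  have hδ1 : ∀ q (d : D q) (g : G), δ q (φ q d * g) = d * δ q g := fun q => (hδ q).1
  -- homogeneous data
  let y : ∀ q, G → G := fun q x => φ q (δ q x)
  let B : ∀ q, G → G → W q := fun q a b => (W q).ρ (δ q a) (β q ((δ q a)⁻¹ * δ q b))
  have hy : ∀ q (d : D q) (x : G), y q (φ q d * x) = φ q d * y q x := fun q d x => by
    show φ q (δ q (φ q d * x)) = φ q d * φ q (δ q x)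
    rw [hδ1, map_mul]
  have hBeq : ∀ q (d : D q) (a b : G), B q (φ q d * a) (φ q d * b) = (W q).ρ d (B q a b) :=
    fun q d a b => by
    show (W q).ρ (δ q (φ q d * a)) (β q ((δ q (φ q d * a))⁻¹ * δ q (φ q d * b))) =
      (W q).ρ d ((W q).ρ (δ q a) (β q ((δ q a)⁻¹ * δ q b)))
    rw [hδ1, hδ1, map_mul]
    have e : (d * δ q a)⁻¹ * (d * δ q b) = (δ q a)⁻¹ * δ q b := by group
    rw [e]; rfl
  have hB : ∀ q a b e, hm₂ f c q (y q a) (y q b) (y q e) = B q b e - B q a e + B q a b := by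
    intro q a b e
    show ev f q (φ q (δ q a)) (c ((φ q (δ q a))⁻¹ * φ q (δ q b),
      (φ q (δ q b))⁻¹ * φ q (δ q e))) = _
    have e1 : (φ q (δ q a))⁻¹ * φ q (δ q b) = φ q ((δ q a)⁻¹ * δ q b) := by
      rw [map_mul, map_inv]
    have e2 : (φ q (δ q b))⁻¹ * φ q (δ q e) = φ q ((δ q b)⁻¹ * δ q e) := by
      rw [map_mul, map_inv]
    have e3 : φ q (δ q a) = φ q (δ q a) * 1 := (mul_one _).symm
    rw [e1, e2, e3, ev_equiv, hβ', map_add, map_sub]
    show (W q).ρ (δ q a) ((W q).ρ ((δ q a)⁻¹ * δ q b) (β q ((δ q b)⁻¹ * δ q e))) -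
      (W q).ρ (δ q a) (β q ((δ q a)⁻¹ * δ q b * ((δ q b)⁻¹ * δ q e))) +
      (W q).ρ (δ q a) (β q ((δ q a)⁻¹ * δ q b)) =
      (W q).ρ (δ q b) (β q ((δ q b)⁻¹ * δ q e)) - (W q).ρ (δ q a) (β q ((δ q a)⁻¹ * δ q e)) +
        (W q).ρ (δ q a) (β q ((δ q a)⁻¹ * δ q b))
    have e4 : (δ q a)⁻¹ * δ q b * ((δ q b)⁻¹ * δ q e) = (δ q a)⁻¹ * δ q e := by group
    have e5 : (W q).ρ (δ q a) ((W q).ρ ((δ q a)⁻¹ * δ q b) (β q ((δ q b)⁻¹ * δ q e))) =
        (W q).ρ (δ q b) (β q ((δ q b)⁻¹ * δ q e)) := by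
      have : (W q).ρ (δ q b) = (W q).ρ (δ q a) * (W q).ρ ((δ q a)⁻¹ * δ q b) := by
        rw [← map_mul, mul_inv_cancel_left]
      rw [this]; rfl
    rw [e4, e5]
  -- the 1-cochain
  let Φ : ∀ q, G → G → W q := fun q a b =>
    -hm₂ f c q a (y q a) (y q b) + hm₂ f c q a b (y q b) + B q a b
  have hΦeq : ∀ q (d : D q) (a b : G), Φ q (φ q d * a) (φ q d * b) = (W q).ρ d (Φ q a b) :=
    fun q d a b => by
    show -hm₂ f c q (φ q d * a) (y q (φ q d * a)) (y q (φ q d * b)) +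
      hm₂ f c q (φ q d * a) (φ q d * b) (y q (φ q d * b)) + B q (φ q d * a) (φ q d * b) =
      (W q).ρ d (-hm₂ f c q a (y q a) (y q b) + hm₂ f c q a b (y q b) + B q a b)
    rw [hy, hy, hm₂_equiv, hm₂_equiv, hBeq, map_add, map_add, map_neg]
  have hglue : ∀ g : G, ∃ a : M, ∀ q x, ev f q x a = Φ q x (x * g) := fun g =>
    h.2 (fun q x => Φ q x (x * g)) (fun q d x => by
      show Φ q (φ q d * x) (φ q d * x * g) = (W q).ρ d (Φ q x (x * g))
      rw [mul_assoc, hΦeq])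
  choose ψ hψ using hglue
  refine ⟨ψ, ?_⟩
  funext p
  obtain ⟨g, k⟩ := p
  apply ext_of_ev f h
  intro q x
  show ev f q x (M.ρ g (ψ k) - ψ (g * k) + ψ g) = ev f q x (c (g, k))
  have hadd : ev f q x (M.ρ g (ψ k) - ψ (g * k) + ψ g) =
      ev f q x (M.ρ g (ψ k)) - ev f q x (ψ (g * k)) + ev f q x (ψ g) := by
    rw [ev_add, ev_sub]
  rw [hadd, ev_ρ, hψ, hψ, hψ, ev_eq_hm₂, ← mul_assoc]
  exact (H12SH.prism (hm₂ f c q) (y q) (B q) (hm₂_cocycle f hc q) (hB q)
    x (x * g) (x * g * k)).symm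

/-- abstract Shapiro, degree 2 (implicit arguments) -/
theorem sh2_abs' (h : IsCoindLike M φ W f) (hφ : ∀ q, Function.Injective (φ q)) (y : H2 M)
    (hy : ∀ q, map (φ q) (f q) 2 y = 0) : y = 0 := by
  induction y using H2_induction_on with
  | h c =>
    rw [H2π_eq_zero_iff]
    refine sh2_cocycle f h hφ c.2 fun q => ?_
    have := hy q
    rw [H2π_comp_map_apply, H2π_eq_zero_iff] at this
    exact this

variable (M φ W)

/-- **abstract Shapiro, degree 1**: a class of `H¹(G, M)` which dies in all `H¹(D q, W q)` is `0` -/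
theorem sh1_abs (h : IsCoindLike M φ W f) (y : H1 M)
    (hy : ∀ q, map (φ q) (f q) 1 y = 0) : y = 0 := sh1_abs' f h y hy

/-- **abstract Shapiro, degree 2**: a class of `H²(G, M)` which dies in all `H²(D q, W q)` is `0`
(`φ q` injective) -/
theorem sh2_abs (h : IsCoindLike M φ W f) (hφ : ∀ q, Function.Injective (φ q)) (y : H2 M)
    (hy : ∀ q, map (φ q) (f q) 2 y = 0) : y = 0 := sh2_abs' f h hφ y hy

end H12SA
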