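/-
W2-C (S55) block E wiring (helper15): the target `TH90loc S` (local Hilbert 90 for
`Hom(R0|, X q)` in `lc` form), from `H15LH.h90loc_comp`.
-/
import Mathlib
import Fermat.Agent.CFT2.E.Targets
import Fermat.Agent.CFT2.E.LocH90_helper15

set_option autoImplicit false
set_option linter.style.haveILetI false
set_option linter.unusedVariables false

noncomputable section

namespace H15W

open H15D H14PT H15F ExtCitation H24G groupCohomology

/-- **(H90-loc)** -/
theorem tH90loc (S : Finset Nat.Primes) : TH90loc S :=
  fun ρN hlt q => H15LH.h90loc_comp S q.1 ρN hlt

end H15W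

end
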