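/-
W2-C (S55) block E, wiring slice W-shR, degree 1 (helper15):
`H15SH.tSh1 S : H14PT.TSh1 S` and `H15SH.tH90I S : H14PT.TH90I S`.
Direct Shapiro argument in level-constant cochains (`H15SH.LCCoind.sh1`) for the coinduced-like
module `Hom(R, I)` (`lcCoind_I` + projection formula `LCCoind.hom`); `TH90I` uses in addition the
local Hilbert 90 (`H15LH.h90loc_comp`).
-/
import Mathlib
import Fermat.Agent.CFT2.E.ShIdele_helper15
import Fermat.Agent.CFT2.E.LocH90_helper15

set_option autoImplicit false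
set_option linter.style.haveILetI false
set_option linter.unusedVariables false
set_option linter.unusedSectionVars false

noncomputable section

namespace H15SH

open H15D H15F H14PT ExtCitation H24G groupCohomology

local notation "Qb" => AlgebraicClosure ℚ
local notation "GQ" => (AlgebraicClosure ℚ ≃ₐ[ℚ] AlgebraicClosure ℚ)

/-- primes are prime. -/
local instance factPrimeOfPrimesSR (q : Nat.Primes) : Fact (q : ℕ).Prime := ⟨q.2⟩

variable (S : Finset Nat.Primes)

/-- **Shapiro injectivity in degree 1 for `Hom(R, I)`**, `R` level-trivial -/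
theorem sh1_gen {R : Type} [AddCommGroup R] (ρR : Representation ℤ GQ R)
    (hR : IsLevelTriv ρR (levelsS S)) (t : lcH1 (levelsS S) (hm ρR (ρI S)))
    (ht : ∀ q : S, (prHq S ρR q).H1 t = 0) : t = 0 := by
  obtain ⟨c, rfl⟩ := lcH1π_surjective t
  have hcoc := (mem_cocycles₁_iff (c : GQ → hm ρR (ρI S))).1 c.2.1
  have hlc : IsLC₁ (levelsS S) (c : GQ → hm ρR (ρI S)) := c.2.2
  have hloc : ∀ q : S, ∃ m : R →ₗ[ℤ] Additive (xbar ((q : Nat.Primes) : ℕ)),
      ∀ τ : Hq q.1, postL (prL' S q) ((c : GQ → hm ρR (ρI S)) (primeLocalToGlobal q.1 τ)) =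
        Representation.linHom (ρR.comp (primeLocalToGlobal q.1)) (ρX q.1) τ m - m := by
    intro q
    have h := ht q
    rw [PP.H1_π, lcH1π_eq_zero_iff] at h
    obtain ⟨m, hmq⟩ := h
    exact ⟨m, fun τ => (congrFun hmq τ).symm⟩
  choose m hmq using hloc
  obtain ⟨F, hF⟩ := ((lcCoind_I S).hom ρR hR).sh1 (c : GQ → hm ρR (ρI S)) hcoc hlc m hmq
  rw [lcH1π_eq_zero_iff]
  exact ⟨F, funext fun g => (hF g).symm⟩

/-- **(SH1)** -/
theorem tSh1 : TSh1 S := fun ρN hlt t ht => sh1_gen S (ρR1 ρN) (isLevelTriv_R1 hlt) t ht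

/-- **(H90-I)** -/
theorem tH90I : TH90I S := fun ρN hlt s =>
  sh1_gen S (ρR0 ρN) (isLevelTriv_R0 hlt) s
    (fun q => H15LH.h90loc_comp S q.1 ρN hlt _)

end H15SH

end
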